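import Mathlib

/-!
S13 (helper16): abstract linear algebra for a two-dimensional `𝔽_p`-representation with a stable
line `N₀`.

* `H₁`-type conclusion: `σ` fixes `N₀` pointwise;
* `H₂`-type conclusion: `σ x - x ∈ N₀` for all `x`.
-/

set_option autoImplicit false

namespace Fermat.Agent.S13.H16

open Module

section LinAlg

variable {p : ℕ} {V : Type*} [AddCommGroup V] [Module (ZMod p) V]
  {G : Type*} [Group G] [DistribMulAction G V]

/-- a group action by additive maps commutes with the `ZMod p`-scalars -/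
lemma smul_zmod_smul (σ : G) (c : ZMod p) (x : V) : σ • (c • x) = c • (σ • x) := by
  have h : ∀ y : V, c • y = (c.cast : ℤ) • y := fun y => by
    conv_lhs => rw [← ZMod.intCast_zmod_cast c]
    exact Int.cast_smul_eq_zsmul (ZMod p) _ y
  rw [h x, h (σ • x)]
  exact map_zsmul (DistribSMul.toAddMonoidHom V σ) _ x

lemma smul_sub' (σ : G) (x y : V) : σ • (x - y) = σ • x - σ • y :=
  map_sub (DistribSMul.toAddMonoidHom V σ) x y

variable [Fact p.Prime] [Finite V]

/-- a proper nonzero subspace of a space with at most `p²` elements is a line in a plane -/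
lemma finrank_facts (hcard : Nat.card V ≤ p ^ 2) (N₀ : Submodule (ZMod p) V) (h0 : N₀ ≠ ⊥)
    (h1 : N₀ ≠ ⊤) : finrank (ZMod p) N₀ = 1 ∧ finrank (ZMod p) V = 2 := by
  have hp : 1 < p := (Fact.out : p.Prime).one_lt
  have hV : finrank (ZMod p) V ≤ 2 := by
    rw [← FiniteField.pow_finrank_eq_natCard p V] at hcard
    exact (Nat.pow_le_pow_iff_right hp).mp hcard
  have hpos : 0 < finrank (ZMod p) N₀ := by
    rw [Module.finrank_pos_iff]
    exact Submodule.nontrivial_iff_ne_bot.mpr h0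
  have hlt : finrank (ZMod p) N₀ < finrank (ZMod p) V := Submodule.finrank_lt h1
  omega

/-- a generator of a line -/
lemma exists_generator (N₀ : Submodule (ZMod p) V) (h : finrank (ZMod p) N₀ = 1) :
    ∃ v ∈ N₀, v ≠ 0 ∧ ∀ w ∈ N₀, ∃ c : ZMod p, c • v = w := by
  obtain ⟨⟨v, hv⟩, hv0, hvs⟩ := finrank_eq_one_iff'.mp h
  refine ⟨v, hv, fun h => hv0 (Subtype.ext h), fun w hw => ?_⟩
  obtain ⟨c, hc⟩ := hvs ⟨w, hw⟩
  exact ⟨c, congrArg Subtype.val hc⟩

/-- a unipotent element fixes the stable line pointwise -/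
lemma fixes_line_of_unipotent (hcard : Nat.card V ≤ p ^ 2) (N₀ : Submodule (ZMod p) V)
    (h0 : N₀ ≠ ⊥) (h1 : N₀ ≠ ⊤) (σ : G) (hst : ∀ x ∈ N₀, σ • x ∈ N₀)
    (hu : ∀ x : V, σ • (σ • x - x) = σ • x - x) : ∀ x ∈ N₀, σ • x = x := by
  obtain ⟨hN, -⟩ := finrank_facts hcard N₀ h0 h1
  obtain ⟨v, hv, hv0, hgen⟩ := exists_generator N₀ hN
  obtain ⟨c, hc⟩ := hgen (σ • v) (hst v hv)
  have h2 := hu v
  rw [← hc, smul_sub', smul_zmod_smul, ← hc] at h2
  have h3 : ((c - 1) * (c - 1)) • v = 0 := by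
    have : ((c - 1) * (c - 1)) • v = c • c • v - c • v - (c • v - v) := by
      rw [mul_smul, sub_smul, sub_smul, one_smul, one_smul, smul_sub]
    rw [this, h2, sub_self]
  have hc1 : c = 1 := by
    rcases smul_eq_zero.mp h3 with h | h
    · rcases mul_self_eq_zero.mp h with h
      exact sub_eq_zero.mp h
    · exact absurd h hv0
  have hσv : σ • v = v := by rw [← hc, hc1, one_smul]
  intro x hx
  obtain ⟨d, rfl⟩ := hgen x hx
  rw [smul_zmod_smul, hσv]

/-- a unipotent element acts trivially on the quotient by the stable line -/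
lemma sub_mem_line_of_unipotent (hcard : Nat.card V ≤ p ^ 2) (N₀ : Submodule (ZMod p) V)
    (h0 : N₀ ≠ ⊥) (h1 : N₀ ≠ ⊤) (σ : G) (hst : ∀ x ∈ N₀, σ • x ∈ N₀)
    (hu : ∀ x : V, σ • (σ • x - x) = σ • x - x) : ∀ x : V, σ • x - x ∈ N₀ := by
  have hfix := fixes_line_of_unipotent hcard N₀ h0 h1 σ hst hu
  obtain ⟨hN, hV⟩ := finrank_facts hcard N₀ h0 h1
  intro x
  by_contra hy
  set y := σ • x - x with hy_def
  have hσy : σ • y = y := hu x
  -- `N₀ ⊔ span {y} = ⊤`
  have hlt : N₀ < N₀ ⊔ Submodule.span (ZMod p) {y} := by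
    refine lt_of_le_of_ne le_sup_left fun h => hy ?_
    rw [h]
    exact Submodule.mem_sup_right (Submodule.mem_span_singleton_self y)
  have htop : N₀ ⊔ Submodule.span (ZMod p) {y} = ⊤ := by
    apply Submodule.eq_top_of_finrank_eq
    have h2 := Submodule.finrank_lt_finrank_of_lt hlt
    have h3 := Submodule.finrank_le (N₀ ⊔ Submodule.span (ZMod p) {y})
    omega
  -- hence `σ` is the identity
  have hid : ∀ z : V, σ • z = z := by
    intro z
    have hz : z ∈ N₀ ⊔ Submodule.span (ZMod p) {y} := by rw [htop]; trivial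
    obtain ⟨n, hn, m, hm, rfl⟩ := Submodule.mem_sup.mp hz
    obtain ⟨d, rfl⟩ := Submodule.mem_span_singleton.mp hm
    rw [smul_add, hfix n hn, smul_zmod_smul, hσy]
  apply hy
  rw [hy_def, hid x, sub_self]
  exact N₀.zero_mem

/-- If `(σ - 1) V ⊆ L` for a proper subspace `L`, then either `σ` fixes `N₀` pointwise (for all
such `σ`) or `(σ - 1) V ⊆ N₀` (for all such `σ`). -/
lemma fixes_or_sub_mem (hcard : Nat.card V ≤ p ^ 2) (N₀ : Submodule (ZMod p) V)
    (h0 : N₀ ≠ ⊥) (h1 : N₀ ≠ ⊤) (L : Submodule (ZMod p) V) (hL : L ≠ ⊤) (S : Set G)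
    (hst : ∀ σ ∈ S, ∀ x ∈ N₀, σ • x ∈ N₀) (hS : ∀ σ ∈ S, ∀ x : V, σ • x - x ∈ L) :
    (∀ σ ∈ S, ∀ x ∈ N₀, σ • x = x) ∨ (∀ σ ∈ S, ∀ x : V, σ • x - x ∈ N₀) := by
  obtain ⟨hN, hV⟩ := finrank_facts hcard N₀ h0 h1
  by_cases hLN : L = N₀
  · right
    intro σ hσ x
    rw [← hLN]; exact hS σ hσ x
  · left
    have hLrank : finrank (ZMod p) L ≤ 1 := by
      have := Submodule.finrank_lt hL
      omega
    have hbot : L ⊓ N₀ = ⊥ := by
      by_contra hne
      have hpos : 0 < finrank (ZMod p) (L ⊓ N₀ : Submodule (ZMod p) V) := by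
        rw [Module.finrank_pos_iff]
        exact Submodule.nontrivial_iff_ne_bot.mpr hne
      have e1 : L ⊓ N₀ = N₀ :=
        Submodule.eq_of_le_of_finrank_le inf_le_right (by omega)
      have hle : N₀ ≤ L := by rw [← e1]; exact inf_le_left
      exact hLN (Submodule.eq_of_le_of_finrank_le hle (by omega)).symm
    intro σ hσ x hx
    have hmem : σ • x - x ∈ L ⊓ N₀ :=
      ⟨hS σ hσ x, N₀.sub_mem (hst σ hσ x hx) hx⟩
    rw [hbot, Submodule.mem_bot] at hmem
    exact sub_eq_zero.mp hmem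

end LinAlg

end Fermat.Agent.S13.H16
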