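import Fermat.Agent.S13.Defs
import Fermat.Agent.S13.LinAlg_helper16

/-!
S13 assembly (helper16).

`s13_of` proves S13 (`¬ irreducible → cofixed line` for the mod `p` representation of the Frey
curve) from the top-level interface statements `StmtT1 … StmtE`, taken as explicit hypotheses:

* `StmtT1`, `StmtT2` : `E[p]` is nontrivial, finite, with at most `p²` elements;
* `StmtG`  : a normal subgroup of `Gal(ℚ̄/ℚ)` containing an open subgroup and, for every prime `q`,
  the inertia group of some place over `q`, is everything (Minkowski);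
* `StmtL2a` : inertia at `2` is unipotent on `E[p]`;
* `StmtL2b` : the Frey curve has no rational point of order `p`;
* `StmtLp`  : at a place over `p`, `(σ - 1) E[p]` lies in a proper subspace for `σ` in inertia;
* `StmtLq`  : S05 (unramified at `q ≠ 2, p`);
* `StmtE`   : every prime has a place of `ℚ̄` above it.
-/

set_option autoImplicit false

namespace Fermat.Agent.S13

open WeierstrassCurve WeierstrassCurve.Affine WeierstrassCurve.Affine.Point Module

local notation "Qb" => AlgebraicClosure ℚ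
local notation "GalQ" => (AlgebraicClosure ℚ ≃ₐ[ℚ] AlgebraicClosure ℚ)

/-- (T1) -/
abbrev StmtT1 : Prop := ∀ P : FreyPackage, Nontrivial (V P)

/-- (T2) -/
abbrev StmtT2 : Prop := ∀ P : FreyPackage, Finite (V P) ∧ Nat.card (V P) ≤ P.p ^ 2

/-- (G) -/
abbrev StmtG : Prop :=
  ∀ H : Subgroup GalQ, H.Normal →
    (∃ F : IntermediateField ℚ Qb, FiniteDimensional ℚ F ∧ F.fixingSubgroup ≤ H) →
    (∀ q : ℕ, q.Prime → ∃ A : ValuationSubring Qb, A.LiesOverPrime q ∧
      A.inertiaSubgroupIn ℚ ≤ H) → H = ⊤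

/-- (L2a) -/
abbrev StmtL2a : Prop :=
  ∀ (P : FreyPackage) (A : ValuationSubring Qb), A.LiesOverPrime 2 →
    ∀ σ ∈ A.inertiaSubgroupIn ℚ, ∀ x : V P, σ • (σ • x - x) = σ • x - x

/-- (L2b) -/
abbrev StmtL2b : Prop :=
  ∀ (P : FreyPackage) (x : V P), (∀ σ : GalQ, σ • x = x) → x = 0

/-- (Lp) -/
abbrev StmtLp : Prop :=
  ∀ (P : FreyPackage) (N₀ : Submodule (ZMod P.p) (V P)), IsGaloisStable ℚ N₀ → N₀ ≠ ⊥ → N₀ ≠ ⊤ →
    ∀ A : ValuationSubring Qb, A.LiesOverPrime P.p →
      ∃ L : Submodule (ZMod P.p) (V P), L ≠ ⊤ ∧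
        ∀ σ ∈ A.inertiaSubgroupIn ℚ, ∀ x : V P, σ • x - x ∈ L

/-- (Lq) = S05 -/
abbrev StmtLq : Prop :=
  ∀ (P : FreyPackage) {q : ℕ}, q.Prime → q ≠ 2 → q ≠ P.p → P.GaloisRepUnramifiedAt q

/-- (E) -/
abbrev StmtE : Prop :=
  ∀ q : ℕ, q.Prime → ∃ A : ValuationSubring Qb, A.LiesOverPrime q

namespace H16

/-- every point is fixed by the fixing subgroup of a finite extension -/
lemma exists_finite_fixing_point {W' : WeierstrassCurve ℚ} (x : (W'⁄(AlgebraicClosure ℚ)).Point) :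
    ∃ F : IntermediateField ℚ Qb, FiniteDimensional ℚ F ∧
      ∀ σ ∈ F.fixingSubgroup, σ • x = x := by
  rcases x with _ | ⟨x₀, y₀, h⟩
  · exact ⟨⊥, inferInstance, fun σ _ => rfl⟩
  · have hint : ∀ z : Qb, IsIntegral ℚ z := fun z => by
      have h : (DivisionRing.toRatAlgebra : Algebra ℚ (AlgebraicClosure ℚ)) =
          AlgebraicClosure.instAlgebra ℚ := Subsingleton.elim _ _
      have hz : @IsIntegral ℚ Qb _ _ (AlgebraicClosure.instAlgebra ℚ) z :=
        (AlgebraicClosure.isAlgebraic ℚ).isAlgebraic z |>.isIntegral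
      convert hz
    refine ⟨IntermediateField.adjoin ℚ {x₀, y₀}, ?_, fun σ hσ => ?_⟩
    · exact IntermediateField.finiteDimensional_adjoin fun z _ => hint z
    · rw [IntermediateField.mem_fixingSubgroup_iff] at hσ
      have hx : σ x₀ = x₀ := hσ x₀ (IntermediateField.subset_adjoin ℚ _ (by simp))
      have hy : σ y₀ = y₀ := hσ y₀ (IntermediateField.subset_adjoin ℚ _ (by simp))
      rw [algEquiv_smul_def, Point.map_some]
      congr 1

/-- the whole (finite) torsion module is fixed by the fixing subgroup of a finite extension -/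
lemma exists_finite_fixing (P : FreyPackage) [Finite (V P)] :
    ∃ F : IntermediateField ℚ Qb, FiniteDimensional ℚ F ∧
      ∀ σ ∈ F.fixingSubgroup, ∀ x : V P, σ • x = x := by
  choose F hF hfix using fun x : V P => exists_finite_fixing_point (W' := P.freyCurve) x.1
  refine ⟨⨆ x, F x, IntermediateField.finiteDimensional_iSup_of_finite, fun σ hσ x => ?_⟩
  have hσx : σ ∈ (F x).fixingSubgroup := by
    rw [IntermediateField.mem_fixingSubgroup_iff] at hσ ⊢
    exact fun z hz => hσ z ((le_iSup F x) hz)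
  exact Subtype.ext (hfix x σ hσx)

section Subgroups

variable {p : ℕ} {M : Type*} [AddCommGroup M] [Module (ZMod p) M]
  {G : Type*} [Group G] [DistribMulAction G M]

/-- the subgroup fixing `N₀` pointwise -/
def fixLine (N₀ : Submodule (ZMod p) M) : Subgroup G where
  carrier := {σ | ∀ x ∈ N₀, σ • x = x}
  one_mem' := fun x _ => one_smul G x
  mul_mem' := fun {σ τ} hσ hτ x hx => by rw [mul_smul, hτ x hx, hσ x hx]
  inv_mem' := fun {σ} hσ x hx => by
    have := hσ x hx
    rw [inv_smul_eq_iff]; exact this.symm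

/-- the subgroup acting trivially on the quotient by the stable subspace `N₀` -/
def fixQuot (N₀ : Submodule (ZMod p) M) (hst : ∀ σ : G, ∀ x ∈ N₀, σ • x ∈ N₀) : Subgroup G where
  carrier := {σ | ∀ x : M, σ • x - x ∈ N₀}
  one_mem' := fun x => by rw [one_smul, sub_self]; exact N₀.zero_mem
  mul_mem' := fun {σ τ} hσ hτ x => by
    have h : (σ * τ) • x - x = σ • (τ • x - x) + (σ • x - x) := by
      rw [mul_smul, smul_sub']; abel
    rw [h]
    exact N₀.add_mem (hst σ _ (hτ x)) (hσ x)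
  inv_mem' := fun {σ} hσ x => by
    have h : σ⁻¹ • x - x = σ⁻¹ • (-(σ • x - x)) := by
      rw [neg_sub, smul_sub', inv_smul_smul]
    rw [h]
    exact hst σ⁻¹ _ (N₀.neg_mem (hσ x))

lemma fixLine_normal (N₀ : Submodule (ZMod p) M) (hst : ∀ σ : G, ∀ x ∈ N₀, σ • x ∈ N₀) :
    (fixLine (G := G) N₀).Normal := by
  refine ⟨fun σ hσ τ x hx => ?_⟩
  rw [mul_smul, mul_smul, hσ _ (hst τ⁻¹ x hx), smul_inv_smul]

lemma fixQuot_normal (N₀ : Submodule (ZMod p) M) (hst : ∀ σ : G, ∀ x ∈ N₀, σ • x ∈ N₀) :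
    (fixQuot N₀ hst).Normal := by
  refine ⟨fun σ hσ τ x => ?_⟩
  have h : (τ * σ * τ⁻¹) • x - x = τ • (σ • (τ⁻¹ • x) - τ⁻¹ • x) := by
    rw [mul_smul, mul_smul, smul_sub', smul_inv_smul]
  rw [h]
  exact hst τ _ (hσ _)

end Subgroups

end H16

open H16 in
/-- **S13 from the interface statements.** -/
theorem s13_of (hT1 : StmtT1) (hT2 : StmtT2) (hG : StmtG) (hL2a : StmtL2a) (hL2b : StmtL2b)
    (hLp : StmtLp) (hLq : StmtLq) (hE : StmtE) (P : FreyPackage)
    (hred : ¬ GaloisRepIsIrreducible (K := AlgebraicClosure ℚ) ℚ P.freyCurve P.p) :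
    HasGaloisStableCofixedLine (K := AlgebraicClosure ℚ) ℚ P.freyCurve P.p := by
  have : Fact P.p.Prime := ⟨P.pp⟩
  obtain ⟨hfin, hcard⟩ := hT2 P
  have := hfin
  -- a stable line
  obtain ⟨N₀, hst, h0, h1⟩ : ∃ N₀ : Submodule (ZMod P.p) (V P),
      IsGaloisStable ℚ N₀ ∧ N₀ ≠ ⊥ ∧ N₀ ≠ ⊤ := by
    by_contra hcon
    apply hred
    refine ⟨hT1 P, fun N hN => ?_⟩
    by_contra hN'
    rw [not_or] at hN'
    exact hcon ⟨N, hN, hN'.1, hN'.2⟩
  -- open kernel
  obtain ⟨F, hFfin, hFfix⟩ := exists_finite_fixing P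
  -- places
  obtain ⟨Ap, hAp⟩ := hE P.p P.pp
  obtain ⟨L, hL, hLsub⟩ := hLp P N₀ hst h0 h1 Ap hAp
  have hp2 : P.p ≠ 2 := by have := P.hp5; omega
  -- inertia away from `p` lies in both subgroups
  have haway : ∀ q : ℕ, q.Prime → q ≠ P.p → ∃ A : ValuationSubring Qb, A.LiesOverPrime q ∧
      (∀ σ ∈ A.inertiaSubgroupIn ℚ, (∀ x ∈ N₀, σ • x = x) ∧ ∀ x : V P, σ • x - x ∈ N₀) := by
    intro q hq hqp
    obtain ⟨A, hA⟩ := hE q hq
    refine ⟨A, hA, fun σ hσ => ?_⟩
    by_cases hq2 : q = 2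
    · subst hq2
      have hu := hL2a P A hA σ hσ
      exact ⟨fixes_line_of_unipotent hcard N₀ h0 h1 σ (hst σ) hu,
        sub_mem_line_of_unipotent hcard N₀ h0 h1 σ (hst σ) hu⟩
    · have htriv : ∀ x : V P, σ • x = x := hLq P hq hq2 hqp A hA σ hσ
      exact ⟨fun x _ => htriv x, fun x => by rw [htriv x, sub_self]; exact N₀.zero_mem⟩
  rcases fixes_or_sub_mem hcard N₀ h0 h1 L hL (Ap.inertiaSubgroupIn ℚ : Set GalQ)
      (fun σ _ => hst σ) hLsub with hcase | hcase
  · -- inertia at `p` fixes the line: the line consists of rational points, contradiction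
    exfalso
    have htop : fixLine (G := GalQ) N₀ = ⊤ := by
      refine hG _ (fixLine_normal N₀ hst) ⟨F, hFfin, fun σ hσ x _ => hFfix σ hσ x⟩ ?_
      intro q hq
      by_cases hqp : q = P.p
      · subst hqp
        exact ⟨Ap, hAp, fun σ hσ => hcase σ hσ⟩
      · obtain ⟨A, hA, hA'⟩ := haway q hq hqp
        exact ⟨A, hA, fun σ hσ => (hA' σ hσ).1⟩
    obtain ⟨v, hv, hv0⟩ := Submodule.exists_mem_ne_zero_of_ne_bot h0
    refine hv0 (hL2b P v fun σ => ?_)
    have : σ ∈ fixLine (G := GalQ) N₀ := by rw [htop]; trivial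
    exact this v hv
  · -- inertia at `p` acts trivially on the quotient: `N₀` is a cofixed line
    have htop : fixQuot N₀ hst = ⊤ := by
      refine hG _ (fixQuot_normal N₀ hst)
        ⟨F, hFfin, fun σ hσ x => by rw [hFfix σ hσ x, sub_self]; exact N₀.zero_mem⟩ ?_
      intro q hq
      by_cases hqp : q = P.p
      · subst hqp
        exact ⟨Ap, hAp, fun σ hσ => hcase σ hσ⟩
      · obtain ⟨A, hA, hA'⟩ := haway q hq hqp
        exact ⟨A, hA, fun σ hσ => (hA' σ hσ).2⟩
    refine ⟨N₀, hst, h0, h1, fun σ x => ?_⟩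
    have : σ ∈ fixQuot N₀ hst := by rw [htop]; trivial
    exact this x

end Fermat.Agent.S13
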