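import Fermat.Agent.S13.A1p_helper64

/-!
S13 block L2, task E1' (owner: helper18): two integral points with the same nonsingular
reduction differ by a point of the kernel of reduction (split coordinates `u = y - s x`).

The file is self-contained over `Defs2` + `A1p_helper64`: the slope blow-up argument
(the mathematical content of T8') is proved here under the names `H18.x3_of_slope`,
`H18.slope_neg`, `H18.slope_blowup2`, and the point-level statement
`sub_mem_kernel_of_close2` is obtained from it through the collinearity API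
`exists_triple2` (A1'), applied to the triple `(P₁, -P₂, -(P₁ - P₂))`.
-/

namespace Fermat.Agent.S13

open Fermat.Agent.S05 WeierstrassCurve WeierstrassCurve.Affine

namespace H18

variable {K : Type*} [Field K] {v : QVal K} {d b : K}

/-- once the slope has negative valuation, the third point lies in the kernel of reduction -/
lemma x3_of_slope (hI : Integral2 v d b) (T : Triple2 d b) (hx₁ : v.Ge T.x₁ 0)
    (hx₂ : v.Ge T.x₂ 0) (hl : T.l ≠ 0) (hl' : v.w T.l < 0) :
    T.x₃ ≠ 0 ∧ v.w T.x₃ < 0 := by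
  have hx3 : T.x₃ = T.l ^ 2 + (d * T.l - T.x₁ - T.x₂) := by linear_combination T.e₁
  have hlv : v.IsVal T.l (v.w T.l) := QVal.isVal_self hl
  have h1 : v.IsVal (T.l ^ 2) (2 * v.w T.l) := by
    have := hlv.pow 2
    simpa using this
  have h2 : v.Gt (d * T.l - T.x₁ - T.x₂) (2 * v.w T.l) := by
    have hdl : v.Ge (d * T.l) (0 + v.w T.l) := hI.d_int.mul hlv.ge
    have h0 : v.Ge (d * T.l - T.x₁ - T.x₂) (v.w T.l) :=
      ((hdl.mono (by linarith)).sub (hx₁.mono hl'.le)).sub (hx₂.mono hl'.le)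
    exact h0.gt_of_lt (by linarith)
  have h3 := h1.add_gt h2
  rw [← hx3] at h3
  exact ⟨h3.1, by rw [h3.2]; linarith⟩

/-- if `l * t` has valuation `0` and `t` is small, then `l` has negative valuation -/
lemma slope_neg {l t : K} (h : v.IsVal (l * t) 0) (ht : v.Gt t 0) : l ≠ 0 ∧ v.w l < 0 := by
  have hl : l ≠ 0 := fun h0 => h.1 (by simp [h0])
  have ht0 : t ≠ 0 := fun h0 => h.1 (by simp [h0])
  have h1 := h.2
  rw [v.map_mul l t hl ht0] at h1
  have h2 := ht.lt_w ht0
  exact ⟨hl, by linarith⟩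

/-- slope blow-up in split coordinates: if the first two points of a collinear triple are
integral, the second is close to the negative of the first, and the common reduction is a
nonsingular point, then the third point lies in the kernel of reduction.  (No hypothesis
that the triple is nondegenerate is needed: the nonsingularity hypothesis forces the slope
to have negative valuation.) -/
theorem slope_blowup2 (hI : Integral2 v d b) (T : Triple2 d b)
    (hx₁ : v.Ge T.x₁ 0) (hx₂ : v.Ge T.x₂ 0)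
    (hδ : v.Gt (T.x₁ - T.x₂) 0) (hη : v.Gt (T.u₁ + T.u₂ + d * T.x₂) 0)
    (hns : v.IsVal (2 * T.u₁ + d * T.x₁) 0 ∨ v.IsVal (d * T.u₁ - 3 * T.x₁ ^ 2 - b) 0) :
    T.x₃ ≠ 0 ∧ v.w T.x₃ < 0 := by
  suffices h : T.l ≠ 0 ∧ v.w T.l < 0 from x3_of_slope hI T hx₁ hx₂ h.1 h.2
  have hdiff : T.u₁ - T.u₂ = T.l * (T.x₁ - T.x₂) := by
    rw [T.line₁, T.line₂]; ring
  rcases hns with hy | hN
  · -- `2 u₁ + d x₁` is a unit
    have h1 : v.IsVal (T.u₁ - T.u₂) 0 := by
      have : T.u₁ - T.u₂ = (2 * T.u₁ + d * T.x₁)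
          - ((T.u₁ + T.u₂ + d * T.x₂) + d * (T.x₁ - T.x₂)) := by ring
      rw [this]
      refine hy.sub_gt (hη.add ?_)
      simpa using hI.d_int.mul_gt hδ
    rw [hdiff] at h1
    exact slope_neg h1 hδ
  · by_cases hx : T.x₁ = T.x₂
    · -- tangent case
      have huu : T.u₁ = T.u₂ := by rw [T.line₁, T.line₂, hx]
      have h2y : v.Gt (2 * T.u₁ + d * T.x₁) 0 := by
        have : 2 * T.u₁ + d * T.x₁ = T.u₁ + T.u₂ + d * T.x₂ := by rw [← huu, ← hx]; ring
        rw [this]; exact hη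
      have hid : d * T.u₁ - 3 * T.x₁ ^ 2 - b = -(T.l * (2 * T.u₁ + d * T.x₁)) := by
        have e1 := T.e₁
        have e2 := T.e₂
        rw [← hx] at e1 e2
        rw [T.line₁]
        linear_combination (-2 * T.x₁) * e1 + e2
      rw [hid] at hN
      have hN' : v.IsVal (T.l * (2 * T.u₁ + d * T.x₁)) 0 := by simpa using hN.neg
      exact slope_neg hN' h2y
    · -- secant case
      have hx' : T.x₁ - T.x₂ ≠ 0 := sub_ne_zero.mpr hx
      have hM : T.l * (T.u₁ + T.u₂ + d * T.x₂) =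
          T.x₁ ^ 2 + T.x₁ * T.x₂ + T.x₂ ^ 2 + b - d * T.u₁ := by
        have h1 : (T.x₁ - T.x₂) * (T.l * (T.u₁ + T.u₂ + d * T.x₂)) =
            (T.x₁ - T.x₂) * (T.x₁ ^ 2 + T.x₁ * T.x₂ + T.x₂ ^ 2 + b - d * T.u₁) := by
          have e1 := T.eq₁
          have e2 := T.eq₂
          linear_combination (-(T.u₁ + T.u₂ + d * T.x₂)) * hdiff + e1 - e2
        exact mul_left_cancel₀ hx' h1
      have hMval : v.IsVal
          (T.x₁ ^ 2 + T.x₁ * T.x₂ + T.x₂ ^ 2 + b - d * T.u₁) 0 := by
        have hsplit : T.x₁ ^ 2 + T.x₁ * T.x₂ + T.x₂ ^ 2 + b - d * T.u₁ =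
            -(d * T.u₁ - 3 * T.x₁ ^ 2 - b) +
              (-(T.x₁ - T.x₂)) * (T.x₂ + 2 * T.x₁) := by ring
        rw [hsplit]
        refine hN.neg.add_gt ?_
        have h2x : v.Ge (2 * T.x₁) 0 := by
          have h2 : v.Ge (2 : K) 0 := by
            have := QVal.ge_natCast (v := v) 2
            simpa using this
          simpa using h2.mul hx₁
        have hge : v.Ge (T.x₂ + 2 * T.x₁) 0 := hx₂.add h2x
        simpa using hδ.neg.mul_ge hge
      rw [← hM] at hMval
      exact slope_neg hMval hη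

end H18

variable {K : Type*} [Field K] [DecidableEq K] {v : QVal K} {W : WeierstrassCurve K} {s : K}

/-- E1' : two integral points with the same nonsingular reduction differ by a point of the
kernel of reduction (everything in split coordinates `u = y - s x`) -/
theorem sub_mem_kernel_of_close2 (hW : NodeCurve W s) (hI : Integral2 v (2 * s + W.a₁) W.a₄)
    {x₁ y₁ x₂ y₂ : K} (h₁ : W.toAffine.Nonsingular x₁ y₁) (h₂ : W.toAffine.Nonsingular x₂ y₂)
    (hx₁ : v.Ge x₁ 0) (hu₁ : v.Ge (y₁ - s * x₁) 0) (hx : v.Gt (x₁ - x₂) 0)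
    (hu : v.Gt ((y₁ - s * x₁) - (y₂ - s * x₂)) 0)
    (hns : v.IsVal (2 * (y₁ - s * x₁) + (2 * s + W.a₁) * x₁) 0 ∨
      v.IsVal ((2 * s + W.a₁) * (y₁ - s * x₁) - 3 * x₁ ^ 2 - W.a₄) 0) :
    Point.some x₁ y₁ h₁ - Point.some x₂ y₂ h₂ = 0 ∨
      ∃ x y h, Point.some x₁ y₁ h₁ - Point.some x₂ y₂ h₂ = Point.some x y h ∧
        x ≠ 0 ∧ v.w x < 0 := by
  have _ := hu₁
  rcases hR : Point.some x₁ y₁ h₁ - Point.some x₂ y₂ h₂ with _ | ⟨x, y, h⟩
  · exact Or.inl rfl
  · refine Or.inr ⟨x, y, h, rfl, ?_⟩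
    have hsum : Point.some x₁ y₁ h₁ +
        Point.some x₂ (W.toAffine.negY x₂ y₂) ((nonsingular_neg x₂ y₂).mpr h₂) +
        Point.some x (W.toAffine.negY x y) ((nonsingular_neg x y).mpr h) = 0 := by
      rw [← Point.neg_some h₂, ← Point.neg_some h, ← hR]; abel
    obtain ⟨T, hT₁, hT₁', hT₂, hT₂', hT₃, -⟩ := exists_triple2 hW _ _ _ hsum
    have hx₂ : v.Ge x₂ 0 := by
      have : x₂ = x₁ - (x₁ - x₂) := by ring
      rw [this]; exact hx₁.sub hx.ge
    have hclose : T.u₁ + T.u₂ + (2 * s + W.a₁) * T.x₂ = (y₁ - s * x₁) - (y₂ - s * x₂) := by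
      rw [hT₁', hT₂', hT₂, hW.negY_sub]; ring
    have key := H18.slope_blowup2 hI T (by rw [hT₁]; exact hx₁) (by rw [hT₂]; exact hx₂)
      (by rw [hT₁, hT₂]; exact hx)
      (by rw [hclose]; exact hu)
      (by rw [hT₁, hT₁']; exact hns)
    rw [hT₃] at key
    exact key

end Fermat.Agent.S13
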