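import Fermat.Agent.S13.Defs2
import Fermat.Agent.S05.A1_helper64

/-!
S13, block L2, task A1' (helper64): collinearity API in split coordinates.
Three affine points with `P₁ + P₂ + P₃ = 0` on a `NodeCurve W s` give a `Triple2`.
-/

set_option autoImplicit false

namespace Fermat.Agent.S13

open Fermat.Agent.S05 WeierstrassCurve WeierstrassCurve.Affine

variable {K : Type*} [Field K] [DecidableEq K] {W : WeierstrassCurve K} {s : K}

/-- A1' : collinearity API in split coordinates -/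
theorem exists_triple2 (hW : NodeCurve W s)
    {x₁ y₁ x₂ y₂ x₃ y₃ : K} (hP₁ : W.toAffine.Nonsingular x₁ y₁)
    (hP₂ : W.toAffine.Nonsingular x₂ y₂) (hP₃ : W.toAffine.Nonsingular x₃ y₃)
    (h : Point.some x₁ y₁ hP₁ + Point.some x₂ y₂ hP₂ + Point.some x₃ y₃ hP₃ = 0) :
    ∃ T : Triple2 (2 * s + W.a₁) W.a₄, T.x₁ = x₁ ∧ T.u₁ = y₁ - s * x₁ ∧ T.x₂ = x₂ ∧
      T.u₂ = y₂ - s * x₂ ∧ T.x₃ = x₃ ∧ T.u₃ = y₃ - s * x₃ := by
  have hxy : ¬(x₁ = x₂ ∧ y₁ = W.toAffine.negY x₂ y₂) := by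
    rintro ⟨hx, hy⟩
    rw [Point.add_of_Y_eq hx hy, zero_add] at h
    exact Point.some_ne_zero hP₃ h
  set L := W.toAffine.slope x₁ x₂ y₁ y₂ with hL
  have hsum : Point.some x₁ y₁ hP₁ + Point.some x₂ y₂ hP₂ = -Point.some x₃ y₃ hP₃ :=
    eq_neg_of_add_eq_zero_left h
  rw [Point.add_some hxy, Point.neg_some] at hsum
  have hx₃ : W.toAffine.addX x₁ x₂ L = x₃ := by
    have := hsum
    simp only [Point.some.injEq] at this
    exact this.1
  have hy₃ : W.toAffine.addY x₁ x₂ y₁ L = W.toAffine.negY x₃ y₃ := by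
    have := hsum
    simp only [Point.some.injEq] at this
    exact this.2
  have hy₃' : y₃ = L * (x₃ - x₁) + y₁ := by
    simp only [addY, negY, negAddY] at hy₃
    rw [hx₃] at hy₃
    linear_combination hy₃
  obtain ⟨v1, v2, v3⟩ := Fermat.Agent.S05.helper64.vieta hP₁.1 hP₂.1 hxy
  simp only [hW.a₃, hW.a₆] at v1 v2 v3
  rw [← hL, hx₃] at v1 v2 v3
  have hline₂ : y₂ = L * x₂ + (y₁ - L * x₁) := by
    by_cases hx : x₁ = x₂
    · have hy : y₁ ≠ W.toAffine.negY x₂ y₂ := fun hy => hxy ⟨hx, hy⟩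
      have := Y_eq_of_Y_ne hP₁.1 hP₂.1 hx hy
      rw [← this, hx]; ring
    · have hLs : L = (y₁ - y₂) / (x₁ - x₂) := by rw [hL, slope_of_X_ne hx]
      have hne : x₁ - x₂ ≠ 0 := sub_ne_zero.2 hx
      rw [hLs]
      field_simp
      ring
  refine ⟨⟨x₁, x₂, x₃, y₁ - s * x₁, y₂ - s * x₂, y₃ - s * x₃, L - s, y₁ - L * x₁,
    by ring, ?_, ?_, ?_, ?_, ?_⟩, rfl, rfl, rfl, rfl, rfl, rfl⟩
  · rw [hline₂]; ring
  · rw [hy₃']; ring
  · linear_combination v1 + hW.hs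
  · linear_combination v2
  · linear_combination v3

end Fermat.Agent.S13
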