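import Fermat.Agent.S13.Defs2

/-!
T3' (helper7): `E₀` is closed for the split nodal model `u^2 + d u x = x^3 + b x`
(`d` a unit, `0 < w b`; no hypothesis on the residue characteristic).
-/

namespace Fermat.Agent.S13

open Fermat.Agent.S05

variable {K : Type*} [Field K]

variable {v : QVal K} {d b : K}

/-- T3' -/
theorem Triple2.e0_closed (hN : Nodal2 v d b) (T : Triple2 d b)
    (h₁ : T.x₁ ≠ 0) (h₁' : v.w T.x₁ ≤ 0) (h₂ : T.x₂ ≠ 0) (h₂' : v.w T.x₂ ≤ 0) :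
    T.x₃ ≠ 0 ∧ v.w T.x₃ ≤ 0 := by
  have hbpos := hN.b_pos
  have hx3 : T.x₃ ≠ 0 := by
    intro h0
    have hn : T.n = 0 := by
      have h := T.e₃
      rw [h0, mul_zero] at h
      exact (pow_eq_zero_iff two_ne_zero).mp h.symm
    have hb : T.x₁ * T.x₂ = b := by
      have h := T.e₂
      rw [h0, hn] at h
      linear_combination h
    have h := v.map_mul _ _ h₁ h₂
    rw [hb] at h
    linarith
  refine ⟨hx3, ?_⟩
  by_contra hpos
  rw [not_le] at hpos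
  have X1 : v.IsVal T.x₁ (v.w T.x₁) := ⟨h₁, rfl⟩
  have X2 : v.IsVal T.x₂ (v.w T.x₂) := ⟨h₂, rfl⟩
  have X3 : v.IsVal T.x₃ (v.w T.x₃) := ⟨hx3, rfl⟩
  have hB : v.IsVal b (v.w b) := ⟨hN.b_ne, rfl⟩
  -- valuation of `n`
  have hn2 : v.IsVal (T.n ^ 2) (v.w T.x₁ + v.w T.x₂ + v.w T.x₃) := by
    rw [← T.e₃]; exact (X1.mul X2).mul X3
  have hn := hn2.of_sq
  -- valuation of `e₂`
  have he2 : v.IsVal (T.x₁ * T.x₂ + T.x₁ * T.x₃ + T.x₂ * T.x₃) (v.w T.x₁ + v.w T.x₂) := by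
    have h12 := X1.mul X2
    have h13 : v.Gt (T.x₁ * T.x₃) (v.w T.x₁ + v.w T.x₂) :=
      (X1.mul X3).gt_of_lt (by linarith)
    have h23 : v.Gt (T.x₂ * T.x₃) (v.w T.x₁ + v.w T.x₂) :=
      (X2.mul X3).gt_of_lt (by linarith)
    exact (h12.add_gt h13).add_gt h23
  have hln : v.IsVal ((2 * T.l + d) * T.n) (v.w T.x₁ + v.w T.x₂) := by
    have h : (2 * T.l + d) * T.n = b - (T.x₁ * T.x₂ + T.x₁ * T.x₃ + T.x₂ * T.x₃) := by
      rw [T.e₂]; ring
    rw [h]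
    exact he2.gt_sub (hB.gt_of_lt (by linarith))
  -- valuation of `2 l + d`
  have hld0 : 2 * T.l + d ≠ 0 := fun h0 => hln.1 (by simp [h0])
  have hwld : v.w (2 * T.l + d) = (v.w T.x₁ + v.w T.x₂ - v.w T.x₃) / 2 := by
    have h := ((QVal.isVal_self (v := v) hld0).mul hn).unique hln
    linarith
  -- valuation of `2 l`
  have h2l : v.IsVal (2 * T.l) ((v.w T.x₁ + v.w T.x₂ - v.w T.x₃) / 2) := by
    have h : 2 * T.l = (2 * T.l + d) - d := by ring
    rw [h]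
    have hld : v.IsVal (2 * T.l + d) ((v.w T.x₁ + v.w T.x₂ - v.w T.x₃) / 2) := ⟨hld0, hwld⟩
    exact hld.sub_gt (hN.d_unit.gt_of_lt (by linarith))
  have hl0 : T.l ≠ 0 := fun h0 => h2l.1 (by simp [h0])
  have h20 : (2 : K) ≠ 0 := fun h0 => h2l.1 (by simp [h0])
  have h2 : v.Ge (2 : K) 0 := by exact_mod_cast QVal.ge_natCast (v := v) 2
  have hwl : v.w T.l ≤ (v.w T.x₁ + v.w T.x₂ - v.w T.x₃) / 2 := by
    have h := h2l.2
    rw [v.map_mul 2 T.l h20 hl0] at h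
    have := h2.le_w h20
    linarith
  have hL : v.IsVal T.l (v.w T.l) := QVal.isVal_self hl0
  -- valuation of `l^2 + d l`
  have hl2 : v.IsVal (T.l ^ 2 + d * T.l) (2 * v.w T.l) := by
    have h := hL.pow 2
    have hdl : v.Gt (d * T.l) (2 * v.w T.l) :=
      (hN.d_unit.mul hL).gt_of_lt (by linarith)
    have := h.add_gt hdl
    simpa using this
  -- contradiction with `e₁`
  rw [← T.e₁] at hl2
  have hgt : v.Gt (T.x₁ + T.x₂ + T.x₃) (2 * v.w T.l) :=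
    ((X1.gt_of_lt (by linarith)).add (X2.gt_of_lt (by linarith))).add
      (X3.gt_of_lt (by linarith))
  exact hl2.not_gt hgt

end Fermat.Agent.S13
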