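import Fermat.Agent.S13.Defs2

/-!
S13 block L2, task T4' (helper52): `Triple2.e0_add_branch`
in split coordinates `u^2 + d u x = x^3 + b x` (tasks row 117).
-/

namespace Fermat.Agent.S13

open Fermat.Agent.S05

namespace H52

variable {K : Type*} [Field K] {v : QVal K} {d b : K}

/-- if `l^2 + d l` is `≥ c` with `c ≤ 0` and `d` integral then `l` is `≥ c/2`. -/
lemma l_ge_of_sq_add (hd : v.Ge d 0) {l : K} {c : ℚ} (hc : c ≤ 0)
    (h : v.Ge (l ^ 2 + d * l) c) : v.Ge l (c / 2) := by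
  by_cases hl0 : l = 0
  · exact Or.inl hl0
  refine Or.inr ?_
  by_contra hlt
  rw [not_le] at hlt
  have hl : v.IsVal l (v.w l) := ⟨hl0, rfl⟩
  have hl2 : v.IsVal (l ^ 2) (2 * v.w l) := by simpa using hl.pow 2
  have hdl : v.Gt (d * l) (2 * v.w l) := by
    have := hd.mul hl.ge
    exact this.gt_of_lt (by linarith)
  have hs := hl2.add_gt hdl
  exact hs.not_ge_of_lt (by linarith) h

/-- two points with `w x ≤ 0` force the third one to have `w x ≤ 0` -/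
theorem e0_closed_aux (hN : Nodal2 v d b) (T : Triple2 d b)
    (h₁ : T.x₁ ≠ 0) (h₁' : v.w T.x₁ ≤ 0) (h₂ : T.x₂ ≠ 0) (h₂' : v.w T.x₂ ≤ 0) :
    T.x₃ ≠ 0 ∧ v.w T.x₃ ≤ 0 := by
  have hx₁ : v.IsVal T.x₁ (v.w T.x₁) := ⟨h₁, rfl⟩
  have hx₂ : v.IsVal T.x₂ (v.w T.x₂) := ⟨h₂, rfl⟩
  have hbpos := hN.b_pos
  have h₃ : T.x₃ ≠ 0 := by
    intro h3
    have hn : T.n = 0 := by
      have h := T.e₃
      rw [h3, mul_zero] at h
      exact pow_eq_zero_iff (two_ne_zero) |>.mp h.symm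
    have h := T.e₂
    rw [h3, hn] at h
    have hb : T.x₁ * T.x₂ = b := by linear_combination h
    have := (hx₁.mul hx₂).2
    rw [hb] at this
    linarith
  refine ⟨h₃, ?_⟩
  by_contra hcon
  rw [not_le] at hcon
  have hx₃ : v.IsVal T.x₃ (v.w T.x₃) := ⟨h₃, rfl⟩
  set m₁ := v.w T.x₁ with hm₁
  set m₂ := v.w T.x₂ with hm₂
  set m₃ := v.w T.x₃ with hm₃
  -- e₂ has exact valuation m₁ + m₂
  have h12 : v.IsVal (T.x₁ * T.x₂) (m₁ + m₂) := hx₁.mul hx₂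
  have h13 : v.Gt (T.x₁ * T.x₃) (m₁ + m₂) := (hx₁.mul hx₃).gt_of_lt (by linarith)
  have h23 : v.Gt (T.x₂ * T.x₃) (m₁ + m₂) := (hx₂.mul hx₃).gt_of_lt (by linarith)
  have he₂ : v.IsVal (b - (2 * T.l + d) * T.n) (m₁ + m₂) := by
    rw [← T.e₂]; exact (h12.add_gt h13).add_gt h23
  have hb : v.Gt b (m₁ + m₂) := Or.inr (by linarith)
  have h2ln : v.IsVal ((2 * T.l + d) * T.n) (m₁ + m₂) := by
    have := QVal.IsVal.gt_sub hb he₂
    have e : b - (b - (2 * T.l + d) * T.n) = (2 * T.l + d) * T.n := by ring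
    rwa [e] at this
  have hq0 : 2 * T.l + d ≠ 0 := fun h => h2ln.1 (by simp [h])
  have hn0 : T.n ≠ 0 := fun h => h2ln.1 (by simp [h])
  have hq : v.IsVal (2 * T.l + d) (v.w (2 * T.l + d)) := ⟨hq0, rfl⟩
  have hn : v.IsVal T.n (v.w T.n) := ⟨hn0, rfl⟩
  have hsum : v.w (2 * T.l + d) + v.w T.n = m₁ + m₂ := (hq.mul hn).unique h2ln
  have hn2 : 2 * v.w T.n = m₁ + m₂ + m₃ := by
    have h1 : v.IsVal (T.n ^ 2) (2 * v.w T.n) := by simpa using hn.pow 2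
    rw [← T.e₃] at h1
    have := h1.unique ((hx₁.mul hx₂).mul hx₃)
    linarith
  -- `2 l + d` has negative valuation `(m₁ + m₂ - m₃)/2`, hence so does `2 l`
  have hq' : v.IsVal (2 * T.l + d) ((m₁ + m₂ - m₃) / 2) := hq.congr (by linarith)
  have h2l : v.IsVal (2 * T.l) ((m₁ + m₂ - m₃) / 2) := by
    have hdgt : v.Gt d ((m₁ + m₂ - m₃) / 2) := hN.d_unit.gt_of_lt (by linarith)
    have := hq'.sub_gt hdgt
    have e : 2 * T.l + d - d = 2 * T.l := by ring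
    rwa [e] at this
  have hl0 : T.l ≠ 0 := fun h => h2l.1 (by simp [h])
  have h20 : (2 : K) ≠ 0 := fun h => h2l.1 (by simp [h])
  have hl : v.IsVal T.l (v.w T.l) := ⟨hl0, rfl⟩
  have h2ge : (0 : ℚ) ≤ v.w (2 : K) := by
    have := (QVal.ge_natCast (v := v) 2).le_w (by exact_mod_cast h20)
    exact_mod_cast this
  have hlw : v.w T.l ≤ (m₁ + m₂ - m₃) / 2 := by
    have := ((QVal.isVal_self (v := v) h20).mul hl).unique h2l
    linarith
  have hl2 : v.IsVal (T.l ^ 2) (2 * v.w T.l) := by simpa using hl.pow 2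
  have hdl : v.Gt (d * T.l) (2 * v.w T.l) := by
    have := hN.d_unit.ge.mul hl.ge
    exact this.gt_of_lt (by linarith)
  have he₁ : v.IsVal (T.l ^ 2 + d * T.l) (2 * v.w T.l) := hl2.add_gt hdl
  rw [← T.e₁] at he₁
  have hge : v.Ge (T.x₁ + T.x₂ + T.x₃) (m₁ + m₂) :=
    ((hx₁.ge_of_le (by linarith)).add (hx₂.ge_of_le (by linarith))).add
      (hx₃.ge_of_le (by linarith))
  exact he₁.not_ge_of_lt (by linarith) hge

end H52

variable {K : Type*} [Field K] {v : QVal K} {d b : K}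

/-- T4' (split coordinates) -/
theorem Triple2.e0_add_branch (hN : Nodal2 v d b) (T : Triple2 d b)
    (h₁ : T.x₁ ≠ 0) (h₁' : v.w T.x₁ ≤ 0)
    (h₂ : T.x₂ ≠ 0) (h₂pos : 0 < v.w T.x₂) (h₂lt : v.w T.x₂ < v.w b) :
    T.x₃ ≠ 0 ∧ v.w T.x₃ = v.w T.x₂ ∧ v.Gt (T.u₂ / T.x₂ + T.u₃ / T.x₃ + d) 0 := by
  have hx₁ : v.IsVal T.x₁ (v.w T.x₁) := ⟨h₁, rfl⟩
  have hx₂ : v.IsVal T.x₂ (v.w T.x₂) := ⟨h₂, rfl⟩
  have hbv : v.IsVal b (v.w b) := ⟨hN.b_ne, rfl⟩
  -- x₃ ≠ 0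
  have h₃ : T.x₃ ≠ 0 := by
    intro h3
    have hn : T.n = 0 := by
      have h := T.e₃
      rw [h3, mul_zero] at h
      exact pow_eq_zero_iff (two_ne_zero) |>.mp h.symm
    have h := T.e₂
    rw [h3, hn] at h
    have hb : T.x₁ * T.x₂ = b := by linear_combination h
    have := (hx₁.mul hx₂).2
    rw [hb] at this
    linarith
  have hx₃ : v.IsVal T.x₃ (v.w T.x₃) := ⟨h₃, rfl⟩
  -- w x₃ > 0
  have h₃pos : 0 < v.w T.x₃ := by
    by_contra hcon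
    rw [not_lt] at hcon
    have := (H52.e0_closed_aux hN T.swap₂₃ h₁ h₁' h₃ hcon).2
    have e : T.swap₂₃.x₃ = T.x₂ := rfl
    rw [e] at this
    linarith
  set m₁ := v.w T.x₁ with hm₁
  set m₂ := v.w T.x₂ with hm₂
  set m₃ := v.w T.x₃ with hm₃
  set β := v.w b with hβ
  -- n and l
  have hn0 : T.n ≠ 0 := by
    intro h
    have h3 := T.e₃
    rw [h, zero_pow two_ne_zero] at h3
    exact (mul_ne_zero (mul_ne_zero h₁ h₂) h₃) h3
  have hn : v.IsVal T.n (v.w T.n) := ⟨hn0, rfl⟩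
  have hn2 : 2 * v.w T.n = m₁ + m₂ + m₃ := by
    have h1 : v.IsVal (T.n ^ 2) (2 * v.w T.n) := by simpa using hn.pow 2
    rw [← T.e₃] at h1
    have := h1.unique ((hx₁.mul hx₂).mul hx₃)
    linarith
  have hlge : v.Ge T.l (m₁ / 2) := by
    apply H52.l_ge_of_sq_add hN.d_unit.ge h₁'
    rw [← T.e₁]
    exact ((hx₁.ge_of_le le_rfl).add (hx₂.ge_of_le (by linarith))).add
        (hx₃.ge_of_le (by linarith))
  have h2 : v.Ge (2 : K) 0 := by
    have := QVal.ge_natCast (v := v) 2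
    exact_mod_cast this
  have hqge : v.Ge (2 * T.l + d) (m₁ / 2) := by
    have h1 : v.Ge (2 * T.l) (0 + m₁ / 2) := h2.mul hlge
    rw [zero_add] at h1
    exact h1.add (hN.d_unit.ge_of_le (by linarith))
  have h2ln : v.Ge ((2 * T.l + d) * T.n) (m₁ + (m₂ + m₃) / 2) := by
    have := hqge.mul hn.ge
    exact this.mono (by linarith)
  -- w x₃ = w x₂
  have h₃eq : m₃ = m₂ := by
    by_contra hne
    have hμ : min m₂ m₃ < (m₂ + m₃) / 2 := by
      rcases lt_or_gt_of_ne hne with h | h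
      · rw [min_eq_right h.le]; linarith
      · rw [min_eq_left h.le]; linarith
    have hμ₂ : min m₂ m₃ ≤ m₂ := min_le_left _ _
    have hμ₃ : min m₂ m₃ ≤ m₃ := min_le_right _ _
    have hμpos : 0 < min m₂ m₃ := lt_min h₂pos h₃pos
    have h23 : v.IsVal (T.x₂ + T.x₃) (min m₂ m₃) := by
      rcases lt_or_gt_of_ne hne with h | h
      · rw [min_eq_right h.le, add_comm]; exact hx₃.add_gt (hx₂.gt_of_lt h)
      · rw [min_eq_left h.le]; exact hx₂.add_gt (hx₃.gt_of_lt h)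
    have hlhs : v.IsVal (T.x₁ * (T.x₂ + T.x₃)) (m₁ + min m₂ m₃) := hx₁.mul h23
    have e : T.x₁ * (T.x₂ + T.x₃) = b - (2 * T.l + d) * T.n - T.x₂ * T.x₃ := by
      rw [← T.e₂]; ring
    rw [e] at hlhs
    have hb : v.Gt b (m₁ + min m₂ m₃) := hbv.gt_of_lt (by linarith)
    have h2' : v.Gt ((2 * T.l + d) * T.n) (m₁ + min m₂ m₃) := h2ln.gt_of_lt (by linarith)
    have h3 : v.Gt (T.x₂ * T.x₃) (m₁ + min m₂ m₃) := (hx₂.mul hx₃).gt_of_lt (by linarith)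
    exact hlhs.not_gt ((hb.sub h2').sub h3)
  refine ⟨h₃, h₃eq, ?_⟩
  -- branch statement
  have hid : T.u₂ / T.x₂ + T.u₃ / T.x₃ + d = (b - T.x₂ * T.x₃) / T.n := by
    have e2 : T.n ^ 2 / T.x₂ = T.x₁ * T.x₃ := by
      rw [← T.e₃]; field_simp
    have e3 : T.n ^ 2 / T.x₃ = T.x₁ * T.x₂ := by
      rw [← T.e₃]; field_simp
    rw [eq_div_iff hn0, T.line₂, T.line₃]
    have e4 : ((T.l * T.x₂ + T.n) / T.x₂ + (T.l * T.x₃ + T.n) / T.x₃ + d) * T.n =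
        (2 * T.l + d) * T.n + T.n ^ 2 / T.x₂ + T.n ^ 2 / T.x₃ := by
      field_simp
      ring
    rw [e4, e2, e3]
    linear_combination T.e₂
  rw [hid]
  by_cases hz : b - T.x₂ * T.x₃ = 0
  · rw [hz, zero_div]; exact QVal.gt_zero'
  · have hnum : v.Gt (b - T.x₂ * T.x₃) m₂ :=
      (hbv.gt_of_lt h₂lt).sub ((hx₂.mul hx₃).gt_of_lt (by linarith))
    have hnumv : v.IsVal (b - T.x₂ * T.x₃) (v.w (b - T.x₂ * T.x₃)) := ⟨hz, rfl⟩
    have hlt := hnum.lt_w hz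
    have := hnumv.div hn
    exact this.gt_of_lt (by linarith)

end Fermat.Agent.S13
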