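import Fermat.Agent.S13.Defs2

/-!
S13 block L2, task T5' (helper52): `Triple2.branch_same`
in split coordinates `u^2 + d u x = x^3 + b x` (branches `u/x ≡ 0` and `u/x ≡ -d`); tasks row 118.
-/

namespace Fermat.Agent.S13

open Fermat.Agent.S05

namespace H52

variable {K : Type*} [Field K] {v : QVal K} {d b : K}

lemma sum_gt2 (T : Triple2 d b) (h₁pos : 0 < v.w T.x₁) (h₂pos : 0 < v.w T.x₂)
    (h₃pos : 0 < v.w T.x₃) : v.Gt (T.x₁ + T.x₂ + T.x₃) 0 :=
  QVal.Gt.add (QVal.Gt.add (Or.inr h₁pos) (Or.inr h₂pos)) (Or.inr h₃pos)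

lemma n_val2 (T : Triple2 d b) (h₁ : T.x₁ ≠ 0) (h₂ : T.x₂ ≠ 0) (h₃ : T.x₃ ≠ 0) :
    v.IsVal T.n ((v.w T.x₁ + v.w T.x₂ + v.w T.x₃) / 2) := by
  have h : v.IsVal (T.n ^ 2) (v.w T.x₁ + v.w T.x₂ + v.w T.x₃) := by
    rw [← T.e₃]
    exact ((QVal.isVal_self h₁).mul (QVal.isVal_self h₂)).mul (QVal.isVal_self h₃)
  exact h.of_sq

/-- the slope of the line is congruent to one of the two branch slopes `0`, `-d` -/
lemma dich2 (T : Triple2 d b)
    (hsum : v.Gt (T.x₁ + T.x₂ + T.x₃) 0) : v.Gt T.l 0 ∨ v.Gt (T.l + d) 0 := by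
  by_cases h1 : T.l = 0
  · exact Or.inl (Or.inl h1)
  by_cases h2 : T.l + d = 0
  · exact Or.inr (Or.inl h2)
  have hprod : T.l * (T.l + d) = T.x₁ + T.x₂ + T.x₃ := by
    linear_combination -T.e₁
  have hne : T.l * (T.l + d) ≠ 0 := mul_ne_zero h1 h2
  have hw : 0 < v.w (T.l * (T.l + d)) := by
    rw [hprod] at hne ⊢; exact hsum.lt_w hne
  rw [v.map_mul _ _ h1 h2] at hw
  rcases lt_or_ge 0 (v.w T.l) with h | h
  · exact Or.inl (Or.inr h)
  · refine Or.inr (Or.inr ?_)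
    linarith

lemma w_eq_of_div_isVal2 {x y : K} (hx : x ≠ 0) (hy : y ≠ 0) (h : v.IsVal (x / y) 0) :
    v.w x = v.w y := by
  have h2 := h.2
  rw [QVal.w_div hx hy] at h2
  linarith

lemma two_ge : v.Ge (2 : K) 0 := by
  have := QVal.ge_natCast (v := v) 2
  exact_mod_cast this

end H52

open H52

variable {K : Type*} [Field K]

variable {v : QVal K} {d b : K}

/-- T5' (split coordinates): three points on the branch `u/x ≡ 0`. -/
theorem Triple2.branch_same (hN : Nodal2 v d b) (T : Triple2 d b)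
    (h₁ : T.x₁ ≠ 0) (h₁pos : 0 < v.w T.x₁) (h₂ : T.x₂ ≠ 0) (h₂pos : 0 < v.w T.x₂)
    (h₃ : T.x₃ ≠ 0) (h₃pos : 0 < v.w T.x₃)
    (hb₁ : v.Gt (T.u₁ / T.x₁) 0) (hb₂ : v.Gt (T.u₂ / T.x₂) 0)
    (hb₃ : v.Gt (T.u₃ / T.x₃) 0) :
    v.w T.x₁ + v.w T.x₂ + v.w T.x₃ = 2 * v.w b := by
  have hsum := sum_gt2 T h₁pos h₂pos h₃pos
  have hn := n_val2 (v := v) T h₁ h₂ h₃
  have hn0 := hn.ne_zero
  rcases dich2 T hsum with hm | hp
  · -- `l ≡ 0`: all `n / xᵢ` are small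
    have g₁ : v.Gt (T.n / T.x₁) 0 := by
      have e : T.n / T.x₁ = T.u₁ / T.x₁ - T.l := by
        rw [T.line₁]; field_simp; ring
      rw [e]; exact hb₁.sub hm
    have g₂ : v.Gt (T.n / T.x₂) 0 := by
      have e : T.n / T.x₂ = T.u₂ / T.x₂ - T.l := by
        rw [T.line₂]; field_simp; ring
      rw [e]; exact hb₂.sub hm
    have g₃ : v.Gt (T.n / T.x₃) 0 := by
      have e : T.n / T.x₃ = T.u₃ / T.x₃ - T.l := by
        rw [T.line₃]; field_simp; ring
      rw [e]; exact hb₃.sub hm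
    have q₁ : T.n / T.x₁ * T.n = T.x₂ * T.x₃ := by
      field_simp; linear_combination -T.e₃
    have q₂ : T.n / T.x₂ * T.n = T.x₁ * T.x₃ := by
      field_simp; linear_combination -T.e₃
    have q₃ : T.n / T.x₃ * T.n = T.x₁ * T.x₂ := by
      field_simp; linear_combination -T.e₃
    have key : b / T.n = d + (2 * T.l + (T.n / T.x₁ + T.n / T.x₂ + T.n / T.x₃)) := by
      rw [div_eq_iff hn0]
      linear_combination -T.e₂ - q₁ - q₂ - q₃
    have h2l : v.Gt (2 * T.l) 0 := by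
      have := (two_ge (v := v)).mul_gt hm
      rwa [zero_add] at this
    have hbn : v.IsVal (b / T.n) 0 := by
      rw [key]; exact hN.d_unit.add_gt (h2l.add ((g₁.add g₂).add g₃))
    have hw := w_eq_of_div_isVal2 hN.b_ne hn0 hbn
    have := hn.2
    linarith
  · -- `l ≡ -d`: impossible
    exfalso
    have u₁ : v.IsVal (T.n / T.x₁) 0 := by
      have e : T.n / T.x₁ = d + (T.u₁ / T.x₁ - (T.l + d)) := by
        rw [T.line₁]; field_simp; ring
      rw [e]; exact hN.d_unit.add_gt (hb₁.sub hp)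
    have u₂ : v.IsVal (T.n / T.x₂) 0 := by
      have e : T.n / T.x₂ = d + (T.u₂ / T.x₂ - (T.l + d)) := by
        rw [T.line₂]; field_simp; ring
      rw [e]; exact hN.d_unit.add_gt (hb₂.sub hp)
    have u₃ : v.IsVal (T.n / T.x₃) 0 := by
      have e : T.n / T.x₃ = d + (T.u₃ / T.x₃ - (T.l + d)) := by
        rw [T.line₃]; field_simp; ring
      rw [e]; exact hN.d_unit.add_gt (hb₃.sub hp)
    have w₁ := w_eq_of_div_isVal2 hn0 h₁ u₁
    have w₂ := w_eq_of_div_isVal2 hn0 h₂ u₂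
    have w₃ := w_eq_of_div_isVal2 hn0 h₃ u₃
    have := hn.2
    linarith

end Fermat.Agent.S13
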