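import Fermat.Agent.S13.Defs2
import Fermat.Agent.S13.T5_helper52

/-!
S13 block L2, task T6' (helper52): `Triple2.branch_mixed`
in split coordinates `u^2 + d u x = x^3 + b x` (branches `u/x ≡ 0` and `u/x ≡ -d`); tasks row 119.
-/

namespace Fermat.Agent.S13

open Fermat.Agent.S05

open H52

variable {K : Type*} [Field K]

variable {v : QVal K} {d b : K}

/-- T6' (split coordinates): two points on the branch `u/x ≡ 0`, one on `u/x ≡ -d`. -/
theorem Triple2.branch_mixed (hN : Nodal2 v d b) (T : Triple2 d b)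
    (h₁ : T.x₁ ≠ 0) (h₁pos : 0 < v.w T.x₁) (h₂ : T.x₂ ≠ 0) (h₂pos : 0 < v.w T.x₂)
    (h₃ : T.x₃ ≠ 0) (h₃pos : 0 < v.w T.x₃)
    (hb₁ : v.Gt (T.u₁ / T.x₁) 0) (hb₂ : v.Gt (T.u₂ / T.x₂) 0)
    (hb₃ : v.Gt (T.u₃ / T.x₃ + d) 0) :
    v.w T.x₃ = v.w T.x₁ + v.w T.x₂ := by
  have hsum := sum_gt2 T h₁pos h₂pos h₃pos
  have hn := n_val2 (v := v) T h₁ h₂ h₃
  have hn0 := hn.ne_zero
  rcases dich2 T hsum with hm | hp
  · -- `l ≡ 0`: `n / x₃` is a unit
    have u₃ : v.IsVal (T.n / T.x₃) 0 := by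
      have e : T.n / T.x₃ = -d + ((T.u₃ / T.x₃ + d) - T.l) := by
        rw [T.line₃]; field_simp; ring
      rw [e]; exact hN.d_unit.neg.add_gt (hb₃.sub hm)
    have w₃ := w_eq_of_div_isVal2 hn0 h₃ u₃
    have := hn.2
    linarith
  · -- `l ≡ -d`: impossible
    exfalso
    have u₁ : v.IsVal (T.n / T.x₁) 0 := by
      have e : T.n / T.x₁ = d + (T.u₁ / T.x₁ - (T.l + d)) := by
        rw [T.line₁]; field_simp; ring
      rw [e]; exact hN.d_unit.add_gt (hb₁.sub hp)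
    have u₂ : v.IsVal (T.n / T.x₂) 0 := by
      have e : T.n / T.x₂ = d + (T.u₂ / T.x₂ - (T.l + d)) := by
        rw [T.line₂]; field_simp; ring
      rw [e]; exact hN.d_unit.add_gt (hb₂.sub hp)
    have w₁ := w_eq_of_div_isVal2 hn0 h₁ u₁
    have w₂ := w_eq_of_div_isVal2 hn0 h₂ u₂
    have := hn.2
    linarith

end Fermat.Agent.S13
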