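import Fermat.Agent.S13.Defs2
import Fermat.Agent.S13.A1p_helper64
import Fermat.Agent.S05.Cls_helper64
import Fermat.Agent.S13.T3_helper7
import Fermat.Agent.S13.T4_helper52
import Fermat.Agent.S13.T5_helper52
import Fermat.Agent.S13.T6_helper52

/-!
S13, block L2, task EC' (owner: helper64): the component class `cls2` (split coordinates,
any residue characteristic) is additive.  Port of `Fermat.Agent.S05.cls_add`.
-/

set_option autoImplicit false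
set_option linter.unusedSectionVars false

namespace Fermat.Agent.S13

open Fermat.Agent.S05 Fermat.Agent.S05.helper64 WeierstrassCurve WeierstrassCurve.Affine

namespace H64

lemma qmk_eq_zero_iff (n m : ℚ) : qmk n m = 0 ↔ ∃ k : ℤ, m = k * (2 * n) := by
  rw [qmk, QuotientAddGroup.eq_zero_iff, AddSubgroup.mem_zmultiples_iff]
  constructor
  · rintro ⟨k, hk⟩
    exact ⟨k, by rw [← hk]; simp⟩
  · rintro ⟨k, hk⟩
    exact ⟨k, by rw [hk]; simp⟩

lemma qmk_ne_zero_of_pos {n m : ℚ} (hm : 0 < m) (hmn : m ≤ n) : qmk n m ≠ 0 := by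
  rw [Ne, qmk_eq_zero_iff]
  rintro ⟨k, hk⟩
  have hn : 0 < n := lt_of_lt_of_le hm hmn
  have hk0 : (0 : ℚ) < k := by
    by_contra hcon
    rw [not_lt] at hcon
    nlinarith
  have hk1 : (1 : ℚ) ≤ k := by exact_mod_cast (Int.cast_pos.mp hk0 : (0 : ℤ) < k)
  nlinarith

lemma qmk_neg_ne_zero_of_pos {n m : ℚ} (hm : 0 < m) (hmn : m ≤ n) : qmk n (-m) ≠ 0 := by
  rw [qmk_neg]
  exact neg_ne_zero.mpr (qmk_ne_zero_of_pos hm hmn)

variable {K : Type*} [Field K] {v : QVal K} {d b : K}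

/-- Branch dichotomy: a point near the node lies on exactly one of the two branches
`u / x ≡ 0`, `u / x ≡ -d`. -/
lemma branch_dichotomy2 (hN : Nodal2 v d b) {x u : K}
    (hxu : u ^ 2 + d * u * x = x ^ 3 + b * x) (hx : x ≠ 0) (hpos : 0 < v.w x)
    (hlt : v.w x < v.w b) :
    (v.Gt (u / x) 0 ∧ v.IsVal (u / x + d) 0) ∨
      (v.Gt (u / x + d) 0 ∧ v.IsVal (u / x) 0) := by
  have hxv : v.IsVal x (v.w x) := QVal.isVal_self hx
  have hbx : v.IsVal (b / x) (v.w b - v.w x) := hN.b_isVal.div hxv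
  have hprod : (u / x) * (u / x + d) = x + b / x := by
    field_simp
    linear_combination hxu
  have hsmall : v.Gt (x + b / x) 0 :=
    (hxv.gt_of_lt hpos).add (hbx.gt_of_lt (by linarith))
  rcases QVal.gt_or_isVal_le (v := v) (u / x) 0 with h | ⟨hne, hle⟩
  · left
    exact ⟨h, hN.d_unit.gt_add h⟩
  · right
    by_cases h0 : u / x + d = 0
    · refine ⟨Or.inl h0, ?_⟩
      have : u / x = -d := by linear_combination h0
      rw [this]; exact hN.d_unit.neg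
    · have h1 := hsmall.lt_w (by rw [← hprod]; exact mul_ne_zero hne h0)
      rw [← hprod, v.map_mul _ _ hne h0] at h1
      have hw0 : v.w (u / x) = 0 := by
        refine le_antisymm hle ?_
        by_contra hcon
        rw [not_le] at hcon
        have hd : v.Gt d (v.w (u / x)) := hN.d_unit.gt_of_lt hcon
        have := ((QVal.isVal_self hne).add_gt hd).2
        rw [this] at h1
        linarith
      refine ⟨Or.inr ?_, hne, hw0⟩
      rw [hw0] at h1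
      linarith

section clsXU

variable [DecidableEq K]

lemma clsXU_zero (u : K) : clsXU v b 0 u = qmk (v.w b) (v.w b) := by
  simp [clsXU, qmk]

lemma clsXU_E {x : K} (u : K) (hx : x ≠ 0) (h : v.w x ≤ 0) : clsXU v b x u = 0 := by
  simp [clsXU, hx, h]

lemma clsXU_M {x : K} (u : K) (hb : 0 < v.w b) (hx : x ≠ 0) (h : v.w b ≤ v.w x) :
    clsXU v b x u = qmk (v.w b) (v.w b) := by
  have h' : ¬ v.w x ≤ 0 := by linarith
  simp [clsXU, hx, h, h', qmk]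

lemma clsXU_Bpos {x u : K} (hx : x ≠ 0) (h0 : 0 < v.w x) (h : v.w x < v.w b)
    (hbr : v.Gt (u / x) 0) : clsXU v b x u = qmk (v.w b) (v.w x) := by
  have h1 : ¬ v.w x ≤ 0 := by linarith
  have h2 : ¬ v.w b ≤ v.w x := by linarith
  simp [clsXU, hx, h1, h2, hbr, qmk]

lemma clsXU_Bneg {x u : K} (hx : x ≠ 0) (h0 : 0 < v.w x) (h : v.w x < v.w b)
    (hbr : ¬ v.Gt (u / x) 0) : clsXU v b x u = qmk (v.w b) (-(v.w x)) := by
  have h1 : ¬ v.w x ≤ 0 := by linarith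
  have h2 : ¬ v.w b ≤ v.w x := by linarith
  simp [clsXU, hx, h1, h2, hbr, qmk]

/-- class of a branch point on the branch `u / x ≡ -d` -/
lemma clsXU_B_of_add (hN : Nodal2 v d b) {x u : K}
    (hxu : u ^ 2 + d * u * x = x ^ 3 + b * x) (hx : x ≠ 0) (h0 : 0 < v.w x)
    (h : v.w x < v.w b) (hbr : v.Gt (u / x + d) 0) :
    clsXU v b x u = qmk (v.w b) (-(v.w x)) := by
  apply clsXU_Bneg hx h0 h
  intro hcon
  rcases branch_dichotomy2 hN hxu hx h0 h with ⟨-, h2⟩ | ⟨-, h2⟩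
  · exact h2.not_gt hbr
  · exact h2.not_gt hcon

lemma neg_eqn {x u : K} (hxu : u ^ 2 + d * u * x = x ^ 3 + b * x) :
    (-u - d * x) ^ 2 + d * (-u - d * x) * x = x ^ 3 + b * x := by
  linear_combination hxu

/-- the class of `(x, -u - d x)` is the negative of the class of `(x, u)` -/
lemma clsXU_neg (hN : Nodal2 v d b) {x u : K}
    (hxu : u ^ 2 + d * u * x = x ^ 3 + b * x) :
    clsXU v b x (-u - d * x) = -clsXU v b x u := by
  by_cases hx : x = 0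
  · subst hx
    rw [clsXU_zero, clsXU_zero, eq_neg_iff_add_eq_zero, qmk_add_self]
  rcases le_or_gt (v.w x) 0 with hE | hpos
  · rw [clsXU_E _ hx hE, clsXU_E _ hx hE, neg_zero]
  rcases le_or_gt (v.w b) (v.w x) with hM | hlt
  · rw [clsXU_M _ hN.b_pos hx hM, clsXU_M _ hN.b_pos hx hM, eq_neg_iff_add_eq_zero, qmk_add_self]
  have hxu' := neg_eqn hxu
  have hr1 : (-u - d * x) / x + d = -(u / x) := by field_simp; ring
  have hr2 : (-u - d * x) / x = -(u / x + d) := by field_simp; ring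
  rcases branch_dichotomy2 hN hxu hx hpos hlt with ⟨h1, h2⟩ | ⟨h1, h2⟩
  · rw [clsXU_Bpos hx hpos hlt h1, ← qmk_neg]
    apply clsXU_B_of_add hN hxu' hx hpos hlt
    rw [hr1]; exact h1.neg
  · rw [clsXU_B_of_add hN hxu hx hpos hlt h1, ← qmk_neg, neg_neg]
    apply clsXU_Bpos hx hpos hlt
    rw [hr2]; exact h1.neg

end clsXU

section cls

variable [DecidableEq K] {W : WeierstrassCurve K} {s : K}

lemma cls2_zero : cls2 v W s 0 = 0 := rfl

lemma cls2_some {x y : K} (h : W.toAffine.Nonsingular x y) :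
    cls2 v W s (Point.some x y h) = clsXU v W.a₄ x (y - s * x) := rfl

lemma cls2_neg' (hW : NodeCurve W s) (hN : Nodal2 v (2 * s + W.a₁) W.a₄)
    (P : W.toAffine.Point) : cls2 v W s (-P) = -cls2 v W s P := by
  rcases P with _ | ⟨x, y, h⟩
  · change cls2 v W s (-0) = -cls2 v W s 0
    rw [neg_zero, cls2_zero, neg_zero]
  · rw [Point.neg_some, cls2_some, cls2_some, hW.negY_sub]
    exact clsXU_neg hN (hW.eqn h)

end cls

section T0

variable [DecidableEq K] {W : WeierstrassCurve K} {s : K}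

/-- the 2-torsion point `(0,0)` -/
noncomputable def T0 (hW : NodeCurve W s) (hb : W.a₄ ≠ 0) : W.toAffine.Point :=
  Point.some 0 0 (hW.nonsingular_origin hb)

lemma T0_add_T0 (hW : NodeCurve W s) (hb : W.a₄ ≠ 0) : T0 hW hb + T0 hW hb = 0 := by
  unfold T0
  apply Point.add_of_Y_eq rfl
  rw [hW.negY_eq]; ring

lemma add_T0 (hW : NodeCurve W s) (hb : W.a₄ ≠ 0) {x y : K} (h : W.toAffine.Nonsingular x y)
    (hx : x ≠ 0) :
    ∃ h' : W.toAffine.Nonsingular (W.a₄ / x) (-(y * W.a₄ / x ^ 2) - W.a₁ * W.a₄ / x),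
      Point.some x y h + T0 hW hb =
        Point.some (W.a₄ / x) (-(y * W.a₄ / x ^ 2) - W.a₁ * W.a₄ / x) h' := by
  have hxy : ¬(x = 0 ∧ y = W.toAffine.negY 0 0) := fun h' => hx h'.1
  have hns := nonsingular_add h (hW.nonsingular_origin hb) hxy
  have hL : W.toAffine.slope x 0 y 0 = y / x := by
    rw [slope_of_X_ne hx, sub_zero, sub_zero]
  have heq := (equation_iff _ _).mp h.1
  rw [hW.a₃, hW.a₆] at heq
  have hX : W.toAffine.addX x 0 (W.toAffine.slope x 0 y 0) = W.a₄ / x := by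
    rw [hL]
    simp only [addX]
    field_simp
    linear_combination heq
  have hY : W.toAffine.addY x 0 y (W.toAffine.slope x 0 y 0) =
      -(y * W.a₄ / x ^ 2) - W.a₁ * W.a₄ / x := by
    rw [addY, hW.negY_eq, negAddY, hX, hL]
    field_simp
    ring
  rw [hX, hY] at hns
  refine ⟨hns, ?_⟩
  unfold T0
  rw [Point.add_some hxy]
  exact Fermat.Agent.S05.some_congr hX hY

lemma cls2_T0 (hW : NodeCurve W s) (hb : W.a₄ ≠ 0) :
    cls2 v W s (T0 hW hb) = qmk (v.w W.a₄) (v.w W.a₄) := by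
  unfold T0
  rw [cls2_some, clsXU_zero]

/-- translation by `T0` shifts the class by `[w b]` -/
lemma cls2_add_T0 (hW : NodeCurve W s) (hN : Nodal2 v (2 * s + W.a₁) W.a₄)
    (P : W.toAffine.Point) :
    cls2 v W s (P + T0 hW hN.b_ne) = cls2 v W s P + qmk (v.w W.a₄) (v.w W.a₄) := by
  have hb := hN.b_ne
  rcases P with _ | ⟨x, y, h⟩
  · change cls2 v W s (0 + T0 hW hb) = cls2 v W s 0 + _
    rw [zero_add, cls2_zero, zero_add, cls2_T0]
  by_cases hx : x = 0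
  · subst hx
    have hy : y = 0 := by
      have := (equation_iff _ _).mp h.1
      rw [hW.a₃, hW.a₆] at this
      simpa using this
    subst hy
    change cls2 v W s (T0 hW hb + T0 hW hb) = cls2 v W s (T0 hW hb) + _
    rw [T0_add_T0, cls2_zero, cls2_T0, qmk_add_self]
  obtain ⟨h', hadd⟩ := add_T0 hW hb h hx
  rw [hadd, cls2_some, cls2_some]
  have hxv : v.IsVal x (v.w x) := QVal.isVal_self hx
  have hbx : v.IsVal (W.a₄ / x) (v.w W.a₄ - v.w x) := hN.b_isVal.div hxv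
  have hx' : W.a₄ / x ≠ 0 := hbx.1
  have hwx' : v.w (W.a₄ / x) = v.w W.a₄ - v.w x := hbx.2
  rcases le_or_gt (v.w x) 0 with hE | hpos
  · -- `E ↦ M`
    rw [clsXU_E _ hx hE, zero_add, clsXU_M _ hN.b_pos hx' (by rw [hwx']; linarith)]
  rcases le_or_gt (v.w W.a₄) (v.w x) with hM | hlt
  · -- `M ↦ E`
    rw [clsXU_M _ hN.b_pos hx hM, clsXU_E _ hx' (by rw [hwx']; linarith), qmk_add_self]
  -- `B ↦ B`, opposite branch
  have hpos' : 0 < v.w (W.a₄ / x) := by rw [hwx']; linarith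
  have hlt' : v.w (W.a₄ / x) < v.w W.a₄ := by rw [hwx']; linarith
  have hratio : (-(y * W.a₄ / x ^ 2) - W.a₁ * W.a₄ / x - s * (W.a₄ / x)) / (W.a₄ / x) =
      -((y - s * x) / x + (2 * s + W.a₁)) := by
    field_simp
    ring
  have heq := hW.eqn h
  have heq' := hW.eqn h'
  rcases branch_dichotomy2 hN heq hx hpos hlt with ⟨h1, h2⟩ | ⟨h1, h2⟩
  · rw [clsXU_Bpos hx hpos hlt h1]
    have hbr : ¬ v.Gt ((-(y * W.a₄ / x ^ 2) - W.a₁ * W.a₄ / x - s * (W.a₄ / x)) /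
        (W.a₄ / x)) 0 := by
      rw [hratio]
      exact fun hcon => h2.neg.not_gt hcon
    rw [clsXU_Bneg hx' hpos' hlt' hbr, hwx', ← qmk_add]
    exact qmk_eq_of_sub _ _ _ (-1) (by push_cast; ring)
  · rw [clsXU_B_of_add hN heq hx hpos hlt h1]
    have hbr : v.Gt ((-(y * W.a₄ / x ^ 2) - W.a₁ * W.a₄ / x - s * (W.a₄ / x)) /
        (W.a₄ / x)) 0 := by
      rw [hratio]
      exact h1.neg
    rw [clsXU_Bpos hx' hpos' hlt' hbr, hwx', ← qmk_add]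
    exact qmk_eq_of_sub _ _ _ 0 (by push_cast; ring)

end T0

section TripleCls

variable [DecidableEq K]

/-- two points near the node with the same valuation on opposite branches have opposite
classes -/
lemma cls2_opp (hN : Nodal2 v d b) {x₂ u₂ x₃ u₃ : K}
    (eq₂ : u₂ ^ 2 + d * u₂ * x₂ = x₂ ^ 3 + b * x₂) (eq₃ : u₃ ^ 2 + d * u₃ * x₃ = x₃ ^ 3 + b * x₃)
    (hx₂ : x₂ ≠ 0) (hx₃ : x₃ ≠ 0) (hpos : 0 < v.w x₂) (hlt : v.w x₂ < v.w b)
    (hw : v.w x₃ = v.w x₂) (hsum : v.Gt (u₂ / x₂ + u₃ / x₃ + d) 0) :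
    clsXU v b x₂ u₂ + clsXU v b x₃ u₃ = 0 := by
  have hpos' : 0 < v.w x₃ := by rw [hw]; exact hpos
  have hlt' : v.w x₃ < v.w b := by rw [hw]; exact hlt
  rcases branch_dichotomy2 hN eq₂ hx₂ hpos hlt with ⟨h1, -⟩ | ⟨h1, -⟩
  · have h3 : v.Gt (u₃ / x₃ + d) 0 := by
      have : u₃ / x₃ + d = (u₂ / x₂ + u₃ / x₃ + d) - u₂ / x₂ := by ring
      rw [this]; exact hsum.sub h1
    rw [clsXU_Bpos hx₂ hpos hlt h1, clsXU_B_of_add hN eq₃ hx₃ hpos' hlt' h3]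
    exact qmk_sum2 _ _ _ (by rw [hw]; ring)
  · have h3 : v.Gt (u₃ / x₃) 0 := by
      have : u₃ / x₃ = (u₂ / x₂ + u₃ / x₃ + d) - (u₂ / x₂ + d) := by ring
      rw [this]; exact hsum.sub h1
    rw [clsXU_B_of_add hN eq₂ hx₂ hpos hlt h1, clsXU_Bpos hx₃ hpos' hlt' h3]
    exact qmk_sum2 _ _ _ (by rw [hw]; ring)

/-- branch `-d` of a point = branch `0` of its negative -/
lemma toNeg {x u : K} (hx : x ≠ 0) (h : v.Gt (u / x + d) 0) : v.Gt ((-u - d * x) / x) 0 := by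
  have : (-u - d * x) / x = -(u / x + d) := by field_simp; ring
  rw [this]; exact h.neg

/-- branch `0` of a point = branch `-d` of its negative -/
lemma toNeg' {x u : K} (hx : x ≠ 0) (h : v.Gt (u / x) 0) : v.Gt ((-u - d * x) / x + d) 0 := by
  have : (-u - d * x) / x + d = -(u / x) := by field_simp; ring
  rw [this]; exact h.neg

/-- all three points near the node -/
lemma triple_cls2_BBB (hN : Nodal2 v d b) (T : Triple2 d b)
    (h₁ : T.x₁ ≠ 0) (p₁ : 0 < v.w T.x₁) (l₁ : v.w T.x₁ < v.w b)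
    (h₂ : T.x₂ ≠ 0) (p₂ : 0 < v.w T.x₂) (l₂ : v.w T.x₂ < v.w b)
    (h₃ : T.x₃ ≠ 0) (p₃ : 0 < v.w T.x₃) (l₃ : v.w T.x₃ < v.w b) :
    clsXU v b T.x₁ T.u₁ + clsXU v b T.x₂ T.u₂ + clsXU v b T.x₃ T.u₃ = 0 := by
  have e₁ := T.eq₁
  have e₂ := T.eq₂
  have e₃ := T.eq₃
  rcases branch_dichotomy2 hN e₁ h₁ p₁ l₁ with ⟨b₁, -⟩ | ⟨b₁, -⟩ <;>
  rcases branch_dichotomy2 hN e₂ h₂ p₂ l₂ with ⟨b₂, -⟩ | ⟨b₂, -⟩ <;>
  rcases branch_dichotomy2 hN e₃ h₃ p₃ l₃ with ⟨b₃, -⟩ | ⟨b₃, -⟩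
  · -- + + +
    have key := Triple2.branch_same hN T h₁ p₁ h₂ p₂ h₃ p₃ b₁ b₂ b₃
    rw [clsXU_Bpos h₁ p₁ l₁ b₁, clsXU_Bpos h₂ p₂ l₂ b₂, clsXU_Bpos h₃ p₃ l₃ b₃]
    exact qmk_sum3 _ _ _ _ 1 (by rw [key]; push_cast; ring)
  · -- + + -
    have key := Triple2.branch_mixed hN T h₁ p₁ h₂ p₂ h₃ p₃ b₁ b₂ b₃
    rw [clsXU_Bpos h₁ p₁ l₁ b₁, clsXU_Bpos h₂ p₂ l₂ b₂, clsXU_B_of_add hN e₃ h₃ p₃ l₃ b₃]
    exact qmk_sum3 _ _ _ _ 0 (by rw [key]; push_cast; ring)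
  · -- + - +
    have key := Triple2.branch_mixed hN T.swap₂₃ h₁ p₁ h₃ p₃ h₂ p₂ b₁ b₃ b₂
    change v.w T.x₂ = v.w T.x₁ + v.w T.x₃ at key
    rw [clsXU_Bpos h₁ p₁ l₁ b₁, clsXU_B_of_add hN e₂ h₂ p₂ l₂ b₂, clsXU_Bpos h₃ p₃ l₃ b₃]
    exact qmk_sum3 _ _ _ _ 0 (by rw [key]; push_cast; ring)
  · -- + - -
    have key := Triple2.branch_mixed hN T.neg.swap₁₃ h₃ p₃ h₂ p₂ h₁ p₁ (toNeg h₃ b₃)
      (toNeg h₂ b₂) (toNeg' h₁ b₁)
    change v.w T.x₁ = v.w T.x₃ + v.w T.x₂ at key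
    rw [clsXU_Bpos h₁ p₁ l₁ b₁, clsXU_B_of_add hN e₂ h₂ p₂ l₂ b₂,
      clsXU_B_of_add hN e₃ h₃ p₃ l₃ b₃]
    exact qmk_sum3 _ _ _ _ 0 (by rw [key]; push_cast; ring)
  · -- - + +
    have key := Triple2.branch_mixed hN T.swap₁₃ h₃ p₃ h₂ p₂ h₁ p₁ b₃ b₂ b₁
    change v.w T.x₁ = v.w T.x₃ + v.w T.x₂ at key
    rw [clsXU_B_of_add hN e₁ h₁ p₁ l₁ b₁, clsXU_Bpos h₂ p₂ l₂ b₂, clsXU_Bpos h₃ p₃ l₃ b₃]
    exact qmk_sum3 _ _ _ _ 0 (by rw [key]; push_cast; ring)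
  · -- - + -
    have key := Triple2.branch_mixed hN T.neg.swap₂₃ h₁ p₁ h₃ p₃ h₂ p₂ (toNeg h₁ b₁)
      (toNeg h₃ b₃) (toNeg' h₂ b₂)
    change v.w T.x₂ = v.w T.x₁ + v.w T.x₃ at key
    rw [clsXU_B_of_add hN e₁ h₁ p₁ l₁ b₁, clsXU_Bpos h₂ p₂ l₂ b₂,
      clsXU_B_of_add hN e₃ h₃ p₃ l₃ b₃]
    exact qmk_sum3 _ _ _ _ 0 (by rw [key]; push_cast; ring)
  · -- - - +
    have key := Triple2.branch_mixed hN T.neg h₁ p₁ h₂ p₂ h₃ p₃ (toNeg h₁ b₁) (toNeg h₂ b₂)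
      (toNeg' h₃ b₃)
    change v.w T.x₃ = v.w T.x₁ + v.w T.x₂ at key
    rw [clsXU_B_of_add hN e₁ h₁ p₁ l₁ b₁, clsXU_B_of_add hN e₂ h₂ p₂ l₂ b₂,
      clsXU_Bpos h₃ p₃ l₃ b₃]
    exact qmk_sum3 _ _ _ _ 0 (by rw [key]; push_cast; ring)
  · -- - - -
    have key := Triple2.branch_same hN T.neg h₁ p₁ h₂ p₂ h₃ p₃ (toNeg h₁ b₁) (toNeg h₂ b₂)
      (toNeg h₃ b₃)
    change v.w T.x₁ + v.w T.x₂ + v.w T.x₃ = 2 * v.w b at key
    rw [clsXU_B_of_add hN e₁ h₁ p₁ l₁ b₁, clsXU_B_of_add hN e₂ h₂ p₂ l₂ b₂,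
      clsXU_B_of_add hN e₃ h₃ p₃ l₃ b₃]
    exact qmk_sum3 _ _ _ _ (-1) (by push_cast; linarith)

/-- The classes of three collinear points, none of which is of middle type, add up to `0`. -/
lemma triple_cls2 (hN : Nodal2 v d b) (T : Triple2 d b)
    (h₁ : T.x₁ ≠ 0) (l₁ : v.w T.x₁ < v.w b)
    (h₂ : T.x₂ ≠ 0) (l₂ : v.w T.x₂ < v.w b)
    (h₃ : T.x₃ ≠ 0) (l₃ : v.w T.x₃ < v.w b) :
    clsXU v b T.x₁ T.u₁ + clsXU v b T.x₂ T.u₂ + clsXU v b T.x₃ T.u₃ = 0 := by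
  have e₁ := T.eq₁
  have e₂ := T.eq₂
  have e₃ := T.eq₃
  rcases le_or_gt (v.w T.x₁) 0 with E₁ | p₁ <;>
  rcases le_or_gt (v.w T.x₂) 0 with E₂ | p₂ <;>
  rcases le_or_gt (v.w T.x₃) 0 with E₃ | p₃
  · -- E E E
    rw [clsXU_E _ h₁ E₁, clsXU_E _ h₂ E₂, clsXU_E _ h₃ E₃]; simp
  · -- E E B : impossible
    have := (Triple2.e0_closed hN T h₁ E₁ h₂ E₂).2
    linarith
  · -- E B E : impossible
    have := (Triple2.e0_closed hN T.swap₂₃ h₁ E₁ h₃ E₃).2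
    change v.w T.x₂ ≤ 0 at this
    linarith
  · -- E B B
    obtain ⟨-, hw, hsum⟩ := Triple2.e0_add_branch hN T h₁ E₁ h₂ p₂ l₂
    rw [clsXU_E _ h₁ E₁, zero_add]
    exact cls2_opp hN e₂ e₃ h₂ h₃ p₂ l₂ hw hsum
  · -- B E E : impossible
    have := (Triple2.e0_closed hN T.swap₁₃ h₃ E₃ h₂ E₂).2
    change v.w T.x₁ ≤ 0 at this
    linarith
  · -- B E B
    obtain ⟨-, hw, hsum⟩ := Triple2.e0_add_branch hN T.swap₁₂ h₂ E₂ h₁ p₁ l₁
    change v.w T.x₃ = v.w T.x₁ at hw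
    change v.Gt (T.u₁ / T.x₁ + T.u₃ / T.x₃ + d) 0 at hsum
    rw [clsXU_E _ h₂ E₂, add_zero]
    exact cls2_opp hN e₁ e₃ h₁ h₃ p₁ l₁ hw hsum
  · -- B B E
    obtain ⟨-, hw, hsum⟩ := Triple2.e0_add_branch hN T.swap₁₃ h₃ E₃ h₂ p₂ l₂
    change v.w T.x₁ = v.w T.x₂ at hw
    change v.Gt (T.u₂ / T.x₂ + T.u₁ / T.x₁ + d) 0 at hsum
    rw [clsXU_E _ h₃ E₃, add_zero, add_comm]
    exact cls2_opp hN e₂ e₁ h₂ h₁ p₂ l₂ hw hsum
  · exact triple_cls2_BBB hN T h₁ p₁ l₁ h₂ p₂ l₂ h₃ p₃ l₃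

end TripleCls

section Points

variable [DecidableEq K] {W : WeierstrassCurve K} {s : K}

/-- not of middle type: zero, or an affine point with `x ≠ 0` and `w x < w b` -/
def NonM2 (v : QVal K) (W : WeierstrassCurve K) (P : W.toAffine.Point) : Prop :=
  P = 0 ∨ ∃ (x y : K) (h : W.toAffine.Nonsingular x y),
    P = Point.some x y h ∧ x ≠ 0 ∧ v.w x < v.w W.a₄

/-- zero, or an affine point with `x ≠ 0` and `w x ≤ 0` (the identity component) -/
def IsEZ2 (v : QVal K) (W : WeierstrassCurve K) (P : W.toAffine.Point) : Prop :=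
  P = 0 ∨ ∃ (x y : K) (h : W.toAffine.Nonsingular x y),
    P = Point.some x y h ∧ x ≠ 0 ∧ v.w x ≤ 0

lemma IsEZ2.nonM (hN : Nodal2 v (2 * s + W.a₁) W.a₄) {P : W.toAffine.Point}
    (h : IsEZ2 v W P) : NonM2 v W P := by
  rcases h with h | ⟨x, y, h, rfl, hx, hw⟩
  · exact Or.inl h
  · exact Or.inr ⟨x, y, h, rfl, hx, lt_of_le_of_lt hw hN.b_pos⟩

/-- additivity for good pairs -/
lemma good_add2 (hW : NodeCurve W s) (hN : Nodal2 v (2 * s + W.a₁) W.a₄)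
    {P Q : W.toAffine.Point}
    (hP : NonM2 v W P) (hQ : NonM2 v W Q) (hPQ : NonM2 v W (P + Q)) :
    cls2 v W s (P + Q) = cls2 v W s P + cls2 v W s Q := by
  rcases hP with rfl | ⟨x₁, y₁, h₁, rfl, hx₁, l₁⟩
  · rw [zero_add, cls2_zero, zero_add]
  rcases hQ with rfl | ⟨x₂, y₂, h₂, rfl, hx₂, l₂⟩
  · rw [add_zero, cls2_zero, add_zero]
  rcases hPQ with h0 | ⟨x₃, y₃, h₃, hsum, hx₃, l₃⟩
  · have hQ : Point.some x₂ y₂ h₂ = -Point.some x₁ y₁ h₁ := eq_neg_of_add_eq_zero_right h0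
    rw [h0, hQ, cls2_neg' hW hN, cls2_zero, add_neg_cancel]
  · have h₃' : W.toAffine.Nonsingular x₃ (W.toAffine.negY x₃ y₃) :=
      (nonsingular_neg x₃ y₃).mpr h₃
    have hR : Point.some x₁ y₁ h₁ + Point.some x₂ y₂ h₂ +
        Point.some x₃ (W.toAffine.negY x₃ y₃) h₃' = 0 := by
      rw [hsum, ← Point.neg_some h₃, add_neg_cancel]
    obtain ⟨T, t1, t2, t3, t4, t5, t6⟩ := exists_triple2 hW h₁ h₂ h₃' hR
    have key := triple_cls2 hN T (by rw [t1]; exact hx₁) (by rw [t1]; exact l₁)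
      (by rw [t3]; exact hx₂) (by rw [t3]; exact l₂) (by rw [t5]; exact hx₃)
      (by rw [t5]; exact l₃)
    rw [t1, t2, t3, t4, t5, t6, hW.negY_sub, clsXU_neg hN (hW.eqn h₃)] at key
    rw [hsum, cls2_some, cls2_some, cls2_some]
    rw [← sub_eq_add_neg, sub_eq_zero] at key
    exact key.symm

lemma nonM2_add_T0_of_not_nonM2 (hW : NodeCurve W s) (hN : Nodal2 v (2 * s + W.a₁) W.a₄)
    {P : W.toAffine.Point} (hP : ¬ NonM2 v W P) : NonM2 v W (P + T0 hW hN.b_ne) := by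
  rcases P with _ | ⟨x, y, h⟩
  · exact absurd (Or.inl rfl) hP
  by_cases hx : x = 0
  · subst hx
    have hy : y = 0 := by
      have := (equation_iff _ _).mp h.1
      rw [hW.a₃, hW.a₆] at this
      simpa using this
    subst hy
    left
    exact T0_add_T0 hW hN.b_ne
  · obtain ⟨h', hadd⟩ := add_T0 hW hN.b_ne h hx
    have hw : ¬ v.w x < v.w W.a₄ := fun hlt => hP (Or.inr ⟨x, y, h, rfl, hx, hlt⟩)
    have hbx : v.IsVal (W.a₄ / x) (v.w W.a₄ - v.w x) := hN.b_isVal.div (QVal.isVal_self hx)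
    right
    refine ⟨_, _, h', hadd, hbx.1, ?_⟩
    rw [hbx.2]
    have := hN.b_pos
    linarith

lemma isEZ2_of_nonM2_of_not_nonM2_add_T0 (hW : NodeCurve W s)
    (hN : Nodal2 v (2 * s + W.a₁) W.a₄)
    {P : W.toAffine.Point} (hP : NonM2 v W P) (hP' : ¬ NonM2 v W (P + T0 hW hN.b_ne)) :
    IsEZ2 v W P := by
  rcases hP with rfl | ⟨x, y, h, rfl, hx, hlt⟩
  · exact Or.inl rfl
  · obtain ⟨h', hadd⟩ := add_T0 hW hN.b_ne h hx
    have hbx : v.IsVal (W.a₄ / x) (v.w W.a₄ - v.w x) := hN.b_isVal.div (QVal.isVal_self hx)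
    right
    refine ⟨x, y, h, rfl, hx, ?_⟩
    by_contra hcon
    rw [not_le] at hcon
    apply hP'
    right
    refine ⟨_, _, h', hadd, hbx.1, ?_⟩
    rw [hbx.2]
    linarith

/-- the identity component is closed under addition -/
lemma isEZ2_add (hW : NodeCurve W s) (hN : Nodal2 v (2 * s + W.a₁) W.a₄)
    {P Q : W.toAffine.Point}
    (hP : IsEZ2 v W P) (hQ : IsEZ2 v W Q) : IsEZ2 v W (P + Q) := by
  rcases hP with rfl | ⟨x₁, y₁, h₁, rfl, hx₁, l₁⟩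
  · rw [zero_add]; exact hQ
  rcases hQ with rfl | ⟨x₂, y₂, h₂, rfl, hx₂, l₂⟩
  · rw [add_zero]; exact Or.inr ⟨x₁, y₁, h₁, rfl, hx₁, l₁⟩
  rcases hsum : Point.some x₁ y₁ h₁ + Point.some x₂ y₂ h₂ with _ | ⟨x₃, y₃, h₃⟩
  · exact Or.inl rfl
  · have h₃' : W.toAffine.Nonsingular x₃ (W.toAffine.negY x₃ y₃) :=
      (nonsingular_neg x₃ y₃).mpr h₃
    have hR : Point.some x₁ y₁ h₁ + Point.some x₂ y₂ h₂ +
        Point.some x₃ (W.toAffine.negY x₃ y₃) h₃' = 0 := by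
      rw [hsum, ← Point.neg_some h₃, add_neg_cancel]
    obtain ⟨T, t1, t2, t3, t4, t5, t6⟩ := exists_triple2 hW h₁ h₂ h₃' hR
    have key := Triple2.e0_closed hN T (by rw [t1]; exact hx₁) (by rw [t1]; exact l₁)
      (by rw [t3]; exact hx₂) (by rw [t3]; exact l₂)
    rw [t5] at key
    exact Or.inr ⟨x₃, y₃, h₃, rfl, key.1, key.2⟩

/-- additivity when both points are not of middle type -/
lemma cls2_add_of_nonM2 (hW : NodeCurve W s) (hN : Nodal2 v (2 * s + W.a₁) W.a₄)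
    {P Q : W.toAffine.Point}
    (hP : NonM2 v W P) (hQ : NonM2 v W Q) :
    cls2 v W s (P + Q) = cls2 v W s P + cls2 v W s Q := by
  by_cases hPQ : NonM2 v W (P + Q)
  · exact good_add2 hW hN hP hQ hPQ
  have hPQt := nonM2_add_T0_of_not_nonM2 hW hN hPQ
  have hg := qmk_add_self (v.w W.a₄)
  by_cases hP' : NonM2 v W (P + T0 hW hN.b_ne)
  · have h1 := good_add2 hW hN hP' hQ (by rwa [add_right_comm])
    rw [add_right_comm, cls2_add_T0 hW hN, cls2_add_T0 hW hN] at h1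
    have h2 : cls2 v W s (P + Q) + qmk (v.w W.a₄) (v.w W.a₄) =
        (cls2 v W s P + cls2 v W s Q) + qmk (v.w W.a₄) (v.w W.a₄) := by rw [h1]; abel
    exact add_right_cancel h2
  have hPE := isEZ2_of_nonM2_of_not_nonM2_add_T0 hW hN hP hP'
  by_cases hQ' : NonM2 v W (Q + T0 hW hN.b_ne)
  · have h1 := good_add2 hW hN hP hQ' (by rwa [← add_assoc])
    rw [← add_assoc, cls2_add_T0 hW hN, cls2_add_T0 hW hN] at h1
    have h2 : cls2 v W s (P + Q) + qmk (v.w W.a₄) (v.w W.a₄) =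
        (cls2 v W s P + cls2 v W s Q) + qmk (v.w W.a₄) (v.w W.a₄) := by rw [h1]; abel
    exact add_right_cancel h2
  have hQE := isEZ2_of_nonM2_of_not_nonM2_add_T0 hW hN hQ hQ'
  exact absurd ((isEZ2_add hW hN hPE hQE).nonM hN) hPQ

end Points

end H64

section Main

variable {K : Type*} [Field K] [DecidableEq K] {v : QVal K} {W : WeierstrassCurve K} {s : K}

open H64 in
/-- EC' : the component class is additive -/
theorem cls2_add (hW : NodeCurve W s) (hN : Nodal2 v (2 * s + W.a₁) W.a₄)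
    (P Q : W.toAffine.Point) :
    cls2 v W s (P + Q) = cls2 v W s P + cls2 v W s Q := by
  have hg := qmk_add_self (v.w W.a₄)
  have ht := T0_add_T0 hW hN.b_ne
  by_cases hP : NonM2 v W P <;> by_cases hQ : NonM2 v W Q
  · exact cls2_add_of_nonM2 hW hN hP hQ
  · have hQ' := nonM2_add_T0_of_not_nonM2 hW hN hQ
    have h1 := cls2_add_of_nonM2 hW hN hP hQ'
    rw [← add_assoc, cls2_add_T0 hW hN, cls2_add_T0 hW hN, ← add_assoc] at h1
    exact add_right_cancel h1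
  · have hP' := nonM2_add_T0_of_not_nonM2 hW hN hP
    have h1 := cls2_add_of_nonM2 hW hN hP' hQ
    rw [add_right_comm, cls2_add_T0 hW hN, cls2_add_T0 hW hN, add_right_comm] at h1
    exact add_right_cancel h1
  · have hP' := nonM2_add_T0_of_not_nonM2 hW hN hP
    have hQ' := nonM2_add_T0_of_not_nonM2 hW hN hQ
    have h1 := cls2_add_of_nonM2 hW hN hP' hQ'
    have h2 : P + T0 hW hN.b_ne + (Q + T0 hW hN.b_ne) = P + Q := by
      rw [add_add_add_comm, ht, add_zero]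
    rw [h2, cls2_add_T0 hW hN, cls2_add_T0 hW hN] at h1
    rw [h1, add_add_add_comm, hg, add_zero]

/-- EC'' : the component class of the negative -/
theorem cls2_neg (hW : NodeCurve W s) (hN : Nodal2 v (2 * s + W.a₁) W.a₄)
    (P : W.toAffine.Point) : cls2 v W s (-P) = - cls2 v W s P :=
  H64.cls2_neg' hW hN P

/-- EC''' : the kernel of the component class -/
theorem cls2_some_eq_zero_iff (hN : Nodal2 v (2 * s + W.a₁) W.a₄) {x y : K}
    (h : W.toAffine.Nonsingular x y) :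
    cls2 v W s (Point.some x y h) = 0 ↔ x ≠ 0 ∧ v.w x ≤ 0 := by
  have hb := hN.b_pos
  rw [H64.cls2_some]
  by_cases hx : x = 0
  · subst hx
    rw [H64.clsXU_zero]
    constructor
    · intro h0; exact absurd h0 (H64.qmk_ne_zero_of_pos hb le_rfl)
    · intro h0; exact absurd rfl h0.1
  rcases le_or_gt (v.w x) 0 with hE | hpos
  · rw [H64.clsXU_E _ hx hE]
    exact ⟨fun _ => ⟨hx, hE⟩, fun _ => rfl⟩
  have hno : ¬ (x ≠ 0 ∧ v.w x ≤ 0) := fun h0 => absurd h0.2 (not_le.mpr hpos)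
  rcases le_or_gt (v.w W.a₄) (v.w x) with hM | hlt
  · rw [H64.clsXU_M _ hb hx hM]
    exact ⟨fun h0 => absurd h0 (H64.qmk_ne_zero_of_pos hb le_rfl), fun h0 => absurd h0 hno⟩
  by_cases hbr : v.Gt ((y - s * x) / x) 0
  · rw [H64.clsXU_Bpos hx hpos hlt hbr]
    exact ⟨fun h0 => absurd h0 (H64.qmk_ne_zero_of_pos hpos hlt.le), fun h0 => absurd h0 hno⟩
  · rw [H64.clsXU_Bneg hx hpos hlt hbr]
    exact ⟨fun h0 => absurd h0 (H64.qmk_neg_ne_zero_of_pos hpos hlt.le),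
      fun h0 => absurd h0 hno⟩

end Main

end Fermat.Agent.S13
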