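import Fermat.Agent.S13.Defs2

/-!
S13, block L2, task L2-T1p (helper47): port of the S05 lemma T1 to the split model
`u^2 + d*u*x = x^3 + b*x`, uniformly in the residue characteristic (`2` need not be a unit):
the kernel of reduction `{w x < 0}` is closed under the chord construction.
-/

namespace Fermat.Agent.S13

open Fermat.Agent.S05

variable {K : Type*} [Field K] {v : QVal K} {d b : K}

namespace H47

/-- `2` is integral -/
lemma ge_two_T1 : v.Ge (2 : K) 0 := by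
  have h := QVal.ge_natCast (v := v) 2
  simpa using h

/-- ordered version of T1': assume `w x₁ ≤ w x₂` -/
theorem kernel_closed_aux (hI : Integral2 v d b) (T : Triple2 d b)
    (h₁ : T.x₁ ≠ 0) (h₁' : v.w T.x₁ < 0) (h₂ : T.x₂ ≠ 0) (h₂' : v.w T.x₂ < 0)
    (h12 : v.w T.x₁ ≤ v.w T.x₂) :
    T.x₃ ≠ 0 ∧ v.w T.x₃ ≤ v.w T.x₂ := by
  have hx1 : v.IsVal T.x₁ (v.w T.x₁) := QVal.isVal_self h₁
  have hx2 : v.IsVal T.x₂ (v.w T.x₂) := QVal.isVal_self h₂
  have h3 : T.x₃ ≠ 0 := by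
    intro h0
    have hn : T.n = 0 := by
      have h := T.e₃
      rw [h0, mul_zero] at h
      exact (pow_eq_zero_iff two_ne_zero).mp h.symm
    have hb : T.x₁ * T.x₂ = b := by
      have h := T.e₂
      rw [h0, hn] at h
      simpa using h
    have hv : v.IsVal b (v.w T.x₁ + v.w T.x₂) :=
      ⟨fun hb0 => (hx1.mul hx2).1 (hb.trans hb0), (congrArg v.w hb).symm.trans (hx1.mul hx2).2⟩
    exact hv.not_ge_of_lt (by linarith) hI.b_int
  refine ⟨h3, ?_⟩
  by_contra hlt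
  rw [not_le] at hlt
  have hx3 : v.IsVal T.x₃ (v.w T.x₃) := QVal.isVal_self h3
  -- in `e₂` the term `x₁ x₂` is dominant
  have he2 : v.IsVal (T.x₁ * T.x₂ + T.x₁ * T.x₃ + T.x₂ * T.x₃) (v.w T.x₁ + v.w T.x₂) := by
    have h12' := hx1.mul hx2
    have h13 : v.Gt (T.x₁ * T.x₃) (v.w T.x₁ + v.w T.x₂) :=
      (hx1.mul hx3).gt_of_lt (by linarith)
    have h23 : v.Gt (T.x₂ * T.x₃) (v.w T.x₁ + v.w T.x₂) :=
      (hx2.mul hx3).gt_of_lt (by linarith)
    exact (h12'.add_gt h13).add_gt h23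
  rw [T.e₂] at he2
  -- hence `(2 l + d) n` has valuation `m₁ + m₂`
  have h2ln : v.IsVal ((2 * T.l + d) * T.n) (v.w T.x₁ + v.w T.x₂) := by
    have hb : v.Gt b (v.w T.x₁ + v.w T.x₂) := hI.b_int.gt_of_lt (by linarith)
    have h : (2 * T.l + d) * T.n = -((b - (2 * T.l + d) * T.n) - b) := by ring
    rw [h]
    exact (he2.sub_gt hb).neg
  have hld0 : 2 * T.l + d ≠ 0 := fun h => h2ln.1 (by simp [h])
  have hn0 : T.n ≠ 0 := fun h => h2ln.1 (by simp [h])
  have hwln : v.w (2 * T.l + d) + v.w T.n = v.w T.x₁ + v.w T.x₂ := by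
    have h := h2ln.2
    rw [v.map_mul _ _ hld0 hn0] at h
    exact h
  -- `e₃`
  have hwn : 2 * v.w T.n = v.w T.x₁ + v.w T.x₂ + v.w T.x₃ := by
    have h := ((hx1.mul hx2).mul hx3).2
    rw [T.e₃, QVal.w_pow hn0] at h
    push_cast at h
    linarith
  -- `2 l + d` has negative valuation `c`, so `2 l` is dominant in it
  have hc : v.w (2 * T.l + d) < 0 := by linarith
  have h2l : v.IsVal (2 * T.l) (v.w (2 * T.l + d)) := by
    have h := (QVal.isVal_self hld0).sub_gt (hI.d_int.gt_of_lt hc)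
    rwa [add_sub_cancel_right] at h
  have hl0 : T.l ≠ 0 := fun h => h2l.1 (by simp [h])
  have h20 : (2 : K) ≠ 0 := fun h => h2l.1 (by simp [h])
  have hwl : v.w T.l ≤ v.w (2 * T.l + d) := by
    have h := h2l.2
    rw [v.map_mul _ _ h20 hl0] at h
    have := (ge_two_T1 (v := v)).le_w h20
    linarith
  -- `l ^ 2 + d l = l (l + d)` is too small for `e₁`
  have hl : v.IsVal T.l (v.w T.l) := QVal.isVal_self hl0
  have hld : v.IsVal (T.l + d) (v.w T.l) := hl.add_gt (hI.d_int.gt_of_lt (by linarith))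
  have hla : v.IsVal (T.l ^ 2 + d * T.l) (v.w T.l + v.w T.l) := by
    have h : T.l ^ 2 + d * T.l = T.l * (T.l + d) := by ring
    rw [h]
    exact hl.mul hld
  rw [← T.e₁] at hla
  have hsum : v.Ge (T.x₁ + T.x₂ + T.x₃) (v.w T.x₁) :=
    (hx1.ge.add (hx2.ge_of_le h12)).add (hx3.ge_of_le (by linarith))
  exact hla.not_ge_of_lt (by linarith) hsum

end H47

/-- T1' : the kernel of reduction is closed under the chord construction. -/
theorem Triple2.kernel_closed (hI : Integral2 v d b) (T : Triple2 d b)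
    (h₁ : T.x₁ ≠ 0) (h₁' : v.w T.x₁ < 0) (h₂ : T.x₂ ≠ 0) (h₂' : v.w T.x₂ < 0) :
    T.x₃ ≠ 0 ∧ v.w T.x₃ ≤ max (v.w T.x₁) (v.w T.x₂) := by
  rcases le_total (v.w T.x₁) (v.w T.x₂) with h | h
  · have h' := H47.kernel_closed_aux hI T h₁ h₁' h₂ h₂' h
    exact ⟨h'.1, h'.2.trans (le_max_right _ _)⟩
  · have h' := H47.kernel_closed_aux hI T.swap₁₂ h₂ h₂' h₁ h₁' h
    exact ⟨h'.1, h'.2.trans (le_max_left _ _)⟩

end Fermat.Agent.S13
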