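import Fermat.Agent.S13.Defs2

/-!
S13, block L2, task L2-T2p (helper47): port of the S05 lemma T2 to the split model
`u^2 + d*u*x = x^3 + b*x`, uniformly in the residue characteristic (`2` need not be a unit).

* `H47.u_isVal`, `H47.kernel_u_isVal` : a point with `w x < 0` has `u ≠ 0`, `w u = 3/2 * w x`,
  hence `z = x / u` has valuation `- w x / 2`.
* `Triple2.kernel_z_sum` : for three collinear points of the kernel with `w x ≤ -2τ`, the
  parameters `z = x / u` satisfy `z₁ + z₂ + z₃ ≡ 0` to order `2τ`.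
-/

namespace Fermat.Agent.S13

open Fermat.Agent.S05

variable {K : Type*} [Field K] {v : QVal K} {d b : K}

namespace H47

/-- `2` is integral -/
lemma ge_two_T2 : v.Ge (2 : K) 0 := by
  have h := QVal.ge_natCast (v := v) 2
  simpa using h

/-- `u₁ u₂ u₃ = n (n² + b l²)` -/
lemma prod_u (T : Triple2 d b) :
    T.u₁ * T.u₂ * T.u₃ = T.n * (T.n ^ 2 + b * T.l ^ 2) := by
  rw [T.line₁, T.line₂, T.line₃]
  linear_combination (T.l ^ 3) * T.e₃ + (T.l ^ 2 * T.n) * T.e₂ + (T.l * T.n ^ 2) * T.e₁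

/-- `x₁ u₂ u₃ + x₂ u₁ u₃ + x₃ u₁ u₂ = n l (2 b - d n)` -/
lemma num_u (T : Triple2 d b) :
    T.x₁ * T.u₂ * T.u₃ + T.x₂ * T.u₁ * T.u₃ + T.x₃ * T.u₁ * T.u₂ =
      T.n * (T.l * (2 * b - d * T.n)) := by
  rw [T.line₁, T.line₂, T.line₃]
  linear_combination (3 * T.l ^ 2) * T.e₃ + (2 * T.l * T.n) * T.e₂ + (T.n ^ 2) * T.e₁

/-- a point with `w x < 0` on an integral curve `u^2 + d*u*x = x^3 + b*x` has
`u ≠ 0` and `w u = 3/2 * w x` -/
lemma u_isVal (hI : Integral2 v d b) {x u : K} (hx : x ≠ 0) (hx' : v.w x < 0)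
    (h : u ^ 2 + d * u * x = x ^ 3 + b * x) : v.IsVal u (3 / 2 * v.w x) := by
  have hxv : v.IsVal x (v.w x) := QVal.isVal_self hx
  have h3 : v.IsVal (x ^ 3) (3 * v.w x) := by
    have := hxv.pow 3
    simpa using this
  have h1 : v.Gt (b * x) (3 * v.w x) := by
    have h1' : v.Ge (b * x) (0 + v.w x) := hI.b_int.mul hxv.ge
    refine h1'.gt_of_lt ?_
    linarith
  have hR : v.IsVal (u * (u + d * x)) (3 * v.w x) := by
    have e : u * (u + d * x) = x ^ 3 + b * x := by rw [← h]; ring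
    rw [e]
    exact h3.add_gt h1
  have hu0 : u ≠ 0 := fun h0 => hR.1 (by simp [h0])
  have hdx : v.Ge (d * x) (v.w x) := by
    have h' : v.Ge (d * x) (0 + v.w x) := hI.d_int.mul hxv.ge
    simpa using h'
  have hu : v.IsVal u (v.w u) := QVal.isVal_self hu0
  -- `w u < w x`
  have hlt : v.w u < v.w x := by
    by_contra hge
    rw [not_lt] at hge
    have h2 : v.Ge (u * (u + d * x)) (v.w x + v.w x) :=
      (hu.ge_of_le hge).mul ((hu.ge_of_le hge).add hdx)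
    exact hR.not_ge_of_lt (by linarith) h2
  have hud : v.IsVal (u + d * x) (v.w u) := hu.add_gt (hdx.gt_of_lt hlt)
  have h2 := (hu.mul hud).unique hR
  exact ⟨hu0, by linarith⟩

/-- a point of the kernel of reduction has `u ≠ 0` and `w u = 3/2 * w x`;
in particular `z = x / u` has valuation `- w x / 2 > 0`. -/
theorem kernel_u_isVal (hI : Integral2 v d b) {x u : K} (hx : x ≠ 0) (hx' : v.w x < 0)
    (h : u ^ 2 + d * u * x = x ^ 3 + b * x) :
    v.IsVal u (3 / 2 * v.w x) ∧ v.IsVal (x / u) (- v.w x / 2) := by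
  have hu := u_isVal hI hx hx' h
  refine ⟨hu, ?_⟩
  have := (QVal.isVal_self hx).div hu
  exact this.congr (by ring)

end H47

/-- T2' : `z₁ + z₂ + z₃ ≡ 0` to order `2τ` (second order only: the formal group law of
`u^2 + d*u*x = x^3 + b*x` is `z₁ + z₂ - d z₁ z₂ + ⋯`). -/
theorem Triple2.kernel_z_sum (hI : Integral2 v d b) (T : Triple2 d b) (τ : ℚ) (hτ : 0 < τ)
    (h₁ : T.x₁ ≠ 0) (h₁' : v.w T.x₁ ≤ -2 * τ) (h₂ : T.x₂ ≠ 0) (h₂' : v.w T.x₂ ≤ -2 * τ)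
    (h₃ : T.x₃ ≠ 0) (h₃' : v.w T.x₃ ≤ -2 * τ) :
    T.u₁ ≠ 0 ∧ T.u₂ ≠ 0 ∧ T.u₃ ≠ 0 ∧
      v.Ge (T.x₁ / T.u₁ + T.x₂ / T.u₂ + T.x₃ / T.u₃) (2 * τ) := by
  have hu₁ : T.u₁ ≠ 0 := (H47.u_isVal hI h₁ (by linarith) T.eq₁).1
  have hu₂ : T.u₂ ≠ 0 := (H47.u_isVal hI h₂ (by linarith) T.eq₂).1
  have hu₃ : T.u₃ ≠ 0 := (H47.u_isVal hI h₃ (by linarith) T.eq₃).1
  refine ⟨hu₁, hu₂, hu₃, ?_⟩
  set S : ℚ := v.w T.x₁ + v.w T.x₂ + v.w T.x₃ with hS
  -- `μ` : a common lower bound with `(μ - S)/2 ≥ 2τ`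
  obtain ⟨μ, hμ1, hμ2, hμ3, hμS⟩ : ∃ μ : ℚ, μ ≤ v.w T.x₁ ∧ μ ≤ v.w T.x₂ ∧ μ ≤ v.w T.x₃ ∧
      S + 4 * τ ≤ μ := by
    refine ⟨min (v.w T.x₁) (min (v.w T.x₂) (v.w T.x₃)), min_le_left _ _,
      (min_le_right _ _).trans (min_le_left _ _), (min_le_right _ _).trans (min_le_right _ _), ?_⟩
    rw [le_min_iff, le_min_iff, hS]
    refine ⟨by linarith, by linarith, by linarith⟩
  have hμ0 : μ < 0 := by linarith
  have hSμ : S < μ := by linarith
  have hx₁ : v.IsVal T.x₁ (v.w T.x₁) := QVal.isVal_self h₁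
  have hx₂ : v.IsVal T.x₂ (v.w T.x₂) := QVal.isVal_self h₂
  have hx₃ : v.IsVal T.x₃ (v.w T.x₃) := QVal.isVal_self h₃
  -- n
  have hn2 : v.IsVal (T.n ^ 2) S := by
    rw [← T.e₃]
    exact (hx₁.mul hx₂).mul hx₃
  have hn : v.IsVal T.n (S / 2) := hn2.of_sq
  have hn0 : T.n ≠ 0 := hn.1
  -- l
  have hl : v.Ge T.l (μ / 2) := by
    rcases QVal.ge_or_isVal_lt (v := v) T.l (μ / 2) with h | ⟨hl0, hlt⟩
    · exact h
    · exfalso
      have hlv : v.IsVal T.l (v.w T.l) := QVal.isVal_self hl0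
      have hld : v.IsVal (T.l + d) (v.w T.l) :=
        hlv.add_gt (hI.d_int.gt_of_lt (by linarith))
      have hla : v.IsVal (T.l ^ 2 + d * T.l) (v.w T.l + v.w T.l) := by
        have h : T.l ^ 2 + d * T.l = T.l * (T.l + d) := by ring
        rw [h]
        exact hlv.mul hld
      rw [← T.e₁] at hla
      have hsum : v.Ge (T.x₁ + T.x₂ + T.x₃) μ :=
        ((hx₁.ge_of_le hμ1).add (hx₂.ge_of_le hμ2)).add (hx₃.ge_of_le hμ3)
      exact hla.not_ge_of_lt (by linarith) hsum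
  -- denominator
  have hbl2 : v.Gt (b * T.l ^ 2) S := by
    have h : v.Ge (b * T.l ^ 2) (0 + (2 : ℕ) * (μ / 2)) := hI.b_int.mul (hl.pow 2)
    refine h.gt_of_lt ?_
    push_cast
    linarith
  have hD : v.IsVal (T.n ^ 2 + b * T.l ^ 2) S := hn2.add_gt hbl2
  have hD0 : T.n ^ 2 + b * T.l ^ 2 ≠ 0 := hD.1
  -- numerator
  have hNum : v.Ge (T.l * (2 * b - d * T.n)) (μ / 2 + S / 2) := by
    have h1 : v.Ge (2 * b) (S / 2) := by
      have h := (H47.ge_two_T2 (v := v)).mul hI.b_int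
      exact h.mono (by linarith)
    have h2 : v.Ge (d * T.n) (S / 2) := by
      have h := hI.d_int.mul hn.ge
      exact h.mono (by linarith)
    exact hl.mul (h1.sub h2)
  -- the identity
  have key : T.x₁ / T.u₁ + T.x₂ / T.u₂ + T.x₃ / T.u₃ =
      (T.l * (2 * b - d * T.n)) / (T.n ^ 2 + b * T.l ^ 2) := by
    rw [div_add_div _ _ hu₁ hu₂, div_add_div _ _ (mul_ne_zero hu₁ hu₂) hu₃,
      div_eq_div_iff (mul_ne_zero (mul_ne_zero hu₁ hu₂) hu₃) hD0]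
    have hP := H47.num_u T
    have hQ := H47.prod_u T
    linear_combination (T.n ^ 2 + b * T.l ^ 2) * hP
      - (T.l * (2 * b - d * T.n)) * hQ
  rw [key]
  by_cases hN0 : T.l * (2 * b - d * T.n) = 0
  · rw [hN0, zero_div]
    exact QVal.ge_zero'
  · refine Or.inr ?_
    rw [QVal.w_div hN0 hD0, hD.2]
    have := hNum.le_w hN0
    linarith

end Fermat.Agent.S13
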