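import Fermat.Agent.S13.Kernel2_helper4
import Fermat.Agent.S13.T1_helper47
import Fermat.Agent.S13.T2_helper47
import Fermat.Agent.S13.A1p_helper64

/-!
S13, block L2, task ED' (helper4): the kernel of reduction `{w x < 0}` of a nodal curve in
split coordinates has no torsion of order prime to the residue characteristic.  This is the
exact interface statement `kernel_no_torsion2`; the proof is `H04.kernel_nsmul_ne_zero2_aux`
(file `Kernel2_helper4.lean`) fed with T1' (`Triple2.kernel_closed`), T2'
(`Triple2.kernel_z_sum`) and A1' (`exists_triple2`).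
-/

set_option autoImplicit false

namespace Fermat.Agent.S13

open Fermat.Agent.S05 WeierstrassCurve WeierstrassCurve.Affine

variable {K : Type*} [Field K] [DecidableEq K] {v : QVal K} {W : WeierstrassCurve K} {s : K}

/-- ED' : the kernel of reduction has no torsion of order a unit -/
theorem kernel_no_torsion2 (hW : NodeCurve W s) (hI : Integral2 v (2 * s + W.a₁) W.a₄)
    {x y : K} (h : W.toAffine.Nonsingular x y) (hx : x ≠ 0) (hxw : v.w x < 0) (k : ℕ)
    (hk : v.IsVal (k : K) 0) : k • Point.some x y h ≠ 0 :=
  H04.kernel_nsmul_ne_zero2_aux hW hI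
    (fun T a b c d => Triple2.kernel_closed hI T a b c d)
    (fun T τ hτ a b c d e f => Triple2.kernel_z_sum hI T τ hτ a b c d e f)
    (fun hP₁ hP₂ hP₃ h => exists_triple2 hW hP₁ hP₂ hP₃ h)
    h hx hxw k hk

end Fermat.Agent.S13
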