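import Mathlib
import Fermat.Prelude.Def_FLTPrelim_FreyPackage

/-!
S13 (helper9): integer arithmetic of the Frey package at the prime `2`.

The Frey curve `y^2 + x y = x^3 + a₂ x^2 + a₄ x` has integral coefficients `a₂, a₄`, and
`n := v₂(a₄) = p * v₂(b) - 4` is positive and `p` is coprime to `2 n`.
-/

set_option autoImplicit false

namespace Fermat.Agent.S13.H09

/-- `2 ∣ b`. -/
theorem two_dvd_b (P : FreyPackage) : (2 : ℤ) ∣ P.b :=
  (ZMod.intCast_zmod_eq_zero_iff_dvd P.b 2).1 P.hb2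

/-- `4 ∣ a + 1`. -/
theorem four_dvd_a_add_one (P : FreyPackage) : (4 : ℤ) ∣ P.a + 1 := by
  have h : ((P.a + 1 : ℤ) : ZMod 4) = 0 := by
    push_cast
    rw [P.ha4]
    decide
  exact (ZMod.intCast_zmod_eq_zero_iff_dvd (P.a + 1) 4).1 h

/-- `a` is odd. -/
theorem not_two_dvd_a (P : FreyPackage) : ¬ (2 : ℤ) ∣ P.a := by
  intro h
  have h4 := four_dvd_a_add_one P
  omega

/-- `c` is odd. -/
theorem not_two_dvd_c (P : FreyPackage) : ¬ (2 : ℤ) ∣ P.c := by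
  intro h
  have hb := two_dvd_b P
  have hb' : (2 : ℤ) ∣ P.b ^ P.p := dvd_pow hb P.hp0
  have hc' : (2 : ℤ) ∣ P.c ^ P.p := dvd_pow h P.hp0
  have ha' : (2 : ℤ) ∣ P.a ^ P.p := by
    have := P.hFLT
    have h3 : P.a ^ P.p = P.c ^ P.p - P.b ^ P.p := by linarith
    rw [h3]
    exact dvd_sub hc' hb'
  exact not_two_dvd_a P (Int.prime_two.dvd_of_dvd_pow ha')

/-- `4 ∣ a ^ p + 1`. -/
theorem four_dvd_a_pow_add_one (P : FreyPackage) : (4 : ℤ) ∣ P.a ^ P.p + 1 := by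
  have h := Odd.add_dvd_pow_add_pow P.a 1 P.hp_odd
  rw [one_pow] at h
  exact (four_dvd_a_add_one P).trans h

/-- `2 ^ p ∣ b ^ p`. -/
theorem two_pow_dvd_b_pow (P : FreyPackage) : (2 : ℤ) ^ P.p ∣ P.b ^ P.p :=
  pow_dvd_pow_of_dvd (two_dvd_b P) _

/-- `32 ∣ b ^ p`. -/
theorem thirtytwo_dvd_b_pow (P : FreyPackage) : (32 : ℤ) ∣ P.b ^ P.p := by
  have h : (2 : ℤ) ^ 5 ∣ (2 : ℤ) ^ P.p := pow_dvd_pow 2 P.hp5
  have := h.trans (two_pow_dvd_b_pow P)
  norm_num at this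
  exact this

/-- `4 ∣ b ^ p - 1 - a ^ p`. -/
theorem four_dvd_num_a2 (P : FreyPackage) : (4 : ℤ) ∣ P.b ^ P.p - 1 - P.a ^ P.p := by
  have h1 := four_dvd_a_pow_add_one P
  have h2 : (4 : ℤ) ∣ P.b ^ P.p := (by norm_num : (4 : ℤ) ∣ 32).trans (thirtytwo_dvd_b_pow P)
  have : P.b ^ P.p - 1 - P.a ^ P.p = P.b ^ P.p - (P.a ^ P.p + 1) := by ring
  rw [this]
  exact dvd_sub h2 h1

/-- `16 ∣ a ^ p * b ^ p`. -/
theorem sixteen_dvd_num_a4 (P : FreyPackage) : (16 : ℤ) ∣ P.a ^ P.p * P.b ^ P.p :=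
  Dvd.dvd.mul_left ((by norm_num : (16 : ℤ) ∣ 32).trans (thirtytwo_dvd_b_pow P)) _

/-- The `2`-adic valuation of `b` is positive. -/
theorem padicValInt_two_b_pos (P : FreyPackage) : 0 < padicValInt 2 P.b := by
  have : Fact (Nat.Prime 2) := ⟨Nat.prime_two⟩
  have h := (padicValInt_dvd_iff (p := 2) 1 P.b).1 (by simpa using two_dvd_b P)
  rcases h with h | h
  · exact absurd h P.hb0
  · exact h

/-- **Frey arithmetic at `2`.** -/
theorem frey_two (P : FreyPackage) :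
    ∃ (a2 a4 : ℤ) (n : ℕ),
      (a2 : ℚ) = P.freyCurve.a₂ ∧ (a4 : ℚ) = P.freyCurve.a₄ ∧
      4 * a2 = P.b ^ P.p - 1 - P.a ^ P.p ∧ 16 * a4 = -(P.a ^ P.p * P.b ^ P.p) ∧
      a4 ≠ 0 ∧ padicValInt 2 a4 = n ∧ 0 < n ∧ n + 4 = P.p * padicValInt 2 P.b ∧
      Nat.Coprime P.p (2 * n) ∧
      P.freyCurve.a₁ = 1 ∧ P.freyCurve.a₃ = 0 ∧ P.freyCurve.a₆ = 0 := by
  have : Fact (Nat.Prime 2) := ⟨Nat.prime_two⟩
  obtain ⟨a2, ha2⟩ := four_dvd_num_a2 P
  obtain ⟨a4', ha4'⟩ := sixteen_dvd_num_a4 P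
  have hA0 : P.a ^ P.p ≠ 0 := pow_ne_zero _ P.ha0
  have hB0 : P.b ^ P.p ≠ 0 := pow_ne_zero _ P.hb0
  have ha4'0 : a4' ≠ 0 := by
    rintro rfl
    rw [mul_zero] at ha4'
    exact mul_ne_zero hA0 hB0 ha4'
  -- valuations
  have hvA : padicValInt 2 (P.a ^ P.p) = 0 := by
    apply padicValInt.eq_zero_of_not_dvd
    intro h
    exact not_two_dvd_a P (Int.prime_two.dvd_of_dvd_pow (by exact_mod_cast h))
  have hvB : padicValInt 2 (P.b ^ P.p) = P.p * padicValInt 2 P.b := by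
    simp only [padicValInt, Int.natAbs_pow, padicValNat.pow]
  have hv16 : padicValInt 2 (16 : ℤ) = 4 := by
    have h16 : (16 : ℤ) = ((2 : ℕ) : ℤ) ^ 4 := by norm_num
    rw [h16]
    simp only [padicValInt, Int.natAbs_pow, padicValNat.pow, Int.natAbs_natCast]
    simp
  have hval : 4 + padicValInt 2 a4' = P.p * padicValInt 2 P.b := by
    have h1 : padicValInt 2 (P.a ^ P.p * P.b ^ P.p) = padicValInt 2 (16 * a4') := by rw [ha4']
    rw [padicValInt.mul hA0 hB0, padicValInt.mul (by norm_num) ha4'0, hvA, hvB, hv16,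
      zero_add] at h1
    exact h1.symm
  have hbpos := padicValInt_two_b_pos P
  have hp5 := P.hp5
  have hn4 : 4 < P.p * padicValInt 2 P.b := by nlinarith
  refine ⟨a2, -a4', padicValInt 2 a4', ?_, ?_, ?_, ?_, ?_, ?_, ?_, ?_, ?_, rfl, rfl, rfl⟩
  · -- a2
    have h : ((P.b : ℚ) ^ P.p - 1 - (P.a : ℚ) ^ P.p) = 4 * (a2 : ℚ) := by exact_mod_cast ha2
    simp only [FreyPackage.freyCurve]
    rw [h]
    ring
  · -- a4
    have h : ((P.a : ℚ) ^ P.p * (P.b : ℚ) ^ P.p) = 16 * (a4' : ℚ) := by exact_mod_cast ha4'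
    simp only [FreyPackage.freyCurve]
    push_cast
    rw [neg_mul, h]
    ring
  · rw [ha2]
  · rw [ha4']; ring
  · exact neg_ne_zero.mpr ha4'0
  · simp [padicValInt]
  · omega
  · omega
  · -- coprimality
    have hpp := P.pp
    rw [Nat.coprime_comm]
    apply Nat.Coprime.mul_left
    · rw [Nat.coprime_comm, Nat.Prime.coprime_iff_not_dvd hpp]
      intro h2
      have := Nat.le_of_dvd (by norm_num) h2
      omega
    · rw [Nat.coprime_comm, Nat.Prime.coprime_iff_not_dvd hpp]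
      intro hdvd
      have h4 : P.p ∣ 4 := by
        have h5 : P.p ∣ padicValInt 2 a4' + 4 := by
          rw [show padicValInt 2 a4' + 4 = P.p * padicValInt 2 P.b by omega]
          exact dvd_mul_right _ _
        exact (Nat.dvd_add_right hdvd).mp h5
      have := Nat.le_of_dvd (by norm_num) h4
      omega

end Fermat.Agent.S13.H09
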