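import Fermat.Agent.S13.W2a_helper8
import Fermat.Agent.S13.Frey2_helper9

/-!
S13, block L2, task L2-W2a (owner: helper8): the top-level statement (L2a) from the generic
statement `GU` alone (the arithmetic of the Frey curve at `2` is `H09.frey_two`).
-/

set_option autoImplicit false

namespace Fermat.Agent.S13.H08

open Fermat.Agent.S05 WeierstrassCurve WeierstrassCurve.Affine

local notation "Qb" => AlgebraicClosure ℚ

theorem stmtF2 : StmtF2 := by
  intro P
  obtain ⟨a2, a4, n, ha2, ha4, -, -, ha40, hval, hnpos, -⟩ := H09.frey_two P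
  exact ⟨a2, a4, ha2, ha4, ha40, hval ▸ hnpos⟩

/-- **(L2a)** from `GU`: inertia at `2` acts unipotently on the `p`-torsion of the Frey curve. -/
theorem frey_inertia_two_unipotent_of_GU (hGU : StmtGU)
    (P : FreyPackage) (A : ValuationSubring Qb) (hA : A.LiesOverPrime 2)
    (σ : Qb ≃ₐ[ℚ] Qb) (hσ : σ ∈ A.inertiaSubgroupIn ℚ)
    (x : Submodule.torsionBy ℤ (P.freyCurve⁄(AlgebraicClosure ℚ)).Point P.p) :
    σ • (σ • x - x) = σ • x - x :=
  frey_inertia_two_unipotent_of hGU stmtF2 P A hA σ hσ x

end Fermat.Agent.S13.H08
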