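import Fermat.Agent.S13.Defs2

/-!
S13, block L2, task L2-Np (helper95): an integral point of `U^2 + d U X = X^3 + b X`
(nodal situation) whose abscissa is a unit has integral `u` and nonsingular reduction.
-/

namespace Fermat.Agent.S13

open Fermat.Agent.S05

variable {K : Type*} [Field K] {v : QVal K} {d b : K}

/-- N' : an integral point with `x` a unit has nonsingular reduction -/
theorem nonsingular_of_unit_x (hN : Nodal2 v d b) {x u : K}
    (h : u ^ 2 + d * u * x = x ^ 3 + b * x) (hx : v.IsVal x 0) :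
    v.Ge u 0 ∧ (v.IsVal (2 * u + d * x) 0 ∨ v.IsVal (d * u - 3 * x ^ 2 - b) 0) := by
  have hb : v.Gt b 0 := hN.b_gt
  have hd := hN.d_unit
  have h2 : v.Ge (2 : K) 0 := by simpa using QVal.ge_natCast (v := v) 2
  have h3 : v.Ge (3 : K) 0 := by simpa using QVal.ge_natCast (v := v) 3
  have hbx : v.Gt (b * x) 0 := by simpa using hb.mul_ge hx.ge
  -- the right-hand side is a unit
  have hR : v.IsVal (x ^ 3 + b * x) 0 := by
    have hx3 : v.IsVal (x ^ 3) 0 := by simpa using hx.pow 3
    exact hx3.add_gt hbx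
  have hu : v.Ge u 0 := by
    rcases QVal.ge_or_isVal_lt (v := v) u 0 with hu | ⟨hu0, hult⟩
    · exact hu
    · exfalso
      have hu2 : v.IsVal (u ^ 2) (2 * v.w u) := by
        simpa using (QVal.isVal_self (v := v) hu0).pow 2
      have hdux : v.IsVal (d * u * x) (v.w u) := by
        simpa using (hd.mul (QVal.isVal_self (v := v) hu0)).mul hx
      have hsum : v.IsVal (u ^ 2 + d * u * x) (2 * v.w u) :=
        hu2.add_gt (hdux.gt_of_lt (by linarith))
      rw [h] at hsum
      have := hsum.unique hR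
      linarith
  refine ⟨hu, ?_⟩
  have hid : u * (2 * u + d * x) + x * (d * u - 3 * x ^ 2 - b) = -(x ^ 3) + b * x := by
    linear_combination 2 * h
  have hR' : v.IsVal (-(x ^ 3) + b * x) 0 := by
    have hx3 : v.IsVal (-(x ^ 3)) 0 := by simpa using (hx.pow 3).neg
    exact hx3.add_gt hbx
  have hA : v.Ge (2 * u + d * x) 0 := by
    have h1 : v.Ge (2 * u) 0 := by simpa using h2.mul hu
    have h1' : v.Ge (d * x) 0 := by simpa using hd.ge.mul hx.ge
    exact h1.add h1'
  have hB : v.Ge (d * u - 3 * x ^ 2 - b) 0 := by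
    have h1 : v.Ge (d * u) 0 := by simpa using hd.ge.mul hu
    have h1' : v.Ge (3 * x ^ 2) 0 := by simpa using h3.mul (hx.ge.pow 2)
    exact (h1.sub h1').sub hb.ge
  by_contra hcon
  rw [not_or] at hcon
  have hA' : v.Gt (2 * u + d * x) 0 := by
    rcases QVal.gt_or_isVal_le (v := v) (2 * u + d * x) 0 with h1 | ⟨h0, hle⟩
    · exact h1
    · exact absurd ⟨h0, le_antisymm hle (hA.le_w h0)⟩ hcon.1
  have hB' : v.Gt (d * u - 3 * x ^ 2 - b) 0 := by
    rcases QVal.gt_or_isVal_le (v := v) (d * u - 3 * x ^ 2 - b) 0 with h1 | ⟨h0, hle⟩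
    · exact h1
    · exact absurd ⟨h0, le_antisymm hle (hB.le_w h0)⟩ hcon.2
  have hsum : v.Gt (u * (2 * u + d * x) + x * (d * u - 3 * x ^ 2 - b)) 0 := by
    have h1 : v.Gt (u * (2 * u + d * x)) 0 := by simpa using hu.mul_gt hA'
    have h1' : v.Gt (x * (d * u - 3 * x ^ 2 - b)) 0 := by simpa using hx.ge.mul_gt hB'
    exact h1.add h1'
  rw [hid] at hsum
  exact hR'.not_gt hsum

end Fermat.Agent.S13
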