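import Fermat.Agent.S13.Unip2_helper8
import Fermat.Agent.S13.L2a_helper8
import Fermat.Agent.S13.Cls2_helper64
import Fermat.Agent.S13.ED2_helper4
import Fermat.Agent.S13.Close2_helper18
import Fermat.Agent.S13.Nonsing_helper95

/-!
S13, block L2 (owner of this file: helper8): the generic statement GU (`inertia_unipotent2`,
exact `Spec2adic` statement) and the closed top-level statement (L2a)
`frey_inertia_two_unipotent`.
-/

set_option autoImplicit false

namespace Fermat.Agent.S13.H08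

open Fermat.Agent.S05 WeierstrassCurve WeierstrassCurve.Affine

section

variable {K : Type*} [Field K] {v : QVal K} [DecidableEq K] {W : WeierstrassCurve K} {s : K}

/-- GU (generic L2a) : inertia acts unipotently on torsion prime to the residue
characteristic (multiplicative reduction, NO condition on `w a₄`) -/
theorem inertia_unipotent2 (hW : NodeCurve W s) (hN : Nodal2 v (2 * s + W.a₁) W.a₄)
    (σ : K →+* K) (_hσ₁ : σ W.a₁ = W.a₁) (_hσ₂ : σ W.a₂ = W.a₂) (_hσ₄ : σ W.a₄ = W.a₄)
    (hσs : σ s = s)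
    (hσw : ∀ x, v.w (σ x) = v.w x) (hσ : ∀ x, v.Ge x 0 → v.Gt (σ x - x) 0)
    (Φ : W.toAffine.Point →+ W.toAffine.Point)
    (hΦ : ∀ (x y : K) (h : W.toAffine.Nonsingular x y),
      ∃ h' : W.toAffine.Nonsingular (σ x) (σ y), Φ (Point.some x y h) = Point.some (σ x) (σ y) h')
    (p : ℕ) (hp : v.IsVal (p : K) 0) (P : W.toAffine.Point) (hP : p • P = 0) :
    Φ (Φ P - P) = Φ P - P :=
  inertia_unipotent2_of (cls2_add hW hN) (cls2_neg hW hN)
    (fun h => cls2_some_eq_zero_iff hN h)
    (fun h hx hxw k hk => kernel_no_torsion2 hW hN.integral h hx hxw k hk)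
    (fun h₁ h₂ a b c d e => sub_mem_kernel_of_close2 hW hN.integral h₁ h₂ a b c d e)
    (fun h hx => nonsingular_of_unit_x hN h hx)
    hW σ hσs hσw hσ Φ hΦ p hp P hP

end

/-- **(L2a)**: inertia at `2` acts unipotently on the `p`-torsion of the Frey curve. -/
theorem frey_inertia_two_unipotent (P : FreyPackage)
    (A : ValuationSubring (AlgebraicClosure ℚ)) (hA : A.LiesOverPrime 2)
    (σ : AlgebraicClosure ℚ ≃ₐ[ℚ] AlgebraicClosure ℚ) (hσ : σ ∈ A.inertiaSubgroupIn ℚ)
    (x : Submodule.torsionBy ℤ (P.freyCurve⁄(AlgebraicClosure ℚ)).Point P.p) :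
    σ • (σ • x - x) = σ • x - x :=
  frey_inertia_two_unipotent_of_GU
    (fun hW hN σ h1 h2 h4 hs hw hσ Φ hΦ p hp P hP =>
      inertia_unipotent2 hW hN σ h1 h2 h4 hs hw hσ Φ hΦ p hp P hP) P A hA σ hσ x

end Fermat.Agent.S13.H08
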