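import Fermat.Agent.S13.LpMain_helper15
import Fermat.Agent.S13.Assembly_helper16

/-!
S13 block Lp, final form for helper16's assembly (helper15): the interface statement `StmtLp` of
`Assembly_helper16`, from finiteness of `E[p]` (`StmtT2`).
-/

set_option autoImplicit false

namespace Fermat.Agent.S13

/-- **(Lp)** in the shape `StmtLp` of the assembly, modulo block T. -/
theorem stmtLp_of (hT : TorsPolyStmt) (hT2 : StmtT2) : StmtLp :=
  fun P N₀ hst h0 h1 A hA =>
    frey_inertia_p_of (gaussIneq _) hT P (hT2 P).1 N₀ hst h0 h1 A hA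

/-- **(Lp)** in the shape `StmtLp` of the assembly, from finiteness of `E[p]`. -/
theorem stmtLp (hT2 : StmtT2) : StmtLp :=
  fun P N₀ hst h0 h1 A hA => frey_inertia_p P (hT2 P).1 N₀ hst h0 h1 A hA

end Fermat.Agent.S13
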