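import Mathlib
import Fermat.Prelude.Def_FLTPrelim_Ramification
import Fermat.Agent.S54.Frob

/-!
# S13, block (G): the Minkowski bridge (helper13)

Main results (namespace `Fermat.Agent.S13.H13`):

* `exists_stabilizer_correction` : abstract profinite correction step
  (uses `Ideal.Quotient.stabilizerHom_surjective_of_profinite`);
* `mem_inertiaSubgroupIn_of_center` : an automorphism stabilising the centre of a valuation
  subring `A` and acting trivially modulo it lies in `A.inertiaSubgroupIn ℚ`;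
* `exists_inertia_lift` : inertia lifting from a finite normal subextension;
* `false_of_inertia_fix` : a Galois number field `K ≠ ℚ` inside `L` is not fixed pointwise by an
  inertia group at every prime (Hermite-Minkowski via
  `NumberField.exists_not_isUnramifiedAt_int_of_isGalois`);
* `eq_top_of_inertia_le_gen`, `eq_top_of_inertia_le`, `minkowski_bridge` : a normal subgroup of
  the absolute Galois group of `ℚ` containing the fixing subgroup of a finite extension and, for
  every prime `q`, the inertia group of SOME valuation subring over `q`, is everything;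
* `monoidHom_eq_one` : the same for a character.
-/

set_option autoImplicit false

namespace Fermat.Agent.S13.H13

open scoped Pointwise
open Fermat.Agent.S54.H86

/-- Abstract correction step: a ring automorphism `f` of `B` preserving the prime `Q` and acting
trivially on the invariant subring modulo `Q` can be undone modulo `Q` by an element of the
stabiliser of `Q` in the profinite group `G'`. -/
theorem exists_stabilizer_correction {A' B G' : Type*} [CommRing A'] [CommRing B] [Algebra A' B]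
    [Group G'] [MulSemiringAction G' B] [SMulCommClass G' A' B] [TopologicalSpace G']
    [CompactSpace G'] [TotallyDisconnectedSpace G'] [IsTopologicalGroup G'] [TopologicalSpace B]
    [DiscreteTopology B] [ContinuousSMul G' B] [Algebra.IsInvariant A' B G']
    (Q : Ideal B) [Q.IsPrime] (f : B ≃+* B) (hfQ : ∀ b, b ∈ Q ↔ f b ∈ Q)
    (hf : ∀ a : A', f (algebraMap A' B a) - algebraMap A' B a ∈ Q) :
    ∃ h : G', h • Q = Q ∧ ∀ b : B, h • (f b) - b ∈ Q := by
  have hmap : Q = Q.map (f : B →+* B) := by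
    ext b
    rw [Ideal.map_comap_of_equiv (f := f), Ideal.mem_comap]
    have := hfQ (f.symm b)
    simpa using this.symm
  let φ₀ : (B ⧸ Q) ≃+* (B ⧸ Q) := Ideal.quotientEquiv Q Q f hmap
  have hφ₀ : ∀ b : B, φ₀ (Ideal.Quotient.mk Q b) = Ideal.Quotient.mk Q (f b) := fun b => rfl
  have hcomm : ∀ x : A' ⧸ Q.under A',
      φ₀ (algebraMap (A' ⧸ Q.under A') (B ⧸ Q) x) = algebraMap (A' ⧸ Q.under A') (B ⧸ Q) x := by
    intro x
    obtain ⟨a, rfl⟩ := Ideal.Quotient.mk_surjective x
    have e1 : algebraMap (A' ⧸ Q.under A') (B ⧸ Q) (Ideal.Quotient.mk _ a)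
        = Ideal.Quotient.mk Q (algebraMap A' B a) := rfl
    rw [e1, hφ₀, Ideal.Quotient.eq]
    exact hf a
  let φ : (B ⧸ Q) ≃ₐ[A' ⧸ Q.under A'] (B ⧸ Q) := AlgEquiv.ofRingEquiv (f := φ₀) hcomm
  obtain ⟨⟨h, hh⟩, hhφ⟩ := Ideal.Quotient.stabilizerHom_surjective_of_profinite
    (G := G') (Q.under A') Q φ.symm
  refine ⟨h, hh, fun b => ?_⟩
  have h1 := Ideal.Quotient.stabilizerHom_apply Q (Q.under A') G' ⟨h, hh⟩ (f b)
  rw [hhφ] at h1
  have h2 : φ.symm (Ideal.Quotient.mk Q (f b)) = Ideal.Quotient.mk Q b := by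
    rw [AlgEquiv.symm_apply_eq]
    rfl
  rw [h2] at h1
  rw [← Ideal.Quotient.eq]
  exact h1.symm

section Lift

variable {L : Type*} [Field L] [Algebra ℚ L] [IsGalois ℚ L]

/-- An automorphism stabilising the centre of `A` (a prime of the integral closure of `ℤ`)
lies in the decomposition group of `A`. -/
theorem mem_decomposition_of_smul_center (A : ValuationSubring L) {q : ℕ} (hq : q.Prime)
    (hA : (q : L) ∈ A.nonunits) (τ : L ≃ₐ[ℚ] L) (hτ : τ • center A = center A) :
    τ ∈ A.decompositionSubgroup ℚ := by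
  have hBA : ∀ b : integralClosure ℤ L, (b : L) ∈ A := fun b => mem_of_isIntegral_int A b.2
  have hval_one : ∀ (τ : L ≃ₐ[ℚ] L), τ • center A = center A →
      ∀ s : integralClosure ℤ L, (s : L) ∉ A.nonunits → A.valuation (τ (s : L)) = 1 := by
    intro τ hτ s hs
    have h1 : ((τ • s : integralClosure ℤ L) : L) ∈ A := hBA _
    have h2 : (τ • s : integralClosure ℤ L) ∉ center A := by
      rw [← hτ, Ideal.smul_mem_pointwise_smul_iff]
      exact hs
    rw [mem_center, ValuationSubring.mem_nonunits_iff] at h2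
    exact le_antisymm ((A.valuation_le_one_iff _).mpr h1) (not_lt.mp h2)
  have stab : ∀ τ : L ≃ₐ[ℚ] L, τ • center A = center A → ∀ x ∈ A, τ x ∈ A := by
    intro τ hτ x hx
    obtain ⟨s, b, hs, hsb⟩ := exists_mul_eq A hq hA hx
    have h1 : τ x * τ (s : L) = τ (b : L) := by rw [← map_mul, hsb]
    rw [← A.valuation_le_one_iff]
    have h2 : A.valuation (τ x) = A.valuation (τ (b : L)) := by
      rw [← h1, map_mul, hval_one τ hτ s hs, mul_one]
    rw [h2, A.valuation_le_one_iff]
    exact hBA (τ • b)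
  have hτinv : τ⁻¹ • center A = center A := by rw [inv_smul_eq_iff, hτ]
  rw [MulAction.mem_stabilizer_iff]
  ext x
  rw [ValuationSubring.mem_smul_pointwise_iff_exists]
  constructor
  · rintro ⟨y, hy, rfl⟩
    exact stab τ hτ y hy
  · intro hx
    exact ⟨τ⁻¹ x, stab τ⁻¹ hτinv x hx, by simp⟩

/-- An automorphism stabilising the centre of `A` and acting trivially modulo it lies in the
inertia group of `A`. -/
theorem mem_inertiaSubgroupIn_of_center (A : ValuationSubring L) {q : ℕ} (hq : q.Prime)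
    (hA : (q : L) ∈ A.nonunits) (τ : L ≃ₐ[ℚ] L) (hτ : τ • center A = center A)
    (hres : ∀ b : integralClosure ℤ L, τ (b : L) - (b : L) ∈ A.nonunits) :
    τ ∈ A.inertiaSubgroupIn ℚ := by
  have hdec := mem_decomposition_of_smul_center A hq hA τ hτ
  refine ⟨⟨τ, hdec⟩, ?_, rfl⟩
  change (⟨τ, hdec⟩ : A.decompositionSubgroup ℚ) ∈ MonoidHom.ker _
  rw [MonoidHom.mem_ker]
  ext x
  obtain ⟨a, rfl⟩ := IsLocalRing.residue_surjective x
  change (⟨τ, hdec⟩ : A.decompositionSubgroup ℚ) • (IsLocalRing.residue A a) = IsLocalRing.residue A a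
  rw [← IsLocalRing.ResidueField.residue_smul, ← sub_eq_zero, ← map_sub,
    IsLocalRing.residue_eq_zero_iff, ← ValuationSubring.coe_mem_nonunits_iff]
  obtain ⟨s, b, hs, hsb⟩ := exists_mul_eq A hq hA a.2
  have e1 : τ (a : L) * τ (s : L) = τ (b : L) := by rw [← map_mul, hsb]
  have h1 : (τ (a : L) - (a : L)) * τ (s : L)
      = (τ (b : L) - (b : L)) - (a : L) * (τ (s : L) - (s : L)) := by
    linear_combination e1 - hsb
  have h2 : (τ (a : L) - (a : L)) * τ (s : L) ∈ A.nonunits := by
    rw [h1]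
    exact sub_mem (hres b) (mul_mem_nonunits A a.2 (hres s))
  have hval : A.valuation (τ (s : L)) = 1 := by
    have h1 : ((τ • s : integralClosure ℤ L) : L) ∈ A := mem_of_isIntegral_int A (τ • s).2
    have h2 : (τ • s : integralClosure ℤ L) ∉ center A := by
      rw [← hτ, Ideal.smul_mem_pointwise_smul_iff]
      exact hs
    rw [mem_center, ValuationSubring.mem_nonunits_iff] at h2
    exact le_antisymm ((A.valuation_le_one_iff _).mpr h1) (not_lt.mp h2)
  rw [ValuationSubring.mem_nonunits_iff, map_mul, hval, mul_one] at h2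
  rw [ValuationSubring.mem_nonunits_iff]
  exact h2

/-- **Inertia lifting.** Let `F` be a finite normal subextension of `L/ℚ`, `A` a valuation subring
of `L` over `q`.  If `τ₁` acts trivially on the integral elements of `F` modulo the maximal ideal
of `A`, then some element of the inertia group of `A` agrees with `τ₁` on `F`. -/
theorem exists_inertia_lift (A : ValuationSubring L) {q : ℕ} (hq : q.Prime)
    (hA : (q : L) ∈ A.nonunits) (F : IntermediateField ℚ L) [FiniteDimensional ℚ F]
    (hF : ∀ (σ : L ≃ₐ[ℚ] L) (x : L), x ∈ F → σ x ∈ F)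
    (τ₁ : L ≃ₐ[ℚ] L)
    (hτ₁ : ∀ b : L, b ∈ F → IsIntegral ℤ b → τ₁ b - b ∈ A.nonunits) :
    ∃ τ ∈ A.inertiaSubgroupIn ℚ, ∀ x ∈ F, τ x = τ₁ x := by
  classical
  have hprime := center_isPrime A
  let _ : TopologicalSpace (integralClosure ℤ L) := ⊥
  have : DiscreteTopology (integralClosure ℤ L) := ⟨rfl⟩
  have hcont : ContinuousSMul (L ≃ₐ[ℚ] L) (integralClosure ℤ L) := continuousSMul_int
  have hclosed : IsClosed (F.fixingSubgroup : Set (L ≃ₐ[ℚ] L)) := F.fixingSubgroup_isClosed
  have : CompactSpace F.fixingSubgroup := isCompact_iff_compactSpace.mp hclosed.isCompact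
  have : ContinuousSMul F.fixingSubgroup (integralClosure ℤ L) := by
    constructor
    exact hcont.continuous_smul.comp (continuous_subtype_val.prodMap continuous_id)
  have hinv : Algebra.IsInvariant
      (FixedPoints.subalgebra ℤ (integralClosure ℤ L) F.fixingSubgroup)
      (integralClosure ℤ L) F.fixingSubgroup :=
    ⟨fun b hb => ⟨⟨b, hb⟩, rfl⟩⟩
  -- fixed integral elements lie in `F`
  have hfix : ∀ a : FixedPoints.subalgebra ℤ (integralClosure ℤ L) F.fixingSubgroup,
      ((a : integralClosure ℤ L) : L) ∈ F := by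
    intro a
    have h1 : ((a : integralClosure ℤ L) : L) ∈ IntermediateField.fixedField F.fixingSubgroup := by
      rw [IntermediateField.mem_fixedField_iff]
      intro g hg
      have := a.2 ⟨g, hg⟩
      exact congrArg Subtype.val this
    rwa [InfiniteGalois.fixedField_fixingSubgroup F] at h1
  -- key congruence: `τ₁` (and `τ₁⁻¹`) act trivially on fixed integral elements mod `center A`
  have hcong : ∀ a : FixedPoints.subalgebra ℤ (integralClosure ℤ L) F.fixingSubgroup,
      τ₁ ((a : integralClosure ℤ L) : L) - ((a : integralClosure ℤ L) : L) ∈ A.nonunits :=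
    fun a => hτ₁ _ (hfix a) (a : integralClosure ℤ L).2
  have hcong' : ∀ a : FixedPoints.subalgebra ℤ (integralClosure ℤ L) F.fixingSubgroup,
      τ₁⁻¹ ((a : integralClosure ℤ L) : L) - ((a : integralClosure ℤ L) : L) ∈ A.nonunits := by
    intro a
    have hb : τ₁⁻¹ ((a : integralClosure ℤ L) : L) ∈ F := hF _ _ (hfix a)
    have hbi : IsIntegral ℤ (τ₁⁻¹ ((a : integralClosure ℤ L) : L)) :=
      (τ₁⁻¹ • (a : integralClosure ℤ L)).2
    have := hτ₁ _ hb hbi
    have e : τ₁ (τ₁⁻¹ ((a : integralClosure ℤ L) : L)) = ((a : integralClosure ℤ L) : L) := by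
      simp
    rw [e] at this
    have h2 := neg_mem this
    rwa [neg_sub] at h2
  -- Step 1: transitivity gives `g ∈ Gal(L/F)` with `g • τ₁ • center A = center A`
  have hunder : (τ₁ • center A).under
        (FixedPoints.subalgebra ℤ (integralClosure ℤ L) F.fixingSubgroup)
      = (center A).under (FixedPoints.subalgebra ℤ (integralClosure ℤ L) F.fixingSubgroup) := by
    ext a
    rw [Ideal.under_def, Ideal.under_def, Ideal.mem_comap, Ideal.mem_comap,
      Ideal.mem_pointwise_smul_iff_inv_smul_mem, mem_center, mem_center]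
    have h1 := hcong' a
    constructor
    · intro h
      have := sub_mem h h1
      simpa using this
    · intro h
      have := add_mem h1 h
      simpa using this
  have hprime₁ : (τ₁ • center A).IsPrime := inferInstance
  obtain ⟨g, hg⟩ := Algebra.IsInvariant.exists_smul_of_under_eq_of_profinite
    (A := FixedPoints.subalgebra ℤ (integralClosure ℤ L) F.fixingSubgroup)
    (G := F.fixingSubgroup) (τ₁ • center A) (center A) hunder
  -- τ₂ := g * τ₁ stabilises the centre and agrees with τ₁ on F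
  have hτ₂ : ((g : L ≃ₐ[ℚ] L) * τ₁) • center A = center A := by
    rw [mul_smul]
    exact hg.symm
  have hτ₂F : ∀ x ∈ F, ((g : L ≃ₐ[ℚ] L) * τ₁) x = τ₁ x := by
    intro x hx
    rw [AlgEquiv.mul_apply]
    exact g.2 ⟨τ₁ x, hF τ₁ x hx⟩
  -- Step 2: the residue action of τ₂ is linear over the fixed ring, so it can be corrected
  let τ₂ : L ≃ₐ[ℚ] L := (g : L ≃ₐ[ℚ] L) * τ₁
  let f : integralClosure ℤ L ≃+* integralClosure ℤ L :=
    MulSemiringAction.toRingEquiv (L ≃ₐ[ℚ] L) (integralClosure ℤ L) τ₂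
  have hfQ : ∀ b : integralClosure ℤ L, b ∈ center A ↔ f b ∈ center A := by
    intro b
    change b ∈ center A ↔ τ₂ • b ∈ center A
    conv_rhs => rw [← hτ₂]
    exact (Ideal.smul_mem_pointwise_smul_iff).symm
  have hf : ∀ a : FixedPoints.subalgebra ℤ (integralClosure ℤ L) F.fixingSubgroup,
      f (algebraMap _ (integralClosure ℤ L) a) - algebraMap _ (integralClosure ℤ L) a
        ∈ center A := by
    intro a
    rw [mem_center]
    have h1 : ((f (a : integralClosure ℤ L) - (a : integralClosure ℤ L) : integralClosure ℤ L) : L)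
        = τ₁ ((a : integralClosure ℤ L) : L) - ((a : integralClosure ℤ L) : L) := by
      have := hτ₂F _ (hfix a)
      change τ₂ ((a : integralClosure ℤ L) : L) - _ = _
      rw [this]
    change ((f (a : integralClosure ℤ L) - (a : integralClosure ℤ L) : integralClosure ℤ L) : L)
      ∈ A.nonunits
    rw [h1]
    exact hcong a
  obtain ⟨h, hh, hhb⟩ := exists_stabilizer_correction (G' := F.fixingSubgroup)
    (A' := FixedPoints.subalgebra ℤ (integralClosure ℤ L) F.fixingSubgroup) (center A) f hfQ hf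
  -- Step 3: τ := h * τ₂
  refine ⟨(h : L ≃ₐ[ℚ] L) * τ₂, ?_, ?_⟩
  · apply mem_inertiaSubgroupIn_of_center A hq hA
    · rw [mul_smul, hτ₂]
      exact hh
    · intro b
      have := hhb b
      rw [mem_center] at this
      exact this
  · intro x hx
    rw [AlgEquiv.mul_apply]
    have h1 : τ₂ x = τ₁ x := hτ₂F x hx
    rw [h1]
    exact h.2 ⟨τ₁ x, hF τ₁ x hx⟩

end Lift

section Main

open NumberField

variable {L : Type*} [Field L] [Algebra ℚ L] [IsGalois ℚ L]

/-- Number-field core of the Minkowski bridge: a Galois number field `K ≠ ℚ` inside `L` cannot be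
fixed pointwise by an inertia group at every prime. -/
theorem false_of_inertia_fix (K : Type*) [Field K] [NumberField K] [IsGalois ℚ K] [Algebra K L]
    [IsScalarTower ℚ K L] (hrank : 1 < Module.finrank ℚ K)
    (hI : ∀ q : ℕ, q.Prime → ∃ A : ValuationSubring L, A.LiesOverPrime q ∧
      ∀ τ ∈ A.inertiaSubgroupIn ℚ, ∀ x : K, τ (algebraMap K L x) = algebraMap K L x) : False := by
  classical
  obtain ⟨q, hq, hram⟩ := NumberField.exists_not_isUnramifiedAt_int_of_isGalois
    (K := K) (𝒪 := 𝓞 K) hrank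
  obtain ⟨A, hAq, hAH⟩ := hI q hq
  have hAq' : (q : L) ∈ A.nonunits := hAq
  -- the prime of `𝓞 K` below `A`
  have hint : ∀ b : 𝓞 K, algebraMap K L (b : K) ∈ integralClosure ℤ L := fun b =>
    (NumberField.RingOfIntegers.isIntegral_coe b).map (IsScalarTower.toAlgHom ℤ K L)
  let f : 𝓞 K →+* integralClosure ℤ L :=
    ((algebraMap K L).comp (algebraMap (𝓞 K) K)).codRestrict (integralClosure ℤ L) hint
  have hprimeA := center_isPrime A
  let P₁ : Ideal (𝓞 K) := (center A).comap f
  have hP₁ : P₁.IsPrime := Ideal.comap_isPrime f (center A)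
  have hmemP₁ : ∀ b : 𝓞 K, b ∈ P₁ ↔ algebraMap K L (b : K) ∈ A.nonunits := fun b => Iff.rfl
  have hqP₁ : (q : 𝓞 K) ∈ P₁ := by
    rw [hmemP₁]
    simpa using hAq'
  have hram' := hram P₁ hP₁ hqP₁
  have hcard : Nat.card (Ideal.inertia (K ≃ₐ[ℚ] K) P₁) ≠ 1 := by
    intro h1
    apply hram'
    rw [← Ideal.ramificationIdx_eq_one_iff (R := ℤ),
      ← Ideal.ramificationIdxIn_eq_ramificationIdx (P₁.under ℤ) P₁ (K ≃ₐ[ℚ] K),
      ← Ideal.card_inertia_eq_ramificationIdxIn (G := K ≃ₐ[ℚ] K) (P₁.under ℤ) P₁]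
    exact h1
  obtain ⟨σ, hσ, hσ1⟩ : ∃ σ ∈ Ideal.inertia (K ≃ₐ[ℚ] K) P₁, σ ≠ 1 := by
    by_contra hcon
    push Not at hcon
    apply hcard
    have : Ideal.inertia (K ≃ₐ[ℚ] K) P₁ = ⊥ := (Subgroup.eq_bot_iff_forall _).mpr hcon
    rw [this]
    simp
  let τ₁ : L ≃ₐ[ℚ] L := σ.liftNormal L
  have hτ₁ : ∀ x : K, τ₁ (algebraMap K L x) = algebraMap K L (σ x) :=
    fun x => σ.liftNormal_commutes L x
  -- the image of `K` in `L`
  let F : IntermediateField ℚ L := (IsScalarTower.toAlgHom ℚ K L).fieldRange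
  have hFmem : ∀ y : L, y ∈ F ↔ ∃ x : K, algebraMap K L x = y := fun y => Iff.rfl
  have hFfin : FiniteDimensional ℚ F :=
    (AlgEquiv.ofInjectiveField (IsScalarTower.toAlgHom ℚ K L)).toLinearEquiv.finiteDimensional
  have hstable : ∀ (τ : L ≃ₐ[ℚ] L) (y : L), y ∈ F → τ y ∈ F := by
    rintro τ y ⟨x, rfl⟩
    have hsplit : ((minpoly ℚ x).map (algebraMap ℚ K)).Splits := Normal.splits inferInstance x
    have himg := Polynomial.Splits.image_rootSet hsplit (IsScalarTower.toAlgHom ℚ K L)
    have hroot : τ (algebraMap K L x) ∈ (minpoly ℚ x).rootSet L := by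
      rw [Polynomial.mem_rootSet]
      refine ⟨minpoly.ne_zero (Algebra.IsIntegral.isIntegral x), ?_⟩
      have h2 : Polynomial.aeval (algebraMap K L x) (minpoly ℚ x) = 0 := by
        rw [Polynomial.aeval_algebraMap_apply, minpoly.aeval, map_zero]
      have h3 := Polynomial.aeval_algHom_apply (τ : L →ₐ[ℚ] L) (algebraMap K L x) (minpoly ℚ x)
      rw [h2, map_zero] at h3
      exact h3
    rw [← himg] at hroot
    obtain ⟨x', -, hx'⟩ := hroot
    exact ⟨x', hx'⟩
  have hlift : ∀ b : L, b ∈ F → IsIntegral ℤ b → τ₁ b - b ∈ A.nonunits := by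
    rintro b ⟨x, rfl⟩ hbi
    change IsIntegral ℤ (algebraMap K L x) at hbi
    change τ₁ (algebraMap K L x) - algebraMap K L x ∈ A.nonunits
    have hxi : IsIntegral ℤ x :=
      (isIntegral_algHom_iff (IsScalarTower.toAlgHom ℤ K L) (algebraMap K L).injective).mp hbi
    obtain ⟨b', hb'⟩ : ∃ b' : 𝓞 K, (b' : K) = x := ⟨⟨x, hxi⟩, rfl⟩
    have h2 : (σ • b' - b' : 𝓞 K) ∈ P₁ := (AddSubgroup.mem_inertia.mp hσ) b'
    rw [hmemP₁] at h2
    have h3 : ((σ • b' - b' : 𝓞 K) : K) = σ x - x := by
      rw [← hb']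
      rfl
    rw [h3, map_sub, ← hτ₁] at h2
    exact h2
  obtain ⟨τ, hτI, hτF⟩ := exists_inertia_lift A hq hAq' F hstable τ₁ hlift
  apply hσ1
  ext x
  apply (algebraMap K L).injective
  have e1 : τ (algebraMap K L x) = τ₁ (algebraMap K L x) := hτF _ ⟨x, rfl⟩
  have e2 : τ (algebraMap K L x) = algebraMap K L x := hAH τ hτI x
  rw [AlgEquiv.one_apply, ← hτ₁, ← e1, e2]

/-- **Minkowski bridge.** A normal subgroup of `Gal(L/ℚ)` which contains the fixing subgroup of a
finite subextension and, for every prime `q`, the inertia group of at least one valuation subring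
over `q`, is everything. -/
theorem eq_top_of_inertia_le_gen (H : Subgroup (L ≃ₐ[ℚ] L)) [hHn : H.Normal]
    (hF : ∃ F : IntermediateField ℚ L, FiniteDimensional ℚ F ∧ F.fixingSubgroup ≤ H)
    (hI : ∀ q : ℕ, q.Prime → ∃ A : ValuationSubring L,
      A.LiesOverPrime q ∧ A.inertiaSubgroupIn ℚ ≤ H) :
    H = ⊤ := by
  classical
  obtain ⟨F, hFfin, hFH⟩ := hF
  have hopen : IsOpen (H : Set (L ≃ₐ[ℚ] L)) := Subgroup.isOpen_mono hFH F.fixingSubgroup_isOpen
  have hclosed : IsClosed (H : Set (L ≃ₐ[ℚ] L)) := Subgroup.isClosed_of_isOpen H hopen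
  have hfix : (IntermediateField.fixedField H).fixingSubgroup = H :=
    InfiniteGalois.fixingSubgroup_fixedField (⟨H, hclosed⟩ : ClosedSubgroup (L ≃ₐ[ℚ] L))
  generalize hF₁ : IntermediateField.fixedField H = F₁ at hfix
  have hle : F₁ ≤ F := by
    intro x hx
    have h1 : x ∈ IntermediateField.fixedField F.fixingSubgroup := by
      rw [IntermediateField.mem_fixedField_iff]
      intro g hg
      have hx' : x ∈ IntermediateField.fixedField H := by rw [hF₁]; exact hx
      rw [IntermediateField.mem_fixedField_iff] at hx'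
      exact hx' g (hFH hg)
    rwa [InfiniteGalois.fixedField_fixingSubgroup F] at h1
  have hfin₁ : FiniteDimensional ℚ F₁ := by
    rw [← InfiniteGalois.isOpen_iff_finite, hfix]
    exact hopen
  have hnorm : F₁.fixingSubgroup.Normal := by rw [hfix]; exact hHn
  have hgal := (InfiniteGalois.normal_iff_isGalois F₁).mp hnorm
  by_cases hbot : F₁ = ⊥
  · rw [← hfix, hbot, IntermediateField.fixingSubgroup_bot]
  exfalso
  have hrank0 : 1 < Module.finrank ℚ F₁ := by
    have h1 : Module.finrank ℚ F₁ ≠ 1 := fun h => hbot (IntermediateField.finrank_eq_one_iff.mp h)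
    have h2 : 0 < Module.finrank ℚ F₁ := Module.finrank_pos
    omega
  have ealg : (DivisionRing.toRatAlgebra : Algebra ℚ F₁) = F₁.algebra' := Subsingleton.elim _ _
  have emod : (@Algebra.toModule ℚ F₁ _ _ DivisionRing.toRatAlgebra) = F₁.module' :=
    Subsingleton.elim _ _
  have hnf : NumberField F₁ :=
    { to_charZero := inferInstance
      to_finiteDimensional := by rw [emod]; exact hfin₁ }
  have hgal' : IsGalois ℚ F₁ := by rw [ealg]; exact hgal
  have htower : IsScalarTower ℚ F₁ L := IsScalarTower.of_algebraMap_eq (fun x => by simp)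
  have hrank : 1 < @Module.finrank ℚ F₁ _ _ (@Algebra.toModule ℚ F₁ _ _ DivisionRing.toRatAlgebra) := by
    rw [emod]; exact hrank0
  refine false_of_inertia_fix (L := L) F₁ hrank ?_
  intro q hq
  obtain ⟨A, hAq, hAH⟩ := hI q hq
  refine ⟨A, hAq, fun τ hτ x => ?_⟩
  have hτH : τ ∈ F₁.fixingSubgroup := by rw [hfix]; exact hAH hτ
  exact hτH x

end Main

section Qbar

/-- **Minkowski bridge** over `AlgebraicClosure ℚ`. -/
theorem eq_top_of_inertia_le
    (H : Subgroup (AlgebraicClosure ℚ ≃ₐ[ℚ] AlgebraicClosure ℚ)) [H.Normal]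
    (hF : ∃ F : IntermediateField ℚ (AlgebraicClosure ℚ),
      FiniteDimensional ℚ F ∧ F.fixingSubgroup ≤ H)
    (hI : ∀ q : ℕ, q.Prime → ∃ A : ValuationSubring (AlgebraicClosure ℚ),
      A.LiesOverPrime q ∧ A.inertiaSubgroupIn ℚ ≤ H) :
    H = ⊤ :=
  haveI := isGalois_algebraicClosure_rat
  eq_top_of_inertia_le_gen H hF hI

/-- The Minkowski bridge in the exact shape of `Fermat.Agent.S13.StmtG` (Assembly_helper16). -/
theorem minkowski_bridge :
    ∀ H : Subgroup (AlgebraicClosure ℚ ≃ₐ[ℚ] AlgebraicClosure ℚ), H.Normal →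
      (∃ F : IntermediateField ℚ (AlgebraicClosure ℚ),
        FiniteDimensional ℚ F ∧ F.fixingSubgroup ≤ H) →
      (∀ q : ℕ, q.Prime → ∃ A : ValuationSubring (AlgebraicClosure ℚ),
        A.LiesOverPrime q ∧ A.inertiaSubgroupIn ℚ ≤ H) → H = ⊤ :=
  fun H hH hF hI => @eq_top_of_inertia_le H hH hF hI

/-- Character form: a homomorphism from the absolute Galois group of `ℚ` to a group which is
trivial on the fixing subgroup of a finite extension and on one inertia group over every prime
is trivial. -/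
theorem monoidHom_eq_one {M : Type*} [Group M]
    (χ : (AlgebraicClosure ℚ ≃ₐ[ℚ] AlgebraicClosure ℚ) →* M)
    (hF : ∃ F : IntermediateField ℚ (AlgebraicClosure ℚ),
      FiniteDimensional ℚ F ∧ ∀ σ ∈ F.fixingSubgroup, χ σ = 1)
    (hI : ∀ q : ℕ, q.Prime → ∃ A : ValuationSubring (AlgebraicClosure ℚ),
      A.LiesOverPrime q ∧ ∀ σ ∈ A.inertiaSubgroupIn ℚ, χ σ = 1)
    (σ : AlgebraicClosure ℚ ≃ₐ[ℚ] AlgebraicClosure ℚ) : χ σ = 1 := by
  have h : χ.ker = ⊤ := by
    apply eq_top_of_inertia_le
    · obtain ⟨F, hFfin, hFχ⟩ := hF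
      exact ⟨F, hFfin, fun τ hτ => MonoidHom.mem_ker.mpr (hFχ τ hτ)⟩
    · intro q hq
      obtain ⟨A, hA, hAχ⟩ := hI q hq
      exact ⟨A, hA, fun τ hτ => MonoidHom.mem_ker.mpr (hAχ τ hτ)⟩
  have : σ ∈ χ.ker := by rw [h]; trivial
  exact MonoidHom.mem_ker.mp this

end Qbar

end Fermat.Agent.S13.H13
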