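import Fermat.Agent.S13.Rat2_helper28
import Fermat.Agent.S13.Cls2_helper64
import Fermat.Agent.S13.ED2_helper4
import Fermat.Agent.S13.Close2_helper18
import Fermat.Agent.S13.Nonsing_helper95

/-!
S13, block L2 (prime 2), task GR (tasks row 127, owner: helper28): the exact interface
statement `no_rational_torsion2` (generic L2b), obtained from `H28.no_rational_torsion2_aux`
and the interface lemmas `cls2_add`, `cls2_some_eq_zero_iff` (helper64), `kernel_no_torsion2`
(helper4), `sub_mem_kernel_of_close2` (helper18), `nonsingular_of_unit_x` (helper95).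
-/

namespace Fermat.Agent.S13

open Fermat.Agent.S05 WeierstrassCurve WeierstrassCurve.Affine

variable {K : Type*} [Field K]

variable {v : QVal K}

variable [DecidableEq K] {W : WeierstrassCurve K} {s : K}

/-- GR (generic L2b) : no "rational" point of prime order `p ≥ 5` when the residue field of
the rational subfield has two elements, valuations of rational elements are integers, and
`p` is prime to `2 w(a₄)`.
`R` is the set of "rational" elements (e.g. the range of `ℚ → ℚ̄`). -/
theorem no_rational_torsion2 (hW : NodeCurve W s) (hN : Nodal2 v (2 * s + W.a₁) W.a₄)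
    (ha₁ : W.a₁ = 1) (ha₂ : v.Ge W.a₂ 0) (R : Subfield K) (hRa₂ : W.a₂ ∈ R) (hRa₄ : W.a₄ ∈ R)
    (hRZ : ∀ x ∈ R, x ≠ 0 → ∃ m : ℤ, v.w x = m)
    (hR2 : ∀ x ∈ R, v.Ge x 0 → v.Gt x 0 ∨ v.Gt (x - 1) 0)
    (p : ℕ) (hp : p.Prime) (hp5 : 5 ≤ p) (hpv : v.IsVal (p : K) 0)
    (n : ℤ) (hn : v.w W.a₄ = n) (hcop : IsCoprime (p : ℤ) (2 * n))
    {x y : K} (h : W.toAffine.Nonsingular x y) (hxR : x ∈ R) (hyR : y ∈ R)
    (hP : p • Point.some x y h = 0) : False :=
  H28.no_rational_torsion2_aux (cls2_add hW hN) (fun h => cls2_some_eq_zero_iff hN h)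
    (fun h hx hxw k hk => kernel_no_torsion2 hW hN.integral h hx hxw k hk)
    (fun h hx => nonsingular_of_unit_x hN h hx)
    (fun h₁ h₂ hx₁ hu₁ hx hu hns =>
      sub_mem_kernel_of_close2 hW hN.integral h₁ h₂ hx₁ hu₁ hx hu hns)
    hW ha₁ ha₂ R hRa₂ hRa₄ hRZ hR2 p hp hp5 hpv n hn hcop h hxR hyR hP

end Fermat.Agent.S13
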