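import Fermat.Agent.S13.Ladder_helper75

/-!
S13 helper package (helper75), point-level half: the ladder polynomials compute `x(nP)` on
`Y² = X³ + a₂ X² + a₄ X`, hence `psi a₂ a₄ m` cuts out the `(2m+1)`-torsion.
-/

set_option autoImplicit false
set_option linter.unusedSectionVars false

namespace Fermat.Agent.S13.H75

open Polynomial WeierstrassCurve WeierstrassCurve.Affine

variable {K : Type*} [Field K] [DecidableEq K] {W : WeierstrassCurve K}

/-- projective `x`-coordinate of a point: numerator -/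
def px : W.toAffine.Point → K
  | .zero => 1
  | .some x _ _ => x

/-- projective `x`-coordinate of a point: denominator -/
def pz : W.toAffine.Point → K
  | .zero => 0
  | .some _ _ _ => 1

@[simp] lemma px_zero : px (0 : W.toAffine.Point) = 1 := rfl
@[simp] lemma pz_zero : pz (0 : W.toAffine.Point) = 0 := rfl
@[simp] lemma px_some {x y : K} (h : W.toAffine.Nonsingular x y) : px (Point.some x y h) = x := rfl
@[simp] lemma pz_some {x y : K} (h : W.toAffine.Nonsingular x y) : pz (Point.some x y h) = 1 := rfl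

lemma cross_eq_zero_iff (P Q : W.toAffine.Point) :
    px P * pz Q - px Q * pz P = 0 ↔ P = Q ∨ P = -Q := by
  rcases P with _ | ⟨x₁, y₁, h₁⟩ <;> rcases Q with _ | ⟨x₂, y₂, h₂⟩
  · change px (0 : W.toAffine.Point) * pz (0 : W.toAffine.Point)
      - px (0 : W.toAffine.Point) * pz (0 : W.toAffine.Point) = 0 ↔ _
    simp
  · change px (0 : W.toAffine.Point) * pz (Point.some x₂ y₂ h₂)
      - px (Point.some x₂ y₂ h₂) * pz (0 : W.toAffine.Point) = 0
        ↔ (0 : W.toAffine.Point) = Point.some x₂ y₂ h₂ ∨ (0 : W.toAffine.Point) = -Point.some x₂ y₂ h₂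
    simp only [px_zero, pz_some, px_some, pz_zero, mul_one, mul_zero, sub_zero, one_ne_zero,
      false_iff, not_or]
    refine ⟨fun h => Point.some_ne_zero h₂ h.symm, fun h => ?_⟩
    rw [Point.neg_some] at h
    exact Point.some_ne_zero _ h.symm
  · change px (Point.some x₁ y₁ h₁) * pz (0 : W.toAffine.Point)
      - px (0 : W.toAffine.Point) * pz (Point.some x₁ y₁ h₁) = 0
        ↔ Point.some x₁ y₁ h₁ = (0 : W.toAffine.Point) ∨ Point.some x₁ y₁ h₁ = -(0 : W.toAffine.Point)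
    simp only [px_zero, pz_some, px_some, pz_zero, mul_one, mul_zero, zero_sub, neg_eq_zero,
      one_ne_zero, false_iff, not_or, neg_zero]
    exact ⟨Point.some_ne_zero h₁, Point.some_ne_zero h₁⟩
  · simp only [px_some, pz_some, mul_one]
    rw [sub_eq_zero]
    exact Point.X_eq_iff

section Leg

variable (h1 : W.a₁ = 0) (h3 : W.a₃ = 0) (h6 : W.a₆ = 0)
include h1 h3 h6

lemma leg_eqn {x y : K} (h : W.toAffine.Nonsingular x y) :
    y ^ 2 = x ^ 3 + W.a₂ * x ^ 2 + W.a₄ * x := by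
  have := (equation_iff _ _).mp h.1
  rw [h1, h3, h6] at this
  linear_combination this

omit h6 in
lemma leg_negY (x y : K) : W.toAffine.negY x y = -y := by
  simp [negY, h1, h3]

lemma leg_Δ : W.Δ = 16 * W.a₄ ^ 2 * (W.a₂ ^ 2 - 4 * W.a₄) := by
  simp only [WeierstrassCurve.Δ, WeierstrassCurve.b₂, WeierstrassCurve.b₄, WeierstrassCurve.b₆,
    WeierstrassCurve.b₈, h1, h3, h6]
  ring

lemma leg_two_ne (hΔ : W.Δ ≠ 0) : (2 : K) ≠ 0 := by
  intro h2
  apply hΔ
  rw [leg_Δ h1 h3 h6]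
  have : (16 : K) = 2 ^ 4 := by norm_num
  rw [this, h2]; ring

lemma leg_b_ne (hΔ : W.Δ ≠ 0) : W.a₄ ≠ 0 := by
  intro hb
  apply hΔ
  rw [leg_Δ h1 h3 h6, hb]; ring

lemma leg_disc_ne (hΔ : W.Δ ≠ 0) : W.a₂ ^ 2 - 4 * W.a₄ ≠ 0 := by
  intro hb
  apply hΔ
  rw [leg_Δ h1 h3 h6, hb]; ring

/-- doubling in projective `x`-coordinates -/
lemma dbl_spec (hΔ : W.Δ ≠ 0) (Q : W.toAffine.Point) :
    ∃ c : K, c ≠ 0 ∧ (px Q ^ 2 - W.a₄ * pz Q ^ 2) ^ 2 = c * px (2 • Q) ∧
      4 * px Q * pz Q * (px Q ^ 2 + W.a₂ * px Q * pz Q + W.a₄ * pz Q ^ 2) = c * pz (2 • Q) := by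
  have h2 := leg_two_ne h1 h3 h6 hΔ
  have hb := leg_b_ne h1 h3 h6 hΔ
  have hd := leg_disc_ne h1 h3 h6 hΔ
  rcases Q with _ | ⟨x, y, h⟩
  · refine ⟨1, one_ne_zero, ?_, ?_⟩
    · change (px (0 : W.toAffine.Point) ^ 2 - W.a₄ * pz (0 : W.toAffine.Point) ^ 2) ^ 2
        = 1 * px (2 • (0 : W.toAffine.Point))
      simp
    · change 4 * px (0 : W.toAffine.Point) * pz (0 : W.toAffine.Point) * _
        = 1 * pz (2 • (0 : W.toAffine.Point))
      simp
  · have he := leg_eqn h1 h3 h6 h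
    simp only [px_some, pz_some, one_pow, mul_one]
    by_cases hy : y = 0
    · have h2Q : 2 • Point.some x y h = 0 := by
        rw [two_nsmul]
        exact Point.add_self_of_Y_eq (by rw [leg_negY h1 h3, hy, neg_zero])
      rw [h2Q]
      have hx0 : x * (x ^ 2 + W.a₂ * x + W.a₄) = 0 := by
        rw [hy] at he; linear_combination -he
      refine ⟨(x ^ 2 - W.a₄) ^ 2, ?_, by simp, ?_⟩
      · apply pow_ne_zero
        intro hxb
        rcases mul_eq_zero.mp hx0 with hx | hq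
        · apply hb; rw [hx] at hxb; linear_combination -hxb
        · apply hd
          have hax : W.a₂ * x = -2 * W.a₄ := by linear_combination hq - hxb
          have : W.a₄ * (W.a₂ ^ 2 - 4 * W.a₄) = 0 := by
            linear_combination (W.a₂ * x - 2 * W.a₄) * hax - W.a₂ ^ 2 * hxb
          exact (mul_eq_zero.mp this).resolve_left hb
      · simp only [pz_zero, mul_zero]
        linear_combination 4 * hx0
    · have hyne : y ≠ W.toAffine.negY x y := by
        rw [leg_negY h1 h3]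
        intro h'
        apply hy
        have : 2 * y = 0 := by linear_combination h'
        exact (mul_eq_zero.mp this).resolve_left h2
      have h2Q : 2 • Point.some x y h
          = Point.some _ _ (nonsingular_add h h fun hxy => hyne hxy.right) := by
        rw [two_nsmul]
        exact Point.add_self_of_Y_ne hyne
      rw [h2Q]
      have h4 : (4 : K) ≠ 0 := by
        have : (4 : K) = 2 * 2 := by norm_num
        rw [this]; exact mul_ne_zero h2 h2
      refine ⟨4 * y ^ 2, mul_ne_zero h4 (pow_ne_zero 2 hy), ?_, ?_⟩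
      · simp only [px_some]
        rw [slope_of_Y_ne rfl hyne, leg_negY h1 h3, addX, h1]
        have hyy : y - -y = 2 * y := by ring
        rw [hyy]
        have h2y : 2 * y ≠ 0 := mul_ne_zero h2 hy
        field_simp
        linear_combination ((16 : K) * (W.a₂ + 2 * x)) * he
      · simp only [pz_some, mul_one]
        linear_combination (-4 : K) * he

omit h1 h3 h6 in
lemma point_cases (P : W.toAffine.Point) :
    P = 0 ∨ ∃ (x y : K) (h : W.toAffine.Nonsingular x y), P = Point.some x y h := by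
  rcases P with _ | ⟨x, y, h⟩
  · exact Or.inl rfl
  · exact Or.inr ⟨x, y, h, rfl⟩

/-- differential addition in projective `x`-coordinates -/
lemma dadd_spec (hΔ : W.Δ ≠ 0) (A B : W.toAffine.Point) {x₀ y₀ : K}
    {h₀ : W.toAffine.Nonsingular x₀ y₀} (hAB : A - B = Point.some x₀ y₀ h₀) :
    ∃ c : K, c ≠ 0 ∧
      (px A * px B - W.a₄ * pz A * pz B) ^ 2 = c * x₀ * px (A + B) ∧
      (px A * pz B - px B * pz A) ^ 2 = c * pz (A + B) := by
  rcases point_cases A with rfl | ⟨x₁, y₁, h₁, rfl⟩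
  · have hB : B = -Point.some x₀ y₀ h₀ := by
      rw [← hAB, zero_sub, neg_neg]
    subst hB
    refine ⟨1, one_ne_zero, ?_, ?_⟩
    · rw [zero_add, Point.neg_some]
      simp only [px_zero, pz_zero, px_some, pz_some]
      ring
    · rw [zero_add, Point.neg_some]
      simp only [px_zero, pz_zero, px_some, pz_some]
      ring
  rcases point_cases B with rfl | ⟨x₂, y₂, h₂, rfl⟩
  · rw [sub_zero] at hAB
    rw [add_zero, hAB]
    refine ⟨1, one_ne_zero, ?_, ?_⟩
    · simp only [px_zero, pz_zero, px_some, pz_some]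
      ring
    · simp only [px_zero, pz_zero, px_some, pz_some]
      ring
  by_cases hx : x₁ = x₂
  · rcases Point.X_eq_iff.mp hx with hAB' | hAB'
    · exfalso
      rw [hAB', sub_self] at hAB
      exact Point.some_ne_zero h₀ hAB.symm
    · obtain ⟨c, hc, e1, e2⟩ := dbl_spec h1 h3 h6 hΔ (Point.some x₁ y₁ h₁)
      have h2A : 2 • Point.some x₁ y₁ h₁ = Point.some x₀ y₀ h₀ := by
        rw [← hAB, two_nsmul]
        have : Point.some x₂ y₂ h₂ = -Point.some x₁ y₁ h₁ := by rw [hAB', neg_neg]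
        rw [this, sub_neg_eq_add]
      have hsum : Point.some x₁ y₁ h₁ + Point.some x₂ y₂ h₂ = 0 := by
        rw [hAB', neg_add_cancel]
      rw [hsum]
      rw [h2A] at e1 e2
      simp only [px_some, pz_some, px_zero, pz_zero] at e1 e2 ⊢
      refine ⟨c, hc, ?_, ?_⟩
      · subst hx
        linear_combination e1
      · subst hx
        ring
  · have hsub : Point.some x₁ y₁ h₁ - Point.some x₂ y₂ h₂
        = Point.some _ _ (nonsingular_add h₁ ((nonsingular_neg ..).mpr h₂)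
            fun hxy => hx hxy.left) := by
      rw [sub_eq_add_neg, Point.neg_some, Point.add_of_X_ne hx]
    rw [hsub] at hAB
    rw [Point.some.injEq] at hAB
    obtain ⟨hx0, -⟩ := hAB
    rw [Point.add_of_X_ne hx]
    simp only [px_some, pz_some]
    have he1 := leg_eqn h1 h3 h6 h₁
    have he2 := leg_eqn h1 h3 h6 h₂
    have hD : x₁ - x₂ ≠ 0 := sub_ne_zero.mpr hx
    rw [slope_of_X_ne hx, leg_negY h1 h3, addX, h1] at hx0
    have hx0' : x₀ * (x₁ - x₂) ^ 2
        = (y₁ + y₂) ^ 2 - (W.a₂ + x₁ + x₂) * (x₁ - x₂) ^ 2 := by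
      rw [← hx0]
      field_simp
      ring
    have hxs : W.toAffine.addX x₁ x₂ (W.toAffine.slope x₁ x₂ y₁ y₂) * (x₁ - x₂) ^ 2
        = (y₁ - y₂) ^ 2 - (W.a₂ + x₁ + x₂) * (x₁ - x₂) ^ 2 := by
      rw [slope_of_X_ne hx, addX, h1]
      field_simp
      ring
    refine ⟨(x₁ - x₂) ^ 2, pow_ne_zero 2 hD, ?_, by ring⟩
    apply mul_left_cancel₀ (pow_ne_zero 2 hD)
    linear_combination
      (-(y₁ ^ 2 - y₂ ^ 2 + (x₁ ^ 3 + W.a₂ * x₁ ^ 2 + W.a₄ * x₁)
          - (x₂ ^ 3 + W.a₂ * x₂ ^ 2 + W.a₄ * x₂)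
          - 2 * (W.a₂ + x₁ + x₂) * (x₁ - x₂) ^ 2)) * he1
      + (-(y₂ ^ 2 - y₁ ^ 2 - (x₁ ^ 3 + W.a₂ * x₁ ^ 2 + W.a₄ * x₁)
          + (x₂ ^ 3 + W.a₂ * x₂ ^ 2 + W.a₄ * x₂)
          - 2 * (W.a₂ + x₁ + x₂) * (x₁ - x₂) ^ 2)) * he2
      - (W.toAffine.addX x₁ x₂ (W.toAffine.slope x₁ x₂ y₁ y₂) * (x₁ - x₂) ^ 2) * hx0'
      - ((y₁ + y₂) ^ 2 - (W.a₂ + x₁ + x₂) * (x₁ - x₂) ^ 2) * hxs

/-- the ladder computes the projective `x`-coordinate of `n • P` -/
lemma lad_spec (hΔ : W.Δ ≠ 0) {x₀ y₀ : K} (h₀ : W.toAffine.Nonsingular x₀ y₀) (hx₀ : x₀ ≠ 0)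
    (n : ℕ) :
    ∃ c : K, c ≠ 0 ∧ (ladX W.a₂ W.a₄ n).eval x₀ = c * px (n • Point.some x₀ y₀ h₀) ∧
      (ladZ W.a₂ W.a₄ n).eval x₀ = c * pz (n • Point.some x₀ y₀ h₀) := by
  induction n using Nat.strong_induction_on with
  | _ n ih =>
    rcases Nat.even_or_odd' n with ⟨m, rfl | rfl⟩
    · rcases Nat.eq_zero_or_pos m with rfl | hm
      · refine ⟨1, one_ne_zero, ?_, ?_⟩ <;> simp
      · obtain ⟨c, hc, e1, e2⟩ := ih m (by omega)
        obtain ⟨c', hc', d1, d2⟩ := dbl_spec h1 h3 h6 hΔ (m • Point.some x₀ y₀ h₀)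
        have hmul : (2 * m) • Point.some x₀ y₀ h₀ = 2 • (m • Point.some x₀ y₀ h₀) := by
          rw [mul_nsmul']
        refine ⟨c ^ 4 * c', mul_ne_zero (pow_ne_zero 4 hc) hc', ?_, ?_⟩
        · rw [ladX_two_mul, hmul]
          simp only [eval_pow, eval_sub, eval_mul, eval_C, e1, e2]
          linear_combination c ^ 4 * d1
        · rw [ladZ_two_mul, hmul]
          simp only [eval_pow, eval_add, eval_mul, eval_C, e1, e2]
          linear_combination c ^ 4 * d2
    · rcases Nat.eq_zero_or_pos m with rfl | hm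
      · refine ⟨1, one_ne_zero, ?_, ?_⟩ <;> simp
      · obtain ⟨c₁, hc₁, e1, e2⟩ := ih m (by omega)
        obtain ⟨c₂, hc₂, f1, f2⟩ := ih (m + 1) (by omega)
        obtain ⟨c, hc, d1, d2⟩ := dadd_spec h1 h3 h6 hΔ ((m + 1) • Point.some x₀ y₀ h₀)
          (m • Point.some x₀ y₀ h₀) (h₀ := h₀) (by rw [add_nsmul, one_nsmul, add_sub_cancel_left])
        have hsum : (m + 1) • Point.some x₀ y₀ h₀ + m • Point.some x₀ y₀ h₀
            = (2 * m + 1) • Point.some x₀ y₀ h₀ := by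
          rw [← add_nsmul]; congr 1; ring
        rw [hsum] at d1 d2
        refine ⟨(c₁ * c₂) ^ 2 * c, mul_ne_zero (pow_ne_zero 2 (mul_ne_zero hc₁ hc₂)) hc, ?_, ?_⟩
        · apply mul_left_cancel₀ hx₀
          have h := congrArg (Polynomial.eval x₀) (X_mul_ladX_two_mul_add_one W.a₂ W.a₄ m)
          simp only [eval_mul, eval_X, eval_pow, theta, eval_sub, eval_C, e1, e2, f1, f2] at h
          rw [h]
          linear_combination (c₁ * c₂) ^ 2 * d1
        · rw [ladZ_two_mul_add_one, psi]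
          simp only [eval_pow, eval_sub, eval_mul, e1, e2, f1, f2]
          linear_combination (c₁ * c₂) ^ 2 * d2

/-- `psi m` cuts out the `(2m+1)`-torsion -/
theorem psi_eval_eq_zero_iff (hΔ : W.Δ ≠ 0) {x₀ y₀ : K} (h₀ : W.toAffine.Nonsingular x₀ y₀)
    (hx₀ : x₀ ≠ 0) (m : ℕ) :
    (psi W.a₂ W.a₄ m).eval x₀ = 0 ↔ (2 * m + 1) • Point.some x₀ y₀ h₀ = 0 := by
  obtain ⟨c₁, hc₁, e1, e2⟩ := lad_spec h1 h3 h6 hΔ h₀ hx₀ m
  obtain ⟨c₂, hc₂, f1, f2⟩ := lad_spec h1 h3 h6 hΔ h₀ hx₀ (m + 1)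
  have hpsi : (psi W.a₂ W.a₄ m).eval x₀
      = c₁ * c₂ * (px (m • Point.some x₀ y₀ h₀) * pz ((m + 1) • Point.some x₀ y₀ h₀)
          - px ((m + 1) • Point.some x₀ y₀ h₀) * pz (m • Point.some x₀ y₀ h₀)) := by
    rw [psi]
    simp only [eval_sub, eval_mul, e1, e2, f1, f2]
    ring
  rw [hpsi, mul_eq_zero, or_iff_right (mul_ne_zero hc₁ hc₂), cross_eq_zero_iff]
  constructor
  · rintro (h | h)
    · exfalso
      have : Point.some x₀ y₀ h₀ = 0 := by
        have h' : (m + 1) • Point.some x₀ y₀ h₀ = m • Point.some x₀ y₀ h₀ + Point.some x₀ y₀ h₀ := by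
          rw [add_nsmul, one_nsmul]
        rw [h'] at h
        exact left_eq_add.mp h
      exact Point.some_ne_zero h₀ this
    · have h' : (2 * m + 1) • Point.some x₀ y₀ h₀
          = m • Point.some x₀ y₀ h₀ + (m + 1) • Point.some x₀ y₀ h₀ := by
        rw [← add_nsmul]; congr 1; ring
      rw [h', h, neg_add_cancel]
  · intro h
    right
    have h' : (2 * m + 1) • Point.some x₀ y₀ h₀
        = m • Point.some x₀ y₀ h₀ + (m + 1) • Point.some x₀ y₀ h₀ := by
      rw [← add_nsmul]; congr 1; ring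
    rw [h'] at h
    exact eq_neg_of_add_eq_zero_left h

/-- an odd-torsion point has `x ≠ 0` (the point `(0,0)` has order 2) -/
lemma x_ne_zero_of_odd_nsmul {n : ℕ} (hn : Odd n) {x y : K} (h : W.toAffine.Nonsingular x y)
    (hP : n • Point.some x y h = 0) : x ≠ 0 := by
  rintro rfl
  have he := leg_eqn h1 h3 h6 h
  have hy : y = 0 := by
    have : y ^ 2 = 0 := by rw [he]; ring
    exact pow_eq_zero_iff (two_ne_zero) |>.mp this
  subst hy
  have h2 : 2 • Point.some (0 : K) 0 h = 0 := by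
    rw [two_nsmul]
    exact Point.add_self_of_Y_eq (by rw [leg_negY h1 h3, neg_zero])
  obtain ⟨k, rfl⟩ := hn
  rw [add_nsmul, one_nsmul, mul_comm, mul_nsmul', h2, nsmul_zero, zero_add] at hP
  exact Point.some_ne_zero h hP

end Leg

/-! ### Exports -/

/-- the torsion polynomial for odd `m`, with integer coefficients -/
noncomputable def torsPoly (a b : ℤ) (m : ℕ) : ℤ[X] := psi a b (m / 2)

lemma torsPoly_deg (a b : ℤ) {m : ℕ} (hm : Odd m) :
    2 * (torsPoly a b m).natDegree + 1 = m ^ 2 ∧ (torsPoly a b m).leadingCoeff = (m : ℤ) := by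
  obtain ⟨k, rfl⟩ := hm
  have hk : (2 * k + 1) / 2 = k := by omega
  rw [torsPoly, hk]
  obtain ⟨e1, e2⟩ := psi_deg a b k
  exact ⟨by rw [e1]; ring, e2⟩

lemma leadingCoeff_torsPoly (a b : ℤ) {m : ℕ} (hm : Odd m) :
    (torsPoly a b m).leadingCoeff = (m : ℤ) := (torsPoly_deg a b hm).2

lemma torsPoly_ne_zero (a b : ℤ) {m : ℕ} (hm : Odd m) : torsPoly a b m ≠ 0 := by
  intro h0
  have h := leadingCoeff_torsPoly a b hm
  rw [h0, leadingCoeff_zero] at h
  obtain ⟨k, rfl⟩ := hm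
  omega

lemma torsPoly_map (a b : ℤ) (m : ℕ) :
    (torsPoly a b m).map (Int.castRingHom K) = psi (a : K) (b : K) (m / 2) := by
  rw [torsPoly, psi_map]
  simp

/-- **Export for (Lp)**: the integer torsion polynomial vanishes at (and only at) the abscissas
of the nonzero `m`-torsion points, `m` odd. -/
theorem torsPoly_eval_eq_zero_iff (h1 : W.a₁ = 0) (h3 : W.a₃ = 0) (h6 : W.a₆ = 0) (hΔ : W.Δ ≠ 0)
    {a b : ℤ} (ha : W.a₂ = (a : K)) (hb : W.a₄ = (b : K)) {m : ℕ} (hm : Odd m) {x y : K}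
    (h : W.toAffine.Nonsingular x y) (hx : x ≠ 0) :
    ((torsPoly a b m).map (Int.castRingHom K)).eval x = 0 ↔ m • Point.some x y h = 0 := by
  obtain ⟨k, rfl⟩ := hm
  have hk : (2 * k + 1) / 2 = k := by omega
  rw [torsPoly_map, hk, ← ha, ← hb]
  exact psi_eval_eq_zero_iff h1 h3 h6 hΔ h hx k

/-- **Export for (Lp)**, the direction used there. -/
theorem torsPoly_eval_eq_zero (h1 : W.a₁ = 0) (h3 : W.a₃ = 0) (h6 : W.a₆ = 0) (hΔ : W.Δ ≠ 0)
    {a b : ℤ} (ha : W.a₂ = (a : K)) (hb : W.a₄ = (b : K)) {m : ℕ} (hm : Odd m) {x y : K}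
    (h : W.toAffine.Nonsingular x y) (hP : m • Point.some x y h = 0) :
    ((torsPoly a b m).map (Int.castRingHom K)).eval x = 0 :=
  (torsPoly_eval_eq_zero_iff h1 h3 h6 hΔ ha hb hm h
    (x_ne_zero_of_odd_nsmul h1 h3 h6 hm h hP)).mpr hP

/-- the discriminant is nonzero as soon as `2`, `b`, `a² - 4b` are -/
lemma leg_Δ_ne (h1 : W.a₁ = 0) (h3 : W.a₃ = 0) (h6 : W.a₆ = 0) (h2 : (2 : K) ≠ 0)
    (hb : W.a₄ ≠ 0) (hd : W.a₂ ^ 2 - 4 * W.a₄ ≠ 0) : W.Δ ≠ 0 := by
  rw [leg_Δ h1 h3 h6]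
  have h16 : (16 : K) ≠ 0 := by
    have : (16 : K) = 2 ^ 4 := by norm_num
    rw [this]; exact pow_ne_zero 4 h2
  exact mul_ne_zero (mul_ne_zero h16 (pow_ne_zero 2 hb)) hd

/-- affine coordinates of a point -/
def coords : W.toAffine.Point → Option (K × K)
  | .zero => none
  | .some x y _ => some (x, y)

@[simp] lemma coords_zero : coords (0 : W.toAffine.Point) = none := rfl
@[simp] lemma coords_some {x y : K} (h : W.toAffine.Nonsingular x y) :
    coords (Point.some x y h) = some (x, y) := rfl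

lemma coords_injective : Function.Injective (coords (W := W)) := by
  rintro (_ | ⟨x₁, y₁, h₁⟩) (_ | ⟨x₂, y₂, h₂⟩) h
  · rfl
  · simp [coords] at h
  · simp [coords] at h
  · simp only [coords, Option.some.injEq, Prod.mk.injEq] at h
    obtain ⟨rfl, rfl⟩ := h
    rfl

section CharZero

variable [CharZero K]

/-- **Export for (T2)**: at most `n²` points of order dividing an odd `n`. -/
theorem torsion_finite_card_le (h1 : W.a₁ = 0) (h3 : W.a₃ = 0) (h6 : W.a₆ = 0) (hΔ : W.Δ ≠ 0)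
    {n : ℕ} (hn : Odd n) :
    Set.Finite {P : W.toAffine.Point | n • P = 0} ∧
      Set.ncard {P : W.toAffine.Point | n • P = 0} ≤ n ^ 2 := by
  obtain ⟨m, rfl⟩ := hn
  set ψ : K[X] := psi W.a₂ W.a₄ m with hψ
  have hψ0 : ψ ≠ 0 := by
    intro h0
    have h := (psi_deg W.a₂ W.a₄ m).2
    rw [← hψ, h0, leadingCoeff_zero] at h
    exact (Nat.cast_ne_zero (R := K)).mpr (by omega : 2 * m + 1 ≠ 0) h.symm
  set G : Finset (K × K) := ψ.roots.toFinset.biUnion fun x =>
    (nthRoots 2 (x ^ 3 + W.a₂ * x ^ 2 + W.a₄ * x)).toFinset.image fun y => (x, y) with hG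
  set F : Finset (Option (K × K)) := insert none (G.image some) with hF
  have hGcard : G.card ≤ 2 * ψ.natDegree := by
    calc G.card ≤ ∑ x ∈ ψ.roots.toFinset, 2 := by
          refine Finset.card_biUnion_le.trans (Finset.sum_le_sum fun x _ => ?_)
          exact Finset.card_image_le.trans
            ((Multiset.toFinset_card_le _).trans (card_nthRoots 2 _))
      _ = 2 * ψ.roots.toFinset.card := by simp [mul_comm]
      _ ≤ 2 * ψ.natDegree :=
          Nat.mul_le_mul_left 2 ((Multiset.toFinset_card_le _).trans (card_roots' ψ))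
  have hFcard : F.card ≤ (2 * m + 1) ^ 2 := by
    calc F.card ≤ (G.image some).card + 1 := Finset.card_insert_le _ _
      _ ≤ G.card + 1 := Nat.add_le_add_right Finset.card_image_le 1
      _ ≤ 2 * ψ.natDegree + 1 := Nat.add_le_add_right hGcard 1
      _ = (2 * m + 1) ^ 2 := by rw [hψ, (psi_deg W.a₂ W.a₄ m).1]; ring
  have hsub : coords '' {P : W.toAffine.Point | (2 * m + 1) • P = 0} ⊆ (↑F : Set (Option (K × K))) := by
    rintro _ ⟨P, hP, rfl⟩
    rcases point_cases P with rfl | ⟨x, y, h, rfl⟩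
    · simp [hF]
    · have hP' : (2 * m + 1) • Point.some x y h = 0 := hP
      have hx := x_ne_zero_of_odd_nsmul h1 h3 h6 ⟨m, rfl⟩ h hP'
      have hroot : ψ.eval x = 0 := (psi_eval_eq_zero_iff h1 h3 h6 hΔ h hx m).mpr hP'
      have hmem : (x, y) ∈ G := by
        rw [hG, Finset.mem_biUnion]
        refine ⟨x, ?_, ?_⟩
        · rw [Multiset.mem_toFinset, mem_roots hψ0]
          exact hroot
        · rw [Finset.mem_image]
          refine ⟨y, ?_, rfl⟩
          rw [Multiset.mem_toFinset, mem_nthRoots two_pos]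
          exact leg_eqn h1 h3 h6 h
      rw [coords_some, hF, Finset.coe_insert]
      right
      exact Finset.mem_coe.mpr (Finset.mem_image_of_mem some hmem)
  have hfin : (coords '' {P : W.toAffine.Point | (2 * m + 1) • P = 0}).Finite :=
    F.finite_toSet.subset hsub
  refine ⟨hfin.of_finite_image coords_injective.injOn, ?_⟩
  calc Set.ncard {P : W.toAffine.Point | (2 * m + 1) • P = 0}
      = Set.ncard (coords '' {P : W.toAffine.Point | (2 * m + 1) • P = 0}) :=
        (Set.ncard_image_of_injective _ coords_injective).symm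
    _ ≤ Set.ncard (↑F : Set (Option (K × K))) := Set.ncard_le_ncard hsub F.finite_toSet
    _ = F.card := Set.ncard_coe_finset F
    _ ≤ (2 * m + 1) ^ 2 := hFcard

/-- **Export for (T1)**: over an algebraically closed field there is a point of exact odd
order dividing `n > 1`. -/
theorem exists_torsion_point [IsAlgClosed K] (h1 : W.a₁ = 0) (h3 : W.a₃ = 0) (h6 : W.a₆ = 0)
    (hΔ : W.Δ ≠ 0) {n : ℕ} (hn : Odd n) (hn1 : 1 < n) :
    ∃ P : W.toAffine.Point, P ≠ 0 ∧ n • P = 0 := by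
  obtain ⟨m, rfl⟩ := hn
  have hm : 1 ≤ m := by omega
  obtain ⟨hdeg, -⟩ := psi_deg W.a₂ W.a₄ m
  obtain ⟨x₀, hx₀⟩ := IsAlgClosed.exists_root (psi W.a₂ W.a₄ m) (by
    intro h0
    have h : (psi W.a₂ W.a₄ m).natDegree = 0 := natDegree_eq_of_degree_eq_some h0
    rw [hdeg] at h
    have h' : 2 * m ≤ 2 * m ^ 2 + 2 * m := Nat.le_add_left _ _
    omega)
  have hx0 : x₀ ≠ 0 := by
    rintro rfl
    exact psi_eval_zero_ne W.a₂ W.a₄ (leg_b_ne h1 h3 h6 hΔ) m hx₀
  obtain ⟨y₀, hy₀⟩ := IsAlgClosed.exists_pow_nat_eq (x₀ ^ 3 + W.a₂ * x₀ ^ 2 + W.a₄ * x₀)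
    (n := 2) two_pos
  have heq : W.toAffine.Equation x₀ y₀ := by
    rw [equation_iff, h1, h3, h6]
    linear_combination hy₀
  have hns : W.toAffine.Nonsingular x₀ y₀ := (equation_iff_nonsingular_of_Δ_ne_zero hΔ).mp heq
  exact ⟨Point.some x₀ y₀ hns, Point.some_ne_zero hns,
    (psi_eval_eq_zero_iff h1 h3 h6 hΔ hns hx0 m).mp hx₀⟩

end CharZero

end Fermat.Agent.S13.H75
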