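import Mathlib
import Fermat.Prelude.Def_FLTPrelim_FreyPackage
import Fermat.Prelude.Def_FLTPrelim_GaloisRep
import Fermat.Agent.S05.Transfer_helper52

/-!
S13, block T glue (helper83): the `p`-torsion of the Frey curve over `ℚ̄` is nontrivial and has
at most `p ^ 2` elements, deduced from the corresponding facts for curves
`Y² = X³ + a X² + b X` (supplied by the ladder package) through the S05 transfer map, which is
shown to be bijective.
-/

set_option autoImplicit false

open WeierstrassCurve WeierstrassCurve.Affine WeierstrassCurve.Affine.Point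

namespace Fermat.Agent.S13.H83

open Fermat.Agent.S05.H52

section Transfer

variable {K : Type*} [Field K]

/-- For `r = 0` the discriminants of the two models differ by the factor `4096`. -/
lemma transfer_Δ {W₁ W₂ : WeierstrassCurve K} (H : TransferHyp W₁ W₂ 0) :
    W₂.Δ = 4096 * W₁.Δ := by
  have e2 := H.hc₂
  have e4 := H.hc₄
  simp only [WeierstrassCurve.Δ, WeierstrassCurve.b₂, WeierstrassCurve.b₄, WeierstrassCurve.b₆,
    WeierstrassCurve.b₈, H.h₁, H.h₃, H.h₆, H.g₁, H.g₃, H.g₆, e2, e4]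
  ring

/-- Every point of the second model comes from a point of the first one (which is assumed to be
an elliptic curve). -/
lemma transferFun_surjective {W₁ W₂ : WeierstrassCurve K} {r : K} (H : TransferHyp W₁ W₂ r)
    (hΔ : W₁.Δ ≠ 0) : Function.Surjective (transferFun H) := by
  rintro (_ | ⟨X, Y, h⟩)
  · exact ⟨0, rfl⟩
  · have h4 := H.four_ne
    have h8 := H.eight_ne
    obtain ⟨x, hx⟩ : ∃ x : K, X = 4 * x + r := ⟨(X - r) / 4, by field_simp; ring⟩
    obtain ⟨y, hy⟩ : ∃ y : K, Y = 8 * y + 4 * x := ⟨(Y - 4 * x) / 8, by field_simp; ring⟩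
    subst hx hy
    have heq : W₁.toAffine.Equation x y := by
      have h' := h.1
      rw [equation_iff] at h' ⊢
      rw [H.g₁, H.g₃, H.g₆, H.hc₂, H.hc₄] at h'
      rw [H.h₁, H.h₃, H.h₆]
      have h64 : (64 : K) ≠ 0 := by
        have e : (64 : K) = 8 * 8 := by norm_num
        rw [e]; exact mul_ne_zero h8 h8
      apply mul_left_cancel₀ h64
      linear_combination h' + H.hc₆
    have hns : W₁.toAffine.Nonsingular x y :=
      (WeierstrassCurve.Affine.equation_iff_nonsingular_of_Δ_ne_zero hΔ).mp heq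
    exact ⟨Point.some _ _ hns, rfl⟩

/-- The transfer map as an additive equivalence. -/
noncomputable def transferEquiv [DecidableEq K] {W₁ W₂ : WeierstrassCurve K} {r : K}
    (H : TransferHyp W₁ W₂ r) (hΔ : W₁.Δ ≠ 0) : W₁.toAffine.Point ≃+ W₂.toAffine.Point :=
  AddEquiv.ofBijective
    (⟨⟨transferFun H, transferFun_zero H⟩, transferFun_add H⟩ :
      W₁.toAffine.Point →+ W₂.toAffine.Point)
    ⟨transferFun_injective H, transferFun_surjective H hΔ⟩

lemma transferEquiv_some [DecidableEq K] {W₁ W₂ : WeierstrassCurve K} {r : K}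
    (H : TransferHyp W₁ W₂ r) (hΔ : W₁.Δ ≠ 0) {x y : K} (h : W₁.toAffine.Nonsingular x y) :
    transferEquiv H hΔ (Point.some x y h)
      = Point.some (4 * x + r) (8 * y + 4 * x) (H.nonsingular h) := rfl

end Transfer

section Frey

/-- `ℚ̄`. -/
abbrev Qb : Type := AlgebraicClosure ℚ

variable (P : FreyPackage)

/-- The `p`-torsion of the Frey curve over `ℚ̄` (the module of the frozen statement). -/
abbrev V : Type := Submodule.torsionBy ℤ (P.freyCurve⁄Qb).Point P.p

lemma frey_Δ : P.freyCurve.Δ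
    = ((P.a : ℚ) ^ P.p * (P.b : ℚ) ^ P.p * (P.c : ℚ) ^ P.p) ^ 2 / 256 := by
  have hFLT : ((P.a : ℚ)) ^ P.p + (P.b : ℚ) ^ P.p = (P.c : ℚ) ^ P.p := by
    exact_mod_cast P.hFLT
  simp only [WeierstrassCurve.Δ, WeierstrassCurve.b₂, WeierstrassCurve.b₄, WeierstrassCurve.b₆,
    WeierstrassCurve.b₈, FreyPackage.freyCurve]
  rw [← hFLT]
  ring

lemma frey_Δ_ne_zero : P.freyCurve.Δ ≠ 0 := by
  rw [frey_Δ]
  have ha : (P.a : ℚ) ≠ 0 := by exact_mod_cast P.ha0
  have hb : (P.b : ℚ) ≠ 0 := by exact_mod_cast P.hb0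
  have hc : (P.c : ℚ) ≠ 0 := by exact_mod_cast P.hc0
  positivity

lemma freyQb_Δ_ne_zero : (P.freyCurve.map (algebraMap ℚ Qb)).Δ ≠ 0 := by
  rw [WeierstrassCurve.map_Δ]
  exact (map_ne_zero_iff _ (algebraMap ℚ Qb).injective).mpr (frey_Δ_ne_zero P)

/-- The model `Y² = X³ + (4a₂+1) X² + 16 a₄ X` of the Frey curve over `ℚ̄`
(that is `Y² = X (X - aᵖ) (X + bᵖ)`). -/
noncomputable def legQb : WeierstrassCurve Qb :=
  ⟨0, 4 * (P.freyCurve.map (algebraMap ℚ Qb)).a₂ + 1, 0,
    16 * (P.freyCurve.map (algebraMap ℚ Qb)).a₄, 0⟩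

lemma legQb_a₁ : (legQb P).a₁ = 0 := rfl

lemma legQb_a₃ : (legQb P).a₃ = 0 := rfl

lemma legQb_a₆ : (legQb P).a₆ = 0 := rfl

lemma legQb_a₂ : (legQb P).a₂ = (P.b : Qb) ^ P.p - (P.a : Qb) ^ P.p := by
  simp [legQb, FreyPackage.freyCurve]
  ring

lemma legQb_a₄ : (legQb P).a₄ = -((P.a : Qb) ^ P.p * (P.b : Qb) ^ P.p) := by
  simp [legQb, FreyPackage.freyCurve]
  ring

lemma transferHyp : TransferHyp (P.freyCurve.map (algebraMap ℚ Qb)) (legQb P) 0 where
  h2 := two_ne_zero
  h₁ := by simp [FreyPackage.freyCurve]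
  h₃ := by simp [FreyPackage.freyCurve]
  h₆ := by simp [FreyPackage.freyCurve]
  g₁ := rfl
  g₃ := rfl
  g₆ := rfl
  hc₂ := by simp [legQb]
  hc₄ := by simp [legQb]
  hc₆ := by ring

lemma legQb_Δ_ne_zero : (legQb P).Δ ≠ 0 := by
  rw [transfer_Δ (transferHyp P)]
  exact mul_ne_zero (by norm_num) (freyQb_Δ_ne_zero P)

/-- The additive equivalence between the points of the Frey curve over `ℚ̄` and the points of
its Legendre model. -/
noncomputable def freyEquiv : (P.freyCurve⁄Qb).Point ≃+ (legQb P).toAffine.Point :=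
  transferEquiv (transferHyp P) (freyQb_Δ_ne_zero P)

lemma freyEquiv_some {x y : Qb} (h : (P.freyCurve⁄Qb).Nonsingular x y) :
    freyEquiv P (Point.some x y h)
      = Point.some (4 * x + 0) (8 * y + 4 * x) ((transferHyp P).nonsingular h) := rfl

/-- **(T1)** from the generic existence statement for curves `Y² = X³ + a X² + b X`. -/
theorem frey_torsion_nontrivial_of
    (hex : ∀ W : WeierstrassCurve Qb, W.a₁ = 0 → W.a₃ = 0 → W.a₆ = 0 → W.Δ ≠ 0 →
      ∃ Q : W.toAffine.Point, Q ≠ 0 ∧ P.p • Q = 0) :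
    Nontrivial (V P) := by
  obtain ⟨Q, hQ0, hQp⟩ := hex (legQb P) (legQb_a₁ P) (legQb_a₃ P) (legQb_a₆ P)
    (legQb_Δ_ne_zero P)
  have hmem : (freyEquiv P).symm Q ∈ Submodule.torsionBy ℤ (P.freyCurve⁄Qb).Point P.p := by
    rw [Submodule.mem_torsionBy_iff, natCast_zsmul, ← map_nsmul, hQp, _root_.map_zero]
  refine ⟨⟨⟨(freyEquiv P).symm Q, hmem⟩, 0, ?_⟩⟩
  intro h
  apply hQ0
  have h' : (freyEquiv P).symm Q = 0 := congrArg Subtype.val h
  simpa using h'

/-- **(T2)** from the generic cardinality bound for curves `Y² = X³ + a X² + b X`. -/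
theorem frey_torsion_card_le_of
    (hcard : ∀ W : WeierstrassCurve Qb, W.a₁ = 0 → W.a₃ = 0 → W.a₆ = 0 → W.Δ ≠ 0 →
      Finite {Q : W.toAffine.Point // P.p • Q = 0} ∧
        Nat.card {Q : W.toAffine.Point // P.p • Q = 0} ≤ P.p ^ 2) :
    Finite (V P) ∧ Nat.card (V P) ≤ P.p ^ 2 := by
  obtain ⟨hfin, hle⟩ := hcard (legQb P) (legQb_a₁ P) (legQb_a₃ P) (legQb_a₆ P)
    (legQb_Δ_ne_zero P)
  let f : V P → {Q : (legQb P).toAffine.Point // P.p • Q = 0} := fun x =>
    ⟨freyEquiv P x.1, by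
      have hx := x.2
      rw [Submodule.mem_torsionBy_iff, natCast_zsmul] at hx
      rw [← map_nsmul, hx, _root_.map_zero]⟩
  have hf : Function.Injective f := by
    intro x y hxy
    have h1 : freyEquiv P x.1 = freyEquiv P y.1 := congrArg Subtype.val hxy
    exact Subtype.ext ((freyEquiv P).injective h1)
  have := hfin
  exact ⟨Finite.of_injective f hf, (Nat.card_le_card_of_injective f hf).trans hle⟩

end Frey

end Fermat.Agent.S13.H83
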