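import Mathlib
import Fermat.Agent.S13.TGlue_helper83
import Fermat.Agent.S13.LadderPt_helper75

/-!
S13, block T, final statements (helper83): `(T1)` and `(T2)` for the Frey curve, from the ladder
package of helper75 and the bijective transfer to the Legendre model.
-/

set_option autoImplicit false

open WeierstrassCurve WeierstrassCurve.Affine

namespace Fermat.Agent.S13.H83

/-- **(T1)**: the `p`-torsion of the Frey curve over `ℚ̄` is nontrivial. -/
theorem frey_torsion_nontrivial (P : FreyPackage) : Nontrivial (V P) :=
  frey_torsion_nontrivial_of P fun _W h1 h3 h6 hΔ =>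
    H75.exists_torsion_point h1 h3 h6 hΔ P.hp_odd (by have := P.hp5; omega)

/-- **(T2)**: the `p`-torsion of the Frey curve over `ℚ̄` is finite with at most `p²` elements. -/
theorem frey_torsion_card_le (P : FreyPackage) : Finite (V P) ∧ Nat.card (V P) ≤ P.p ^ 2 :=
  frey_torsion_card_le_of P fun W h1 h3 h6 hΔ => by
    obtain ⟨hfin, hle⟩ := H75.torsion_finite_card_le (W := W) h1 h3 h6 hΔ P.hp_odd
    refine ⟨hfin.to_subtype, ?_⟩
    have : Nat.card {Q : W.toAffine.Point // P.p • Q = 0}
        = Set.ncard {Q : W.toAffine.Point | P.p • Q = 0} := _root_.Nat.card_coe_set_eq _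
    rw [this]
    exact hle

end Fermat.Agent.S13.H83
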