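import Mathlib
import Fermat.Agent.S05.Defs

/-!
S13 helper (owner: helper8).  Galois-fixed elements of `AlgebraicClosure ℚ` are rational, hence
have integral valuation for any `QVal` that restricts to the `q`-adic valuation on integers.
-/

namespace Fermat.Agent.S13.H08

open Fermat.Agent.S05

local notation "Qb" => AlgebraicClosure ℚ

/-- An element of `Qb` fixed by the whole Galois group is rational. -/
theorem isGalois_rat_algebraicClosure : IsGalois ℚ Qb := by
  have h : (DivisionRing.toRatAlgebra : Algebra ℚ (AlgebraicClosure ℚ)) =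
      AlgebraicClosure.instAlgebra ℚ := Subsingleton.elim _ _
  rw [h]
  infer_instance

/-- An element of `Qb` fixed by the whole Galois group is rational. -/
theorem mem_range_algebraMap_of_fixed (X : Qb) (hfix : ∀ σ : Qb ≃ₐ[ℚ] Qb, σ X = X) :
    ∃ r : ℚ, algebraMap ℚ Qb r = X :=
  haveI := isGalois_rat_algebraicClosure
  (InfiniteGalois.mem_range_algebraMap_iff_fixed (k := ℚ) (K := Qb) X).mpr hfix

/-- The valuation of a nonzero rational number is an integer. -/
theorem exists_int_w_algebraMap (v : QVal Qb) {q : ℕ}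
    (hv : ∀ k : ℤ, k ≠ 0 → v.w (k : Qb) = padicValInt q k) (r : ℚ) (hr : r ≠ 0) :
    ∃ n : ℤ, v.w (algebraMap ℚ Qb r) = n := by
  have hnum : r.num ≠ 0 := Rat.num_ne_zero.mpr hr
  have hden : (r.den : ℤ) ≠ 0 := by exact_mod_cast r.den_ne_zero
  have hnum' : ((r.num : ℤ) : Qb) ≠ 0 := by exact_mod_cast hnum
  have hden' : (((r.den : ℤ)) : Qb) ≠ 0 := by exact_mod_cast hden
  have hX : algebraMap ℚ Qb r = ((r.num : ℤ) : Qb) / (((r.den : ℤ)) : Qb) := by
    conv_lhs => rw [← Rat.num_div_den r]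
    rw [map_div₀]
    simp
  refine ⟨(padicValInt q r.num : ℤ) - (padicValInt q (r.den : ℤ) : ℤ), ?_⟩
  rw [hX, QVal.w_div hnum' hden', hv _ hnum, hv _ hden]
  push_cast
  ring

/-- A nonzero Galois-fixed element has integral valuation. -/
theorem exists_int_w_of_galois_fixed (v : QVal Qb) {q : ℕ}
    (hv : ∀ k : ℤ, k ≠ 0 → v.w (k : Qb) = padicValInt q k) (X : Qb) (hX : X ≠ 0)
    (hfix : ∀ σ : Qb ≃ₐ[ℚ] Qb, σ X = X) : ∃ n : ℤ, v.w X = n := by
  obtain ⟨r, rfl⟩ := mem_range_algebraMap_of_fixed X hfix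
  have hr : r ≠ 0 := by
    rintro rfl
    exact hX (map_zero _)
  exact exists_int_w_algebraMap v hv r hr

variable [DecidableEq Qb]

/-- The product over a Galois-stable finite set is Galois-fixed. -/
theorem prod_fixed_of_stable (S : Finset Qb) (hS : ∀ σ : Qb ≃ₐ[ℚ] Qb, S.image σ = S)
    (σ : Qb ≃ₐ[ℚ] Qb) : σ (∏ r ∈ S, r) = ∏ r ∈ S, r := by
  rw [map_prod]
  conv_rhs => rw [← hS σ]
  rw [Finset.prod_image (fun x _ y _ h => σ.injective h)]

/-- The sum over a Galois-stable finite set is Galois-fixed. -/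
theorem sum_fixed_of_stable (S : Finset Qb) (hS : ∀ σ : Qb ≃ₐ[ℚ] Qb, S.image σ = S)
    (σ : Qb ≃ₐ[ℚ] Qb) : σ (∑ r ∈ S, r) = ∑ r ∈ S, r := by
  rw [map_sum]
  conv_rhs => rw [← hS σ]
  rw [Finset.sum_image (fun x _ y _ h => σ.injective h)]

/-- The product over a Galois-stable finite set of nonzero elements has integral valuation. -/
theorem exists_int_w_prod_of_stable (v : QVal Qb) {q : ℕ}
    (hv : ∀ k : ℤ, k ≠ 0 → v.w (k : Qb) = padicValInt q k) (S : Finset Qb)
    (hS : ∀ σ : Qb ≃ₐ[ℚ] Qb, S.image σ = S) (h0 : ∀ r ∈ S, r ≠ 0) :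
    ∃ n : ℤ, v.w (∏ r ∈ S, r) = n :=
  exists_int_w_of_galois_fixed v hv _ (Finset.prod_ne_zero_iff.mpr h0)
    (prod_fixed_of_stable S hS)

/-- The valuation of a product of nonzero elements is the sum of the valuations. -/
theorem w_prod (v : QVal Qb) (S : Finset Qb) (h0 : ∀ r ∈ S, r ≠ 0) :
    v.w (∏ r ∈ S, r) = ∑ r ∈ S, v.w r := by
  induction S using Finset.induction_on with
  | empty => simp [v.map_one]
  | insert a s ha ih =>
    have h0' : ∀ r ∈ s, r ≠ 0 := fun r hr => h0 r (Finset.mem_insert_of_mem hr)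
    rw [Finset.prod_insert ha, Finset.sum_insert ha,
      v.map_mul _ _ (h0 a (Finset.mem_insert_self a s)) (Finset.prod_ne_zero_iff.mpr h0'), ih h0']

/-- Combined form used at `p`: a nonempty Galois-stable finite set all of whose elements have
negative valuation has total negative valuation at least one. -/
theorem one_le_sum_neg_w_of_stable (v : QVal Qb) {q : ℕ}
    (hv : ∀ k : ℤ, k ≠ 0 → v.w (k : Qb) = padicValInt q k) (S : Finset Qb)
    (hS : ∀ σ : Qb ≃ₐ[ℚ] Qb, S.image σ = S) (hne : S.Nonempty)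
    (hneg : ∀ r ∈ S, r ≠ 0 ∧ v.w r < 0) : 1 ≤ ∑ r ∈ S, (- v.w r) := by
  have h0 : ∀ r ∈ S, r ≠ 0 := fun r hr => (hneg r hr).1
  obtain ⟨n, hn⟩ := exists_int_w_prod_of_stable v hv S hS h0
  rw [w_prod v S h0] at hn
  have hlt : ∑ r ∈ S, v.w r < 0 :=
    Finset.sum_neg (fun r hr => (hneg r hr).2) hne
  have hn' : (n : ℚ) < 0 := hn ▸ hlt
  have hn'' : n ≤ -1 := by
    have : n < 0 := by exact_mod_cast hn'
    omega
  have : (n : ℚ) ≤ -1 := by exact_mod_cast hn''
  rw [Finset.sum_neg_distrib, hn]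
  linarith

end Fermat.Agent.S13.H08
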