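import Fermat.Agent.S13.Defs2
import Fermat.Agent.S13.GalFixed_helper8
import Fermat.Agent.S13.Frey2_helper9
import Fermat.Agent.S05.A3_helper13
import Fermat.Prelude.Def_FLTPrelim_FreyPackage
import Fermat.Prelude.Def_FLTPrelim_GaloisRep
import Fermat.Prelude.Def_FLTPrelim_Ramification

/-!
S13, block L2, task W2b (owner: helper22): the top-level statement (L2b)

  `frey_no_rational_torsion : a Galois-fixed point of E[p](ℚ̄) on the Frey curve is zero`

from the generic statement GR (`no_rational_torsion2` of `Spec2adic.lean`), taken here as an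
explicit hypothesis `StmtGR` (its statement specialised to `K = ℚ̄`), the Frey arithmetic at `2`
(`H09.frey_two`), the valuation `exists_qval` at a place over `2`, and `H08` (Galois-fixed
elements are rational).

Final use:  `H22.frey_no_rational_torsion_of (fun hW hN => no_rational_torsion2 hW hN)`.
-/

set_option autoImplicit false

namespace Fermat.Agent.S13.H22

open Fermat.Agent.S05 WeierstrassCurve WeierstrassCurve.Affine WeierstrassCurve.Affine.Point

local notation "Qb" => AlgebraicClosure ℚ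

/-- statement of GR `no_rational_torsion2` at `K = ℚ̄` -/
abbrev StmtGR : Prop :=
  ∀ {v : QVal Qb} {W : WeierstrassCurve Qb} {s : Qb} (_ : NodeCurve W s)
    (_ : Nodal2 v (2 * s + W.a₁) W.a₄)
    (_ : W.a₁ = 1) (_ : v.Ge W.a₂ 0) (R : Subfield Qb) (_ : W.a₂ ∈ R) (_ : W.a₄ ∈ R)
    (_ : ∀ x ∈ R, x ≠ 0 → ∃ m : ℤ, v.w x = m)
    (_ : ∀ x ∈ R, v.Ge x 0 → v.Gt x 0 ∨ v.Gt (x - 1) 0)
    (p : ℕ) (_ : p.Prime) (_ : 5 ≤ p) (_ : v.IsVal (p : Qb) 0)
    (n : ℤ) (_ : v.w W.a₄ = n) (_ : IsCoprime (p : ℤ) (2 * n))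
    {x y : Qb} (h : W.toAffine.Nonsingular x y) (_ : x ∈ R) (_ : y ∈ R)
    (_ : p • Point.some x y h = 0), False

/-- a valuation subring of a characteristic zero field over a given prime
(same construction as in the S54 library) -/
theorem exists_valuationSubring_over {L : Type*} [Field L] [CharZero L] {ℓ : ℕ}
    (hℓ : ℓ.Prime) : ∃ A : ValuationSubring L, (ℓ : L) ∈ A.nonunits := by
  let A0 : Subring L := (Int.castRingHom L).range
  let l0 : A0 := ⟨(ℓ : L), ⟨(ℓ : ℤ), by simp⟩⟩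
  have hI : Ideal.span {l0} ≠ ⊤ := by
    intro h
    have h1 : (1 : A0) ∈ Ideal.span {l0} := by rw [h]; trivial
    rw [Ideal.mem_span_singleton'] at h1
    obtain ⟨⟨c, ⟨n, rfl⟩⟩, hc⟩ := h1
    have h2 : ((n * (ℓ : ℤ) : ℤ) : L) = ((1 : ℤ) : L) := by
      have := congrArg Subtype.val hc
      simpa using this
    have h3 : n * (ℓ : ℤ) = 1 := Int.cast_injective h2
    have h4 : (ℓ : ℤ) ∣ 1 := Dvd.intro_left n h3
    have h5 : ℓ ∣ 1 := by exact_mod_cast h4
    exact hℓ.one_lt.ne' (Nat.dvd_one.mp h5)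
  obtain ⟨B, -, hB⟩ := Ideal.image_subset_nonunits_valuationSubring _ hI
  exact ⟨B, hB ⟨l0, Ideal.subset_span rfl, rfl⟩⟩

/-- valuation of a nonzero integer cast -/
lemma isVal_intCast {v : QVal Qb} {q : ℕ}
    (hv : ∀ k : ℤ, k ≠ 0 → v.w (k : Qb) = padicValInt q k) {k : ℤ} (hk : k ≠ 0) :
    v.IsVal (k : Qb) (padicValInt q k) :=
  ⟨by exact_mod_cast hk, hv k hk⟩

lemma isVal_intCast_of_not_dvd {v : QVal Qb} {q : ℕ}
    (hv : ∀ k : ℤ, k ≠ 0 → v.w (k : Qb) = padicValInt q k) {k : ℤ} (hk : ¬ (q : ℤ) ∣ k) :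
    v.IsVal (k : Qb) 0 := by
  have hk0 : k ≠ 0 := fun h => hk (h ▸ dvd_zero _)
  have h := isVal_intCast hv hk0
  rw [padicValInt.eq_zero_of_not_dvd hk] at h
  simpa using h

/-- a nonzero integer divisible by `2` has positive valuation -/
lemma gt_intCast_of_dvd {v : QVal Qb}
    (hv : ∀ k : ℤ, k ≠ 0 → v.w (k : Qb) = padicValInt 2 k) {k : ℤ} (hk : (2 : ℤ) ∣ k) :
    v.Gt (k : Qb) 0 := by
  by_cases hk0 : k = 0
  · exact Or.inl (by simp [hk0])
  · refine Or.inr ?_
    rw [hv k hk0]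
    have := Fact.mk Nat.prime_two
    have h := (padicValInt_dvd_iff (p := 2) 1 k).mp (by simpa using hk)
    rcases h with h | h
    · exact absurd h hk0
    · exact_mod_cast h

/-- the residue field of `ℚ` at `2` has two elements: a `2`-integral rational number is
congruent to `0` or to `1`. -/
lemma rat_zero_or_one {v : QVal Qb}
    (hv : ∀ k : ℤ, k ≠ 0 → v.w (k : Qb) = padicValInt 2 k) (r : ℚ)
    (hr : v.Ge (algebraMap ℚ Qb r) 0) :
    v.Gt (algebraMap ℚ Qb r) 0 ∨ v.Gt (algebraMap ℚ Qb r - 1) 0 := by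
  have hden : (r.den : ℤ) ≠ 0 := by exact_mod_cast r.den_ne_zero
  have hden' : (((r.den : ℤ)) : Qb) ≠ 0 := by exact_mod_cast hden
  have hX : algebraMap ℚ Qb r = ((r.num : ℤ) : Qb) / (((r.den : ℤ)) : Qb) := by
    conv_lhs => rw [← Rat.num_div_den r]
    rw [map_div₀]
    simp
  -- the denominator is odd
  have hodd : ¬ (2 : ℤ) ∣ (r.den : ℤ) := by
    intro h2
    have hnum : ¬ (2 : ℤ) ∣ r.num := by
      intro h3
      have hcop : Nat.Coprime r.num.natAbs r.den := r.reduced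
      have h4 : (2 : ℕ) ∣ r.num.natAbs := by
        have := Int.natAbs_dvd_natAbs.mpr h3
        simpa using this
      have h5 : (2 : ℕ) ∣ r.den := by exact_mod_cast h2
      have := Nat.dvd_gcd h4 h5
      rw [hcop] at this
      omega
    have h1 : v.IsVal ((r.num : ℤ) : Qb) 0 :=
      isVal_intCast_of_not_dvd (q := 2) hv (by simpa using hnum)
    have h2' : v.Gt (((r.den : ℤ)) : Qb) 0 := gt_intCast_of_dvd hv h2
    have h3 : v.IsVal (algebraMap ℚ Qb r) (0 - v.w (((r.den : ℤ)) : Qb)) := by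
      rw [hX]; exact h1.div ⟨hden', rfl⟩
    have h4 := h2'.lt_w hden'
    have h5 := hr.le_w h3.ne_zero
    rw [h3.w_eq] at h5
    linarith
  have hdval : v.IsVal (((r.den : ℤ)) : Qb) 0 :=
    isVal_intCast_of_not_dvd (q := 2) hv (by simpa using hodd)
  by_cases hnum : (2 : ℤ) ∣ r.num
  · left
    have h1 : v.Gt ((r.num : ℤ) : Qb) 0 := gt_intCast_of_dvd hv hnum
    rw [hX, div_eq_mul_inv]
    have := h1.mul_ge hdval.inv.ge
    simpa using this
  · right
    have h2 : (2 : ℤ) ∣ r.num - (r.den : ℤ) := by omega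
    have h1 : v.Gt (((r.num - (r.den : ℤ) : ℤ)) : Qb) 0 := gt_intCast_of_dvd hv h2
    have hX' : algebraMap ℚ Qb r - 1
        = (((r.num - (r.den : ℤ) : ℤ)) : Qb) / (((r.den : ℤ)) : Qb) := by
      rw [hX]
      field_simp
      push_cast
      ring
    rw [hX', div_eq_mul_inv]
    have := h1.mul_ge hdval.inv.ge
    simpa using this

/-- a root of `T^2 + T - a` in `ℚ̄` -/
lemma exists_slope (a : Qb) : ∃ s : Qb, s ^ 2 + s = a := by
  have hdeg : (Polynomial.X ^ 2 + Polynomial.X - Polynomial.C a : Polynomial Qb).degree ≠ 0 := by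
    have h : (Polynomial.X ^ 2 + Polynomial.X - Polynomial.C a : Polynomial Qb).degree = 2 := by
      compute_degree!
    rw [h]; norm_num
  obtain ⟨s, hs⟩ := IsAlgClosed.exists_root _ hdeg
  refine ⟨s, ?_⟩
  have : s ^ 2 + s - a = 0 := by simpa [Polynomial.IsRoot] using hs
  linear_combination this

/-- **W2b**: the Frey curve has no rational point of order `p` (top-level statement (L2b)),
from the generic statement GR. -/
theorem frey_no_rational_torsion_of (hGR : StmtGR) (P : FreyPackage)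
    (x : Submodule.torsionBy ℤ (P.freyCurve⁄(AlgebraicClosure ℚ)).Point P.p)
    (hx : ∀ σ : AlgebraicClosure ℚ ≃ₐ[ℚ] AlgebraicClosure ℚ, σ • x = x) : x = 0 := by
  -- a place over `2` and its valuation
  obtain ⟨A, hA⟩ := exists_valuationSubring_over (L := Qb) Nat.prime_two
  obtain ⟨v, hvint, -, -⟩ := exists_qval A 2 Nat.prime_two hA
  -- Frey arithmetic at `2`
  obtain ⟨a2, a4, n, ha2, ha4, -, -, ha4ne, hval, hnpos, -, hcop, -, -, -⟩ := H09.frey_two P
  -- the curve over `ℚ̄`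
  have hWa₁ : (P.freyCurve.baseChange Qb).a₁ = 1 := by
    simp [FreyPackage.freyCurve, WeierstrassCurve.baseChange]
  have hWa₃ : (P.freyCurve.baseChange Qb).a₃ = 0 := by
    simp [FreyPackage.freyCurve, WeierstrassCurve.baseChange]
  have hWa₆ : (P.freyCurve.baseChange Qb).a₆ = 0 := by
    simp [FreyPackage.freyCurve, WeierstrassCurve.baseChange]
  have hWa₂ : (P.freyCurve.baseChange Qb).a₂ = ((a2 : ℤ) : Qb) := by
    have h := congrArg (algebraMap ℚ Qb) ha2
    have h' : (P.freyCurve.baseChange Qb).a₂ = algebraMap ℚ Qb P.freyCurve.a₂ := by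
      simp [WeierstrassCurve.baseChange]
    rw [h', ← h]; simp
  have hWa₄ : (P.freyCurve.baseChange Qb).a₄ = ((a4 : ℤ) : Qb) := by
    have h := congrArg (algebraMap ℚ Qb) ha4
    have h' : (P.freyCurve.baseChange Qb).a₄ = algebraMap ℚ Qb P.freyCurve.a₄ := by
      simp [WeierstrassCurve.baseChange]
    rw [h', ← h]; simp
  -- the slope
  obtain ⟨s, hs⟩ := exists_slope ((a2 : ℤ) : Qb)
  have hW : NodeCurve (P.freyCurve.baseChange Qb) s :=
    ⟨hWa₃, hWa₆, by rw [hWa₁, hWa₂, one_mul]; exact hs⟩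
  have hd : v.IsVal (2 * s + (P.freyCurve.baseChange Qb).a₁) 0 := by
    have h1 : (2 * s + (P.freyCurve.baseChange Qb).a₁) ^ 2 = ((4 * a2 + 1 : ℤ) : Qb) := by
      rw [hWa₁]; push_cast; linear_combination 4 * hs
    have h2 : v.IsVal (((4 * a2 + 1 : ℤ)) : Qb) 0 :=
      isVal_intCast_of_not_dvd (q := 2) hvint (by omega)
    have h3 := (h1 ▸ h2 : v.IsVal ((2 * s + (P.freyCurve.baseChange Qb).a₁) ^ 2) 0).of_sq
    simpa using h3
  have hvala4 : v.w ((a4 : ℤ) : Qb) = ((n : ℤ) : ℚ) := by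
    rw [hvint a4 ha4ne, hval]; simp
  have hN : Nodal2 v (2 * s + (P.freyCurve.baseChange Qb).a₁) (P.freyCurve.baseChange Qb).a₄ := by
    refine ⟨hd, ?_, ?_⟩
    · rw [hWa₄]; exact_mod_cast ha4ne
    · rw [hWa₄, hvala4]; exact_mod_cast hnpos
  -- the rational subfield
  have hR : ∀ r : ℚ, algebraMap ℚ Qb r ∈ (algebraMap ℚ Qb).fieldRange := fun r => ⟨r, rfl⟩
  have hRint : ∀ k : ℤ, ((k : ℤ) : Qb) ∈ (algebraMap ℚ Qb).fieldRange := fun k =>
    ⟨(k : ℚ), by simp⟩
  have hRZ : ∀ z ∈ (algebraMap ℚ Qb).fieldRange, z ≠ 0 → ∃ m : ℤ, v.w z = m := by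
    rintro z ⟨r, rfl⟩ hz
    exact H08.exists_int_w_algebraMap v hvint r (fun h => hz (by simp [h]))
  have hR2 : ∀ z ∈ (algebraMap ℚ Qb).fieldRange, v.Ge z 0 → v.Gt z 0 ∨ v.Gt (z - 1) 0 := by
    rintro z ⟨r, rfl⟩ hz
    exact rat_zero_or_one hvint r hz
  have hpv : v.IsVal ((P.p : ℕ) : Qb) 0 := by
    have h : ¬ ((2 : ℕ) : ℤ) ∣ (P.p : ℤ) := by
      intro hd
      have h1 : 2 ∣ P.p := by exact_mod_cast hd
      have := (Nat.prime_dvd_prime_iff_eq Nat.prime_two P.pp).mp h1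
      have := P.hp5
      omega
    simpa using isVal_intCast_of_not_dvd hvint h
  have hcop' : IsCoprime (P.p : ℤ) (2 * (n : ℤ)) := by
    have := Nat.isCoprime_iff_coprime.mpr hcop
    simpa using this
  -- the point
  obtain ⟨Q, hQ⟩ := x
  rcases Q with _ | ⟨x₀, y₀, h⟩
  · rfl
  · exfalso
    have hfix : ∀ σ : Qb ≃ₐ[ℚ] Qb, σ x₀ = x₀ ∧ σ y₀ = y₀ := by
      intro σ
      have h1 := congrArg Subtype.val (hx σ)
      change Point.map σ.toAlgHom (Point.some x₀ y₀ h) = Point.some x₀ y₀ h at h1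
      rw [Point.map_some] at h1
      have h2 := Point.some.inj h1
      exact ⟨h2.1, h2.2⟩
    obtain ⟨rx, hrx⟩ := H08.mem_range_algebraMap_of_fixed x₀ (fun σ => (hfix σ).1)
    obtain ⟨ry, hry⟩ := H08.mem_range_algebraMap_of_fixed y₀ (fun σ => (hfix σ).2)
    have hP : P.p • Point.some x₀ y₀ h = 0 := by
      rw [Submodule.mem_torsionBy_iff] at hQ
      have h1 : ((P.p : ℕ) : ℤ) • Point.some x₀ y₀ h = P.p • Point.some x₀ y₀ h :=
        natCast_zsmul _ P.p
      exact h1.symm.trans hQ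
    exact hGR (v := v) (s := s) hW hN hWa₁ (by rw [hWa₂]; exact QVal.ge_intCast a2)
      (algebraMap ℚ Qb).fieldRange (by rw [hWa₂]; exact hRint a2) (by rw [hWa₄]; exact hRint a4)
      hRZ hR2 P.p P.pp P.hp5 hpv (n : ℤ) (by rw [hWa₄]; exact hvala4) hcop' h
      (hrx ▸ hR rx) (hry ▸ hR ry) hP

end Fermat.Agent.S13.H22
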