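import Fermat.Agent.S05.Defs

/-!
S13, block L2 (prime 2), interface file (owner: helper64).

Local toolkit for nodal Weierstrass curves in SPLIT coordinates, uniform in the residue
characteristic (nothing here assumes that `2` is a unit).

A Weierstrass curve `W` with `a₃ = a₆ = 0` and a slope `s` with `s^2 + a₁ s = a₂`
(`NodeCurve W s`).  With `u := y - s x` and `d := 2 s + a₁` the equation becomes

  `u^2 + d u x = x^3 + a₄ x`,

the origin is a node of the reduction when `d` is a unit and `a₄` lies in the maximal ideal,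
the two branches at the node are `u / x ≡ 0` and `u / x ≡ -d`, and negation is
`(x, u) ↦ (x, -u - d x)`.

* `Triple2 d b` : three collinear points of `U^2 + d U X = X^3 + b X`.
* `Integral2 v d b`, `Nodal2 v d b` : hypotheses on the coefficients.
* `NodeCurve W s`, `cls2 v W s` : point level; the component class in `ℚ / 2 w(a₄) ℤ`.
-/

set_option linter.unusedSectionVars false

namespace Fermat.Agent.S13

open Fermat.Agent.S05

/-- Three points `(xᵢ, uᵢ)` (counted with multiplicity) cut out on the curve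
`U^2 + d U X = X^3 + b X` by the line `U = l X + n`. -/
structure Triple2 {K : Type*} [Field K] (d b : K) where
  x₁ : K
  x₂ : K
  x₃ : K
  u₁ : K
  u₂ : K
  u₃ : K
  l : K
  n : K
  line₁ : u₁ = l * x₁ + n
  line₂ : u₂ = l * x₂ + n
  line₃ : u₃ = l * x₃ + n
  e₁ : x₁ + x₂ + x₃ = l ^ 2 + d * l
  e₂ : x₁ * x₂ + x₁ * x₃ + x₂ * x₃ = b - (2 * l + d) * n
  e₃ : x₁ * x₂ * x₃ = n ^ 2

namespace Triple2

variable {K : Type*} [Field K] {d b : K} (T : Triple2 d b)

/-- swap the first two points -/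
def swap₁₂ : Triple2 d b where
  x₁ := T.x₂
  x₂ := T.x₁
  x₃ := T.x₃
  u₁ := T.u₂
  u₂ := T.u₁
  u₃ := T.u₃
  l := T.l
  n := T.n
  line₁ := T.line₂
  line₂ := T.line₁
  line₃ := T.line₃
  e₁ := by rw [← T.e₁]; ring
  e₂ := by rw [← T.e₂]; ring
  e₃ := by rw [← T.e₃]; ring

/-- swap the last two points -/
def swap₂₃ : Triple2 d b where
  x₁ := T.x₁
  x₂ := T.x₃
  x₃ := T.x₂
  u₁ := T.u₁
  u₂ := T.u₃
  u₃ := T.u₂
  l := T.l
  n := T.n
  line₁ := T.line₁
  line₂ := T.line₃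
  line₃ := T.line₂
  e₁ := by rw [← T.e₁]; ring
  e₂ := by rw [← T.e₂]; ring
  e₃ := by rw [← T.e₃]; ring

/-- swap the first and last points -/
def swap₁₃ : Triple2 d b where
  x₁ := T.x₃
  x₂ := T.x₂
  x₃ := T.x₁
  u₁ := T.u₃
  u₂ := T.u₂
  u₃ := T.u₁
  l := T.l
  n := T.n
  line₁ := T.line₃
  line₂ := T.line₂
  line₃ := T.line₁
  e₁ := by rw [← T.e₁]; ring
  e₂ := by rw [← T.e₂]; ring
  e₃ := by rw [← T.e₃]; ring

/-- the negated triple `(xᵢ, -uᵢ - d xᵢ)`; it exchanges the two branches at the node -/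
def neg : Triple2 d b where
  x₁ := T.x₁
  x₂ := T.x₂
  x₃ := T.x₃
  u₁ := -T.u₁ - d * T.x₁
  u₂ := -T.u₂ - d * T.x₂
  u₃ := -T.u₃ - d * T.x₃
  l := -T.l - d
  n := -T.n
  line₁ := by rw [T.line₁]; ring
  line₂ := by rw [T.line₂]; ring
  line₃ := by rw [T.line₃]; ring
  e₁ := by rw [T.e₁]; ring
  e₂ := by rw [T.e₂]; ring
  e₃ := by rw [T.e₃]; ring

lemma eq₁ : T.u₁ ^ 2 + d * T.u₁ * T.x₁ = T.x₁ ^ 3 + b * T.x₁ := by
  rw [T.line₁]
  linear_combination (-(T.x₁ ^ 2)) * T.e₁ + T.x₁ * T.e₂ - T.e₃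

lemma eq₂ : T.u₂ ^ 2 + d * T.u₂ * T.x₂ = T.x₂ ^ 3 + b * T.x₂ := T.swap₁₂.eq₁

lemma eq₃ : T.u₃ ^ 2 + d * T.u₃ * T.x₃ = T.x₃ ^ 3 + b * T.x₃ := T.swap₁₃.eq₁

@[simp] lemma neg_x₁ : T.neg.x₁ = T.x₁ := rfl
@[simp] lemma neg_x₂ : T.neg.x₂ = T.x₂ := rfl
@[simp] lemma neg_x₃ : T.neg.x₃ = T.x₃ := rfl
@[simp] lemma neg_u₁ : T.neg.u₁ = -T.u₁ - d * T.x₁ := rfl
@[simp] lemma neg_u₂ : T.neg.u₂ = -T.u₂ - d * T.x₂ := rfl
@[simp] lemma neg_u₃ : T.neg.u₃ = -T.u₃ - d * T.x₃ := rfl

end Triple2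

/-- integrality hypotheses on the coefficients of `U^2 + d U X = X^3 + b X` -/
structure Integral2 {K : Type*} [Field K] (v : QVal K) (d b : K) : Prop where
  d_int : v.Ge d 0
  b_int : v.Ge b 0

/-- nodal (multiplicative) hypotheses: `d` (the difference of the two slopes at the node
`(0,0)`) is a unit and `b` lies in the maximal ideal. -/
structure Nodal2 {K : Type*} [Field K] (v : QVal K) (d b : K) : Prop where
  d_unit : v.IsVal d 0
  b_ne : b ≠ 0
  b_pos : 0 < v.w b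

lemma Nodal2.integral {K : Type*} [Field K] {v : QVal K} {d b : K} (h : Nodal2 v d b) :
    Integral2 v d b :=
  ⟨h.d_unit.ge, Or.inr h.b_pos.le⟩

lemma Nodal2.b_isVal {K : Type*} [Field K] {v : QVal K} {d b : K} (h : Nodal2 v d b) :
    v.IsVal b (v.w b) := ⟨h.b_ne, rfl⟩

lemma Nodal2.b_gt {K : Type*} [Field K] {v : QVal K} {d b : K} (h : Nodal2 v d b) :
    v.Gt b 0 := Or.inr h.b_pos

section PointLevel

open WeierstrassCurve WeierstrassCurve.Affine

variable {K : Type*} [Field K] [DecidableEq K]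

/-- Weierstrass curves `Y^2 + a₁ X Y = X^3 + a₂ X^2 + a₄ X` together with a slope `s` at the
origin: `s^2 + a₁ s = a₂`.  In the coordinates `(x, u) = (x, y - s x)` the curve is
`u^2 + (2 s + a₁) u x = x^3 + a₄ x`. -/
structure NodeCurve (W : WeierstrassCurve K) (s : K) : Prop where
  a₃ : W.a₃ = 0
  a₆ : W.a₆ = 0
  hs : s ^ 2 + W.a₁ * s = W.a₂

variable {W : WeierstrassCurve K} {s : K}

namespace NodeCurve

variable (hW : NodeCurve W s)
include hW

/-- the curve equation in split coordinates -/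
lemma eqn {x y : K} (h : W.toAffine.Nonsingular x y) :
    (y - s * x) ^ 2 + (2 * s + W.a₁) * (y - s * x) * x = x ^ 3 + W.a₄ * x := by
  have := (equation_iff _ _).mp h.1
  rw [hW.a₃, hW.a₆] at this
  linear_combination this - x ^ 2 * hW.hs

lemma negY_eq (x y : K) : W.toAffine.negY x y = -y - W.a₁ * x := by
  simp [negY, hW.a₃]

/-- the split coordinate of the negated point -/
lemma negY_sub (x y : K) :
    W.toAffine.negY x y - s * x = -(y - s * x) - (2 * s + W.a₁) * x := by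
  rw [hW.negY_eq]; ring

/-- the origin `(0,0)` is a (nonsingular) point as soon as `a₄ ≠ 0` -/
lemma nonsingular_origin (hb : W.a₄ ≠ 0) : W.toAffine.Nonsingular 0 0 := by
  rw [nonsingular_iff, equation_iff]
  refine ⟨by simp [hW.a₆], Or.inl ?_⟩
  simpa using hb.symm

end NodeCurve

/-- The component class of a point with split coordinates `(x, u)` on
`U^2 + d U X = X^3 + b X` (nodal situation): an element of `ℚ / 2 w(b) ℤ`.
* `x = 0` or `w b ≤ w x` : the class of `w b` (middle component);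
* `w x ≤ 0` : `0`;
* `0 < w x < w b` : `w x` on the branch `u / x ≡ 0`, and `- w x` on the other branch
  (`u / x ≡ -d`). -/
noncomputable def clsXU (v : QVal K) (b x u : K) : ℚ ⧸ AddSubgroup.zmultiples (2 * v.w b) :=
  open Classical in
  if x = 0 then ((v.w b : ℚ) : ℚ ⧸ AddSubgroup.zmultiples (2 * v.w b))
  else if v.w x ≤ 0 then 0
  else if v.w b ≤ v.w x then ((v.w b : ℚ) : ℚ ⧸ AddSubgroup.zmultiples (2 * v.w b))
  else if v.Gt (u / x) 0 then ((v.w x : ℚ) : ℚ ⧸ AddSubgroup.zmultiples (2 * v.w b))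
  else ((-(v.w x) : ℚ) : ℚ ⧸ AddSubgroup.zmultiples (2 * v.w b))

/-- The component class of a point (split coordinate `u = y - s x`). -/
noncomputable def cls2 (v : QVal K) (W : WeierstrassCurve K) (s : K) :
    W.toAffine.Point → ℚ ⧸ AddSubgroup.zmultiples (2 * v.w W.a₄)
  | .zero => 0
  | .some x y _ => clsXU v W.a₄ x (y - s * x)

end PointLevel

end Fermat.Agent.S13
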