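import Fermat.Agent.S05.Defs

/-!
S13 (helper9): Newton-Vieta / Gauss inequality in the `QVal` language of S05.

If `f` has `w`-integral coefficients and `s` is a finite set of (distinct) roots of `f`,
all of negative valuation, then `∑ r ∈ s, - w r ≤ w (leadingCoeff f)`.
-/

namespace Fermat.Agent.S13.H09

open Polynomial Fermat.Agent.S05

variable {K : Type*} [Field K]

/-- One linear factor with a root of negative valuation: a lower bound `c` for all coefficients of
`(X - r) * h` gives the lower bound `c - w r` for all coefficients of `h`. -/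
theorem coeff_ge_of_X_sub_C_mul (v : QVal K) {r : K} (hr : r ≠ 0) (hw : v.w r < 0) (h : K[X])
    (c : ℚ) (H : ∀ i, v.Ge (((X - C r) * h).coeff i) c) : ∀ i, v.Ge (h.coeff i) (c - v.w r) := by
  intro i
  induction i using Nat.strong_induction_on with
  | _ i ih =>
    by_contra hcon
    have hne : h.coeff i ≠ 0 := fun h0 => hcon (Or.inl h0)
    have hlt : v.w (h.coeff i) < c - v.w r := by
      by_contra hge
      exact hcon (Or.inr (not_lt.mp hge))
    -- the dominant term
    have hdom : v.IsVal (-(r * h.coeff i)) (v.w r + v.w (h.coeff i)) :=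
      (QVal.IsVal.mul (QVal.isVal_self hr) (QVal.isVal_self hne)).neg
    have hc : v.w r + v.w (h.coeff i) < c := by linarith
    rcases Nat.eq_zero_or_pos i with hi | hi
    · subst hi
      have h0 : ((X - C r) * h).coeff 0 = -(r * h.coeff 0) := by
        rw [mul_coeff_zero]; simp
      have := H 0
      rw [h0] at this
      exact hdom.not_ge_of_lt hc this
    · obtain ⟨j, rfl⟩ : ∃ j, i = j + 1 := ⟨i - 1, by omega⟩
      have h1 : ((X - C r) * h).coeff (j + 1) = -(r * h.coeff (j + 1)) + h.coeff j := by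
        rw [mul_comm, coeff_mul_X_sub_C]; ring
      have hprev : v.Gt (h.coeff j) (v.w r + v.w (h.coeff (j + 1))) := by
        have := ih j (Nat.lt_succ_self j)
        exact this.gt_of_lt (by linarith)
      have hval := hdom.add_gt hprev
      have := H (j + 1)
      rw [h1] at this
      exact hval.not_ge_of_lt hc this

/-- Several linear factors. -/
theorem coeff_ge_of_prod_X_sub_C_mul (v : QVal K) (s : Finset K)
    (hneg : ∀ r ∈ s, r ≠ 0 ∧ v.w r < 0) (g : K[X]) (c : ℚ)
    (H : ∀ i, v.Ge (((∏ r ∈ s, (X - C r)) * g).coeff i) c) :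
    ∀ i, v.Ge (g.coeff i) (c - ∑ r ∈ s, v.w r) := by
  classical
  induction s using Finset.induction_on generalizing c with
  | empty => simpa using H
  | insert a s ha ih =>
    have hneg' : ∀ r ∈ s, r ≠ 0 ∧ v.w r < 0 := fun r hr => hneg r (Finset.mem_insert_of_mem hr)
    obtain ⟨ha0, haw⟩ := hneg a (Finset.mem_insert_self a s)
    rw [Finset.prod_insert ha, mul_assoc] at H
    have h1 := coeff_ge_of_X_sub_C_mul v ha0 haw _ c H
    have h2 := ih hneg' (c - v.w a) h1
    intro i
    have := h2 i
    rw [Finset.sum_insert ha]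
    convert this using 1
    ring

/-- **Newton-Vieta / Gauss inequality.** If `f ≠ 0` has `w`-integral coefficients and `s` is a
finite set of roots of `f`, all nonzero of negative valuation, then
`∑ r ∈ s, - w r ≤ w (leadingCoeff f)`. -/
theorem sum_neg_w_le (v : QVal K) (f : K[X]) (hf0 : f ≠ 0) (hint : ∀ i, v.Ge (f.coeff i) 0)
    (s : Finset K) (hroot : ∀ r ∈ s, f.IsRoot r) (hneg : ∀ r ∈ s, r ≠ 0 ∧ v.w r < 0) :
    ∑ r ∈ s, (- v.w r) ≤ v.w f.leadingCoeff := by
  classical
  have hdvd : (∏ r ∈ s, (X - C r)) ∣ f := by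
    have : (s.val.map fun a => X - C a).prod ∣ f := by
      rw [Multiset.prod_X_sub_C_dvd_iff_le_roots hf0, Multiset.le_iff_subset s.nodup]
      intro r hr
      rw [mem_roots hf0]
      exact hroot r hr
    exact this
  obtain ⟨g, rfl⟩ := hdvd
  have hg0 : g ≠ 0 := right_ne_zero_of_mul hf0
  have hmonic : (∏ r ∈ s, (X - C r)).Monic := monic_prod_of_monic _ _ fun r _ => monic_X_sub_C r
  have hlc : ((∏ r ∈ s, (X - C r)) * g).leadingCoeff = g.leadingCoeff :=
    leadingCoeff_monic_mul hmonic
  have h := coeff_ge_of_prod_X_sub_C_mul v s hneg g 0 hint g.natDegree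
  have hlc0 : g.leadingCoeff ≠ 0 := leadingCoeff_ne_zero.mpr hg0
  have h' := h.le_w hlc0
  rw [hlc]
  have hsum : ∑ r ∈ s, (- v.w r) = 0 - ∑ r ∈ s, v.w r := by
    rw [Finset.sum_neg_distrib]; ring
  rw [hsum]
  exact h'

end Fermat.Agent.S13.H09
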