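import Mathlib
import Fermat.Prelude.Def_FLTPrelim_Ramification

set_option autoImplicit false

namespace Fermat.Agent.S13.H87

open Polynomial
open scoped Pointwise



theorem exists_eq_mul_of_root_integral {R L : Type*} [CommRing R] [Field L] [Algebra R L] (x : L) :
    ∀ (n : ℕ) (f : L[X]), f.natDegree ≤ n → (∀ i, IsIntegral R (f.coeff i)) → f.eval x = 0 →
      ∃ q : L[X], f = (X - C x) * q ∧ ∀ i, IsIntegral R (q.coeff i) := by
  intro n
  induction n with
  | zero =>
    intro f hf _ hx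
    refine ⟨0, ?_, fun i => by simpa using isIntegral_zero⟩
    rw [Polynomial.eq_C_of_natDegree_le_zero hf] at hx ⊢
    simp only [eval_C] at hx
    simp [hx]
  | succ n ih =>
    intro f hf hint hx
    by_cases hdeg : f.natDegree ≤ n
    · exact ih f hdeg hint hx
    have hdeg' : f.natDegree = n + 1 := by omega
    set a := f.leadingCoeff with ha
    -- a * x is integral
    have hax : IsIntegral R (a * x) := by
      have hlift : f ∈ Polynomial.lifts (algebraMap (integralClosure R L) L) := by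
        rw [Polynomial.lifts_iff_coeff_lifts]
        intro i
        exact ⟨⟨f.coeff i, hint i⟩, rfl⟩
      obtain ⟨p, hp⟩ := (Polynomial.mem_lifts _).1 hlift
      have hpx : aeval x p = 0 := by
        rw [Polynomial.aeval_def, ← Polynomial.eval_map, hp, hx]
      have h1 := isIntegral_leadingCoeff_smul p x hpx
      have h2 : (p.leadingCoeff • x : L) = a * x := by
        rw [Algebra.smul_def]
        congr 1
        rw [ha, ← hp, Polynomial.leadingCoeff_map_of_injective]
        exact Subtype.val_injective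
      rw [h2] at h1
      exact isIntegral_trans _ h1
    set f₁ : L[X] := f.eraseLead + C (a * x) * X ^ n with hf₁
    have hf₁deg : f₁.natDegree ≤ n := by
      refine (Polynomial.natDegree_add_le _ _).trans (max_le ?_ ?_)
      · have := Polynomial.eraseLead_natDegree_le f
        omega
      · exact (Polynomial.natDegree_C_mul_X_pow_le _ _)
    have hf₁int : ∀ i, IsIntegral R (f₁.coeff i) := by
      intro i
      rw [hf₁, Polynomial.coeff_add, Polynomial.coeff_C_mul_X_pow]
      refine IsIntegral.add ?_ ?_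
      · rw [Polynomial.eraseLead_coeff]
        split_ifs
        · exact isIntegral_zero
        · exact hint i
      · split_ifs
        · exact hax
        · exact isIntegral_zero
    have hfeq : f = f₁ + C a * X ^ n * (X - C x) := by
      have h := Polynomial.eraseLead_add_C_mul_X_pow f
      rw [hdeg'] at h
      rw [hf₁]
      conv_lhs => rw [← h]
      rw [C_mul]
      ring
    have hf₁x : f₁.eval x = 0 := by
      have := congrArg (Polynomial.eval x) hfeq
      rw [hx] at this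
      simp at this
      exact this.symm
    obtain ⟨q₁, hq₁, hq₁int⟩ := ih f₁ hf₁deg hf₁int hf₁x
    refine ⟨q₁ + C a * X ^ n, ?_, ?_⟩
    · rw [hfeq, hq₁]; ring
    · intro i
      rw [Polynomial.coeff_add, Polynomial.coeff_C_mul_X_pow]
      refine IsIntegral.add (hq₁int i) ?_
      split_ifs
      · rw [ha, Polynomial.leadingCoeff]
        exact hint _
      · exact isIntegral_zero




theorem exists_integral_not_mem_nonunits {L : Type*} [Field L] [CharZero L]
    (A : ValuationSubring L) (ℓ : ℕ) (hℓ : ℓ.Prime) (hA : (ℓ : L) ∈ A.nonunits)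
    (x : L) (hxalg : IsAlgebraic ℤ x) (hx : x ∈ A) :
    ∃ u : L, IsIntegral ℤ u ∧ IsIntegral ℤ (u * x) ∧ u ∉ A.nonunits := by
  obtain ⟨f, hf0, hfx⟩ := hxalg
  set g := f.primPart with hg
  have hgprim : g.IsPrimitive := Polynomial.isPrimitive_primPart f
  have hgx : aeval x g = 0 := by
    have h := Polynomial.eq_C_content_mul_primPart f
    rw [h, map_mul, Polynomial.aeval_C] at hfx
    rcases mul_eq_zero.mp hfx with h0 | h0
    · exfalso
      have : f.content = 0 := by
        have := (map_eq_zero_iff (algebraMap ℤ L) (algebraMap ℤ L).injective_int).mp h0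
        exact this
      exact hf0 (Polynomial.content_eq_zero_iff.mp this)
    · exact h0
  have hcoeff : ∃ i, ¬ ((ℓ : ℤ) ∣ g.coeff i) := by
    by_contra hcon
    push Not at hcon
    have hdvd : C (ℓ : ℤ) ∣ g := (Polynomial.C_dvd_iff_dvd_coeff _ _).mpr hcon
    have hunit := hgprim _ hdvd
    have := Int.isUnit_iff.mp hunit
    have h2 := hℓ.two_le
    omega
  obtain ⟨i, hi⟩ := hcoeff
  set G : L[X] := g.map (algebraMap ℤ L) with hG
  have hGx : G.eval x = 0 := by
    rw [hG, Polynomial.eval_map, ← Polynomial.aeval_def]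
    exact hgx
  have hGint : ∀ k, IsIntegral ℤ (G.coeff k) := by
    intro k
    rw [hG, Polynomial.coeff_map]
    exact isIntegral_algebraMap
  obtain ⟨q, hq, hqint⟩ := exists_eq_mul_of_root_integral (R := ℤ) x _ G le_rfl hGint hGx
  -- coefficient identities
  have hc0 : G.coeff 0 = - (x * q.coeff 0) := by
    rw [hq, sub_mul, Polynomial.coeff_sub, Polynomial.coeff_X_mul_zero, Polynomial.coeff_C_mul,
      zero_sub]
  have hcs : ∀ k, G.coeff (k + 1) = q.coeff k - x * q.coeff (k + 1) := by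
    intro k
    rw [hq, sub_mul, Polynomial.coeff_sub, Polynomial.coeff_X_mul, Polynomial.coeff_C_mul]
  have hnon : ∀ y : L, y ∈ A.nonunits ↔ A.valuation y < 1 := fun y => Iff.rfl
  have hxv : A.valuation x ≤ 1 := (A.valuation_le_one_iff x).mpr hx
  have hex : ∃ j, q.coeff j ∉ A.nonunits := by
    by_contra hcon
    push Not at hcon
    have hall : ∀ k, A.valuation (G.coeff k) < 1 := by
      intro k
      cases k with
      | zero =>
        rw [hc0, Valuation.map_neg, map_mul]
        exact lt_of_le_of_lt (mul_le_of_le_one_left' hxv) (hcon 0)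
      | succ k =>
        rw [hcs]
        refine lt_of_le_of_lt (Valuation.map_sub _ _ _) (max_lt (hcon k) ?_)
        rw [map_mul]
        exact lt_of_le_of_lt (mul_le_of_le_one_left' hxv) (hcon (k + 1))
    have hgi : A.valuation ((g.coeff i : ℤ) : L) < 1 := by
      have := hall i
      rwa [hG, Polynomial.coeff_map, eq_intCast] at this
    have hcop : IsCoprime (ℓ : ℤ) (g.coeff i) := by
      rw [Int.isCoprime_iff_gcd_eq_one]
      have hp : Prime (ℓ : ℤ) := Nat.prime_iff_prime_int.mp hℓ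
      exact Int.isCoprime_iff_gcd_eq_one.mp ((Prime.coprime_iff_not_dvd hp).mpr hi)
    obtain ⟨a, b, hab⟩ := hcop
    have h1 : (1 : L) = (a : L) * (ℓ : L) + (b : L) * ((g.coeff i : ℤ) : L) := by
      have := congrArg (Int.cast : ℤ → L) hab
      push_cast at this
      exact this.symm
    have hintv : ∀ m : ℤ, A.valuation (m : L) ≤ 1 := fun m =>
      (A.valuation_le_one_iff _).mpr (intCast_mem A m)
    have : A.valuation (1 : L) < 1 := by
      rw [h1]
      refine lt_of_le_of_lt (Valuation.map_add _ _ _) (max_lt ?_ ?_)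
      · rw [map_mul]
        exact lt_of_le_of_lt (mul_le_of_le_one_left' (hintv a)) hA
      · rw [map_mul]
        exact lt_of_le_of_lt (mul_le_of_le_one_left' (hintv b)) hgi
    rw [map_one] at this
    exact lt_irrefl _ this
  obtain ⟨j, hj⟩ := hex
  refine ⟨q.coeff j, hqint j, ?_, hj⟩
  cases j with
  | zero =>
    have : q.coeff 0 * x = - G.coeff 0 := by rw [hc0]; ring
    rw [this]
    exact (hGint 0).neg
  | succ j =>
    have : q.coeff (j + 1) * x = q.coeff j - G.coeff (j + 1) := by rw [hcs]; ring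
    rw [this]
    exact (hqint j).sub (hGint _)


theorem isIntegral_int_mem_valuationSubring {L : Type*} [Field L] (A : ValuationSubring L)
    (b : L) (hb : IsIntegral ℤ b) : b ∈ A := by
  have h1 : IsIntegral A b := hb.tower_top
  obtain ⟨y, hy⟩ := IsIntegrallyClosed.isIntegral_iff.mp h1
  rw [← hy]
  exact y.2



theorem exists_mul_mem_inertia_of_profinite {G B : Type*} [Group G] [CommRing B]
    [MulSemiringAction G B]
    [TopologicalSpace G] [CompactSpace G] [TotallyDisconnectedSpace G] [IsTopologicalGroup G]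
    [TopologicalSpace B] [DiscreteTopology B] [ContinuousSMul G B]
    (H : Subgroup G) [hHn : H.Normal] (hH : IsClosed (H : Set G)) (Q : Ideal B) [Q.IsPrime] (σ : G)
    (hσ : ∀ b : B, (∀ h ∈ H, h • b = b) → σ • b - b ∈ Q) :
    ∃ h ∈ H, (h * σ) • Q = Q ∧ ∀ b : B, (h * σ) • b - b ∈ Q := by
  classical
  let A' := FixedPoints.subring B H
  have hcomp : CompactSpace H := isCompact_iff_compactSpace.mp hH.isCompact
  have hinv : Algebra.IsInvariant A' B H := ⟨fun b hb => ⟨⟨b, hb⟩, rfl⟩⟩
  have hfix : ∀ (g : G) (b : B), (∀ h ∈ H, h • b = b) → ∀ h ∈ H, h • (g • b) = g • b := by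
    intro g b hb h hh
    have h1 : g⁻¹ * h * g ∈ H := by
      have h2 := hHn.conj_mem h hh g⁻¹
      simpa using h2
    calc h • (g • b) = g • ((g⁻¹ * h * g) • b) := by simp [mul_smul]
      _ = g • b := by rw [hb _ h1]
  have hunder : (σ • Q).under A' = Q.under A' := by
    ext ⟨y, hy⟩
    simp only [Ideal.under_def, Ideal.mem_comap]
    show y ∈ σ • Q ↔ y ∈ Q
    rw [Ideal.mem_pointwise_smul_iff_inv_smul_mem]
    have hy' : ∀ h ∈ H, h • (σ⁻¹ • y) = σ⁻¹ • y := hfix σ⁻¹ y (fun h hh => hy ⟨h, hh⟩)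
    have h3 := hσ (σ⁻¹ • y) hy'
    rw [smul_inv_smul] at h3
    constructor
    · intro h; have h4 := Q.add_mem h3 h; simpa using h4
    · intro h; have h4 := Q.sub_mem h h3; simpa using h4
  obtain ⟨g, hg⟩ := Algebra.IsInvariant.exists_smul_of_under_eq_of_profinite (A := A') (G := H)
    (σ • Q) Q hunder
  set σ₁ : G := (g : G) * σ with hσ₁
  have hσ₁Q : σ₁ • Q = Q := by
    rw [hσ₁, mul_smul]; exact hg.symm
  have hσ₁b : ∀ b : B, (∀ h ∈ H, h • b = b) → σ₁ • b - b ∈ Q := by
    intro b hb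
    rw [hσ₁, mul_smul, hfix σ b hb g g.2]
    exact hσ b hb
  let P' := Q.under A'
  let e : (B ⧸ Q) ≃+* (B ⧸ Q) :=
    Ideal.quotientEquiv Q Q (MulSemiringAction.toRingEquiv G B σ₁) hσ₁Q.symm
  have he : ∀ b : B, e (Ideal.Quotient.mk Q b) = Ideal.Quotient.mk Q (σ₁ • b) := fun b => rfl
  let φ : (B ⧸ Q) ≃ₐ[A' ⧸ P'] (B ⧸ Q) := AlgEquiv.ofRingEquiv (f := e) (by
    intro x
    obtain ⟨a, rfl⟩ := Ideal.Quotient.mk_surjective x
    show e (Ideal.Quotient.mk Q (a : B)) = Ideal.Quotient.mk Q (a : B)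
    rw [he, ← sub_eq_zero, ← map_sub, Ideal.Quotient.eq_zero_iff_mem]
    exact hσ₁b a (fun h hh => a.2 ⟨h, hh⟩))
  obtain ⟨⟨h₁, hh₁⟩, hφ⟩ := Ideal.Quotient.stabilizerHom_surjective_of_profinite (G := H) P' Q φ
  have hh₁' : (h₁ : G) • Q = Q := hh₁
  have key : ∀ b : B, σ₁ • b - (h₁ : G) • b ∈ Q := by
    intro b
    have h5 := congrArg (fun f => f (Ideal.Quotient.mk Q b)) hφ
    simp only [Ideal.Quotient.stabilizerHom_apply] at h5
    have h6 : Ideal.Quotient.mk Q ((h₁ : G) • b) = Ideal.Quotient.mk Q (σ₁ • b) := h5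
    rw [← Ideal.Quotient.eq_zero_iff_mem, map_sub, h6, sub_self]
  refine ⟨(h₁ : G)⁻¹ * g, H.mul_mem (H.inv_mem h₁.2) g.2, ?_, ?_⟩
  · rw [mul_assoc, mul_smul, ← hσ₁, hσ₁Q, inv_smul_eq_iff, hh₁']
  · intro b
    rw [mul_assoc, ← hσ₁, mul_smul]
    have h7 : (h₁ : G)⁻¹ • (σ₁ • b - (h₁ : G) • b) ∈ (h₁ : G)⁻¹ • Q :=
      Ideal.smul_mem_pointwise_smul _ _ _ (key b)
    have h8 : (h₁ : G)⁻¹ • Q = Q := by rw [inv_smul_eq_iff, hh₁']
    rw [h8, smul_sub, inv_smul_smul] at h7
    exact h7



theorem mem_inertiaSubgroupIn_of_forall {L : Type*} [Field L] [Algebra ℚ L]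
    [Algebra.IsAlgebraic ℚ L] (A : ValuationSubring L) {q : ℕ} (hq : q.Prime)
    (hA : (q : L) ∈ A.nonunits) (σ : L ≃ₐ[ℚ] L)
    (h2 : ∀ b : L, IsIntegral ℤ b → σ b - b ∈ A.nonunits) :
    σ ∈ A.inertiaSubgroupIn ℚ := by
  classical
  have : CharZero L := charZero_of_injective_algebraMap (algebraMap ℚ L).injective
  have hBA : ∀ b : L, IsIntegral ℤ b → b ∈ A := isIntegral_int_mem_valuationSubring A
  have halg : ∀ x : L, IsAlgebraic ℤ x := fun x =>
    (IsFractionRing.isAlgebraic_iff ℤ ℚ L).mpr (Algebra.IsAlgebraic.isAlgebraic x)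
  have hnon : ∀ y : L, y ∈ A.nonunits ↔ A.valuation y < 1 := fun y => Iff.rfl
  -- the same property for the inverse
  have h2' : ∀ b : L, IsIntegral ℤ b → σ.symm b - b ∈ A.nonunits := by
    intro b hb
    have hc : IsIntegral ℤ (σ.symm b) := map_isIntegral_int σ.symm hb
    have h3 := h2 _ hc
    rw [AlgEquiv.apply_symm_apply] at h3
    rw [hnon] at h3 ⊢
    have h4 : σ.symm b - b = -(b - σ.symm b) := by ring
    rw [h4, Valuation.map_neg]
    exact h3
  -- unit integral elements stay units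
  have hunit : ∀ τ : L ≃ₐ[ℚ] L, (∀ b : L, IsIntegral ℤ b → τ b - b ∈ A.nonunits) →
      ∀ u : L, IsIntegral ℤ u → u ∉ A.nonunits → A.valuation (τ u) = 1 := by
    intro τ hτ u hu hun
    have h5 : A.valuation u = 1 :=
      le_antisymm ((A.valuation_le_one_iff _).mpr (hBA _ hu)) (not_lt.mp hun)
    have h6 : A.valuation (τ u - u) < 1 := hτ u hu
    have h7 : τ u = u + (τ u - u) := by ring
    rw [h7]
    have h8 := Valuation.map_add_eq_of_lt_left A.valuation (x := u) (y := τ u - u)
      (by rw [h5]; exact h6)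
    rw [h8, h5]
  have hstab : ∀ τ : L ≃ₐ[ℚ] L, (∀ b : L, IsIntegral ℤ b → τ b - b ∈ A.nonunits) →
      ∀ x ∈ A, τ x ∈ A := by
    intro τ hτ x hx
    obtain ⟨u, hu, hux, hun⟩ := exists_integral_not_mem_nonunits A q hq hA x (halg x) hx
    have h3 := hunit τ hτ u hu hun
    have h6 : A.valuation (τ (u * x)) ≤ 1 :=
      (A.valuation_le_one_iff _).mpr (hBA _ (map_isIntegral_int τ hux))
    rw [map_mul, map_mul, h3, one_mul] at h6
    exact (A.valuation_le_one_iff _).mp h6
  have hσA : σ ∈ A.decompositionSubgroup ℚ := by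
    rw [MulAction.mem_stabilizer_iff]
    ext x
    rw [ValuationSubring.mem_pointwise_smul_iff_inv_smul_mem]
    constructor
    · intro h
      have h1 := hstab σ h2 _ h
      simpa using h1
    · intro h
      exact hstab σ.symm h2' x h
  rw [ValuationSubring.inertiaSubgroupIn, Subgroup.mem_map]
  refine ⟨⟨σ, hσA⟩, ?_, rfl⟩
  rw [ValuationSubring.inertiaSubgroup, MonoidHom.mem_ker]
  ext y
  obtain ⟨a, rfl⟩ := IsLocalRing.residue_surjective y
  show (⟨σ, hσA⟩ : A.decompositionSubgroup ℚ) • IsLocalRing.residue A a = IsLocalRing.residue A a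
  rw [← IsLocalRing.ResidueField.residue_smul, ← sub_eq_zero, ← map_sub,
    IsLocalRing.residue_eq_zero_iff, ValuationSubring.valuation_lt_one_iff]
  show A.valuation (σ (a : L) - (a : L)) < 1
  obtain ⟨u, hu, hux, hun⟩ := exists_integral_not_mem_nonunits A q hq hA a.1 (halg _) a.2
  have h3 := hunit σ h2 u hu hun
  have h9 : σ u * (σ (a : L) - (a : L)) =
      (σ (u * (a : L)) - u * (a : L)) - (σ u - u) * (a : L) := by
    rw [map_mul]; ring
  have h10 : A.valuation (σ u * (σ (a : L) - (a : L))) < 1 := by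
    rw [h9]
    refine lt_of_le_of_lt (Valuation.map_sub _ _ _) (max_lt (h2 _ hux) ?_)
    rw [map_mul]
    exact lt_of_le_of_lt (mul_le_of_le_one_right' ((A.valuation_le_one_iff _).mpr a.2)) (h2 u hu)
  rwa [map_mul, h3, one_mul] at h10

theorem exists_mul_mem_inertiaSubgroupIn {L : Type*} [Field L] [Algebra ℚ L] [IsGalois ℚ L]
    (F1 : IntermediateField ℚ L) (hnormal : F1.fixingSubgroup.Normal) (A : ValuationSubring L)
    {q : ℕ} (hq : q.Prime) (hA : A.LiesOverPrime q) (σ0 : L ≃ₐ[ℚ] L)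
    (hσ0 : ∀ b ∈ F1, IsIntegral ℤ b → σ0 b - b ∈ A.nonunits) :
    ∃ h ∈ F1.fixingSubgroup, h * σ0 ∈ A.inertiaSubgroupIn ℚ := by
  classical
  have hnon : ∀ y : L, y ∈ A.nonunits ↔ A.valuation y < 1 := fun y => Iff.rfl
  have hBA : ∀ b : L, IsIntegral ℤ b → b ∈ A := isIntegral_int_mem_valuationSubring A
  let B := integralClosure ℤ L
  let ι : B →+* A :=
    { toFun := fun b => ⟨b.1, hBA b.1 b.2⟩
      map_one' := rfl
      map_mul' := fun _ _ => rfl
      map_zero' := rfl
      map_add' := fun _ _ => rfl }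
  let Q : Ideal B := (IsLocalRing.maximalIdeal A).comap ι
  have hQ : ∀ b : B, b ∈ Q ↔ (b : L) ∈ A.nonunits := by
    intro b
    rw [hnon, Ideal.mem_comap, ValuationSubring.valuation_lt_one_iff]
    exact Iff.rfl
  have hQprime : Q.IsPrime := Ideal.comap_isPrime _ _
  let _ : TopologicalSpace B := ⊥
  have hdisc : DiscreteTopology B := ⟨rfl⟩
  have hcont : ContinuousSMul (L ≃ₐ[ℚ] L) B := by
    rw [continuousSMul_iff_stabilizer_isOpen]
    intro b
    convert stabilizer_isOpen_of_isIntegral (K := ℚ) (b : L) using 1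
    ext g
    change g • b = b ↔ g • (b : L) = (b : L)
    exact Subtype.ext_iff
  have hclosed : IsClosed (F1.fixingSubgroup : Set (L ≃ₐ[ℚ] L)) :=
    InfiniteGalois.fixingSubgroup_isClosed F1
  obtain ⟨h, hh, -, hb⟩ := exists_mul_mem_inertia_of_profinite (G := L ≃ₐ[ℚ] L) (B := B)
    F1.fixingSubgroup hclosed Q σ0 (by
      intro b hfix
      rw [hQ]
      have hbF : (b : L) ∈ F1 := by
        rw [← InfiniteGalois.fixedField_fixingSubgroup F1, IntermediateField.mem_fixedField_iff]
        intro g hg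
        exact congrArg Subtype.val (hfix g hg)
      exact hσ0 _ hbF b.2)
  refine ⟨h, hh, ?_⟩
  refine mem_inertiaSubgroupIn_of_forall A hq hA (h * σ0) ?_
  intro b hbint
  exact (hQ _).mp (hb ⟨b, hbint⟩)

theorem exists_inertia_lift (F1 : IntermediateField ℚ (AlgebraicClosure ℚ))
    [FiniteDimensional ℚ F1] [IsGalois ℚ F1] (A : ValuationSubring (AlgebraicClosure ℚ)) {q : ℕ}
    (hq : q.Prime) (hA : A.LiesOverPrime q) (σ : F1 ≃ₐ[ℚ] F1)
    (hσ : ∀ b : F1, IsIntegral ℤ b → ((σ b - b : F1) : AlgebraicClosure ℚ) ∈ A.nonunits) :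
    ∃ τ ∈ A.inertiaSubgroupIn ℚ, AlgEquiv.restrictNormalHom F1 τ = σ := by
  haveI : IsAlgClosure ℚ (AlgebraicClosure ℚ) := AlgebraicClosure.instIsAlgClosure ℚ
  haveI : IsGalois ℚ (AlgebraicClosure ℚ) := IsAlgClosure.isGalois ℚ (AlgebraicClosure ℚ)
  have hnormal : F1.fixingSubgroup.Normal :=
    (InfiniteGalois.normal_iff_isGalois F1).mpr ‹IsGalois ℚ F1›
  obtain ⟨σ0, hσ0⟩ := (AlgEquiv.restrictNormalHom_surjective (F := ℚ) (K₁ := F1)
    (AlgebraicClosure ℚ)) σ
  obtain ⟨h, hh, hmem⟩ := exists_mul_mem_inertiaSubgroupIn F1 hnormal A hq hA σ0 (by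
    intro b hbF hbint
    have h1 : IsIntegral ℤ (⟨b, hbF⟩ : F1) :=
      (isIntegral_algebraMap_iff (algebraMap F1 (AlgebraicClosure ℚ)).injective).mp hbint
    have h2 := hσ ⟨b, hbF⟩ h1
    have h3 : σ0 b = ((σ ⟨b, hbF⟩ : F1) : AlgebraicClosure ℚ) := by
      rw [← hσ0]
      exact (AlgEquiv.restrictNormal_commutes σ0 F1 ⟨b, hbF⟩).symm
    rw [h3]
    exact_mod_cast h2)
  refine ⟨h * σ0, hmem, ?_⟩
  rw [map_mul, hσ0]
  have h4 : AlgEquiv.restrictNormalHom F1 h = 1 := by
    ext x
    have h5 := AlgEquiv.restrictNormal_commutes h F1 x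
    have h6 : h (x : AlgebraicClosure ℚ) = x :=
      (IntermediateField.mem_fixingSubgroup_iff F1 h).mp hh x x.2
    exact h5.trans h6
  rw [h4, one_mul]

end Fermat.Agent.S13.H87
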