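import Fermat.Agent.S13.Defs2

/-!
S13, block L2, task ED' (helper4): the kernel of reduction `{w x < 0}` of a curve in split
coordinates `u^2 + d u x = x^3 + b x` has no torsion prime to the residue characteristic.

This file contains the proof with T1' (`Triple2.kernel_closed`), T2' (`Triple2.kernel_z_sum`)
and A1' (`exists_triple2`) as explicit hypotheses (`H04.T1Stmt2`, `H04.T2Stmt2`,
`H04.A1Stmt2`); the wrapper with the exact interface statement is in `ED2_helper4.lean`.

The local parameter is `z = x / u`.  One has `z(-P) = -z / (1 + d z)`, so `z(-P) + z(P)` has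
valuation at least `2 τ` when `w x ≤ -2 τ`; together with T2' this gives
`z(k P) ≡ k z(P)` modulo valuation `≥ 2 τ` by induction on `k`.
-/

set_option autoImplicit false

namespace Fermat.Agent.S13

open Fermat.Agent.S05 WeierstrassCurve WeierstrassCurve.Affine

variable {K : Type*} [Field K]

namespace H04

/-- the statement of task T1', as a hypothesis -/
def T1Stmt2 (v : QVal K) (d b : K) : Prop :=
  ∀ T : Triple2 d b, T.x₁ ≠ 0 → v.w T.x₁ < 0 → T.x₂ ≠ 0 → v.w T.x₂ < 0 →
    T.x₃ ≠ 0 ∧ v.w T.x₃ ≤ max (v.w T.x₁) (v.w T.x₂)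

/-- the statement of task T2', as a hypothesis -/
def T2Stmt2 (v : QVal K) (d b : K) : Prop :=
  ∀ (T : Triple2 d b) (τ : ℚ), 0 < τ → T.x₁ ≠ 0 → v.w T.x₁ ≤ -2 * τ → T.x₂ ≠ 0 →
    v.w T.x₂ ≤ -2 * τ → T.x₃ ≠ 0 → v.w T.x₃ ≤ -2 * τ →
    T.u₁ ≠ 0 ∧ T.u₂ ≠ 0 ∧ T.u₃ ≠ 0 ∧
      v.Ge (T.x₁ / T.u₁ + T.x₂ / T.u₂ + T.x₃ / T.u₃) (2 * τ)

/-- the statement of task A1', as a hypothesis -/
def A1Stmt2 [DecidableEq K] (W : WeierstrassCurve K) (s : K) : Prop :=
  ∀ {x₁ y₁ x₂ y₂ x₃ y₃ : K} (hP₁ : W.toAffine.Nonsingular x₁ y₁)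
    (hP₂ : W.toAffine.Nonsingular x₂ y₂) (hP₃ : W.toAffine.Nonsingular x₃ y₃),
    Point.some x₁ y₁ hP₁ + Point.some x₂ y₂ hP₂ + Point.some x₃ y₃ hP₃ = 0 →
    ∃ T : Triple2 (2 * s + W.a₁) W.a₄, T.x₁ = x₁ ∧ T.u₁ = y₁ - s * x₁ ∧ T.x₂ = x₂ ∧
      T.u₂ = y₂ - s * x₂ ∧ T.x₃ = x₃ ∧ T.u₃ = y₃ - s * x₃

variable {v : QVal K} {d b : K}

/-- valuations of `u` and `u + d x` for a point of the kernel of reduction -/
theorem kernel_u_isVal (hI : Integral2 v d b) {x u : K}
    (heq : u ^ 2 + d * u * x = x ^ 3 + b * x) (hx : x ≠ 0) (hxw : v.w x < 0) :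
    v.IsVal u (3 * v.w x / 2) ∧ v.IsVal (u + d * x) (3 * v.w x / 2) := by
  have hxv : v.IsVal x (v.w x) := QVal.isVal_self hx
  have hx3 : v.IsVal (x ^ 3) (3 * v.w x) := by
    have := hxv.pow 3
    push_cast at this
    exact this
  have hbx : v.Gt (b * x) (3 * v.w x) :=
    (hI.b_int.mul hxv.ge).gt_of_lt (by linarith)
  have hprod : v.IsVal (u * (u + d * x)) (3 * v.w x) := by
    have h := hx3.add_gt hbx
    have e : u * (u + d * x) = x ^ 3 + b * x := by rw [← heq]; ring
    rw [e]; exact h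
  have hu0 : u ≠ 0 := fun h0 => hprod.1 (by simp [h0])
  have hdx : v.Ge (d * x) (v.w x) := (hI.d_int.mul hxv.ge).mono (by linarith)
  have hlt : v.w u < v.w x := by
    by_contra hge
    rw [not_lt] at hge
    have h1 : v.Ge u (v.w x) := Or.inr hge
    have h2 : v.Ge (u + d * x) (v.w x) := h1.add hdx
    have h3 : v.Ge (u * (u + d * x)) (v.w x + v.w x) := h1.mul h2
    exact hprod.not_ge_of_lt (by linarith) h3
  have hsum : v.IsVal (u + d * x) (v.w u) :=
    (QVal.isVal_self hu0).add_gt (hdx.gt_of_lt hlt)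
  have h2u : v.w u + v.w u = 3 * v.w x := ((QVal.isVal_self hu0).mul hsum).unique hprod
  have hwu : v.w u = 3 * v.w x / 2 := by linarith
  exact ⟨⟨hu0, hwu⟩, hsum.congr hwu⟩

/-- `z(P) + z(-P)` is small for a point of the kernel of reduction -/
theorem kernel_z_add_z_neg (hI : Integral2 v d b) {x u : K}
    (heq : u ^ 2 + d * u * x = x ^ 3 + b * x) (hx : x ≠ 0) {τ : ℚ} (hτ : 0 < τ)
    (hxw : v.w x ≤ -2 * τ) :
    v.Ge (x / u + x / (-u - d * x)) (2 * τ) := by
  have hxneg : v.w x < 0 := by linarith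
  obtain ⟨hu, hud⟩ := kernel_u_isVal hI heq hx hxneg
  have hxv : v.IsVal x (v.w x) := QVal.isVal_self hx
  have hne : -u - d * x ≠ 0 := by
    intro h0
    apply hud.1
    linear_combination -h0
  have e : x / u + x / (-u - d * x) = d * (x ^ 2 / (u * (u + d * x))) := by
    have h1 := hu.1
    have h2 := hud.1
    have h3 : -u - d * x = -(u + d * x) := by ring
    rw [h3, div_neg, ← sub_eq_add_neg, div_sub_div _ _ h1 h2, ← mul_div_assoc,
      div_left_inj' (mul_ne_zero h1 h2)]
    ring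
  rw [e]
  have hq : v.IsVal (x ^ 2 / (u * (u + d * x))) (-(v.w x)) := by
    have h2 := hxv.pow 2
    push_cast at h2
    exact (h2.div (hu.mul hud)).congr (by ring)
  exact (hI.d_int.mul hq.ge).mono (by linarith)

/-- the local parameter `x / u`, `u = y - s x` (and `0` at the origin) -/
noncomputable def zc2 {W : WeierstrassCurve K} (s : K) : W.toAffine.Point → K
  | .zero => 0
  | .some x y _ => x / (y - s * x)

@[simp] lemma zc2_zero {W : WeierstrassCurve K} (s : K) :
    zc2 s (0 : W.toAffine.Point) = 0 := rfl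

@[simp] lemma zc2_some {W : WeierstrassCurve K} (s : K) {x y : K}
    (h : W.toAffine.Nonsingular x y) : zc2 s (Point.some x y h) = x / (y - s * x) := rfl

/-- the invariant: the point is `0` or deep enough in the kernel of reduction -/
def InK2 (v : QVal K) (τ : ℚ) {W : WeierstrassCurve K} (Q : W.toAffine.Point) : Prop :=
  Q = 0 ∨ ∃ (x y : K) (h : W.toAffine.Nonsingular x y), Q = Point.some x y h ∧ x ≠ 0 ∧
    v.w x ≤ -2 * τ

theorem kernel_induction2 [DecidableEq K] {W : WeierstrassCurve K} {s : K}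
    (hW : NodeCurve W s) (hI : Integral2 v (2 * s + W.a₁) W.a₄)
    (hT1 : T1Stmt2 v (2 * s + W.a₁) W.a₄) (hT2 : T2Stmt2 v (2 * s + W.a₁) W.a₄)
    (hA1 : A1Stmt2 W s)
    {x y : K} (hP : W.toAffine.Nonsingular x y) (hx : x ≠ 0) {τ : ℚ} (hτ : 0 < τ)
    (hxw : v.w x = -2 * τ) (k : ℕ) :
    InK2 v τ (k • Point.some x y hP) ∧
      v.Ge (zc2 s (k • Point.some x y hP) - (k : K) * (x / (y - s * x))) (2 * τ) := by
  induction k with
  | zero =>
    refine ⟨Or.inl (zero_nsmul _), ?_⟩
    rw [zero_nsmul]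
    exact Or.inl (by simp)
  | succ k ih =>
    obtain ⟨ihK, ihz⟩ := ih
    rw [succ_nsmul]
    rcases ihK with hQ | ⟨xk, yk, hk, hQ, hxk0, hxkw⟩
    · rw [hQ, zero_add]
      refine ⟨Or.inr ⟨x, y, hP, rfl, hx, hxw.le⟩, ?_⟩
      rw [hQ] at ihz
      have e : zc2 s (Point.some x y hP) - ((k + 1 : ℕ) : K) * (x / (y - s * x)) =
          zc2 s (0 : W.toAffine.Point) - (k : K) * (x / (y - s * x)) := by
        simp only [zc2_some, zc2_zero]; push_cast; ring
      rw [e]; exact ihz
    · rw [hQ] at ihz ⊢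
      by_cases hneg : xk = x ∧ yk = W.toAffine.negY x y
      · rw [Point.add_of_Y_eq hneg.1 hneg.2]
        refine ⟨Or.inl rfl, ?_⟩
        have huk : yk - s * xk = -(y - s * x) - (2 * s + W.a₁) * x := by
          rw [hneg.2, hneg.1, hW.negY_sub]
        have hsmall := kernel_z_add_z_neg hI (hW.eqn hP) hx hτ hxw.le
        have e : zc2 s (0 : W.toAffine.Point) - ((k + 1 : ℕ) : K) * (x / (y - s * x)) =
            (zc2 s (Point.some xk yk hk) - (k : K) * (x / (y - s * x))) -
              (x / (y - s * x) + x / (-(y - s * x) - (2 * s + W.a₁) * x)) := by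
          simp only [zc2_some, zc2_zero]; rw [huk, hneg.1]; push_cast; ring
        rw [e]; exact ihz.sub hsmall
      · rw [Point.add_some hneg]
        set x' := W.toAffine.addX xk x (W.toAffine.slope xk x yk y) with hx'
        set y' := W.toAffine.addY xk x yk (W.toAffine.slope xk x yk y) with hy'
        have hns : W.toAffine.Nonsingular x' y' := nonsingular_add hk hP hneg
        have hns' : W.toAffine.Nonsingular x' (W.toAffine.negY x' y') :=
          (nonsingular_neg _ _).mpr hns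
        have hsum : Point.some xk yk hk + Point.some x y hP +
            Point.some x' (W.toAffine.negY x' y') hns' = 0 := by
          rw [Point.add_some hneg, ← Point.neg_some hns, add_neg_cancel]
        obtain ⟨T, t1, t1', t2, t2', t3, t3'⟩ := hA1 hk hP hns' hsum
        have hxk_neg : v.w T.x₁ < 0 := by rw [t1]; linarith
        have hx_neg : v.w T.x₂ < 0 := by rw [t2]; linarith
        obtain ⟨hx3, hx3w⟩ := hT1 T (t1 ▸ hxk0) hxk_neg (t2 ▸ hx) hx_neg
        have hx3w' : v.w T.x₃ ≤ -2 * τ := by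
          refine hx3w.trans (max_le ?_ ?_)
          · rw [t1]; exact hxkw
          · rw [t2]; exact hxw.le
        obtain ⟨-, -, -, hz⟩ := hT2 T τ hτ (t1 ▸ hxk0) (by rw [t1]; exact hxkw) (t2 ▸ hx)
          (by rw [t2]; exact hxw.le) hx3 hx3w'
        rw [t1, t1', t2, t2', t3, t3', hW.negY_sub] at hz
        rw [t3] at hx3 hx3w'
        refine ⟨Or.inr ⟨x', y', hns, rfl, hx3, hx3w'⟩, ?_⟩
        have hsmall := kernel_z_add_z_neg hI (hW.eqn hns) hx3 hτ hx3w'
        have e : zc2 s (Point.some x' y' hns) - ((k + 1 : ℕ) : K) * (x / (y - s * x)) =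
            (zc2 s (Point.some xk yk hk) - (k : K) * (x / (y - s * x))) -
              (xk / (yk - s * xk) + x / (y - s * x) +
                x' / (-(y' - s * x') - (2 * s + W.a₁) * x')) +
              (x' / (y' - s * x') + x' / (-(y' - s * x') - (2 * s + W.a₁) * x')) := by
          simp only [zc2_some]; push_cast; ring
        rw [e]; exact (ihz.sub hz).add hsmall

/-- ED', with T1', T2' and A1' as hypotheses: the kernel of reduction has no torsion of order
prime to the residue characteristic. -/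
theorem kernel_nsmul_ne_zero2_aux [DecidableEq K] {W : WeierstrassCurve K} {s : K}
    (hW : NodeCurve W s) (hI : Integral2 v (2 * s + W.a₁) W.a₄)
    (hT1 : T1Stmt2 v (2 * s + W.a₁) W.a₄) (hT2 : T2Stmt2 v (2 * s + W.a₁) W.a₄)
    (hA1 : A1Stmt2 W s)
    {x y : K} (hP : W.toAffine.Nonsingular x y) (hx : x ≠ 0) (hxw : v.w x < 0)
    (k : ℕ) (hk : v.IsVal (k : K) 0) : k • Point.some x y hP ≠ 0 := by
  set τ : ℚ := -(v.w x) / 2 with hτdef
  have hτ : 0 < τ := by rw [hτdef]; linarith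
  have hxw' : v.w x = -2 * τ := by rw [hτdef]; ring
  have hxv : v.IsVal x (-2 * τ) := ⟨hx, hxw'⟩
  obtain ⟨hu, -⟩ := kernel_u_isVal hI (hW.eqn hP) hx hxw
  have hz : v.IsVal (x / (y - s * x)) τ := (hxv.div hu).congr (by rw [hxw']; ring)
  have hkz : v.IsVal ((k : K) * (x / (y - s * x))) τ := (hk.mul hz).congr (by ring)
  obtain ⟨-, hind⟩ := kernel_induction2 hW hI hT1 hT2 hA1 hP hx hτ hxw' k
  have hgt : v.Gt (zc2 s (k • Point.some x y hP) - (k : K) * (x / (y - s * x))) τ :=
    hind.gt_of_lt (by linarith)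
  have hzk : v.IsVal (zc2 s (k • Point.some x y hP)) τ := by
    have := hkz.add_gt hgt
    rwa [add_sub_cancel] at this
  intro h0
  rw [h0] at hzk
  exact hzk.1 rfl

end H04

end Fermat.Agent.S13
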