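import Fermat.Agent.S13.Defs
import Fermat.Agent.S13.W2b_helper22
import Fermat.Agent.S13.Rat2Final_helper28
import Fermat.Agent.S13.GU_helper8

/-!
S13, block L2 (captain: helper64): the two CLOSED top-level statements of the block at the
prime `2`, in the shapes of the S13 assembly (`StmtL2a`, `StmtL2b` of `Assembly_helper16`,
= nodes (2a), (2b)):

* `H64.frey_inertia_two_unipotent`  (re-export of `H08.frey_inertia_two_unipotent`);
* `H64.frey_no_rational_torsion`    (`H22.frey_no_rational_torsion_of` applied to the generic
  statement `no_rational_torsion2`).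
-/

set_option autoImplicit false

namespace Fermat.Agent.S13.H64

/-- **(L2a)**: inertia at `2` acts unipotently on the `p`-torsion of the Frey curve. -/
theorem frey_inertia_two_unipotent (P : FreyPackage)
    (A : ValuationSubring (AlgebraicClosure ℚ)) (hA : A.LiesOverPrime 2)
    (σ : AlgebraicClosure ℚ ≃ₐ[ℚ] AlgebraicClosure ℚ) (hσ : σ ∈ A.inertiaSubgroupIn ℚ)
    (x : V P) : σ • (σ • x - x) = σ • x - x :=
  H08.frey_inertia_two_unipotent P A hA σ hσ x

/-- **(L2b)**: the Frey curve has no nonzero `ℚ`-rational point of order `p`. -/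
theorem frey_no_rational_torsion (P : FreyPackage) (x : V P)
    (hx : ∀ σ : AlgebraicClosure ℚ ≃ₐ[ℚ] AlgebraicClosure ℚ, σ • x = x) : x = 0 :=
  H22.frey_no_rational_torsion_of (fun hW hN => no_rational_torsion2 hW hN) P x hx

end Fermat.Agent.S13.H64
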