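import Mathlib

/-!
S13, block T (torsion via an x-only ladder), POINT HALF (owner: helper48).

For a Weierstrass curve `W : y² = x³ + a x² + b x` (`a₁ = a₃ = a₆ = 0`, `Δ ≠ 0`) over a field
and a nonsingular point `P = (x₀, y₀)` with `x₀ ≠ 0`, any pair of sequences `X Z : ℕ → K`
satisfying the ladder recursion

* `X 1 = x₀`, `Z 1 = 1`,
* `X (2n) = (X n ^ 2 - b Z n ^ 2) ^ 2`,
  `Z (2n) = 4 X n Z n (X n ^ 2 + a X n Z n + b Z n ^ 2)`,
* `Z (2n+1) = (X n Z (n+1) - X (n+1) Z n) ^ 2`,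
  `x₀ X (2n+1) = (X n X (n+1) - b Z n Z (n+1)) ^ 2`

computes the abscissa of `n • P` projectively: `n • P = 0 ↔ Z n = 0`, and otherwise
`x(n • P) = X n / Z n`  (`ladder_rep`, `nsmul_eq_zero_iff_Z`, `odd_nsmul_eq_zero_iff`).
-/

set_option autoImplicit false
set_option linter.unusedSectionVars false

namespace Fermat.Agent.S13.H48

open WeierstrassCurve WeierstrassCurve.Affine

variable {K : Type*} [Field K] [DecidableEq K] {W : WeierstrassCurve K}

/-- curves of the shape `y² = x³ + a₂ x² + a₄ x` -/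
structure LegShape (W : WeierstrassCurve K) : Prop where
  a₁ : W.a₁ = 0
  a₃ : W.a₃ = 0
  a₆ : W.a₆ = 0

namespace LegShape

variable (hW : LegShape W)
include hW

lemma eqn {x y : K} (h : W.toAffine.Nonsingular x y) :
    y ^ 2 = x ^ 3 + W.a₂ * x ^ 2 + W.a₄ * x := by
  have := (equation_iff _ _).mp h.1
  rw [hW.a₁, hW.a₃, hW.a₆] at this
  linear_combination this

lemma negY_eq (x y : K) : W.toAffine.negY x y = -y := by
  simp [negY, hW.a₁, hW.a₃]

lemma Δ_eq : W.Δ = 16 * W.a₄ ^ 2 * (W.a₂ ^ 2 - 4 * W.a₄) := by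
  simp only [WeierstrassCurve.Δ, WeierstrassCurve.b₂, WeierstrassCurve.b₄, WeierstrassCurve.b₆,
    WeierstrassCurve.b₈, hW.a₁, hW.a₃, hW.a₆]
  ring

lemma two_ne_zero (hΔ : W.Δ ≠ 0) : (2 : K) ≠ 0 := by
  intro h2
  apply hΔ
  rw [hW.Δ_eq]
  have : (16 : K) = 2 ^ 4 := by norm_num
  rw [this, h2]; ring

lemma a₄_ne_zero (hΔ : W.Δ ≠ 0) : W.a₄ ≠ 0 := by
  intro h
  apply hΔ
  rw [hW.Δ_eq, h]; ring

lemma disc_ne_zero (hΔ : W.Δ ≠ 0) : W.a₂ ^ 2 - 4 * W.a₄ ≠ 0 := by
  intro h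
  apply hΔ
  rw [hW.Δ_eq, h]; ring

/-- a point with `y = 0` is killed by `2` -/
lemma add_self_of_y_eq_zero {x y : K} (h : W.toAffine.Nonsingular x y) (hy : y = 0) :
    Point.some x y h + Point.some x y h = 0 := by
  apply Point.add_self_of_Y_eq
  rw [hW.negY_eq, hy, neg_zero]

/-- doubling formula: `x(2Q) · 4 y² = (x² - b)²` -/
lemma add_self_of_y_ne_zero (h2 : (2 : K) ≠ 0) {x y : K} (h : W.toAffine.Nonsingular x y)
    (hy : y ≠ 0) :
    ∃ (x' y' : K) (h' : W.toAffine.Nonsingular x' y'),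
      Point.some x y h + Point.some x y h = Point.some x' y' h' ∧
        x' * (4 * y ^ 2) = (x ^ 2 - W.a₄) ^ 2 := by
  have hne : y ≠ W.toAffine.negY x y := by
    rw [hW.negY_eq]
    intro h0
    apply hy
    have h3 : 2 * y = 0 := by linear_combination h0
    rcases mul_eq_zero.mp h3 with h4 | h4
    · exact absurd h4 h2
    · exact h4
  refine ⟨_, _, _, Point.add_self_of_Y_ne hne, ?_⟩
  rw [slope_of_Y_ne rfl hne, hW.negY_eq]
  simp only [addX, hW.a₁]
  have hE := hW.eqn h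
  have h4 : (4 : K) ≠ 0 := by
    have : (4 : K) = 2 * 2 := by norm_num
    rw [this]; exact mul_ne_zero h2 h2
  have h2y : y - -y = 2 * y := by ring
  rw [h2y]
  field_simp
  linear_combination (-(16 * W.a₂) - 32 * x) * hE

/-- the x-only addition/subtraction identity:
`x(A+B) · x(A-B) · (x_A - x_B)² = (x_A x_B - b)²` -/
lemma add_sub_of_X_ne {xA yA xB yB : K} (hA : W.toAffine.Nonsingular xA yA)
    (hB : W.toAffine.Nonsingular xB yB) (hne : xA ≠ xB) :
    ∃ (xs ys : K) (hs : W.toAffine.Nonsingular xs ys) (xd yd : K)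
      (hd : W.toAffine.Nonsingular xd yd),
      Point.some xA yA hA + Point.some xB yB hB = Point.some xs ys hs ∧
      Point.some xA yA hA - Point.some xB yB hB = Point.some xd yd hd ∧
        xs * xd * (xA - xB) ^ 2 = (xA * xB - W.a₄) ^ 2 := by
  have hB' : W.toAffine.Nonsingular xB (W.toAffine.negY xB yB) := (nonsingular_neg ..).mpr hB
  have h1 : Point.some xA yA hA + Point.some xB yB hB
      = Point.some _ _ (nonsingular_add hA hB fun hxy => hne hxy.left) := Point.add_of_X_ne hne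
  have h2 : Point.some xA yA hA - Point.some xB yB hB
      = Point.some _ _ (nonsingular_add hA hB' fun hxy => hne hxy.left) := by
    rw [sub_eq_add_neg, Point.neg_some]
    exact Point.add_of_X_ne hne
  refine ⟨_, _, _, _, _, _, h1, h2, ?_⟩
  · rw [slope_of_X_ne hne, slope_of_X_ne hne, hW.negY_eq]
    simp only [addX, hW.a₁]
    have hEA := hW.eqn hA
    have hEB := hW.eqn hB
    have hdne : xA - xB ≠ 0 := sub_ne_zero.mpr hne
    field_simp
    linear_combination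
      (yA ^ 2 + (xA ^ 3 + W.a₂ * xA ^ 2 + W.a₄ * xA) - 2 * yB ^ 2
        - 2 * ((W.a₂ + xA + xB) * (xA - xB) ^ 2)) * hEA
      + (yB ^ 2 + (xB ^ 3 + W.a₂ * xB ^ 2 + W.a₄ * xB)
        - 2 * (xA ^ 3 + W.a₂ * xA ^ 2 + W.a₄ * xA)
        - 2 * ((W.a₂ + xA + xB) * (xA - xB) ^ 2)) * hEB

end LegShape

/-! ### Projective representation of the abscissa -/

/-- `(X : Z)` represents the abscissa of the point `Q`: `Z = 0` (and `X ≠ 0`) for `Q = 0`,
and `x(Q) = X / Z` otherwise. -/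
def Rep (Q : W.toAffine.Point) (X Z : K) : Prop :=
  match Q with
  | .zero => Z = 0 ∧ X ≠ 0
  | .some x _ _ => Z ≠ 0 ∧ x * Z = X

lemma rep_zero_iff {X Z : K} : Rep (0 : W.toAffine.Point) X Z ↔ (Z = 0 ∧ X ≠ 0) := Iff.rfl

lemma rep_some_iff {x y : K} {h : W.toAffine.Nonsingular x y} {X Z : K} :
    Rep (Point.some x y h) X Z ↔ (Z ≠ 0 ∧ x * Z = X) := Iff.rfl

lemma eq_zero_or_some (Q : W.toAffine.Point) :
    Q = 0 ∨ ∃ (x y : K) (h : W.toAffine.Nonsingular x y), Q = Point.some x y h := by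
  rcases Q with _ | ⟨x, y, h⟩
  · exact Or.inl rfl
  · exact Or.inr ⟨x, y, h, rfl⟩

lemma Rep.eq_zero_iff {Q : W.toAffine.Point} {X Z : K} (h : Rep Q X Z) : Q = 0 ↔ Z = 0 := by
  rcases eq_zero_or_some Q with rfl | ⟨x, y, hQ, rfl⟩
  · exact ⟨fun _ => (rep_zero_iff.mp h).1, fun _ => rfl⟩
  · exact ⟨fun h0 => absurd h0 (Point.some_ne_zero hQ), fun hZ => absurd hZ (rep_some_iff.mp h).1⟩

/-- the doubling step of the ladder -/
lemma rep_double (hW : LegShape W) (hΔ : W.Δ ≠ 0) {Q : W.toAffine.Point} {X Z : K}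
    (h : Rep Q X Z) :
    Rep (Q + Q) ((X ^ 2 - W.a₄ * Z ^ 2) ^ 2)
      (4 * X * Z * (X ^ 2 + W.a₂ * X * Z + W.a₄ * Z ^ 2)) := by
  have h2 := hW.two_ne_zero hΔ
  have h4 : (4 : K) ≠ 0 := by
    have : (4 : K) = 2 * 2 := by norm_num
    rw [this]; exact mul_ne_zero h2 h2
  rcases eq_zero_or_some Q with rfl | ⟨x, y, hQ, rfl⟩
  · obtain ⟨hZ, hX⟩ := rep_zero_iff.mp h
    rw [add_zero, rep_zero_iff, hZ]
    refine ⟨by ring, ?_⟩
    have : (X ^ 2 - W.a₄ * (0 : K) ^ 2) ^ 2 = X ^ 4 := by ring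
    rw [this]
    exact pow_ne_zero _ hX
  · obtain ⟨hZ, hx⟩ := rep_some_iff.mp h
    have hE := hW.eqn hQ
    by_cases hy : y = 0
    · rw [hW.add_self_of_y_eq_zero hQ hy, rep_zero_iff, ← hx]
      have hf : x ^ 3 + W.a₂ * x ^ 2 + W.a₄ * x = 0 := by rw [← hE, hy]; ring
      constructor
      · linear_combination 4 * Z ^ 4 * hf
      · have hb := hW.a₄_ne_zero hΔ
        have hdisc := hW.disc_ne_zero hΔ
        have hxb : x ^ 2 - W.a₄ ≠ 0 := by
          intro h0
          have h1 : x * (x ^ 2 + W.a₂ * x + W.a₄) = 0 := by linear_combination hf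
          rcases mul_eq_zero.mp h1 with hx0 | hq
          · apply hb
            rw [hx0] at h0
            linear_combination -h0
          · have h5 : W.a₄ * (W.a₂ ^ 2 - 4 * W.a₄) = 0 := by
              linear_combination (W.a₂ * x - 2 * W.a₄) * hq
                - (W.a₂ * x - 2 * W.a₄ + W.a₂ ^ 2) * h0
            rcases mul_eq_zero.mp h5 with h6 | h6
            · exact hb h6
            · exact hdisc h6
        have e : ((x * Z) ^ 2 - W.a₄ * Z ^ 2) ^ 2 = (Z ^ 2 * (x ^ 2 - W.a₄)) ^ 2 := by ring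
        rw [e]
        exact pow_ne_zero _ (mul_ne_zero (pow_ne_zero _ hZ) hxb)
    · obtain ⟨x', y', h', hadd, hform⟩ := hW.add_self_of_y_ne_zero h2 hQ hy
      rw [hadd, rep_some_iff, ← hx]
      constructor
      · have e : 4 * (x * Z) * Z * ((x * Z) ^ 2 + W.a₂ * (x * Z) * Z + W.a₄ * Z ^ 2)
            = 4 * Z ^ 4 * y ^ 2 := by rw [hE]; ring
        rw [e]
        exact mul_ne_zero (mul_ne_zero h4 (pow_ne_zero _ hZ)) (pow_ne_zero _ hy)
      · linear_combination Z ^ 4 * hform - 4 * x' * Z ^ 4 * hE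

/-- the differential-addition step of the ladder: `A - B = P = (x₀, y₀)` known, `x₀ ≠ 0` -/
lemma rep_add (hW : LegShape W) (hΔ : W.Δ ≠ 0) {A B : W.toAffine.Point} {XA ZA XB ZB : K}
    (hA : Rep A XA ZA) (hB : Rep B XB ZB) {x0 y0 : K} {h0 : W.toAffine.Nonsingular x0 y0}
    (hx0 : x0 ≠ 0) (hAB : A - B = Point.some x0 y0 h0) {X' : K}
    (hX' : x0 * X' = (XA * XB - W.a₄ * ZA * ZB) ^ 2) :
    Rep (A + B) X' ((XB * ZA - XA * ZB) ^ 2) := by
  have h2 := hW.two_ne_zero hΔ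
  have h4 : (4 : K) ≠ 0 := by
    have : (4 : K) = 2 * 2 := by norm_num
    rw [this]; exact mul_ne_zero h2 h2
  rcases eq_zero_or_some A with rfl | ⟨xA, yA, hA', rfl⟩
  · -- `A = 0`, `B = -P`
    obtain ⟨hZA, hXA⟩ := rep_zero_iff.mp hA
    have hBP : B = -Point.some x0 y0 h0 := by
      rw [← hAB]; simp
    rw [Point.neg_some] at hBP
    subst hBP
    obtain ⟨hZB, hxB⟩ := rep_some_iff.mp hB
    rw [zero_add, rep_some_iff]
    subst hZA
    constructor
    · have e : (XB * 0 - XA * ZB) ^ 2 = (XA * ZB) ^ 2 := by ring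
      rw [e]
      exact pow_ne_zero _ (mul_ne_zero hXA hZB)
    · apply mul_left_cancel₀ hx0
      rw [hX', ← hxB]; ring
  rcases eq_zero_or_some B with rfl | ⟨xB, yB, hB', rfl⟩
  · -- `B = 0`, `A = P`
    obtain ⟨hZB, hXB⟩ := rep_zero_iff.mp hB
    obtain ⟨hZA, hxA⟩ := rep_some_iff.mp hA
    rw [sub_zero] at hAB
    have hxx : xA = x0 := by
      injection hAB
    subst hxx
    rw [add_zero, rep_some_iff]
    subst hZB
    constructor
    · have e : (XB * ZA - XA * 0) ^ 2 = (XB * ZA) ^ 2 := by ring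
      rw [e]
      exact pow_ne_zero _ (mul_ne_zero hXB hZA)
    · apply mul_left_cancel₀ hx0
      rw [hX', ← hxA]; ring
  -- both affine
  obtain ⟨hZA, hxA⟩ := rep_some_iff.mp hA
  obtain ⟨hZB, hxB⟩ := rep_some_iff.mp hB
  by_cases hne : xA = xB
  · -- `A = ± B`; `A = B` is impossible, so `A = -B`, `A + B = 0` and `2 A = P`
    rcases Point.X_eq_iff.mp hne with heq | heq
    · exfalso
      rw [heq, sub_self] at hAB
      exact Point.some_ne_zero h0 hAB.symm
    · have hsum : Point.some xA yA hA' + Point.some xB yB hB' = 0 := by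
        rw [heq]; simp
      have hdbl : Point.some xA yA hA' + Point.some xA yA hA' = Point.some x0 y0 h0 := by
        rw [← hAB, sub_eq_add_neg, ← heq]
      have hyA : yA ≠ 0 := by
        intro hy
        rw [hW.add_self_of_y_eq_zero hA' hy] at hdbl
        exact Point.some_ne_zero h0 hdbl.symm
      obtain ⟨x', y', h', hadd, hform⟩ := hW.add_self_of_y_ne_zero h2 hA' hyA
      rw [hadd] at hdbl
      have hxx : x' = x0 := by
        injection hdbl
      subst hxx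
      rw [hsum, rep_zero_iff]
      constructor
      · rw [← hxA, ← hxB, hne]; ring
      · intro hX0
        rw [hX0, mul_zero] at hX'
        have h5 : (XA * XB - W.a₄ * ZA * ZB) = 0 := by
          exact pow_eq_zero_iff (two_ne_zero) |>.mp hX'.symm
        rw [← hxA, ← hxB, ← hne] at h5
        have h6 : ZA * ZB * (xA ^ 2 - W.a₄) = 0 := by linear_combination h5
        have h7 : xA ^ 2 - W.a₄ = 0 := by
          rcases mul_eq_zero.mp h6 with h8 | h8
          · exact absurd h8 (mul_ne_zero hZA hZB)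
          · exact h8
        rw [h7] at hform
        have h9 : x' * (4 * yA ^ 2) ≠ 0 :=
          mul_ne_zero hx0 (mul_ne_zero h4 (pow_ne_zero _ hyA))
        apply h9
        rw [hform]; ring
  · obtain ⟨xs, ys, hs, xd, yd, hd, hadd, hsub, hform⟩ := hW.add_sub_of_X_ne hA' hB' hne
    rw [hsub] at hAB
    have hxx : xd = x0 := by
      injection hAB
    subst hxx
    rw [hadd, rep_some_iff]
    have hdne : xA - xB ≠ 0 := sub_ne_zero.mpr hne
    constructor
    · have e : (XB * ZA - XA * ZB) ^ 2 = (ZA * ZB * (xA - xB)) ^ 2 := by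
        rw [← hxA, ← hxB]; ring
      rw [e]
      exact pow_ne_zero _ (mul_ne_zero (mul_ne_zero hZA hZB) hdne)
    · apply mul_left_cancel₀ hx0
      rw [hX', ← hxA, ← hxB]
      linear_combination (ZA * ZB) ^ 2 * hform

/-! ### The ladder -/

/-- the ladder recursion for sequences of field elements (values at the abscissa `x₀`) -/
structure LadderSeq (a b x0 : K) (X Z : ℕ → K) : Prop where
  X_one : X 1 = x0
  Z_one : Z 1 = 1
  X_even : ∀ n, 1 ≤ n → X (2 * n) = (X n ^ 2 - b * Z n ^ 2) ^ 2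
  Z_even : ∀ n, 1 ≤ n →
    Z (2 * n) = 4 * X n * Z n * (X n ^ 2 + a * X n * Z n + b * Z n ^ 2)
  Z_odd : ∀ n, 1 ≤ n → Z (2 * n + 1) = (X n * Z (n + 1) - X (n + 1) * Z n) ^ 2
  X_odd : ∀ n, 1 ≤ n →
    x0 * X (2 * n + 1) = (X n * X (n + 1) - b * Z n * Z (n + 1)) ^ 2

/-- MAIN THEOREM (point half of the ladder): `(X n : Z n)` is the abscissa of `n • P`. -/
theorem ladder_rep (hW : LegShape W) (hΔ : W.Δ ≠ 0) {x0 y0 : K}
    (h0 : W.toAffine.Nonsingular x0 y0) (hx0 : x0 ≠ 0) {X Z : ℕ → K}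
    (hL : LadderSeq W.a₂ W.a₄ x0 X Z) :
    ∀ n : ℕ, 1 ≤ n → Rep (n • Point.some x0 y0 h0) (X n) (Z n) := by
  intro n
  induction n using Nat.strong_induction_on with
  | _ n ih =>
    intro hn
    rcases Nat.even_or_odd' n with ⟨m, rfl | rfl⟩
    · have hm : 1 ≤ m := by omega
      have h1 := rep_double hW hΔ (ih m (by omega) hm)
      rw [hL.X_even m hm, hL.Z_even m hm]
      have e : (2 * m) • Point.some x0 y0 h0
          = m • Point.some x0 y0 h0 + m • Point.some x0 y0 h0 := by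
        rw [two_mul, add_nsmul]
      rw [e]
      exact h1
    · rcases Nat.eq_zero_or_pos m with rfl | hm
      · simp only [Nat.mul_zero, Nat.zero_add, one_nsmul]
        rw [hL.X_one, hL.Z_one, rep_some_iff]
        exact ⟨one_ne_zero, mul_one _⟩
      · have hA := ih (m + 1) (by omega) (by omega)
        have hB := ih m (by omega) hm
        have hAB : (m + 1) • Point.some x0 y0 h0 - m • Point.some x0 y0 h0
            = Point.some x0 y0 h0 := by
          rw [add_nsmul, one_nsmul]; abel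
        have h1 := rep_add hW hΔ hA hB hx0 hAB (X' := X (2 * m + 1))
          (by rw [hL.X_odd m hm]; ring)
        rw [hL.Z_odd m hm]
        have e : (2 * m + 1) • Point.some x0 y0 h0
            = (m + 1) • Point.some x0 y0 h0 + m • Point.some x0 y0 h0 := by
          rw [← add_nsmul]; congr 1; ring
        rw [e]
        exact h1

/-- `n • P = 0 ↔ Z n = 0` -/
theorem nsmul_eq_zero_iff_Z (hW : LegShape W) (hΔ : W.Δ ≠ 0) {x0 y0 : K}
    (h0 : W.toAffine.Nonsingular x0 y0) (hx0 : x0 ≠ 0) {X Z : ℕ → K}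
    (hL : LadderSeq W.a₂ W.a₄ x0 X Z) (n : ℕ) (hn : 1 ≤ n) :
    n • Point.some x0 y0 h0 = 0 ↔ Z n = 0 :=
  (ladder_rep hW hΔ h0 hx0 hL n hn).eq_zero_iff

/-- the abscissa of `n • P` when it is an affine point -/
theorem x_nsmul (hW : LegShape W) (hΔ : W.Δ ≠ 0) {x0 y0 : K}
    (h0 : W.toAffine.Nonsingular x0 y0) (hx0 : x0 ≠ 0) {X Z : ℕ → K}
    (hL : LadderSeq W.a₂ W.a₄ x0 X Z) (n : ℕ) (hn : 1 ≤ n) {x y : K}
    {h : W.toAffine.Nonsingular x y} (hP : n • Point.some x0 y0 h0 = Point.some x y h) :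
    Z n ≠ 0 ∧ x * Z n = X n := by
  have h1 := ladder_rep hW hΔ h0 hx0 hL n hn
  rw [hP] at h1
  exact rep_some_iff.mp h1

/-- the odd torsion criterion: `(2n+1) • P = 0 ↔ Ψ_{2n+1}(x₀) = 0`,
`Ψ_{2n+1} = X n Z (n+1) - X (n+1) Z n`. -/
theorem odd_nsmul_eq_zero_iff (hW : LegShape W) (hΔ : W.Δ ≠ 0) {x0 y0 : K}
    (h0 : W.toAffine.Nonsingular x0 y0) (hx0 : x0 ≠ 0) {X Z : ℕ → K}
    (hL : LadderSeq W.a₂ W.a₄ x0 X Z) (n : ℕ) (hn : 1 ≤ n) :
    (2 * n + 1) • Point.some x0 y0 h0 = 0 ↔ X n * Z (n + 1) - X (n + 1) * Z n = 0 := by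
  rw [nsmul_eq_zero_iff_Z hW hΔ h0 hx0 hL (2 * n + 1) (by omega), hL.Z_odd n hn]
  exact pow_eq_zero_iff (two_ne_zero)

end Fermat.Agent.S13.H48
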