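import Mathlib

/-!
S13 helper package (helper75): x-only ladder polynomials for `Y² = X³ + a X² + b X`.

`ladX a b n / ladZ a b n` is `x(nP)` as a rational function of `x = x(P)`.
`psi a b n = ladX n * ladZ (n+1) - ladX (n+1) * ladZ n` vanishes exactly at the
`x`-coordinates of the points of order dividing `2n+1`.
-/

set_option autoImplicit false

namespace Fermat.Agent.S13.H75

open Polynomial

section Defs

variable {R : Type*} [CommRing R]

/-- the ladder: `lad a b n = (X_n, Z_n)`. -/
noncomputable def lad (a b : R) : ℕ → R[X] × R[X]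
  | 0 => (1, 0)
  | 1 => (X, 1)
  | (n + 2) =>
    if h : (n + 2) % 2 = 0 then
      (((lad a b ((n + 2) / 2)).1 ^ 2 - C b * (lad a b ((n + 2) / 2)).2 ^ 2) ^ 2,
        C 4 * (lad a b ((n + 2) / 2)).1 * (lad a b ((n + 2) / 2)).2 *
          ((lad a b ((n + 2) / 2)).1 ^ 2
            + C a * (lad a b ((n + 2) / 2)).1 * (lad a b ((n + 2) / 2)).2
            + C b * (lad a b ((n + 2) / 2)).2 ^ 2))
    else
      ((((lad a b ((n + 2) / 2)).1 * (lad a b ((n + 2) / 2 + 1)).1
          - C b * (lad a b ((n + 2) / 2)).2 * (lad a b ((n + 2) / 2 + 1)).2) ^ 2).divX,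
        ((lad a b ((n + 2) / 2)).1 * (lad a b ((n + 2) / 2 + 1)).2
          - (lad a b ((n + 2) / 2 + 1)).1 * (lad a b ((n + 2) / 2)).2) ^ 2)
termination_by n => n
decreasing_by all_goals omega

/-- numerator of `x(nP)` -/
noncomputable def ladX (a b : R) (n : ℕ) : R[X] := (lad a b n).1
/-- denominator of `x(nP)` -/
noncomputable def ladZ (a b : R) (n : ℕ) : R[X] := (lad a b n).2

/-- `psi a b n` cuts out the points of order dividing `2n+1` -/
noncomputable def psi (a b : R) (n : ℕ) : R[X] :=
  ladX a b n * ladZ a b (n + 1) - ladX a b (n + 1) * ladZ a b n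

/-- auxiliary numerator polynomial -/
noncomputable def theta (a b : R) (n : ℕ) : R[X] :=
  ladX a b n * ladX a b (n + 1) - C b * ladZ a b n * ladZ a b (n + 1)

variable (a b : R)

@[simp] lemma ladX_zero : ladX a b 0 = 1 := by simp [ladX, lad]
@[simp] lemma ladZ_zero : ladZ a b 0 = 0 := by simp [ladZ, lad]
@[simp] lemma ladX_one : ladX a b 1 = X := by simp [ladX, lad]
@[simp] lemma ladZ_one : ladZ a b 1 = 1 := by simp [ladZ, lad]

lemma ladX_two_mul (n : ℕ) :
    ladX a b (2 * n) = (ladX a b n ^ 2 - C b * ladZ a b n ^ 2) ^ 2 := by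
  rcases n with _ | k
  · simp
  · have h2 : 2 * (k + 1) = 2 * k + 2 := by ring
    have hd : (2 * k + 2) / 2 = k + 1 := by omega
    have hm : (2 * k + 2) % 2 = 0 := by omega
    rw [h2, ladX, lad, dif_pos hm, hd]
    rfl

lemma ladZ_two_mul (n : ℕ) :
    ladZ a b (2 * n) = C 4 * ladX a b n * ladZ a b n *
      (ladX a b n ^ 2 + C a * ladX a b n * ladZ a b n + C b * ladZ a b n ^ 2) := by
  rcases n with _ | k
  · simp
  · have h2 : 2 * (k + 1) = 2 * k + 2 := by ring
    have hd : (2 * k + 2) / 2 = k + 1 := by omega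
    have hm : (2 * k + 2) % 2 = 0 := by omega
    rw [h2, ladZ, lad, dif_pos hm, hd]
    rfl

lemma ladZ_two_mul_add_one (n : ℕ) : ladZ a b (2 * n + 1) = psi a b n ^ 2 := by
  rcases n with _ | k
  · simp [psi]
  · have h2 : 2 * (k + 1) + 1 = (2 * k + 1) + 2 := by ring
    have hd : (2 * k + 1 + 2) / 2 = k + 1 := by omega
    have hm : ¬ (2 * k + 1 + 2) % 2 = 0 := by omega
    rw [h2, ladZ, lad, dif_neg hm, hd]
    rfl

lemma ladX_two_mul_add_one (n : ℕ) : ladX a b (2 * n + 1) = (theta a b n ^ 2).divX := by
  rcases n with _ | k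
  · simp [theta, divX_X_pow]
  · have h2 : 2 * (k + 1) + 1 = (2 * k + 1) + 2 := by ring
    have hd : (2 * k + 1 + 2) / 2 = k + 1 := by omega
    have hm : ¬ (2 * k + 1 + 2) % 2 = 0 := by omega
    rw [h2, ladX, lad, dif_neg hm, hd]
    rfl

end Defs

section EvalZero

variable {R : Type*} [CommRing R] (a b : R)

/-- at `x = 0` (the 2-torsion point `(0,0)`): `Z_n(0) = 0` for even `n`, `X_n(0) = 0` for odd `n`. -/
lemma eval_zero_aux (n : ℕ) :
    (Even n → (ladZ a b n).eval 0 = 0) ∧ (Odd n → (ladX a b n).eval 0 = 0) := by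
  induction n using Nat.strong_induction_on with
  | _ n ih =>
    rcases Nat.even_or_odd' n with ⟨m, rfl | rfl⟩
    · refine ⟨fun _ => ?_, fun h => absurd h (by simp)⟩
      rcases Nat.eq_zero_or_pos m with rfl | hm
      · simp
      · rw [ladZ_two_mul]
        have hprod : (ladX a b m).eval 0 * (ladZ a b m).eval 0 = 0 := by
          rcases Nat.even_or_odd m with he | ho
          · rw [(ih m (by omega)).1 he, mul_zero]
          · rw [(ih m (by omega)).2 ho, zero_mul]
        simp only [eval_mul, eval_C]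
        rw [mul_assoc ((4 : R)), hprod]
        ring
    · refine ⟨fun h => absurd h (by simp), fun _ => ?_⟩
      rcases Nat.eq_zero_or_pos m with rfl | hm
      · simp
      · rw [ladX_two_mul_add_one, ← coeff_zero_eq_eval_zero, coeff_divX]
        have hth : (theta a b m).coeff 0 = 0 := by
          rw [coeff_zero_eq_eval_zero, theta]
          simp only [eval_sub, eval_mul, eval_C]
          rcases Nat.even_or_odd m with he | ho
          · have h1 := (ih m (by omega)).1 he
            have h2 := (ih (m + 1) (by omega)).2 (Even.add_one he)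
            rw [h1, h2]; ring
          · have h1 := (ih m (by omega)).2 ho
            have h2 := (ih (m + 1) (by omega)).1 (Odd.add_one ho)
            rw [h1, h2]; ring
        rw [pow_two, coeff_mul]
        simp [Finset.Nat.antidiagonal_succ, hth]

lemma theta_eval_zero (n : ℕ) : (theta a b n).eval 0 = 0 := by
  rw [theta]
  simp only [eval_sub, eval_mul, eval_C]
  rcases Nat.even_or_odd n with he | ho
  · rw [(eval_zero_aux a b n).1 he, (eval_zero_aux a b (n + 1)).2 (Even.add_one he)]; ring
  · rw [(eval_zero_aux a b n).2 ho, (eval_zero_aux a b (n + 1)).1 (Odd.add_one ho)]; ring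

/-- the defining relation of `X_{2n+1}` without division -/
lemma X_mul_ladX_two_mul_add_one (n : ℕ) :
    X * ladX a b (2 * n + 1) = theta a b n ^ 2 := by
  rw [ladX_two_mul_add_one]
  have h := X_mul_divX_add (theta a b n ^ 2)
  have h0 : (theta a b n ^ 2).coeff 0 = 0 := by
    rw [coeff_zero_eq_eval_zero, eval_pow, theta_eval_zero, zero_pow two_ne_zero]
  rw [h0, C_0, add_zero] at h
  exact h

variable [IsDomain R]

/-- nonvanishing at `x = 0` when `b ≠ 0` -/
lemma eval_zero_ne (hb : b ≠ 0) (n : ℕ) :
    (Even n → (ladX a b n).eval 0 ≠ 0) ∧ (Odd n → (ladZ a b n).eval 0 ≠ 0) := by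
  induction n using Nat.strong_induction_on with
  | _ n ih =>
    rcases Nat.even_or_odd' n with ⟨m, rfl | rfl⟩
    · refine ⟨fun _ => ?_, fun h => absurd h (by simp)⟩
      rcases Nat.eq_zero_or_pos m with rfl | hm
      · simp
      · rw [ladX_two_mul]
        simp only [eval_pow, eval_sub, eval_mul, eval_C]
        rcases Nat.even_or_odd m with he | ho
        · rw [(eval_zero_aux a b m).1 he]
          have := (ih m (by omega)).1 he
          simpa using this
        · rw [(eval_zero_aux a b m).2 ho]
          have := (ih m (by omega)).2 ho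
          simpa using ⟨hb, this⟩
    · refine ⟨fun h => absurd h (by simp), fun _ => ?_⟩
      rcases Nat.eq_zero_or_pos m with rfl | hm
      · simp
      · rw [ladZ_two_mul_add_one, psi]
        simp only [eval_pow, eval_sub, eval_mul]
        rcases Nat.even_or_odd m with he | ho
        · rw [(eval_zero_aux a b m).1 he, (eval_zero_aux a b (m + 1)).2 (Even.add_one he)]
          have h1 := (ih m (by omega)).1 he
          have h2 := (ih (m + 1) (by omega)).2 (Even.add_one he)
          simpa using ⟨h1, h2⟩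
        · rw [(eval_zero_aux a b m).2 ho, (eval_zero_aux a b (m + 1)).1 (Odd.add_one ho)]
          have h1 := (ih m (by omega)).2 ho
          have h2 := (ih (m + 1) (by omega)).1 (Odd.add_one ho)
          simpa using ⟨h2, h1⟩

lemma psi_eval_zero_ne (hb : b ≠ 0) (n : ℕ) : (psi a b n).eval 0 ≠ 0 := by
  rw [psi]
  simp only [eval_sub, eval_mul]
  rcases Nat.even_or_odd n with he | ho
  · rw [(eval_zero_aux a b n).1 he, (eval_zero_aux a b (n + 1)).2 (Even.add_one he)]
    have h1 := (eval_zero_ne a b hb n).1 he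
    have h2 := (eval_zero_ne a b hb (n + 1)).2 (Even.add_one he)
    simpa using ⟨h1, h2⟩
  · rw [(eval_zero_aux a b n).2 ho, (eval_zero_aux a b (n + 1)).1 (Odd.add_one ho)]
    have h1 := (eval_zero_ne a b hb n).2 ho
    have h2 := (eval_zero_ne a b hb (n + 1)).1 (Odd.add_one ho)
    simpa using ⟨h2, h1⟩

end EvalZero

section Degree

variable {R : Type*} [CommRing R] [IsDomain R] [CharZero R] (a b : R)

lemma deg_aux (n : ℕ) :
    ((ladX a b n).Monic ∧ (ladX a b n).natDegree = n ^ 2) ∧
    (1 ≤ n → (ladZ a b n).natDegree + 1 = n ^ 2 ∧ (ladZ a b n).leadingCoeff = (n : R) ^ 2) := by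
  induction n using Nat.strong_induction_on with
  | _ n ih =>
    rcases Nat.even_or_odd' n with ⟨m, rfl | rfl⟩
    · rcases Nat.eq_zero_or_pos m with rfl | hm
      · simp
      · obtain ⟨⟨hxm, hxd⟩, hz⟩ := ih m (by omega)
        obtain ⟨hzd, hzl⟩ := hz hm
        set x := ladX a b m with hx
        set z := ladZ a b m with hzdef
        have hm0 : (m : R) ≠ 0 := Nat.cast_ne_zero.mpr (by omega)
        have hz0 : z ≠ 0 := by
          intro h0
          rw [h0, leadingCoeff_zero] at hzl
          exact pow_ne_zero 2 hm0 hzl.symm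
        have hx2d : (x ^ 2).natDegree = 2 * m ^ 2 := by rw [hxm.natDegree_pow, hxd]
        have hz2d : (C b * z ^ 2).natDegree < (x ^ 2).natDegree := by
          calc (C b * z ^ 2).natDegree ≤ (z ^ 2).natDegree := natDegree_C_mul_le _ _
            _ = 2 * z.natDegree := natDegree_pow _ _
            _ < (x ^ 2).natDegree := by rw [hx2d]; omega
        have hu : (x ^ 2 - C b * z ^ 2).Monic :=
          (hxm.pow 2).sub_of_left (degree_lt_degree hz2d)
        have hud : (x ^ 2 - C b * z ^ 2).natDegree = 2 * m ^ 2 := by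
          rw [natDegree_sub_eq_left_of_natDegree_lt hz2d, hx2d]
        have hxzd : (C a * x * z).natDegree < (x ^ 2).natDegree := by
          calc (C a * x * z).natDegree ≤ (C a * x).natDegree + z.natDegree := natDegree_mul_le
            _ ≤ x.natDegree + z.natDegree := by
                gcongr; exact natDegree_C_mul_le _ _
            _ < (x ^ 2).natDegree := by rw [hx2d, hxd]; omega
        have hw1 : (x ^ 2 + C a * x * z).Monic := (hxm.pow 2).add_of_left (degree_lt_degree hxzd)
        have hw1d : (x ^ 2 + C a * x * z).natDegree = 2 * m ^ 2 := by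
          rw [natDegree_add_eq_left_of_natDegree_lt hxzd, hx2d]
        have hz2d' : (C b * z ^ 2).natDegree < (x ^ 2 + C a * x * z).natDegree := by
          rw [hw1d, ← hx2d]; exact hz2d
        have hw : (x ^ 2 + C a * x * z + C b * z ^ 2).Monic :=
          hw1.add_of_left (degree_lt_degree hz2d')
        have hwd : (x ^ 2 + C a * x * z + C b * z ^ 2).natDegree = 2 * m ^ 2 := by
          rw [natDegree_add_eq_left_of_natDegree_lt hz2d', hw1d]
        have h4 : (C (4 : R) : R[X]) ≠ 0 := by
          rw [Ne, C_eq_zero]; exact_mod_cast (by norm_num : (4 : ℕ) ≠ 0)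
        refine ⟨⟨?_, ?_⟩, fun _ => ⟨?_, ?_⟩⟩
        · rw [ladX_two_mul]; exact hu.pow 2
        · rw [ladX_two_mul, hu.natDegree_pow, hud]; ring
        · rw [ladZ_two_mul, natDegree_mul (mul_ne_zero (mul_ne_zero h4 hxm.ne_zero) hz0) hw.ne_zero,
            natDegree_mul (mul_ne_zero h4 hxm.ne_zero) hz0, natDegree_mul h4 hxm.ne_zero,
            natDegree_C, hwd, hxd]
          have : (2 * m) ^ 2 = 4 * m ^ 2 := by ring
          omega
        · rw [ladZ_two_mul, leadingCoeff_mul, leadingCoeff_mul, leadingCoeff_mul, leadingCoeff_C,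
            hxm.leadingCoeff, hw.leadingCoeff, hzl]
          push_cast; ring
    · rcases Nat.eq_zero_or_pos m with rfl | hm
      · simp
      · obtain ⟨⟨hxm, hxd⟩, hz⟩ := ih m (by omega)
        obtain ⟨hzd, hzl⟩ := hz hm
        obtain ⟨⟨hxm', hxd'⟩, hz'⟩ := ih (m + 1) (by omega)
        obtain ⟨hzd', hzl'⟩ := hz' (by omega)
        set x := ladX a b m with hx
        set z := ladZ a b m with hzdef
        set x' := ladX a b (m + 1) with hx'
        set z' := ladZ a b (m + 1) with hzdef'
        have hm0 : (m : R) ≠ 0 := Nat.cast_ne_zero.mpr (by omega)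
        have hm1 : ((m + 1 : ℕ) : R) ≠ 0 := Nat.cast_ne_zero.mpr (by omega)
        have hz0 : z ≠ 0 := by
          intro h0
          rw [h0, leadingCoeff_zero] at hzl
          exact pow_ne_zero 2 hm0 hzl.symm
        have hz0' : z' ≠ 0 := by
          intro h0
          rw [h0, leadingCoeff_zero] at hzl'
          exact pow_ne_zero 2 hm1 hzl'.symm
        -- psi
        have hd1 : (x * z').natDegree = m ^ 2 + z'.natDegree := by
          rw [natDegree_mul hxm.ne_zero hz0', hxd]
        have hd2 : (x' * z).natDegree = m ^ 2 + z'.natDegree := by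
          rw [natDegree_mul hxm'.ne_zero hz0, hxd']; omega
        have hc1 : (x * z').coeff (m ^ 2 + z'.natDegree) = ((m + 1 : ℕ) : R) ^ 2 := by
          rw [← hd1, coeff_natDegree, leadingCoeff_mul, hxm.leadingCoeff, hzl', one_mul]
        have hc2 : (x' * z).coeff (m ^ 2 + z'.natDegree) = (m : R) ^ 2 := by
          rw [← hd2, coeff_natDegree, leadingCoeff_mul, hxm'.leadingCoeff, hzl, one_mul]
        have hcne : (x * z' - x' * z).coeff (m ^ 2 + z'.natDegree) ≠ 0 := by
          rw [coeff_sub, hc1, hc2]
          have : ((m + 1 : ℕ) : R) ^ 2 - (m : R) ^ 2 = ((2 * m + 1 : ℕ) : R) := by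
            push_cast; ring
          rw [this]
          exact Nat.cast_ne_zero.mpr (by omega)
        have hpd : (x * z' - x' * z).natDegree = m ^ 2 + z'.natDegree :=
          natDegree_eq_of_le_of_coeff_ne_zero
            ((natDegree_sub_le_of_le hd1.le hd2.le).trans (max_self _).le) hcne
        have hpl : (x * z' - x' * z).leadingCoeff = ((2 * m + 1 : ℕ) : R) := by
          rw [leadingCoeff, hpd, coeff_sub, hc1, hc2]; push_cast; ring
        -- theta
        have hxx : (x * x').natDegree = m ^ 2 + (m + 1) ^ 2 := by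
          rw [hxm.natDegree_mul hxm', hxd, hxd']
        have hzz : (C b * z * z').natDegree < (x * x').natDegree := by
          calc (C b * z * z').natDegree ≤ (C b * z).natDegree + z'.natDegree := natDegree_mul_le
            _ ≤ z.natDegree + z'.natDegree := by gcongr; exact natDegree_C_mul_le _ _
            _ < (x * x').natDegree := by rw [hxx]; omega
        have hth : (x * x' - C b * z * z').Monic :=
          (hxm.mul hxm').sub_of_left (degree_lt_degree hzz)
        have hthd : (x * x' - C b * z * z').natDegree = m ^ 2 + (m + 1) ^ 2 := by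
          rw [natDegree_sub_eq_left_of_natDegree_lt hzz, hxx]
        have hXmul := X_mul_ladX_two_mul_add_one a b m
        rw [theta, ← hx, ← hx', ← hzdef, ← hzdef'] at hXmul
        have hmonic : (ladX a b (2 * m + 1)).Monic :=
          Monic.of_mul_monic_left monic_X (by rw [hXmul]; exact hth.pow 2)
        refine ⟨⟨hmonic, ?_⟩, fun _ => ⟨?_, ?_⟩⟩
        · have h1 := congrArg natDegree hXmul
          rw [natDegree_X_mul hmonic.ne_zero, hth.natDegree_pow, hthd] at h1
          have : (2 * m + 1) ^ 2 = 4 * m ^ 2 + 4 * m + 1 := by ring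
          have h2 : (m + 1) ^ 2 = m ^ 2 + 2 * m + 1 := by ring
          omega
        · rw [ladZ_two_mul_add_one, psi, ← hx, ← hx', ← hzdef, ← hzdef', natDegree_pow, hpd]
          have : (2 * m + 1) ^ 2 = 4 * m ^ 2 + 4 * m + 1 := by ring
          have h2 : (m + 1) ^ 2 = m ^ 2 + 2 * m + 1 := by ring
          omega
        · rw [ladZ_two_mul_add_one, psi, ← hx, ← hx', ← hzdef, ← hzdef', leadingCoeff_pow, hpl]

lemma ladX_monic (n : ℕ) : (ladX a b n).Monic := (deg_aux a b n).1.1

lemma natDegree_ladX (n : ℕ) : (ladX a b n).natDegree = n ^ 2 := (deg_aux a b n).1.2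

lemma natDegree_ladZ_add_one {n : ℕ} (hn : 1 ≤ n) : (ladZ a b n).natDegree + 1 = n ^ 2 :=
  ((deg_aux a b n).2 hn).1

lemma leadingCoeff_ladZ {n : ℕ} (hn : 1 ≤ n) : (ladZ a b n).leadingCoeff = (n : R) ^ 2 :=
  ((deg_aux a b n).2 hn).2

lemma ladZ_ne_zero {n : ℕ} (hn : 1 ≤ n) : ladZ a b n ≠ 0 := by
  intro h0
  have h := leadingCoeff_ladZ a b hn
  rw [h0, leadingCoeff_zero] at h
  exact pow_ne_zero 2 (Nat.cast_ne_zero.mpr (by omega : n ≠ 0)) h.symm

/-- degree and leading coefficient of `psi` -/
lemma psi_deg (n : ℕ) :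
    (psi a b n).natDegree = 2 * n ^ 2 + 2 * n ∧ (psi a b n).leadingCoeff = ((2 * n + 1 : ℕ) : R) := by
  rcases Nat.eq_zero_or_pos n with rfl | hn
  · simp [psi]
  · have hxm := ladX_monic a b n
    have hxm' := ladX_monic a b (n + 1)
    have hxd := natDegree_ladX a b n
    have hxd' := natDegree_ladX a b (n + 1)
    have hzd := natDegree_ladZ_add_one a b hn
    have hzd' := natDegree_ladZ_add_one a b (n := n + 1) (by omega)
    have hzl := leadingCoeff_ladZ a b hn
    have hzl' := leadingCoeff_ladZ a b (n := n + 1) (by omega)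
    have hz0 := ladZ_ne_zero a b hn
    have hz0' := ladZ_ne_zero a b (n := n + 1) (by omega)
    have hd1 : (ladX a b n * ladZ a b (n + 1)).natDegree = n ^ 2 + (ladZ a b (n + 1)).natDegree := by
      rw [natDegree_mul hxm.ne_zero hz0', hxd]
    have hd2 : (ladX a b (n + 1) * ladZ a b n).natDegree
        = n ^ 2 + (ladZ a b (n + 1)).natDegree := by
      rw [natDegree_mul hxm'.ne_zero hz0, hxd']; omega
    have hc1 : (ladX a b n * ladZ a b (n + 1)).coeff (n ^ 2 + (ladZ a b (n + 1)).natDegree)
        = ((n + 1 : ℕ) : R) ^ 2 := by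
      rw [← hd1, coeff_natDegree, leadingCoeff_mul, hxm.leadingCoeff, hzl', one_mul]
    have hc2 : (ladX a b (n + 1) * ladZ a b n).coeff (n ^ 2 + (ladZ a b (n + 1)).natDegree)
        = (n : R) ^ 2 := by
      rw [← hd2, coeff_natDegree, leadingCoeff_mul, hxm'.leadingCoeff, hzl, one_mul]
    have hcne : (psi a b n).coeff (n ^ 2 + (ladZ a b (n + 1)).natDegree) ≠ 0 := by
      rw [psi, coeff_sub, hc1, hc2]
      have : ((n + 1 : ℕ) : R) ^ 2 - (n : R) ^ 2 = ((2 * n + 1 : ℕ) : R) := by
        push_cast; ring
      rw [this]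
      exact Nat.cast_ne_zero.mpr (by omega)
    have hpd : (psi a b n).natDegree = n ^ 2 + (ladZ a b (n + 1)).natDegree :=
      natDegree_eq_of_le_of_coeff_ne_zero
        ((natDegree_sub_le_of_le hd1.le hd2.le).trans (max_self _).le) hcne
    refine ⟨?_, ?_⟩
    · rw [hpd]
      have h2 : (n + 1) ^ 2 = n ^ 2 + 2 * n + 1 := by ring
      omega
    · rw [leadingCoeff, hpd, psi, coeff_sub, hc1, hc2]; push_cast; ring

end Degree

section Map

variable {R S : Type*} [CommRing R] [CommRing S] (f : R →+* S) (a b : R)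

lemma divX_map' (p : R[X]) : (p.map f).divX = p.divX.map f := by
  ext n; simp [coeff_divX]

lemma lad_map (n : ℕ) :
    (ladX a b n).map f = ladX (f a) (f b) n ∧ (ladZ a b n).map f = ladZ (f a) (f b) n := by
  induction n using Nat.strong_induction_on with
  | _ n ih =>
    rcases Nat.even_or_odd' n with ⟨m, rfl | rfl⟩
    · rcases Nat.eq_zero_or_pos m with rfl | hm
      · simp
      · obtain ⟨h1, h2⟩ := ih m (by omega)
        constructor
        · rw [ladX_two_mul, ladX_two_mul]
          simp only [Polynomial.map_pow, Polynomial.map_sub, Polynomial.map_mul, map_C, h1, h2]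
        · rw [ladZ_two_mul, ladZ_two_mul]
          simp only [Polynomial.map_pow, Polynomial.map_add, Polynomial.map_mul, map_C, h1, h2,
            map_ofNat, Polynomial.map_ofNat]
    · rcases Nat.eq_zero_or_pos m with rfl | hm
      · simp
      · obtain ⟨h1, h2⟩ := ih m (by omega)
        obtain ⟨h3, h4⟩ := ih (m + 1) (by omega)
        constructor
        · rw [ladX_two_mul_add_one, ladX_two_mul_add_one, ← divX_map', theta, theta]
          simp only [Polynomial.map_pow, Polynomial.map_sub, Polynomial.map_mul, map_C,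
            h1, h2, h3, h4]
        · rw [ladZ_two_mul_add_one, ladZ_two_mul_add_one, psi, psi]
          simp only [Polynomial.map_pow, Polynomial.map_sub, Polynomial.map_mul, h1, h2, h3, h4]

lemma ladX_map (n : ℕ) : (ladX a b n).map f = ladX (f a) (f b) n := (lad_map f a b n).1

lemma ladZ_map (n : ℕ) : (ladZ a b n).map f = ladZ (f a) (f b) n := (lad_map f a b n).2

lemma psi_map (n : ℕ) : (psi a b n).map f = psi (f a) (f b) n := by
  rw [psi, psi]
  simp only [Polynomial.map_sub, Polynomial.map_mul, ladX_map, ladZ_map]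

end Map

end Fermat.Agent.S13.H75
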