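import Fermat.Agent.S05.EFM_helper15
import Fermat.Agent.S05.Good_helper17
import Fermat.Agent.S05.T1_helper47

/-!
S13, local theory at an odd residue characteristic in the S05 formalism (helper15).

On the model `Y² = X³ + a X² + b X` (`LegCurve`), with a `ℚ`-valued valuation `v` (`QVal`) for
which `2` is a unit, and a field automorphism `σ` acting trivially on the residue field
(`hσ`) and preserving `v` (`hσw`), inducing `Φ` on points:

* `kernel_sub_mem`, `kernel_add_mem` : the kernel of reduction `{w x < 0} ∪ {0}` is a subgroup;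
* `inertia_sub_mem_kernel_good` : good reduction: `P - Φ P` is `0` or in the kernel, for all `P`;
* `inertia_sub_mem_kernel_mult` : multiplicative reduction: the same for `p`-torsion points `P`
  (`p` odd, `w b = p * k`, uniformizer `π` fixed by `σ`).

In contrast with S05's EFG / EFM there is NO hypothesis that `p` is a unit, so these apply at
the residue characteristic `p` itself.
-/

set_option autoImplicit false
set_option linter.unusedSectionVars false

namespace Fermat.Agent.S13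

open WeierstrassCurve WeierstrassCurve.Affine
open Fermat.Agent.S05

variable {K : Type*} [Field K] [DecidableEq K] {v : QVal K} {W : WeierstrassCurve K} {s : K}

/-- `P` is zero or lies in the kernel of reduction (`w x < 0`). -/
def InKer (v : QVal K) (W : WeierstrassCurve K) (P : W.toAffine.Point) : Prop :=
  P = 0 ∨ ∃ x y h, P = Point.some x y h ∧ x ≠ 0 ∧ v.w x < 0

lemma inKer_zero : InKer v W 0 := Or.inl rfl

lemma inKer_some {x y : K} {h : W.toAffine.Nonsingular x y} (hx : x ≠ 0) (hw : v.w x < 0) :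
    InKer v W (Point.some x y h) := Or.inr ⟨x, y, h, rfl, hx, hw⟩

lemma inKer_some_iff {x y : K} {h : W.toAffine.Nonsingular x y} :
    InKer v W (Point.some x y h) ↔ x ≠ 0 ∧ v.w x < 0 := by
  constructor
  · rintro (h0 | ⟨x', y', h', he, hx, hw⟩)
    · exact absurd h0 (by simp)
    · have h1 := (Point.some.inj he).1
      subst h1
      exact ⟨hx, hw⟩
  · rintro ⟨hx, hw⟩
    exact inKer_some hx hw

lemma InKer.neg (hW : LegCurve W) {P : W.toAffine.Point} (hP : InKer v W P) :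
    InKer v W (-P) := by
  rcases hP with rfl | ⟨x, y, h, rfl, hx, hw⟩
  · rw [neg_zero]; exact inKer_zero
  · rw [hW.neg_some]; exact inKer_some hx hw

/-- the kernel of reduction is closed under subtraction -/
theorem kernel_sub_mem (hW : LegCurve W) (hI : Integral v W.a₂ W.a₄)
    {x₁ y₁ x₂ y₂ : K} (h₁ : W.toAffine.Nonsingular x₁ y₁) (h₂ : W.toAffine.Nonsingular x₂ y₂)
    (hx₁ : x₁ ≠ 0) (hw₁ : v.w x₁ < 0) (hx₂ : x₂ ≠ 0) (hw₂ : v.w x₂ < 0) :
    Point.some x₁ y₁ h₁ - Point.some x₂ y₂ h₂ = 0 ∨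
      ∃ x y h, Point.some x₁ y₁ h₁ - Point.some x₂ y₂ h₂ = Point.some x y h ∧
        x ≠ 0 ∧ v.w x < 0 := by
  rcases hR : Point.some x₁ y₁ h₁ - Point.some x₂ y₂ h₂ with _ | ⟨x, y, h⟩
  · exact Or.inl rfl
  · refine Or.inr ⟨x, y, h, rfl, ?_⟩
    have hsum : Point.some x₁ y₁ h₁ + Point.some x₂ (-y₂) (hW.nonsingular_neg' h₂) +
        Point.some x (-y) (hW.nonsingular_neg' h) = 0 := by
      rw [← hW.neg_some h₂, ← hW.neg_some h, ← hR]; abel
    obtain ⟨T, hT₁, -, hT₂, -, hT₃, -⟩ := exists_triple hW.a₁ hW.a₃ hW.a₆ _ _ _ hsum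
    have hk := Triple.kernel_closed hI T (by rw [hT₁]; exact hx₁) (by rw [hT₁]; exact hw₁)
      (by rw [hT₂]; exact hx₂) (by rw [hT₂]; exact hw₂)
    rw [hT₃, hT₁, hT₂] at hk
    exact ⟨hk.1, lt_of_le_of_lt hk.2 (max_lt hw₁ hw₂)⟩

theorem InKer.sub (hW : LegCurve W) (hI : Integral v W.a₂ W.a₄) {P Q : W.toAffine.Point}
    (hP : InKer v W P) (hQ : InKer v W Q) : InKer v W (P - Q) := by
  rcases hQ with rfl | ⟨x₂, y₂, h₂, rfl, hx₂, hw₂⟩
  · rwa [sub_zero]
  rcases hP with rfl | ⟨x₁, y₁, h₁, rfl, hx₁, hw₁⟩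
  · rw [zero_sub]; exact (inKer_some hx₂ hw₂).neg hW
  · exact kernel_sub_mem hW hI h₁ h₂ hx₁ hw₁ hx₂ hw₂

theorem InKer.add (hW : LegCurve W) (hI : Integral v W.a₂ W.a₄) {P Q : W.toAffine.Point}
    (hP : InKer v W P) (hQ : InKer v W Q) : InKer v W (P + Q) := by
  have := hP.sub hW hI (hQ.neg hW)
  rwa [sub_neg_eq_add] at this

/-- the kernel of reduction is closed under addition -/
theorem kernel_add_mem (hW : LegCurve W) (hI : Integral v W.a₂ W.a₄)
    {x₁ y₁ x₂ y₂ : K} (h₁ : W.toAffine.Nonsingular x₁ y₁) (h₂ : W.toAffine.Nonsingular x₂ y₂)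
    (hx₁ : x₁ ≠ 0) (hw₁ : v.w x₁ < 0) (hx₂ : x₂ ≠ 0) (hw₂ : v.w x₂ < 0) :
    Point.some x₁ y₁ h₁ + Point.some x₂ y₂ h₂ = 0 ∨
      ∃ x y h, Point.some x₁ y₁ h₁ + Point.some x₂ y₂ h₂ = Point.some x y h ∧
        x ≠ 0 ∧ v.w x < 0 :=
  (inKer_some hx₁ hw₁).add hW hI (inKer_some hx₂ hw₂)

section Inertia

variable (σ : K →+* K) (Φ : W.toAffine.Point →+ W.toAffine.Point)

/-- Good reduction: `P - Φ P` is zero or in the kernel of reduction, for every point `P`.
(No hypothesis on the residue characteristic besides `2` being a unit.) -/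
theorem inertia_sub_mem_kernel_good (hW : LegCurve W) (hI : Integral v W.a₂ W.a₄)
    (hb : v.IsVal W.a₄ 0) (hd : v.IsVal (W.a₂ ^ 2 - 4 * W.a₄) 0)
    (hσw : ∀ x, v.w (σ x) = v.w x) (hσ : ∀ x, v.Ge x 0 → v.Gt (σ x - x) 0)
    (hΦ : ∀ (x y : K) (h : W.toAffine.Nonsingular x y),
      ∃ h' : W.toAffine.Nonsingular (σ x) (σ y), Φ (Point.some x y h) = Point.some (σ x) (σ y) h')
    (P : W.toAffine.Point) : InKer v W (P - Φ P) := by
  rcases P with _ | ⟨x, y, h⟩
  · left
    change (0 : W.toAffine.Point) - Φ 0 = 0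
    rw [map_zero, sub_zero]
  obtain ⟨h', hΦP⟩ := hΦ x y h
  rw [hΦP]
  have heq := hW.eqn h
  rcases QVal.ge_or_isVal_lt (v := v) x 0 with hxG | ⟨hx0, hxlt⟩
  · -- integral point: nonsingular reduction
    have hyG : v.Ge y 0 := helper17.y_integral hI.a_int hI.b_int hxG heq
    have hns := helper17.good_nonsingular hI.two hI.a_int hb hd hxG heq
    have hxσ : v.Gt (x - σ x) 0 := by
      have := (hσ x hxG).neg
      rwa [neg_sub] at this
    have hyσ : v.Gt (y - σ y) 0 := by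
      have := (hσ y hyG).neg
      rwa [neg_sub] at this
    exact sub_mem_kernel_of_close hW hI h h' hxG hyG hxσ hyσ hns
  · -- point of the kernel of reduction
    have hσx0 : σ x ≠ 0 := (map_ne_zero σ).mpr hx0
    exact kernel_sub_mem hW hI h h' hx0 hxlt hσx0 (by rw [hσw]; exact hxlt)

open Fermat.Agent.S05.helper15 in
/-- Multiplicative reduction: for a `p`-torsion point `P` (`p` odd, `w b = p * k`), `P - Φ P` is
zero or in the kernel of reduction.  (No hypothesis that `p` is a unit.) -/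
theorem inertia_sub_mem_kernel_mult (hW : LegCurve W) (hN : Nodal v W.a₂ W.a₄ s)
    (hσa : σ W.a₂ = W.a₂)
    (hσw : ∀ x, v.w (σ x) = v.w x) (hσ : ∀ x, v.Ge x 0 → v.Gt (σ x - x) 0)
    (hΦ : ∀ (x y : K) (h : W.toAffine.Nonsingular x y),
      ∃ h' : W.toAffine.Nonsingular (σ x) (σ y), Φ (Point.some x y h) = Point.some (σ x) (σ y) h')
    (π : K) (hπ : v.IsVal π 1) (hσπ : σ π = π)
    (p : ℕ) (hpodd : Odd p) (k : ℕ) (hk : v.w W.a₄ = p * k)
    (P : W.toAffine.Point) (hP : p • P = 0) : InKer v W (P - Φ P) := by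
  have hI := hN.integral
  have hnpos := hN.b_pos
  rcases P with _ | ⟨x, y, h⟩
  · left
    change (0 : W.toAffine.Point) - Φ 0 = 0
    rw [map_zero, sub_zero]
  obtain ⟨h', hΦP⟩ := hΦ x y h
  rw [hΦP]
  have heqn := hW.eqn h
  -- the class of `P` is `p`-torsion
  have hcls : p • clsXY v W.a₄ s x y = 0 := by
    have h1 := congrArg (clsHom hW hN) hP
    rw [map_nsmul, map_zero] at h1
    exact h1
  by_cases hx0 : x = 0
  · -- `x = 0` : middle component
    exfalso
    subst hx0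
    rw [helper64.clsXY_zero] at hcls
    exact odd_nsmul_qmk_self hnpos hpodd hcls
  rcases lt_trichotomy (v.w x) 0 with hneg | hzero | hpos
  · -- kernel of reduction
    have hσx0 : σ x ≠ 0 := (map_ne_zero σ).mpr hx0
    exact kernel_sub_mem hW hI h h' hx0 hneg hσx0 (by rw [hσw]; exact hneg)
  · -- unit abscissa: nonsingular reduction
    have hxv : v.IsVal x 0 := ⟨hx0, hzero⟩
    obtain ⟨hyge, hns⟩ := nonsing_of_unit hN heqn hxv
    have hx' : v.Gt (x - σ x) 0 := by
      have := (hσ x hxv.ge).neg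
      rwa [neg_sub] at this
    have hy' : v.Gt (y - σ y) 0 := by
      have := (hσ y hyge).neg
      rwa [neg_sub] at this
    exact sub_mem_kernel_of_close hW hI h h' hxv.ge hyge hx' hy' hns
  rcases le_or_gt (v.w W.a₄) (v.w x) with hM | hlt
  · -- middle component
    exfalso
    rw [helper64.clsXY_M _ hnpos hx0 hM] at hcls
    exact odd_nsmul_qmk_self hnpos hpodd hcls
  -- branch point: `0 < w x < w b`
  obtain ⟨m, hm, hclsP⟩ : ∃ m : ℚ, (m = v.w x ∨ m = -v.w x) ∧
      clsXY v W.a₄ s x y = helper64.qmk (v.w W.a₄) m := by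
    by_cases hbr : v.Gt (y / x - s) 0
    · exact ⟨_, Or.inl rfl, helper64.clsXY_Bpos hx0 hpos hlt hbr⟩
    · exact ⟨_, Or.inr rfl, helper64.clsXY_Bneg hx0 hpos hlt hbr⟩
  rw [hclsP] at hcls
  obtain ⟨j, hj⟩ := nsmul_qmk_eq_zero hcls
  have hp0 : (p : ℚ) ≠ 0 := Nat.cast_ne_zero.mpr hpodd.pos.ne'
  have hm2 : m = ((2 * j * k : ℤ) : ℚ) := by
    have h1 : (p : ℚ) * m = p * ((2 * j * k : ℤ) : ℚ) := by
      rw [hj, hk]; push_cast; ring
    exact mul_left_cancel₀ hp0 h1
  obtain ⟨N, hNx⟩ : ∃ N : ℕ, v.w x = N := by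
    refine ⟨(2 * j * k).natAbs, ?_⟩
    rw [Nat.cast_natAbs, Int.cast_abs, ← hm2]
    rcases hm with rfl | rfl
    · rw [abs_of_pos hpos]
    · rw [abs_neg, abs_of_pos hpos]
  have hgt := sigma_div_sub_one hσ hπ hσπ hx0 N hNx
  -- the class of `P - Φ P` vanishes
  have hσs := sigma_s hN hσa hσ
  have hclsD : cls v W s (Point.some x y h - Point.some (σ x) (σ y) h') = 0 := by
    have h1 := map_sub (clsHom hW hN) (Point.some x y h) (Point.some (σ x) (σ y) h')
    rw [clsHom_apply, clsHom_apply, clsHom_apply] at h1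
    rw [h1, helper64.cls_some, helper64.cls_some, clsXY_sigma hσs hσw, sub_self]
  rcases hDe : Point.some x y h - Point.some (σ x) (σ y) h' with _ | ⟨x', y', h''⟩
  · exact Or.inl rfl
  · rw [hDe, helper64.cls_some] at hclsD
    obtain ⟨hx', hwx'⟩ := clsXY_eq_zero hN hclsD
    refine inKer_some hx' (lt_of_le_of_ne hwx' ?_)
    intro hw0
    have hx'0 : v.IsVal x' 0 := ⟨hx', hw0⟩
    -- the collinear triple `P + (-D) + (-Φ P) = 0`
    have hsum : Point.some x y h + Point.some x' (-y') (hW.nonsingular_neg' h'') +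
        Point.some (σ x) (-(σ y)) (hW.nonsingular_neg' h') = 0 := by
      rw [← hW.neg_some h'', ← hW.neg_some h', ← hDe]; abel
    obtain ⟨T, hT₁, -, hT₂, -, hT₃, -⟩ := exists_triple hW.a₁ hW.a₃ hW.a₆ _ _ _ hsum
    have hkey := Triple.key hN T (by rw [hT₁]; exact hx0) (by rw [hT₁]; exact hpos)
      (by rw [hT₁]; exact hlt) (by rw [hT₂]; exact hx'0)
    rw [hT₃, hT₁] at hkey
    exact hkey.2.2.not_gt hgt

end Inertia

end Fermat.Agent.S13
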