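import Fermat.Agent.S13.Lp_helper15
import Fermat.Agent.S13.Gauss_helper9
import Fermat.Agent.S13.LadderPt_helper75

/-!
S13 block Lp, main theorem (helper15): `frey_inertia_p`.

At a place `A` of `ℚ̄` over `p`, there is a proper subspace `L` of `E[p]` (Frey curve) such that
`σ x - x ∈ L` for all `σ` in the inertia group of `A` and all `x ∈ E[p]` - provided `E[p]` is
finite and has a Galois-stable subspace different from `0` and `E[p]`.

The Gauss–Newton inequality is helper9's `sum_neg_w_le`; the torsion polynomial is helper75's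
`torsPoly` (Montgomery ladder).  This file does not depend on any assembly/definition file of
S13: the type of `E[p]` is written out.
-/

set_option autoImplicit false

namespace Fermat.Agent.S13

open WeierstrassCurve WeierstrassCurve.Affine Polynomial
open Fermat.Agent.S05 Fermat.Agent.S05.helper15

/-- the Gauss–Newton inequality (helper9) in the form used by `frey_inertia_p_of` -/
theorem gaussIneq (K : Type*) [Field K] : GaussIneq K :=
  fun v f hf0 hint s hroot hneg => H09.sum_neg_w_le v f hf0 hint s hroot hneg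

/-- block T's torsion polynomial (helper75's ladder) in the form used by `frey_inertia_p_of` -/
theorem torsPolyStmt : TorsPolyStmt := by
  classical
  intro a' b' hb hd m hm
  refine ⟨H75.torsPoly a' b' m, H75.leadingCoeff_torsPoly a' b' hm, ?_⟩
  intro x y h hP _
  have hW := legQ_legCurve a' b'
  have h2 : (2 : AlgebraicClosure ℚ) ≠ 0 := two_ne_zero
  have hb' : ((legQ a' b').baseChange (AlgebraicClosure ℚ)).a₄ ≠ 0 := by
    rw [legQ_a₄]
    exact_mod_cast hb
  have hd' : ((legQ a' b').baseChange (AlgebraicClosure ℚ)).a₂ ^ 2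
      - 4 * ((legQ a' b').baseChange (AlgebraicClosure ℚ)).a₄ ≠ 0 := by
    rw [legQ_a₂, legQ_a₄]
    exact_mod_cast hd
  have hΔ := H75.leg_Δ_ne hW.a₁ hW.a₃ hW.a₆ h2 hb' hd'
  exact H75.torsPoly_eval_eq_zero hW.a₁ hW.a₃ hW.a₆ hΔ (legQ_a₂ a' b') (legQ_a₄ a' b') hm h hP

/-- **(Lp)**: at a place over `p`, inertia moves `E[p]` into a proper subspace. -/
theorem frey_inertia_p (P : FreyPackage)
    (hfin : Finite (Submodule.torsionBy ℤ (P.freyCurve⁄(AlgebraicClosure ℚ)).Point P.p))
    (N₀ : Submodule (ZMod P.p)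
      (Submodule.torsionBy ℤ (P.freyCurve⁄(AlgebraicClosure ℚ)).Point P.p))
    (hst : Point.IsGaloisStable ℚ N₀) (h0 : N₀ ≠ ⊥) (h1 : N₀ ≠ ⊤)
    (A : ValuationSubring (AlgebraicClosure ℚ)) (hA : A.LiesOverPrime P.p) :
    ∃ L : Submodule (ZMod P.p)
        (Submodule.torsionBy ℤ (P.freyCurve⁄(AlgebraicClosure ℚ)).Point P.p),
      L ≠ ⊤ ∧ ∀ σ ∈ A.inertiaSubgroupIn ℚ,
        ∀ x : Submodule.torsionBy ℤ (P.freyCurve⁄(AlgebraicClosure ℚ)).Point P.p,
          σ • x - x ∈ L :=
  frey_inertia_p_of (gaussIneq _) torsPolyStmt P hfin N₀ hst h0 h1 A hA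

end Fermat.Agent.S13
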