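import Fermat.Agent.S13.LocalP_helper15
import Fermat.Prelude.Def_FLTPrelim_GaloisRep

/-!
S13 block Lp, part 2 (helper15): not every `p`-torsion point lies in the kernel of reduction
at a place over `p`, when there is a Galois-stable proper nonzero subgroup.

Abstract form on a curve `W₂ = W'⁄ℚ̄`, `W' : Y² = X³ + a X² + b X` over `ℚ`:
* `Ψ : ℤ[X]` with leading coefficient `p` vanishing at the abscissas of the nonzero `p`-torsion
  points (block T's torsion polynomial);
* `N` a finite Galois-stable set of nonzero `p`-torsion points, closed under negation;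
* `Q₁ ∉ N` another nonzero `p`-torsion point;
then `N ∪ {Q₁}` is not contained in the kernel of reduction.

The Gauss/Newton inequality `sum_neg_w_le` (helper9) is taken as the explicit hypothesis
`GaussIneq`.
-/

set_option autoImplicit false

namespace Fermat.Agent.S13

open WeierstrassCurve WeierstrassCurve.Affine Polynomial
open Fermat.Agent.S05

/-- statement of the Gauss–Newton inequality (helper9's `sum_neg_w_le`) over a field `K` -/
abbrev GaussIneq (K : Type*) [Field K] : Prop :=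
  ∀ (v : QVal K) (f : Polynomial K) (_ : f ≠ 0) (_ : ∀ i, v.Ge (f.coeff i) 0)
    (s : Finset K) (_ : ∀ r ∈ s, f.IsRoot r) (_ : ∀ r ∈ s, r ≠ 0 ∧ v.w r < 0),
    ∑ r ∈ s, (- v.w r) ≤ v.w f.leadingCoeff

namespace helper15

section General

variable {K : Type*} [Field K]

/-- the abscissa of a point (junk value `0` at the origin) -/
def xc {W : WeierstrassCurve K} : W.toAffine.Point → K
  | .zero => 0
  | .some x _ _ => x

@[simp] lemma xc_some {W : WeierstrassCurve K} {x y : K} (h : W.toAffine.Nonsingular x y) :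
    xc (Point.some x y h) = x := rfl

lemma w_prod (v : QVal K) (S : Finset K) (h : ∀ r ∈ S, r ≠ 0) :
    v.w (∏ r ∈ S, r) = ∑ r ∈ S, v.w r := by
  classical
  induction S using Finset.induction_on with
  | empty => simp [v.map_one]
  | insert a S ha ih =>
    rw [Finset.prod_insert ha, Finset.sum_insert ha,
      v.map_mul _ _ (h a (Finset.mem_insert_self a S))
        (Finset.prod_ne_zero_iff.mpr fun r hr => h r (Finset.mem_insert_of_mem hr)),
      ih fun r hr => h r (Finset.mem_insert_of_mem hr)]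

end General

local notation "Qb" => AlgebraicClosure ℚ

/-- `ℚ̄ / ℚ` is Galois, for any `ℚ`-algebra structure on `ℚ̄`. -/
theorem isGalois_rat_algebraicClosure (i : Algebra ℚ (AlgebraicClosure ℚ)) :
    @IsGalois ℚ _ (AlgebraicClosure ℚ) _ i := by
  have e : i = AlgebraicClosure.instAlgebra ℚ := Subsingleton.elim _ _
  rw [e]
  infer_instance

/-- a nonzero Galois-fixed element of `ℚ̄` has integer valuation -/
lemma exists_int_w_of_fixed (v : QVal Qb) {q : ℕ}
    (hv : ∀ k : ℤ, k ≠ 0 → v.w (k : Qb) = padicValInt q k) (X : Qb) (hX : X ≠ 0)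
    (hfix : ∀ σ : Qb ≃ₐ[ℚ] Qb, σ X = X) : ∃ n : ℤ, v.w X = n := by
  have : IsGalois ℚ Qb := isGalois_rat_algebraicClosure _
  have hmem : X ∈ (algebraMap ℚ Qb).range :=
    (InfiniteGalois.mem_range_algebraMap_iff_fixed X).mpr hfix
  obtain ⟨t, rfl⟩ := hmem
  have ht : t ≠ 0 := fun h => hX (by rw [h, map_zero])
  have hnum : (t.num : ℤ) ≠ 0 := Rat.num_ne_zero.mpr ht
  have hden : ((t.den : ℤ)) ≠ 0 := by exact_mod_cast t.den_ne_zero
  have hnumK : ((t.num : ℤ) : Qb) ≠ 0 := by exact_mod_cast hnum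
  have hdenK : (((t.den : ℤ)) : Qb) ≠ 0 := by exact_mod_cast hden
  have heq : algebraMap ℚ Qb t = ((t.num : ℤ) : Qb) / (((t.den : ℤ)) : Qb) := by
    conv_lhs => rw [← Rat.num_div_den t]
    simp
  refine ⟨(padicValInt q t.num : ℤ) - (padicValInt q (t.den : ℤ) : ℤ), ?_⟩
  rw [heq, QVal.w_div hnumK hdenK, hv _ hnum, hv _ hden]
  push_cast
  ring

end helper15

open helper15 in
/-- **Lp2**: a Galois-stable finite set `N` of nonzero `p`-torsion points closed under negation,
together with one more nonzero `p`-torsion point `Q₁ ∉ N`, cannot all lie in the kernel of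
reduction at a place over `p`. -/
theorem not_all_inKer (hG : GaussIneq (AlgebraicClosure ℚ)) {W' : WeierstrassCurve ℚ}
    (hW : LegCurve (W'.baseChange (AlgebraicClosure ℚ)))
    (v : QVal (AlgebraicClosure ℚ)) {p : ℕ} (hp : p.Prime)
    (hv : ∀ k : ℤ, k ≠ 0 → v.w (k : AlgebraicClosure ℚ) = padicValInt p k)
    (Ψ : ℤ[X]) (hlead : Ψ.leadingCoeff = p)
    (hΨ : ∀ (x y : AlgebraicClosure ℚ)
      (h : (W'⁄(AlgebraicClosure ℚ)).Nonsingular x y), p • Point.some x y h = 0 → x ≠ 0 →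
        (Ψ.map (Int.castRingHom (AlgebraicClosure ℚ))).eval x = 0)
    (N : Finset (W'⁄(AlgebraicClosure ℚ)).Point) (hNne : N.Nonempty)
    (hN0 : ∀ Q ∈ N, Q ≠ 0) (hNp : ∀ Q ∈ N, p • Q = 0) (hNneg : ∀ Q ∈ N, -Q ∈ N)
    (hNgal : ∀ σ : AlgebraicClosure ℚ ≃ₐ[ℚ] AlgebraicClosure ℚ, ∀ Q ∈ N,
      Point.map σ.toAlgHom Q ∈ N)
    (Q₁ : (W'⁄(AlgebraicClosure ℚ)).Point) (hQ₁p : p • Q₁ = 0) (hQ₁0 : Q₁ ≠ 0) (hQ₁N : Q₁ ∉ N)
    (hNker : ∀ Q ∈ N, InKer v (W'.baseChange (AlgebraicClosure ℚ)) Q)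
    (hQ₁ker : InKer v (W'.baseChange (AlgebraicClosure ℚ)) Q₁) : False := by
  classical
  -- the polynomial over `ℚ̄`
  set f : Polynomial (AlgebraicClosure ℚ) := Ψ.map (Int.castRingHom (AlgebraicClosure ℚ)) with hf
  have hinj : Function.Injective (Int.castRingHom (AlgebraicClosure ℚ)) :=
    RingHom.injective_int _
  have hΨ0 : Ψ ≠ 0 := by
    intro h0
    rw [h0, leadingCoeff_zero] at hlead
    exact hp.ne_zero (by exact_mod_cast hlead.symm)
  have hf0 : f ≠ 0 := (Polynomial.map_ne_zero_iff hinj).mpr hΨ0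
  have hfint : ∀ i, v.Ge (f.coeff i) 0 := by
    intro i
    rw [hf, coeff_map]
    exact QVal.ge_intCast _
  have hflead : v.w f.leadingCoeff = 1 := by
    rw [hf, leadingCoeff_map_of_injective hinj, hlead]
    have h := hv (p : ℤ) (by exact_mod_cast hp.ne_zero)
    have := Fact.mk hp
    have h1 : padicValInt p (p : ℤ) = 1 := by
      rw [padicValInt.of_nat]; exact padicValNat_self
    rw [h1] at h
    simpa using h
  -- description of the points of `N` and of `Q₁`
  have hdesc : ∀ Q : (W'⁄(AlgebraicClosure ℚ)).Point, Q ≠ 0 → p • Q = 0 →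
      InKer v (W'.baseChange (AlgebraicClosure ℚ)) Q →
      xc Q ≠ 0 ∧ v.w (xc Q) < 0 ∧ f.IsRoot (xc Q) := by
    rintro Q hQ0 hQp (h0 | ⟨x, y, h, rfl, hx, hw⟩)
    · exact absurd h0 hQ0
    · exact ⟨hx, hw, hΨ x y h hQp hx⟩
  -- the set of abscissas
  set S : Finset (AlgebraicClosure ℚ) := N.image xc with hS
  have hSprop : ∀ r ∈ S, r ≠ 0 ∧ v.w r < 0 ∧ f.IsRoot r := by
    intro r hr
    obtain ⟨Q, hQ, rfl⟩ := Finset.mem_image.mp hr
    exact hdesc Q (hN0 Q hQ) (hNp Q hQ) (hNker Q hQ)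
  have hSne : S.Nonempty := hNne.image _
  -- Galois stability of `S`
  have hxcσ : ∀ (σ : AlgebraicClosure ℚ ≃ₐ[ℚ] AlgebraicClosure ℚ)
      (Q : (W'⁄(AlgebraicClosure ℚ)).Point), xc (Point.map σ.toAlgHom Q) = σ (xc Q) := by
    intro σ Q
    rcases Q with _ | ⟨x, y, h⟩
    · change (0 : AlgebraicClosure ℚ) = σ 0
      rw [map_zero]
    · rfl
  have hSσ : ∀ σ : AlgebraicClosure ℚ ≃ₐ[ℚ] AlgebraicClosure ℚ, S.image σ = S := by
    intro σ
    apply Finset.eq_of_subset_of_card_le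
    · intro r hr
      obtain ⟨r0, hr0, rfl⟩ := Finset.mem_image.mp hr
      obtain ⟨Q, hQ, rfl⟩ := Finset.mem_image.mp hr0
      rw [← hxcσ σ Q]
      exact Finset.mem_image_of_mem _ (hNgal σ Q hQ)
    · rw [Finset.card_image_of_injective _ σ.injective]
  -- the product of the abscissas is rational, so has integer valuation
  have hprodfix : ∀ σ : AlgebraicClosure ℚ ≃ₐ[ℚ] AlgebraicClosure ℚ,
      σ (∏ r ∈ S, r) = ∏ r ∈ S, r := by
    intro σ
    rw [map_prod]
    conv_rhs => rw [← hSσ σ]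
    rw [Finset.prod_image fun a _ b _ hab => σ.injective hab]
  have hprod0 : (∏ r ∈ S, r) ≠ 0 := Finset.prod_ne_zero_iff.mpr fun r hr => (hSprop r hr).1
  obtain ⟨n, hn⟩ := exists_int_w_of_fixed v hv _ hprod0 hprodfix
  rw [w_prod v S fun r hr => (hSprop r hr).1] at hn
  have hsumneg : ∑ r ∈ S, v.w r < 0 :=
    Finset.sum_neg (fun r hr => (hSprop r hr).2.1) hSne
  have hn1 : (n : ℚ) ≤ -1 := by
    have h1 : (n : ℚ) < 0 := by rw [← hn]; exact hsumneg
    have h2 : n < 0 := by exact_mod_cast h1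
    have h3 : n ≤ -1 := by omega
    exact_mod_cast h3
  -- the extra root
  obtain ⟨hr'0, hr'w, hr'root⟩ := hdesc Q₁ hQ₁0 hQ₁p hQ₁ker
  have hr'S : xc Q₁ ∉ S := by
    intro hmem
    obtain ⟨Q, hQ, hxQ⟩ := Finset.mem_image.mp hmem
    rcases hQ₁ker with h0 | ⟨x₁, y₁, h₁, rfl, -, -⟩
    · exact hQ₁0 h0
    rcases hNker Q hQ with h0 | ⟨x, y, h, rfl, -, -⟩
    · exact hN0 Q hQ h0
    rw [xc_some, xc_some] at hxQ
    subst hxQ
    have e1 := hW.eqn h
    have e2 := hW.eqn h₁
    have hyy : (y₁ - y) * (y₁ + y) = 0 := by linear_combination e2 - e1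
    rcases mul_eq_zero.mp hyy with hy | hy
    · have : y₁ = y := sub_eq_zero.mp hy
      subst this
      exact hQ₁N hQ
    · have : y₁ = -y := eq_neg_of_add_eq_zero_left hy
      subst this
      have hneg := hNneg _ hQ
      rw [hW.neg_some] at hneg
      exact hQ₁N hneg
  -- Gauss inequality on `insert (xc Q₁) S`
  have hgauss := hG v f hf0 hfint (insert (xc Q₁) S)
    (by
      intro r hr
      rcases Finset.mem_insert.mp hr with rfl | hr
      · exact hr'root
      · exact (hSprop r hr).2.2)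
    (by
      intro r hr
      rcases Finset.mem_insert.mp hr with rfl | hr
      · exact ⟨hr'0, hr'w⟩
      · exact ⟨(hSprop r hr).1, (hSprop r hr).2.1⟩)
  rw [Finset.sum_insert hr'S, hflead, Finset.sum_neg_distrib, hn] at hgauss
  linarith

end Fermat.Agent.S13
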