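import Fermat.Agent.S13.LocalP_helper15
import Fermat.Agent.S05.Wiring_helper15
import Fermat.Agent.S05.Transfer_helper52
import Fermat.Agent.S05.A3_helper13
import Fermat.Agent.S05.Frey_helper98

/-!
S13 block Lp, part 1 (helper15): the local set-up at a place `A` of `ℚ̄` over an odd prime `q`
(in particular `q = p`), for the Frey curve.

* `frey_model'` : FR of S05 without the (unused) hypotheses `q ≠ 2`, `q ≠ p`.
* `exists_local_setup` : a valuation `v` attached to `A`, an integral model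
  `W₂ : Y² = X³ + a' X² + b' X` (`legQ a' b'`), the injective Galois-equivariant transfer
  `φ : E(ℚ̄) → W₂(ℚ̄)`, and the key inertia statement: for `σ ∈ I_A` and a `p`-torsion point `Q`
  of `W₂`, `Q - σ Q` is zero or in the kernel of reduction.
-/

set_option autoImplicit false

namespace Fermat.Agent.S13

open WeierstrassCurve WeierstrassCurve.Affine
open Fermat.Agent.S05

open Fermat.Agent.S05.H98 in
/-- FR without the hypotheses `q ≠ 2`, `q ≠ p` (same proof as `S05.H98.frey_model`). -/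
theorem frey_model' (P : FreyPackage) {q : ℕ} (hq : q.Prime) :
    ∃ r a' b' : ℤ,
      (a' : ℚ) = 4 * P.freyCurve.a₂ + 1 - 3 * r ∧
      (b' : ℚ) = 3 * (r : ℚ) ^ 2 - 2 * r * (4 * P.freyCurve.a₂ + 1) + 16 * P.freyCurve.a₄ ∧
      (r : ℚ) ^ 3 - (4 * P.freyCurve.a₂ + 1) * (r : ℚ) ^ 2 + 16 * P.freyCurve.a₄ * r = 0 ∧
      ¬ (q : ℤ) ∣ (a' ^ 2 - 4 * b') ∧ b' ≠ 0 ∧
      (¬ (q : ℤ) ∣ b' ∨
        (¬ (q : ℤ) ∣ a' ∧ (q : ℤ) ∣ b' ∧ ∃ k : ℕ, padicValInt q b' = P.p * k)) := by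
  have : Fact q.Prime := ⟨hq⟩
  have hqi : Prime (q : ℤ) := prime_int hq
  have hFLT := P.hFLT
  have hA0 : P.a ^ P.p ≠ 0 := pow_ne_zero _ P.ha0
  have hB0 : P.b ^ P.p ≠ 0 := pow_ne_zero _ P.hb0
  have hC0 : P.c ^ P.p ≠ 0 := pow_ne_zero _ P.hc0
  have hFLTq : ((P.a : ℚ)) ^ P.p + (P.b : ℚ) ^ P.p = (P.c : ℚ) ^ P.p := by
    exact_mod_cast hFLT
  have ha2 : 4 * P.freyCurve.a₂ + 1 = (P.b : ℚ) ^ P.p - (P.a : ℚ) ^ P.p := by
    simp only [FreyPackage.freyCurve]
    ring
  have ha4 : 16 * P.freyCurve.a₄ = -((P.a : ℚ) ^ P.p) * (P.b : ℚ) ^ P.p := by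
    simp only [FreyPackage.freyCurve]
    ring
  by_cases hqc : (q : ℤ) ∣ P.c
  · -- q ∣ c
    have hqa : ¬ (q : ℤ) ∣ P.a := fun h => not_dvd_of_gcd_eq_one hq P.hgcdac h hqc
    have hqb : ¬ (q : ℤ) ∣ P.b := fun h => not_dvd_of_gcd_eq_one hq P.hgcdbc h hqc
    have hqC : (q : ℤ) ∣ P.c ^ P.p := dvd_pow hqc P.hp0
    refine ⟨-(P.a ^ P.p), P.a ^ P.p + P.c ^ P.p, P.a ^ P.p * P.c ^ P.p, ?_, ?_, ?_, ?_, ?_, ?_⟩
    · rw [ha2]; push_cast; linear_combination -hFLTq
    · rw [ha2, ha4]; push_cast; linear_combination (-((P.a : ℚ) ^ P.p)) * hFLTq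
    · rw [ha2, ha4]; push_cast; ring
    · have : (P.a ^ P.p + P.c ^ P.p) ^ 2 - 4 * (P.a ^ P.p * P.c ^ P.p) = (P.b ^ P.p) ^ 2 := by
        linear_combination (-(P.c ^ P.p) + P.a ^ P.p - P.b ^ P.p) * hFLT
      rw [this]
      exact not_dvd_pow hq 2 (not_dvd_pow hq _ hqb)
    · exact mul_ne_zero hA0 hC0
    · right
      refine ⟨?_, Dvd.dvd.mul_left hqC _, padicValInt q P.c, ?_⟩
      · intro h
        have : (q : ℤ) ∣ P.a ^ P.p := (dvd_add_left hqC).mp h
        exact not_dvd_pow hq _ hqa this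
      · rw [padicValInt.mul hA0 hC0, padicValInt_pow' hq _ _ P.ha0, padicValInt_pow' hq _ _ P.hc0,
          padicValInt.eq_zero_of_not_dvd hqa]
        ring
  · -- q ∤ c
    refine ⟨0, P.b ^ P.p - P.a ^ P.p, -(P.a ^ P.p * P.b ^ P.p), ?_, ?_, ?_, ?_, ?_, ?_⟩
    · rw [ha2]; push_cast; ring
    · rw [ha4]; push_cast; ring
    · push_cast; ring
    · have : (P.b ^ P.p - P.a ^ P.p) ^ 2 - 4 * (-(P.a ^ P.p * P.b ^ P.p)) = (P.c ^ P.p) ^ 2 := by
        linear_combination (P.a ^ P.p + P.b ^ P.p + P.c ^ P.p) * hFLT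
      rw [this]
      exact not_dvd_pow hq 2 (not_dvd_pow hq _ hqc)
    · exact neg_ne_zero.mpr (mul_ne_zero hA0 hB0)
    · by_cases hqab : (q : ℤ) ∣ -(P.a ^ P.p * P.b ^ P.p)
      · right
        refine ⟨?_, hqab, padicValInt q P.a + padicValInt q P.b, ?_⟩
        · rw [dvd_neg] at hqab
          intro h
          rcases hqi.dvd_or_dvd hqab with hA | hB
          · have hB : (q : ℤ) ∣ P.b ^ P.p := (dvd_sub_left hA).mp h
            exact not_dvd_of_gcd_eq_one hq P.hgcdab (hqi.dvd_of_dvd_pow hA)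
              (hqi.dvd_of_dvd_pow hB)
          · have hA : (q : ℤ) ∣ P.a ^ P.p := (dvd_sub_right hB).mp h
            exact not_dvd_of_gcd_eq_one hq P.hgcdab (hqi.dvd_of_dvd_pow hA)
              (hqi.dvd_of_dvd_pow hB)
        · rw [padicValInt_neg', padicValInt.mul hA0 hB0, padicValInt_pow' hq _ _ P.ha0,
            padicValInt_pow' hq _ _ P.hb0]
          ring
      · left; exact hqab

open Fermat.Agent.S05.helper15 in
/-- **Local set-up** at a place `A` of `ℚ̄` over an odd prime `q` (e.g. `q = p`). -/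
theorem exists_local_setup (P : FreyPackage) {q : ℕ} (hq : q.Prime) (hq2 : q ≠ 2)
    (A : ValuationSubring (AlgebraicClosure ℚ)) (hA : A.LiesOverPrime q) :
    ∃ (v : QVal (AlgebraicClosure ℚ)) (a' b' : ℤ)
      (φ : (P.freyCurve⁄(AlgebraicClosure ℚ)).Point →+ ((legQ a' b')⁄(AlgebraicClosure ℚ)).Point),
      (∀ k : ℤ, k ≠ 0 → v.w (k : AlgebraicClosure ℚ) = padicValInt q k) ∧
      b' ≠ 0 ∧ a' ^ 2 - 4 * b' ≠ 0 ∧
      Integral v ((legQ a' b').baseChange (AlgebraicClosure ℚ)).a₂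
        ((legQ a' b').baseChange (AlgebraicClosure ℚ)).a₄ ∧
      Function.Injective φ ∧
      (∀ (σ : AlgebraicClosure ℚ ≃ₐ[ℚ] AlgebraicClosure ℚ)
        (Q : (P.freyCurve⁄(AlgebraicClosure ℚ)).Point),
        φ (Point.map σ.toAlgHom Q) = Point.map σ.toAlgHom (φ Q)) ∧
      (∀ σ ∈ A.inertiaSubgroupIn ℚ, ∀ Q : ((legQ a' b')⁄(AlgebraicClosure ℚ)).Point,
        P.p • Q = 0 →
          InKer v ((legQ a' b').baseChange (AlgebraicClosure ℚ))
            (Q - Point.map (W' := legQ a' b') σ.toAlgHom Q)) := by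
  obtain ⟨v, hvint, hvσw, hvσ⟩ := exists_qval A q hq hA
  obtain ⟨r, a', b', ha', hb', hr, hdisc, hb0, hcases⟩ := frey_model' P hq
  have h2K : (2 : AlgebraicClosure ℚ) ≠ 0 := two_ne_zero
  obtain ⟨φ, hφinj, hφ⟩ := H52.exists_transfer h2K
    (P.freyCurve.baseChange (AlgebraicClosure ℚ))
    ((legQ a' b').baseChange (AlgebraicClosure ℚ)) (algebraMap ℚ (AlgebraicClosure ℚ) (r : ℚ))
    (by simp [FreyPackage.freyCurve, WeierstrassCurve.baseChange])
    (by simp [FreyPackage.freyCurve, WeierstrassCurve.baseChange])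
    (by simp [FreyPackage.freyCurve, WeierstrassCurve.baseChange])
    (legQ_legCurve a' b').a₁ (legQ_legCurve a' b').a₃ (legQ_legCurve a' b').a₆
    (by
      have h := congrArg (algebraMap ℚ (AlgebraicClosure ℚ)) ha'
      simpa [legQ, WeierstrassCurve.baseChange] using h)
    (by
      have h := congrArg (algebraMap ℚ (AlgebraicClosure ℚ)) hb'
      simpa [legQ, WeierstrassCurve.baseChange] using h)
    (by
      have h := congrArg (algebraMap ℚ (AlgebraicClosure ℚ)) hr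
      simpa [legQ, WeierstrassCurve.baseChange] using h)
  have hW := legQ_legCurve a' b'
  have h2 : v.IsVal (2 : AlgebraicClosure ℚ) 0 := by
    have h : ¬ (q : ℤ) ∣ (2 : ℤ) := by
      intro hd
      have h1 : q ∣ 2 := by exact_mod_cast hd
      exact hq2 ((Nat.prime_dvd_prime_iff_eq hq Nat.prime_two).mp h1)
    simpa using isVal_intCast_of_not_dvd hvint h
  have hd : v.IsVal (((legQ a' b').baseChange (AlgebraicClosure ℚ)).a₂ ^ 2
      - 4 * ((legQ a' b').baseChange (AlgebraicClosure ℚ)).a₄) 0 := by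
    rw [legQ_a₂, legQ_a₄]
    simpa using isVal_intCast_of_not_dvd hvint hdisc
  have hI : Integral v ((legQ a' b').baseChange (AlgebraicClosure ℚ)).a₂
      ((legQ a' b').baseChange (AlgebraicClosure ℚ)).a₄ := by
    refine ⟨h2, ?_, ?_⟩
    · rw [legQ_a₂]; exact QVal.ge_intCast a'
    · rw [legQ_a₄]; exact QVal.ge_intCast b'
  have hdisc0 : a' ^ 2 - 4 * b' ≠ 0 := fun h => hdisc (h ▸ dvd_zero _)
  refine ⟨v, a', b', φ, hvint, hb0, hdisc0, hI, hφinj,
    fun σ Q => transfer_comm σ r φ hφ Q, ?_⟩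
  intro σ hσ Q hQ
  have hσa : (σ : AlgebraicClosure ℚ →+* AlgebraicClosure ℚ)
      ((legQ a' b').baseChange (AlgebraicClosure ℚ)).a₂
      = ((legQ a' b').baseChange (AlgebraicClosure ℚ)).a₂ := by
    rw [legQ_a₂]; simp
  have hΦ : ∀ (x y : AlgebraicClosure ℚ)
      (h : ((legQ a' b').baseChange (AlgebraicClosure ℚ)).toAffine.Nonsingular x y),
      ∃ h' : ((legQ a' b').baseChange (AlgebraicClosure ℚ)).toAffine.Nonsingular
        ((σ : AlgebraicClosure ℚ →+* AlgebraicClosure ℚ) x)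
        ((σ : AlgebraicClosure ℚ →+* AlgebraicClosure ℚ) y),
        Point.map (W' := legQ a' b') σ.toAlgHom (Point.some x y h) = Point.some _ _ h' :=
    fun x y h => ⟨_, rfl⟩
  rcases hcases with hgood | ⟨hna, hdb, k, hk⟩
  · -- good reduction
    refine inertia_sub_mem_kernel_good (v := v)
      (σ : AlgebraicClosure ℚ →+* AlgebraicClosure ℚ)
      (Point.map (W' := legQ a' b') σ.toAlgHom) hW hI ?_ hd (fun x => hvσw σ hσ x)
      (fun x hx => hvσ σ hσ x hx) hΦ Q
    rw [legQ_a₄]; exact isVal_intCast_of_not_dvd hvint hgood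
  · -- multiplicative reduction
    obtain ⟨s, hs⟩ := IsAlgClosed.exists_pow_nat_eq (a' : AlgebraicClosure ℚ) (n := 2) two_pos
    have hb'val : v.w ((b' : ℤ) : AlgebraicClosure ℚ) = padicValInt q b' := hvint b' hb0
    have hpos : 0 < padicValInt q b' := by
      have := Fact.mk hq
      have := (padicValInt_dvd_iff (p := q) 1 b').mp (by simpa using hdb)
      rcases this with h | h
      · exact absurd h hb0
      · omega
    have hN : Nodal v ((legQ a' b').baseChange (AlgebraicClosure ℚ)).a₂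
        ((legQ a' b').baseChange (AlgebraicClosure ℚ)).a₄ s := by
      refine ⟨h2, ?_, ?_, ?_, ?_⟩
      · rw [legQ_a₂]; exact isVal_intCast_of_not_dvd hvint hna
      · rw [legQ_a₄]; exact_mod_cast hb0
      · rw [legQ_a₄, hb'val]; exact_mod_cast hpos
      · rw [legQ_a₂]; exact hs
    have hπ : v.IsVal ((q : ℕ) : AlgebraicClosure ℚ) 1 := by
      have h := isVal_intCast hvint (q := q) (k := (q : ℤ)) (by exact_mod_cast hq.ne_zero)
      have := Fact.mk hq
      have h1 : padicValInt q (q : ℤ) = 1 := by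
        rw [padicValInt.of_nat]; exact padicValNat_self
      rw [h1] at h
      simpa using h
    refine inertia_sub_mem_kernel_mult (v := v) (s := s)
      (σ : AlgebraicClosure ℚ →+* AlgebraicClosure ℚ)
      (Point.map (W' := legQ a' b') σ.toAlgHom) hW hN hσa (fun x => hvσw σ hσ x)
      (fun x hx => hvσ σ hσ x hx) hΦ
      ((q : ℕ) : AlgebraicClosure ℚ) hπ (by simp) P.p P.hp_odd k ?_ Q hQ
    rw [legQ_a₄, hb'val, hk]; push_cast; ring

end Fermat.Agent.S13
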