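import Fermat.Agent.S13.LpSetup_helper15
import Fermat.Agent.S13.LpRoots_helper15
import Fermat.Prelude.Def_FLTPrelim_GaloisRep
import Fermat.Prelude.Def_FLTPrelim_Ramification

/-!
S13 block Lp (helper15): inertia at a place over `p` moves the `p`-torsion of the Frey curve
into a proper subspace.

`frey_inertia_p_of` is the interface statement (Lp), with two explicit hypotheses:
* `hG : GaussIneq ℚ̄` (helper9's Gauss–Newton inequality `sum_neg_w_le`);
* `hT : TorsPolyStmt` (block T: an integer polynomial with leading coefficient `m` vanishing at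
  the abscissas of the nonzero `m`-torsion points of `Y² = X³ + a' X² + b' X`, `m` odd);
and the finiteness of `E[p]` (block T, (T2)).
-/

set_option autoImplicit false

namespace Fermat.Agent.S13

open WeierstrassCurve WeierstrassCurve.Affine Polynomial
open Fermat.Agent.S05 Fermat.Agent.S05.helper15

/-- statement needed from block T (torsion polynomial) -/
abbrev TorsPolyStmt : Prop :=
  ∀ (a' b' : ℤ) (_ : b' ≠ 0) (_ : a' ^ 2 - 4 * b' ≠ 0) (m : ℕ) (_ : Odd m),
    ∃ Ψ : ℤ[X], Ψ.leadingCoeff = m ∧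
      ∀ (x y : AlgebraicClosure ℚ) (h : ((legQ a' b')⁄(AlgebraicClosure ℚ)).Nonsingular x y),
        m • Point.some x y h = 0 → x ≠ 0 →
          (Ψ.map (Int.castRingHom (AlgebraicClosure ℚ))).eval x = 0

namespace helper15

/-- the points of `E[p]` whose image in the model `W₂` lies in the kernel of reduction -/
noncomputable def kerAddSubgroup (P : FreyPackage) (v : QVal (AlgebraicClosure ℚ)) (a' b' : ℤ)
    (hI : Integral v ((legQ a' b').baseChange (AlgebraicClosure ℚ)).a₂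
      ((legQ a' b').baseChange (AlgebraicClosure ℚ)).a₄)
    (φ : (P.freyCurve⁄(AlgebraicClosure ℚ)).Point →+ ((legQ a' b')⁄(AlgebraicClosure ℚ)).Point) :
    AddSubgroup (Submodule.torsionBy ℤ (P.freyCurve⁄(AlgebraicClosure ℚ)).Point P.p) where
  carrier := {x | InKer v ((legQ a' b').baseChange (AlgebraicClosure ℚ)) (φ x.1)}
  zero_mem' := by
    change InKer v _ (φ 0)
    rw [map_zero]
    exact inKer_zero
  add_mem' := by
    intro x y hx hy
    change InKer v _ (φ (x.1 + y.1))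
    rw [map_add]
    exact InKer.add (legQ_legCurve a' b') hI hx hy
  neg_mem' := by
    intro x hx
    change InKer v _ (φ (-x.1))
    rw [map_neg]
    exact InKer.neg (legQ_legCurve a' b') hx

end helper15

open helper15 in
/-- **(Lp)** with explicit hypotheses `GaussIneq`, `TorsPolyStmt` and finiteness of `E[p]`. -/
theorem frey_inertia_p_of (hG : GaussIneq (AlgebraicClosure ℚ)) (hT : TorsPolyStmt)
    (P : FreyPackage)
    (hfin : Finite (Submodule.torsionBy ℤ (P.freyCurve⁄(AlgebraicClosure ℚ)).Point P.p))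
    (N₀ : Submodule (ZMod P.p)
      (Submodule.torsionBy ℤ (P.freyCurve⁄(AlgebraicClosure ℚ)).Point P.p))
    (hst : Point.IsGaloisStable ℚ N₀) (h0 : N₀ ≠ ⊥) (h1 : N₀ ≠ ⊤)
    (A : ValuationSubring (AlgebraicClosure ℚ)) (hA : A.LiesOverPrime P.p) :
    ∃ L : Submodule (ZMod P.p)
        (Submodule.torsionBy ℤ (P.freyCurve⁄(AlgebraicClosure ℚ)).Point P.p),
      L ≠ ⊤ ∧ ∀ σ ∈ A.inertiaSubgroupIn ℚ,
        ∀ x : Submodule.torsionBy ℤ (P.freyCurve⁄(AlgebraicClosure ℚ)).Point P.p,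
          σ • x - x ∈ L := by
  classical
  have hp2 : P.p ≠ 2 := by have := P.hp5; omega
  obtain ⟨v, a', b', φ, hvint, hb0, hdisc0, hI, hφinj, hφσ, hker⟩ :=
    exists_local_setup P P.pp hp2 A hA
  have hW := legQ_legCurve a' b'
  -- `p`-torsion is preserved by `φ`
  have hφp : ∀ x : Submodule.torsionBy ℤ (P.freyCurve⁄(AlgebraicClosure ℚ)).Point P.p,
      P.p • φ x.1 = 0 := by
    intro x
    have hx := x.2
    rw [Submodule.mem_torsionBy_iff] at hx
    have h1 : (P.p : ℤ) • x.1 = P.p • x.1 := natCast_zsmul x.1 P.p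
    have h2 : P.p • x.1 = 0 := h1.symm.trans hx
    exact (map_nsmul φ P.p x.1).symm.trans ((congrArg φ h2).trans (map_zero φ))
  have hφ0 : ∀ x : Submodule.torsionBy ℤ (P.freyCurve⁄(AlgebraicClosure ℚ)).Point P.p,
      x ≠ 0 → φ x.1 ≠ 0 := by
    intro x hx h
    apply hx
    apply Subtype.ext
    apply hφinj
    rw [h]
    exact (map_zero φ).symm
  refine ⟨AddSubgroup.toZModSubmodule P.p (kerAddSubgroup P v a' b' hI φ), ?_, ?_⟩
  · -- `L ≠ ⊤`
    intro htop
    have hall : ∀ x : Submodule.torsionBy ℤ (P.freyCurve⁄(AlgebraicClosure ℚ)).Point P.p,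
        InKer v ((legQ a' b').baseChange (AlgebraicClosure ℚ)) (φ x.1) := by
      intro x
      have hx : x ∈ AddSubgroup.toZModSubmodule P.p (kerAddSubgroup P v a' b' hI φ) := by
        rw [htop]; exact Submodule.mem_top
      exact hx
    obtain ⟨Ψ, hlead, hΨ⟩ := hT a' b' hb0 hdisc0 P.p P.hp_odd
    -- the finite set `N`
    have : Fintype (Submodule.torsionBy ℤ (P.freyCurve⁄(AlgebraicClosure ℚ)).Point P.p) :=
      Fintype.ofFinite _
    let N₁ : Finset (Submodule.torsionBy ℤ (P.freyCurve⁄(AlgebraicClosure ℚ)).Point P.p) :=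
      Finset.univ.filter fun x => x ∈ N₀ ∧ x ≠ 0
    have hN₁ : ∀ x, x ∈ N₁ ↔ x ∈ N₀ ∧ x ≠ 0 := fun x => by simp [N₁]
    let N : Finset ((legQ a' b')⁄(AlgebraicClosure ℚ)).Point := N₁.image fun x => φ x.1
    have hNmem : ∀ Q, Q ∈ N ↔ ∃ x, (x ∈ N₀ ∧ x ≠ 0) ∧ φ x.1 = Q := by
      intro Q
      simp only [N, Finset.mem_image, hN₁]
    obtain ⟨x0, hx0N, hx00⟩ := (Submodule.ne_bot_iff N₀).mp h0
    obtain ⟨x1, hx1⟩ : ∃ x1, x1 ∉ N₀ := by
      by_contra hcon
      exact h1 (eq_top_iff.mpr fun x _ => by_contra fun hx => hcon ⟨x, hx⟩)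
    have hx10 : x1 ≠ 0 := fun h => hx1 (h ▸ N₀.zero_mem)
    refine not_all_inKer hG hW v P.pp hvint Ψ hlead hΨ N ⟨φ x0.1, (hNmem _).mpr ⟨x0, ⟨hx0N, hx00⟩, rfl⟩⟩
      ?_ ?_ ?_ ?_ (φ x1.1) (hφp x1) (hφ0 x1 hx10) ?_ ?_ (hall x1)
    · -- nonzero
      intro Q hQ
      obtain ⟨x, ⟨-, hx0⟩, rfl⟩ := (hNmem Q).mp hQ
      exact hφ0 x hx0
    · -- `p`-torsion
      intro Q hQ
      obtain ⟨x, -, rfl⟩ := (hNmem Q).mp hQ
      exact hφp x
    · -- closed under negation
      intro Q hQ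
      obtain ⟨x, ⟨hxN, hx0⟩, rfl⟩ := (hNmem Q).mp hQ
      refine (hNmem _).mpr ⟨-x, ⟨N₀.neg_mem hxN, neg_ne_zero.mpr hx0⟩, ?_⟩
      change φ (-x.1) = -φ x.1
      exact map_neg φ x.1
    · -- Galois stable
      intro σ Q hQ
      obtain ⟨x, ⟨hxN, hx0⟩, rfl⟩ := (hNmem Q).mp hQ
      refine (hNmem _).mpr ⟨σ • x, ⟨hst σ x hxN, ?_⟩, ?_⟩
      · intro h
        apply hx0
        have h2 : σ⁻¹ • (σ • x) = σ⁻¹ • (0 : Submodule.torsionBy ℤ
            (P.freyCurve⁄(AlgebraicClosure ℚ)).Point P.p) := by rw [h]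
        rwa [inv_smul_smul, smul_zero] at h2
      · exact hφσ σ x.1
    · -- `Q₁ ∉ N`
      intro hmem
      obtain ⟨x, ⟨hxN, -⟩, hxe⟩ := (hNmem _).mp hmem
      have : x = x1 := Subtype.ext (hφinj hxe)
      exact hx1 (this ▸ hxN)
    · -- all of `N` in the kernel
      intro Q hQ
      obtain ⟨x, -, rfl⟩ := (hNmem Q).mp hQ
      exact hall x
  · -- `(σ - 1) V ⊆ L`
    intro σ hσ x
    change InKer v _ (φ (Point.map σ.toAlgHom x.1 - x.1))
    rw [map_sub, hφσ σ x.1]
    have h := hker σ hσ (φ x.1) (hφp x)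
    have h' := InKer.neg hW h
    rwa [neg_sub] at h'

end Fermat.Agent.S13
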