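import Fermat.Agent.S13.Defs2

/-!
S13, block L2 (prime 2), task GR (tasks row 127, owner: helper28).

Generic L2b: no "rational" point of prime order `p ≥ 5` on a nodal curve in split coordinates
when the residue field of the rational subfield has two elements.

* `H28.IsRat W R P` : the point `P` is `0` or has both coordinates in the subfield `R`.
* `H28.isRat_add`, `H28.isRat_nsmul` : closure under the group law (coefficients in `R`).
* `H28.no_rational_torsion2_aux` : the statement of task GR with the interface lemmas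
  `cls2_add`, `cls2_some_eq_zero_iff`, `kernel_no_torsion2`, `nonsingular_of_unit_x`,
  `sub_mem_kernel_of_close2` as explicit hypotheses.
-/

set_option linter.unusedSectionVars false

namespace Fermat.Agent.S13.H28

open Fermat.Agent.S05 WeierstrassCurve WeierstrassCurve.Affine

variable {K : Type*} [Field K] [DecidableEq K]

/-- A point is `R`-rational: it is `0` or both of its coordinates lie in the subfield `R`. -/
def IsRat (W : WeierstrassCurve K) (R : Subfield K) : W.toAffine.Point → Prop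
  | .zero => True
  | .some x y _ => x ∈ R ∧ y ∈ R

variable {W : WeierstrassCurve K} {R : Subfield K}

lemma isRat_zero : IsRat W R (0 : W.toAffine.Point) := trivial

lemma isRat_some {x y : K} {h : W.toAffine.Nonsingular x y} :
    IsRat W R (Point.some x y h) ↔ x ∈ R ∧ y ∈ R := Iff.rfl

/-- the coefficients of `W` lie in `R` -/
structure CoeffIn (W : WeierstrassCurve K) (R : Subfield K) : Prop where
  a₁ : W.a₁ ∈ R
  a₂ : W.a₂ ∈ R
  a₃ : W.a₃ ∈ R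
  a₄ : W.a₄ ∈ R
  a₆ : W.a₆ ∈ R

lemma CoeffIn.negY_mem (hR : CoeffIn W R) {x y : K} (hx : x ∈ R) (hy : y ∈ R) :
    W.toAffine.negY x y ∈ R := by
  rw [negY]
  exact R.sub_mem (R.sub_mem (R.neg_mem hy) (R.mul_mem hR.a₁ hx)) hR.a₃

lemma CoeffIn.slope_mem (hR : CoeffIn W R) {x₁ x₂ y₁ y₂ : K} (hx₁ : x₁ ∈ R) (hx₂ : x₂ ∈ R)
    (hy₁ : y₁ ∈ R) (hy₂ : y₂ ∈ R) : W.toAffine.slope x₁ x₂ y₁ y₂ ∈ R := by
  rw [Affine.slope]
  split_ifs with h1 h2
  · exact R.zero_mem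
  · refine R.div_mem ?_ (R.sub_mem hy₁ (hR.negY_mem hx₁ hy₁))
    refine R.sub_mem (R.add_mem (R.add_mem ?_ ?_) hR.a₄) (R.mul_mem hR.a₁ hy₁)
    · exact R.mul_mem (ofNat_mem R 3) (R.pow_mem hx₁ 2)
    · exact R.mul_mem (R.mul_mem (ofNat_mem R 2) hR.a₂) hx₁
  · exact R.div_mem (R.sub_mem hy₁ hy₂) (R.sub_mem hx₁ hx₂)

lemma CoeffIn.addX_mem (hR : CoeffIn W R) {x₁ x₂ ℓ : K} (hx₁ : x₁ ∈ R) (hx₂ : x₂ ∈ R)
    (hℓ : ℓ ∈ R) : W.toAffine.addX x₁ x₂ ℓ ∈ R := by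
  rw [addX]
  exact R.sub_mem (R.sub_mem (R.sub_mem (R.add_mem (R.pow_mem hℓ 2) (R.mul_mem hR.a₁ hℓ))
    hR.a₂) hx₁) hx₂

lemma CoeffIn.addY_mem (hR : CoeffIn W R) {x₁ x₂ y₁ ℓ : K} (hx₁ : x₁ ∈ R) (hx₂ : x₂ ∈ R)
    (hy₁ : y₁ ∈ R) (hℓ : ℓ ∈ R) : W.toAffine.addY x₁ x₂ y₁ ℓ ∈ R := by
  rw [addY, negAddY]
  have hX := hR.addX_mem hx₁ hx₂ hℓ
  exact hR.negY_mem hX (R.add_mem (R.mul_mem hℓ (R.sub_mem hX hx₁)) hy₁)

/-- `R`-rational points are closed under addition -/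
theorem isRat_add (hR : CoeffIn W R) {P Q : W.toAffine.Point} (hP : IsRat W R P)
    (hQ : IsRat W R Q) : IsRat W R (P + Q) := by
  rcases P with _ | ⟨x₁, y₁, h₁⟩
  · change IsRat W R (0 + Q)
    rwa [zero_add]
  rcases Q with _ | ⟨x₂, y₂, h₂⟩
  · change IsRat W R (_ + 0)
    rwa [add_zero]
  by_cases hxy : x₁ = x₂ ∧ y₁ = W.toAffine.negY x₂ y₂
  · rw [Point.add_of_Y_eq hxy.1 hxy.2]
    exact isRat_zero
  · rw [Point.add_some hxy]
    have hℓ := hR.slope_mem hP.1 hQ.1 hP.2 hQ.2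
    exact ⟨hR.addX_mem hP.1 hQ.1 hℓ, hR.addY_mem hP.1 hQ.1 hP.2 hℓ⟩

/-- `R`-rational points are closed under negation -/
theorem isRat_neg (hR : CoeffIn W R) {P : W.toAffine.Point} (hP : IsRat W R P) :
    IsRat W R (-P) := by
  rcases P with _ | ⟨x₁, y₁, h₁⟩
  · exact hP
  · rw [Point.neg_some]
    exact ⟨hP.1, hR.negY_mem hP.1 hP.2⟩

/-- `R`-rational points are closed under multiplication by natural numbers -/
theorem isRat_nsmul (hR : CoeffIn W R) {P : W.toAffine.Point} (hP : IsRat W R P) (k : ℕ) :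
    IsRat W R (k • P) := by
  induction k with
  | zero => rw [zero_smul]; exact isRat_zero
  | succ k ih => rw [succ_nsmul]; exact isRat_add hR ih hP

/-! ### The component class of a rational torsion point -/

variable {v : QVal K} {s : K}

/-- the component class of an `R`-rational point is the class of an integer -/
lemma exists_int_cls2 (hRZ : ∀ x ∈ R, x ≠ 0 → ∃ m : ℤ, v.w x = m) (n : ℤ)
    (hn : v.w W.a₄ = n) {P : W.toAffine.Point} (hP : IsRat W R P) :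
    ∃ m : ℤ, cls2 v W s P = ((m : ℚ) : ℚ ⧸ AddSubgroup.zmultiples (2 * v.w W.a₄)) := by
  rcases P with _ | ⟨x, y, h⟩
  · exact ⟨0, by simp [cls2]⟩
  · obtain ⟨hx, hy⟩ := hP
    change ∃ m : ℤ, clsXU v W.a₄ x (y - s * x) = _
    unfold clsXU
    by_cases hx0 : x = 0
    · exact ⟨n, by rw [if_pos hx0, hn]⟩
    obtain ⟨m, hm⟩ := hRZ x hx hx0
    rw [if_neg hx0]
    split_ifs
    · exact ⟨0, by simp⟩
    · exact ⟨n, by rw [hn]⟩
    · exact ⟨m, by rw [hm]⟩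
    · exact ⟨-m, by rw [hm]; push_cast; rfl⟩

lemma cls2_nsmul
    (hadd : ∀ P Q : W.toAffine.Point, cls2 v W s (P + Q) = cls2 v W s P + cls2 v W s Q)
    (k : ℕ) (P : W.toAffine.Point) : cls2 v W s (k • P) = k • cls2 v W s P := by
  induction k with
  | zero => rw [zero_smul, zero_smul]; rfl
  | succ k ih => rw [succ_nsmul, succ_nsmul, hadd, ih]

/-- an integer class killed by `p` prime to `2 n` vanishes in `ℚ / 2 n ℤ` -/
lemma int_class_eq_zero (c : ℚ) (n : ℤ) (hc : c = n) (p : ℕ) (hcop : IsCoprime (p : ℤ) (2 * n))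
    (m : ℤ) (h : p • ((m : ℚ) : ℚ ⧸ AddSubgroup.zmultiples (2 * c)) = 0) :
    ((m : ℚ) : ℚ ⧸ AddSubgroup.zmultiples (2 * c)) = 0 := by
  subst hc
  rw [← QuotientAddGroup.mk_nsmul, QuotientAddGroup.eq_zero_iff,
    AddSubgroup.mem_zmultiples_iff] at h
  obtain ⟨j, hj⟩ := h
  have hdvd : (2 * n) ∣ m * (p : ℤ) := by
    refine ⟨j, ?_⟩
    have h1 : ((m * (p : ℤ) : ℤ) : ℚ) = ((2 * n * j : ℤ) : ℚ) := by
      push_cast
      rw [zsmul_eq_mul, nsmul_eq_mul] at hj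
      linear_combination -hj
    exact_mod_cast h1
  obtain ⟨t, ht⟩ := hcop.symm.dvd_of_dvd_mul_right hdvd
  rw [QuotientAddGroup.eq_zero_iff, AddSubgroup.mem_zmultiples_iff]
  refine ⟨t, ?_⟩
  rw [ht, zsmul_eq_mul]
  push_cast
  ring

/-- an `R`-rational point killed by `p` (prime to `2 w(a₄)`) lies in the identity component -/
lemma cls2_eq_zero_of_torsion
    (hadd : ∀ P Q : W.toAffine.Point, cls2 v W s (P + Q) = cls2 v W s P + cls2 v W s Q)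
    (hRZ : ∀ x ∈ R, x ≠ 0 → ∃ m : ℤ, v.w x = m) (p : ℕ) (n : ℤ) (hn : v.w W.a₄ = n)
    (hcop : IsCoprime (p : ℤ) (2 * n)) {P : W.toAffine.Point} (hP : IsRat W R P)
    (hpP : p • P = 0) : cls2 v W s P = 0 := by
  obtain ⟨m, hm⟩ := exists_int_cls2 (s := s) hRZ n hn hP
  rw [hm]
  refine int_class_eq_zero _ n hn p hcop m ?_
  rw [← hm, ← cls2_nsmul hadd, hpP]
  rfl

/-- the slope `s` is integral when `a₂` is (here `a₁ = 1`) -/
lemma slope_int (hW : NodeCurve W s) (ha₁ : W.a₁ = 1) (ha₂ : v.Ge W.a₂ 0) : v.Ge s 0 := by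
  rcases QVal.ge_or_isVal_lt (v := v) s 0 with h | ⟨hs0, hlt⟩
  · exact h
  · exfalso
    have h1 : v.IsVal (s ^ 2) (2 * v.w s) := by
      have := (QVal.isVal_self (v := v) hs0).pow 2
      simpa using this
    have h2 : v.Gt s (2 * v.w s) := Or.inr (by linarith)
    have h3 : v.IsVal (s ^ 2 + s) (2 * v.w s) := h1.add_gt h2
    have h4 : s ^ 2 + s = W.a₂ := by rw [← hW.hs, ha₁, one_mul]
    rw [h4] at h3
    exact h3.not_ge_of_lt (by linarith) ha₂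

/-- residues of an `R`-rational point whose `x`-coordinate is a unit:
`x ≡ 1`, `y ≡ 0` or `1`, and the reduction is nonsingular -/
lemma residue_data
    (hNp : ∀ {x u : K}, u ^ 2 + (2 * s + W.a₁) * u * x = x ^ 3 + W.a₄ * x → v.IsVal x 0 →
      v.Ge u 0 ∧ (v.IsVal (2 * u + (2 * s + W.a₁) * x) 0 ∨
        v.IsVal ((2 * s + W.a₁) * u - 3 * x ^ 2 - W.a₄) 0))
    (hW : NodeCurve W s) (hs : v.Ge s 0)
    (hR2 : ∀ x ∈ R, v.Ge x 0 → v.Gt x 0 ∨ v.Gt (x - 1) 0)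
    {x y : K} (h : W.toAffine.Nonsingular x y) (hxR : x ∈ R) (hyR : y ∈ R)
    (hx : v.IsVal x 0) :
    v.Gt (x - 1) 0 ∧ v.Ge (y - s * x) 0 ∧
      (v.IsVal (2 * (y - s * x) + (2 * s + W.a₁) * x) 0 ∨
        v.IsVal ((2 * s + W.a₁) * (y - s * x) - 3 * x ^ 2 - W.a₄) 0) ∧
      (v.Gt y 0 ∨ v.Gt (y - 1) 0) := by
  obtain ⟨hu, hns⟩ := hNp (hW.eqn h) hx
  have hx1 : v.Gt (x - 1) 0 := by
    rcases hR2 x hxR hx.ge with h0 | h1
    · exact (hx.not_gt h0).elim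
    · exact h1
  have hy : v.Ge y 0 := by
    have h1 : v.Ge (s * x) 0 := by simpa using hs.mul hx.ge
    have h2 := hu.add h1
    rwa [sub_add_cancel] at h2
  exact ⟨hx1, hu, hns, hR2 y hyR hy⟩

/-- two `R`-rational points with unit `x`-coordinates and the same residue of `y` cannot differ
by a nonzero `p`-torsion point -/
lemma close_false
    (hED : ∀ {x y : K} (h : W.toAffine.Nonsingular x y), x ≠ 0 → v.w x < 0 → ∀ k : ℕ,
      v.IsVal (k : K) 0 → k • Point.some x y h ≠ 0)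
    (hE1 : ∀ {x₁ y₁ x₂ y₂ : K} (h₁ : W.toAffine.Nonsingular x₁ y₁)
      (h₂ : W.toAffine.Nonsingular x₂ y₂), v.Ge x₁ 0 → v.Ge (y₁ - s * x₁) 0 →
      v.Gt (x₁ - x₂) 0 → v.Gt ((y₁ - s * x₁) - (y₂ - s * x₂)) 0 →
      (v.IsVal (2 * (y₁ - s * x₁) + (2 * s + W.a₁) * x₁) 0 ∨
        v.IsVal ((2 * s + W.a₁) * (y₁ - s * x₁) - 3 * x₁ ^ 2 - W.a₄) 0) →
      (Point.some x₁ y₁ h₁ - Point.some x₂ y₂ h₂ = 0 ∨
        ∃ x y h, Point.some x₁ y₁ h₁ - Point.some x₂ y₂ h₂ = Point.some x y h ∧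
          x ≠ 0 ∧ v.w x < 0))
    (hs : v.Ge s 0) (p : ℕ) (hpv : v.IsVal (p : K) 0)
    {x₁ y₁ x₂ y₂ : K} (h₁ : W.toAffine.Nonsingular x₁ y₁) (h₂ : W.toAffine.Nonsingular x₂ y₂)
    (hx₁ : v.IsVal x₁ 0) (hx₁' : v.Gt (x₁ - 1) 0) (hx₂' : v.Gt (x₂ - 1) 0)
    (hu₁ : v.Ge (y₁ - s * x₁) 0)
    (hns : v.IsVal (2 * (y₁ - s * x₁) + (2 * s + W.a₁) * x₁) 0 ∨
        v.IsVal ((2 * s + W.a₁) * (y₁ - s * x₁) - 3 * x₁ ^ 2 - W.a₄) 0)
    (hy : v.Gt (y₁ - y₂) 0)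
    (hd0 : Point.some x₁ y₁ h₁ - Point.some x₂ y₂ h₂ ≠ 0)
    (hdp : p • (Point.some x₁ y₁ h₁ - Point.some x₂ y₂ h₂) = 0) : False := by
  have hx : v.Gt (x₁ - x₂) 0 := by
    have := hx₁'.sub hx₂'
    rwa [show x₁ - 1 - (x₂ - 1) = x₁ - x₂ by ring] at this
  have hu : v.Gt ((y₁ - s * x₁) - (y₂ - s * x₂)) 0 := by
    have h1 : v.Gt (s * (x₁ - x₂)) 0 := by simpa using hs.mul_gt hx
    have := hy.sub h1
    rwa [show y₁ - y₂ - s * (x₁ - x₂) = (y₁ - s * x₁) - (y₂ - s * x₂) by ring] at this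
  rcases hE1 h₁ h₂ hx₁.ge hu₁ hx hu hns with h0 | ⟨x, y, h, hxy, hx0, hxw⟩
  · exact hd0 h0
  · rw [hxy] at hdp
    exact hED h hx0 hxw p hpv hdp

/-- a nonzero multiple of an `R`-rational point of order `p` has coordinates in `R` and its
`x`-coordinate is a unit -/
lemma multiple_data
    (hadd : ∀ P Q : W.toAffine.Point, cls2 v W s (P + Q) = cls2 v W s P + cls2 v W s Q)
    (hzero : ∀ {x y : K} (h : W.toAffine.Nonsingular x y),
      cls2 v W s (Point.some x y h) = 0 ↔ x ≠ 0 ∧ v.w x ≤ 0)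
    (hED : ∀ {x y : K} (h : W.toAffine.Nonsingular x y), x ≠ 0 → v.w x < 0 → ∀ k : ℕ,
      v.IsVal (k : K) 0 → k • Point.some x y h ≠ 0)
    (hco : CoeffIn W R) (hRZ : ∀ x ∈ R, x ≠ 0 → ∃ m : ℤ, v.w x = m)
    (p : ℕ) (hpv : v.IsVal (p : K) 0) (n : ℤ) (hn : v.w W.a₄ = n)
    (hcop : IsCoprime (p : ℤ) (2 * n)) {P : W.toAffine.Point} (hP : IsRat W R P)
    (hpP : p • P = 0) (k : ℕ) (hk : k • P ≠ 0) :
    ∃ (x y : K) (h : W.toAffine.Nonsingular x y), k • P = Point.some x y h ∧ x ∈ R ∧ y ∈ R ∧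
      v.IsVal x 0 := by
  have hQ : IsRat W R (k • P) := isRat_nsmul hco hP k
  have hpQ : p • (k • P) = 0 := by rw [smul_comm, hpP, smul_zero]
  have hcls := cls2_eq_zero_of_torsion (s := s) hadd hRZ p n hn hcop hQ hpQ
  generalize k • P = Q at hQ hpQ hcls hk
  rcases Q with _ | ⟨x, y, h⟩
  · exact (hk rfl).elim
  · obtain ⟨hx0, hxw⟩ := (hzero h).mp hcls
    refine ⟨x, y, h, rfl, hQ.1, hQ.2, hx0, le_antisymm hxw ?_⟩
    by_contra hlt
    exact hED h hx0 (lt_of_not_ge hlt) p hpv hpQ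

/-- Task GR (generic L2b) with the interface lemmas as hypotheses:
`hadd` = `cls2_add`, `hzero` = `cls2_some_eq_zero_iff`, `hED` = `kernel_no_torsion2`,
`hNp` = `nonsingular_of_unit_x`, `hE1` = `sub_mem_kernel_of_close2`. -/
theorem no_rational_torsion2_aux
    (hadd : ∀ P Q : W.toAffine.Point, cls2 v W s (P + Q) = cls2 v W s P + cls2 v W s Q)
    (hzero : ∀ {x y : K} (h : W.toAffine.Nonsingular x y),
      cls2 v W s (Point.some x y h) = 0 ↔ x ≠ 0 ∧ v.w x ≤ 0)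
    (hED : ∀ {x y : K} (h : W.toAffine.Nonsingular x y), x ≠ 0 → v.w x < 0 → ∀ k : ℕ,
      v.IsVal (k : K) 0 → k • Point.some x y h ≠ 0)
    (hNp : ∀ {x u : K}, u ^ 2 + (2 * s + W.a₁) * u * x = x ^ 3 + W.a₄ * x → v.IsVal x 0 →
      v.Ge u 0 ∧ (v.IsVal (2 * u + (2 * s + W.a₁) * x) 0 ∨
        v.IsVal ((2 * s + W.a₁) * u - 3 * x ^ 2 - W.a₄) 0))
    (hE1 : ∀ {x₁ y₁ x₂ y₂ : K} (h₁ : W.toAffine.Nonsingular x₁ y₁)
      (h₂ : W.toAffine.Nonsingular x₂ y₂), v.Ge x₁ 0 → v.Ge (y₁ - s * x₁) 0 →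
      v.Gt (x₁ - x₂) 0 → v.Gt ((y₁ - s * x₁) - (y₂ - s * x₂)) 0 →
      (v.IsVal (2 * (y₁ - s * x₁) + (2 * s + W.a₁) * x₁) 0 ∨
        v.IsVal ((2 * s + W.a₁) * (y₁ - s * x₁) - 3 * x₁ ^ 2 - W.a₄) 0) →
      (Point.some x₁ y₁ h₁ - Point.some x₂ y₂ h₂ = 0 ∨
        ∃ x y h, Point.some x₁ y₁ h₁ - Point.some x₂ y₂ h₂ = Point.some x y h ∧
          x ≠ 0 ∧ v.w x < 0))
    (hW : NodeCurve W s) (ha₁ : W.a₁ = 1) (ha₂ : v.Ge W.a₂ 0) (R : Subfield K)
    (hRa₂ : W.a₂ ∈ R) (hRa₄ : W.a₄ ∈ R)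
    (hRZ : ∀ x ∈ R, x ≠ 0 → ∃ m : ℤ, v.w x = m)
    (hR2 : ∀ x ∈ R, v.Ge x 0 → v.Gt x 0 ∨ v.Gt (x - 1) 0)
    (p : ℕ) (hp : p.Prime) (hp5 : 5 ≤ p) (hpv : v.IsVal (p : K) 0)
    (n : ℤ) (hn : v.w W.a₄ = n) (hcop : IsCoprime (p : ℤ) (2 * n))
    {x y : K} (h : W.toAffine.Nonsingular x y) (hxR : x ∈ R) (hyR : y ∈ R)
    (hP : p • Point.some x y h = 0) : False := by
  have hco : CoeffIn W R :=
    ⟨ha₁ ▸ R.one_mem, hRa₂, hW.a₃ ▸ R.zero_mem, hRa₄, hW.a₆ ▸ R.zero_mem⟩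
  have hs : v.Ge s 0 := slope_int hW ha₁ ha₂
  have hPR : IsRat W R (Point.some x y h) := ⟨hxR, hyR⟩
  have hP0 : Point.some x y h ≠ 0 := Point.some_ne_zero h
  generalize Point.some x y h = P at hP hPR hP0
  have hne : ∀ k : ℕ, 0 < k → k < p → k • P ≠ 0 := by
    intro k hk0 hkp hk
    have : Fact p.Prime := ⟨hp⟩
    have hord : addOrderOf P = p := addOrderOf_eq_prime hP hP0
    have hdvd : addOrderOf P ∣ k := addOrderOf_dvd_of_nsmul_eq_zero hk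
    rw [hord] at hdvd
    exact absurd (Nat.le_of_dvd hk0 hdvd) (not_le.mpr hkp)
  have htor : ∀ k : ℕ, p • (k • P) = 0 := fun k => by rw [smul_comm, hP, smul_zero]
  obtain ⟨x1, y1, h1, e1, hx1R, hy1R, hx1⟩ := multiple_data hadd hzero hED hco hRZ p hpv n hn
    hcop hPR hP 1 (hne 1 (by omega) (by omega))
  obtain ⟨x2, y2, h2, e2, hx2R, hy2R, hx2⟩ := multiple_data hadd hzero hED hco hRZ p hpv n hn
    hcop hPR hP 2 (hne 2 (by omega) (by omega))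
  obtain ⟨x3, y3, h3, e3, hx3R, hy3R, hx3⟩ := multiple_data hadd hzero hED hco hRZ p hpv n hn
    hcop hPR hP 3 (hne 3 (by omega) (by omega))
  obtain ⟨a1, b1, c1, d1⟩ := residue_data hNp hW hs hR2 h1 hx1R hy1R hx1
  obtain ⟨a2, b2, c2, d2⟩ := residue_data hNp hW hs hR2 h2 hx2R hy2R hx2
  obtain ⟨a3, b3, c3, d3⟩ := residue_data hNp hW hs hR2 h3 hx3R hy3R hx3
  have key21 : v.Gt (y2 - y1) 0 → False := by
    intro hy
    refine close_false hED hE1 hs p hpv h2 h1 hx2 a2 a1 b2 c2 hy ?_ ?_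
    · rw [← e2, ← e1, show 2 • P - 1 • P = 1 • P by abel]
      exact hne 1 (by omega) (by omega)
    · rw [← e2, ← e1, show 2 • P - 1 • P = 1 • P by abel]
      exact htor 1
  have key31 : v.Gt (y3 - y1) 0 → False := by
    intro hy
    refine close_false hED hE1 hs p hpv h3 h1 hx3 a3 a1 b3 c3 hy ?_ ?_
    · rw [← e3, ← e1, show 3 • P - 1 • P = 2 • P by abel]
      exact hne 2 (by omega) (by omega)
    · rw [← e3, ← e1, show 3 • P - 1 • P = 2 • P by abel]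
      exact htor 2
  have key32 : v.Gt (y3 - y2) 0 → False := by
    intro hy
    refine close_false hED hE1 hs p hpv h3 h2 hx3 a3 a2 b3 c3 hy ?_ ?_
    · rw [← e3, ← e2, show 3 • P - 2 • P = 1 • P by abel]
      exact hne 1 (by omega) (by omega)
    · rw [← e3, ← e2, show 3 • P - 2 • P = 1 • P by abel]
      exact htor 1
  have sub1 : ∀ {a b : K}, v.Gt (a - 1) 0 → v.Gt (b - 1) 0 → v.Gt (a - b) 0 := by
    intro a b ha hb
    have := ha.sub hb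
    rwa [show a - 1 - (b - 1) = a - b by ring] at this
  rcases d1 with d1 | d1
  · rcases d2 with d2 | d2
    · exact key21 (d2.sub d1)
    · rcases d3 with d3 | d3
      · exact key31 (d3.sub d1)
      · exact key32 (sub1 d3 d2)
  · rcases d2 with d2 | d2
    · rcases d3 with d3 | d3
      · exact key32 (d3.sub d2)
      · exact key31 (sub1 d3 d1)
    · exact key21 (sub1 d2 d1)

end Fermat.Agent.S13.H28
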