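import Fermat.Agent.S13.Defs2

/-!
T8' (helper7): slope blow-up for the split nodal model `u^2 + d u x = x^3 + b x`
(no hypothesis on the residue characteristic).

If two integral points `P₁ = (x₁,u₁)`, `P₂ = (x₂,u₂)` are such that `P₁` is close to
`-P₂ = (x₂, -u₂ - d x₂)`, `P₁ ≠ -P₂`, and `P₁` has nonsingular reduction, then the third
point of the line through `P₁`, `P₂` (that is `-(P₁+P₂)`) lies in the kernel of reduction.
-/

namespace Fermat.Agent.S13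

open Fermat.Agent.S05

variable {K : Type*} [Field K]

variable {v : QVal K} {d b : K}

namespace H07

/-- once the slope has negative valuation, the third point lies in the kernel of reduction -/
lemma x3_of_slope (hI : Integral2 v d b) (T : Triple2 d b) (hx₁ : v.Ge T.x₁ 0)
    (hx₂ : v.Ge T.x₂ 0) (hl : T.l ≠ 0) (hl' : v.w T.l < 0) :
    T.x₃ ≠ 0 ∧ v.w T.x₃ = 2 * v.w T.l := by
  have hx3 : T.x₃ = T.l ^ 2 + (d * T.l - T.x₁ - T.x₂) := by linear_combination T.e₁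
  have hL : v.IsVal T.l (v.w T.l) := QVal.isVal_self hl
  have h1 : v.IsVal (T.l ^ 2) (2 * v.w T.l) := by
    have := hL.pow 2
    simpa using this
  have h2 : v.Gt (d * T.l - T.x₁ - T.x₂) (2 * v.w T.l) := by
    have hdl : v.Gt (d * T.l) (2 * v.w T.l) := by
      have := hI.d_int.mul hL.ge
      exact this.gt_of_lt (by linarith)
    have h1' : v.Gt T.x₁ (2 * v.w T.l) := hx₁.gt_of_lt (by linarith)
    have h2' : v.Gt T.x₂ (2 * v.w T.l) := hx₂.gt_of_lt (by linarith)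
    exact (hdl.sub h1').sub h2'
  have h3 := h1.add_gt h2
  rw [← hx3] at h3
  exact h3

/-- if `l * t` has valuation `0` and `t` is small, then `l` has negative valuation -/
lemma slope_neg {l t : K} (h : v.IsVal (l * t) 0) (ht : v.Gt t 0) : l ≠ 0 ∧ v.w l < 0 := by
  have hl : l ≠ 0 := fun h0 => h.1 (by simp [h0])
  have ht0 : t ≠ 0 := fun h0 => h.1 (by simp [h0])
  have h1 := h.2
  rw [v.map_mul l t hl ht0] at h1
  have h2 := ht.lt_w ht0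
  exact ⟨hl, by linarith⟩

/-- the slope of the line has negative valuation -/
lemma slope_blowup_l (hI : Integral2 v d b) (T : Triple2 d b)
    (hx₁ : v.Ge T.x₁ 0) (hx₂ : v.Ge T.x₂ 0)
    (hδ : v.Gt (T.x₁ - T.x₂) 0) (hη : v.Gt (T.u₁ + T.u₂ + d * T.x₂) 0)
    (hns : v.IsVal (2 * T.u₁ + d * T.x₁) 0 ∨ v.IsVal (d * T.u₁ - 3 * T.x₁ ^ 2 - b) 0) :
    T.l ≠ 0 ∧ v.w T.l < 0 := by
  have hdiff : T.u₁ - T.u₂ = T.l * (T.x₁ - T.x₂) := by
    rw [T.line₁, T.line₂]; ring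
  have h2 : v.Ge (2 : K) 0 := by exact_mod_cast QVal.ge_natCast (v := v) 2
  rcases hns with hu | hN
  · -- `F_u = 2 u₁ + d x₁` is a unit
    have h1 : v.IsVal (T.u₁ - T.u₂) 0 := by
      have : T.u₁ - T.u₂ =
          (2 * T.u₁ + d * T.x₁) - ((T.u₁ + T.u₂ + d * T.x₂) + d * (T.x₁ - T.x₂)) := by ring
      rw [this]
      refine hu.sub_gt (hη.add ?_)
      simpa using hI.d_int.mul_gt hδ
    rw [hdiff] at h1
    exact slope_neg h1 hδ
  · by_cases hx : T.x₁ = T.x₂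
    · -- tangent case
      have huu : T.u₁ = T.u₂ := by rw [T.line₁, T.line₂, hx]
      have hη' : v.Gt (2 * T.u₁ + d * T.x₁) 0 := by
        have : 2 * T.u₁ + d * T.x₁ = T.u₁ + T.u₂ + d * T.x₂ := by rw [← huu, ← hx]; ring
        rw [this]; exact hη
      have hid : T.l * (2 * T.u₁ + d * T.x₁) = -(d * T.u₁ - 3 * T.x₁ ^ 2 - b) := by
        have e1 := T.e₁
        have e2 := T.e₂
        rw [← hx] at e1 e2
        rw [T.line₁]
        linear_combination (-2 * T.x₁) * e1 + e2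
      have hN' := hN.neg
      rw [← hid] at hN'
      exact slope_neg hN' hη'
    · -- secant case
      have hx' : T.x₁ - T.x₂ ≠ 0 := sub_ne_zero.mpr hx
      have eq1 : T.u₁ ^ 2 + d * T.u₁ * T.x₁ = T.x₁ ^ 3 + b * T.x₁ := by
        rw [T.line₁]
        linear_combination (-(T.x₁ ^ 2)) * T.e₁ + T.x₁ * T.e₂ - T.e₃
      have eq2 : T.u₂ ^ 2 + d * T.u₂ * T.x₂ = T.x₂ ^ 3 + b * T.x₂ := by
        rw [T.line₂]
        linear_combination (-(T.x₂ ^ 2)) * T.e₁ + T.x₂ * T.e₂ - T.e₃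
      have hM : T.l * (T.u₁ + T.u₂ + d * T.x₂) =
          T.x₁ ^ 2 + T.x₁ * T.x₂ + T.x₂ ^ 2 + b - d * T.u₁ := by
        have h1 : (T.x₁ - T.x₂) * (T.l * (T.u₁ + T.u₂ + d * T.x₂)) =
            (T.x₁ - T.x₂) * (T.x₁ ^ 2 + T.x₁ * T.x₂ + T.x₂ ^ 2 + b - d * T.u₁) := by
          linear_combination (-(T.u₁ + T.u₂ + d * T.x₂)) * hdiff + eq1 - eq2
        exact mul_left_cancel₀ hx' h1
      have hMval : v.IsVal
          (T.x₁ ^ 2 + T.x₁ * T.x₂ + T.x₂ ^ 2 + b - d * T.u₁) 0 := by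
        have hsplit : T.x₁ ^ 2 + T.x₁ * T.x₂ + T.x₂ ^ 2 + b - d * T.u₁ =
            -(d * T.u₁ - 3 * T.x₁ ^ 2 - b) +
              (-(T.x₁ - T.x₂)) * (T.x₂ + 2 * T.x₁) := by ring
        rw [hsplit]
        refine hN.neg.add_gt ?_
        have h2x : v.Ge (2 * T.x₁) 0 := by simpa using h2.mul hx₁
        have hge : v.Ge (T.x₂ + 2 * T.x₁) 0 := hx₂.add h2x
        simpa using hδ.neg.mul_ge hge
      rw [← hM] at hMval
      exact slope_neg hMval hη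

end H07

open H07 in
/-- T8' : slope blow-up.  Quantitative form: `w x₃ = 2 w l < 0`. -/
theorem Triple2.slope_blowup_w (hI : Integral2 v d b) (T : Triple2 d b)
    (hx₁ : v.Ge T.x₁ 0) (hx₂ : v.Ge T.x₂ 0)
    (hδ : v.Gt (T.x₁ - T.x₂) 0) (hη : v.Gt (T.u₁ + T.u₂ + d * T.x₂) 0)
    (hns : v.IsVal (2 * T.u₁ + d * T.x₁) 0 ∨ v.IsVal (d * T.u₁ - 3 * T.x₁ ^ 2 - b) 0) :
    T.l ≠ 0 ∧ v.w T.l < 0 ∧ T.x₃ ≠ 0 ∧ v.w T.x₃ = 2 * v.w T.l := by
  have h := slope_blowup_l hI T hx₁ hx₂ hδ hη hns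
  have h3 := x3_of_slope hI T hx₁ hx₂ h.1 h.2
  exact ⟨h.1, h.2, h3.1, h3.2⟩

/-- T8' : slope blow-up for the split nodal model `u^2 + d u x = x^3 + b x`. -/
theorem Triple2.slope_blowup (hI : Integral2 v d b) (T : Triple2 d b)
    (hx₁ : v.Ge T.x₁ 0) (hx₂ : v.Ge T.x₂ 0) (_hu₁ : v.Ge T.u₁ 0)
    (hδ : v.Gt (T.x₁ - T.x₂) 0) (hη : v.Gt (T.u₁ + T.u₂ + d * T.x₂) 0)
    (_hne : ¬ (T.x₁ = T.x₂ ∧ T.u₁ + T.u₂ + d * T.x₂ = 0))
    (hns : v.IsVal (2 * T.u₁ + d * T.x₁) 0 ∨ v.IsVal (d * T.u₁ - 3 * T.x₁ ^ 2 - b) 0) :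
    T.x₃ ≠ 0 ∧ v.w T.x₃ < 0 := by
  have h := T.slope_blowup_w hI hx₁ hx₂ hδ hη hns
  exact ⟨h.2.2.1, by rw [h.2.2.2]; linarith [h.2.1]⟩

end Fermat.Agent.S13
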