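import Fermat.Agent.S13.Defs2

/-!
S13, block L2, generic L2a (`inertia_unipotent2`), conditional form (owner: helper8; backup of
task L2-GU).  The statements of ECp (`cls2_add`, `cls2_neg`, `cls2_some_eq_zero_iff`),
EDp (`kernel_no_torsion2`), E1p (`sub_mem_kernel_of_close2`) and Np (`nonsingular_of_unit_x`)
of `Spec2adic` are taken as explicit hypotheses for the given `v`, `W`, `s`.
-/

set_option autoImplicit false

namespace Fermat.Agent.S13.H08

open Fermat.Agent.S05 WeierstrassCurve WeierstrassCurve.Affine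

variable {K : Type*} [Field K] {v : QVal K}

/-- a ring endomorphism of a field preserving the valuation preserves `Gt · 0` -/
lemma gt_map_iff (σ : K →+* K) (hσw : ∀ x, v.w (σ x) = v.w x) (z : K) (c : ℚ) :
    v.Gt (σ z) c ↔ v.Gt z c := by
  unfold QVal.Gt
  rw [hσw, map_eq_zero]

variable [DecidableEq K] {W : WeierstrassCurve K} {s : K}

/-- the class `clsXU` is invariant under a valuation preserving endomorphism fixing `b` -/
lemma clsXU_map (σ : K →+* K) (hσw : ∀ x, v.w (σ x) = v.w x) (b x u : K) :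
    clsXU v b (σ x) (σ u) = clsXU v b x u := by
  unfold clsXU
  have h1 : σ u / σ x = σ (u / x) := (map_div₀ σ u x).symm
  simp only [map_eq_zero, hσw]
  rw [h1, gt_map_iff σ hσw]

/-- **GU, conditional form.** -/
theorem inertia_unipotent2_of
    (hcls_add : ∀ P Q : W.toAffine.Point, cls2 v W s (P + Q) = cls2 v W s P + cls2 v W s Q)
    (hcls_neg : ∀ P : W.toAffine.Point, cls2 v W s (-P) = - cls2 v W s P)
    (hcls_zero : ∀ {x y : K} (h : W.toAffine.Nonsingular x y),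
      cls2 v W s (Point.some x y h) = 0 ↔ x ≠ 0 ∧ v.w x ≤ 0)
    (hED : ∀ {x y : K} (h : W.toAffine.Nonsingular x y), x ≠ 0 → v.w x < 0 → ∀ k : ℕ,
      v.IsVal (k : K) 0 → k • Point.some x y h ≠ 0)
    (hE1 : ∀ {x₁ y₁ x₂ y₂ : K} (h₁ : W.toAffine.Nonsingular x₁ y₁)
      (h₂ : W.toAffine.Nonsingular x₂ y₂),
      v.Ge x₁ 0 → v.Ge (y₁ - s * x₁) 0 → v.Gt (x₁ - x₂) 0 →
      v.Gt ((y₁ - s * x₁) - (y₂ - s * x₂)) 0 →
      (v.IsVal (2 * (y₁ - s * x₁) + (2 * s + W.a₁) * x₁) 0 ∨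
        v.IsVal ((2 * s + W.a₁) * (y₁ - s * x₁) - 3 * x₁ ^ 2 - W.a₄) 0) →
      (Point.some x₁ y₁ h₁ - Point.some x₂ y₂ h₂ = 0 ∨
        ∃ x y h, Point.some x₁ y₁ h₁ - Point.some x₂ y₂ h₂ = Point.some x y h ∧
          x ≠ 0 ∧ v.w x < 0))
    (hNp : ∀ {x u : K}, u ^ 2 + (2 * s + W.a₁) * u * x = x ^ 3 + W.a₄ * x → v.IsVal x 0 →
      v.Ge u 0 ∧ (v.IsVal (2 * u + (2 * s + W.a₁) * x) 0 ∨
        v.IsVal ((2 * s + W.a₁) * u - 3 * x ^ 2 - W.a₄) 0))
    (hW : NodeCurve W s)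
    (σ : K →+* K) (hσs : σ s = s)
    (hσw : ∀ x, v.w (σ x) = v.w x) (hσ : ∀ x, v.Ge x 0 → v.Gt (σ x - x) 0)
    (Φ : W.toAffine.Point →+ W.toAffine.Point)
    (hΦ : ∀ (x y : K) (h : W.toAffine.Nonsingular x y),
      ∃ h' : W.toAffine.Nonsingular (σ x) (σ y), Φ (Point.some x y h) = Point.some (σ x) (σ y) h')
    (p : ℕ) (hp : v.IsVal (p : K) 0) (P : W.toAffine.Point) (hP : p • P = 0) :
    Φ (Φ P - P) = Φ P - P := by
  -- the class is invariant under `Φ`
  have hcls : ∀ Q : W.toAffine.Point, cls2 v W s (Φ Q) = cls2 v W s Q := by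
    intro Q
    rcases Q with _ | ⟨x, y, h⟩
    · change cls2 v W s (Φ 0) = cls2 v W s 0
      rw [map_zero]
    · obtain ⟨h', e⟩ := hΦ x y h
      rw [e]
      change clsXU v W.a₄ (σ x) (σ y - s * σ x) = clsXU v W.a₄ x (y - s * x)
      have : σ y - s * σ x = σ (y - s * x) := by rw [map_sub, map_mul, hσs]
      rw [this]
      exact clsXU_map σ hσw _ _ _
  -- `R = Φ P - P` is `p`-torsion of class `0`
  have hR0 : cls2 v W s (Φ P - P) = 0 := by
    rw [sub_eq_add_neg, hcls_add, hcls_neg, hcls, add_neg_cancel]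
  have hRp : p • (Φ P - P) = 0 := by
    rw [smul_sub, ← map_nsmul, hP, map_zero, sub_zero]
  generalize Φ P - P = R at hR0 hRp
  rcases R with _ | ⟨x, y, h⟩
  · exact map_zero Φ
  · obtain ⟨hx0, hxw⟩ := (hcls_zero h).mp hR0
    rcases lt_or_eq_of_le hxw with hlt | heq
    · exact absurd hRp (hED h hx0 hlt p hp)
    · have hxv : v.IsVal x 0 := ⟨hx0, heq⟩
      obtain ⟨hu, hns⟩ := hNp (hW.eqn h) hxv
      obtain ⟨h', e⟩ := hΦ x y h
      have hxx : v.Gt (x - σ x) 0 := by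
        have := (hσ x hxv.ge).neg
        rwa [neg_sub] at this
      have huu : v.Gt ((y - s * x) - (σ y - s * σ x)) 0 := by
        have h1 : σ y - s * σ x = σ (y - s * x) := by rw [map_sub, map_mul, hσs]
        rw [h1]
        have := (hσ _ hu).neg
        rwa [neg_sub] at this
      have hpsub : p • (Point.some x y h - Φ (Point.some x y h)) = 0 := by
        rw [smul_sub, ← map_nsmul, hRp, map_zero, sub_zero]
      rcases hE1 h h' hxv.ge hu hxx huu hns with h0 | ⟨x', y', h'', e', hx', hw'⟩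
      · rw [e]
        exact (sub_eq_zero.mp h0).symm
      · exfalso
        rw [e, e'] at hpsub
        exact hED h'' hx' hw' p hp hpsub

end Fermat.Agent.S13.H08
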