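import Fermat.Agent.S13.Defs2
import Fermat.Agent.S05.A3_helper13
import Fermat.Prelude.Def_FLTPrelim_FreyPackage
import Fermat.Prelude.Def_FLTPrelim_GaloisRep
import Fermat.Prelude.Def_FLTPrelim_Ramification

/-!
S13, block L2, task L2-W2a (owner: helper8).

`frey_inertia_two_unipotent_of` proves the top-level statement (L2a)
"inertia at `2` acts unipotently on `E[p]` of the Frey curve" from

* `StmtGU` : the generic statement `inertia_unipotent2` of `Spec2adic` at `K = ℚ̄`;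
* `StmtF2` : the arithmetic of the Frey curve at `2` (integrality of `a₂`, `a₄`, `2 ∣ a₄`);
* S05 `exists_qval` (landed).
-/

set_option autoImplicit false

namespace Fermat.Agent.S13.H08

open Fermat.Agent.S05 WeierstrassCurve WeierstrassCurve.Affine

local notation "Qb" => AlgebraicClosure ℚ

/-- statement of GU `inertia_unipotent2` at `K = ℚ̄` -/
abbrev StmtGU : Prop :=
  ∀ {v : QVal Qb} {W : WeierstrassCurve Qb} {s : Qb} (_ : NodeCurve W s)
    (_ : Nodal2 v (2 * s + W.a₁) W.a₄)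
    (σ : Qb →+* Qb) (_ : σ W.a₁ = W.a₁) (_ : σ W.a₂ = W.a₂) (_ : σ W.a₄ = W.a₄)
    (_ : σ s = s)
    (_ : ∀ x, v.w (σ x) = v.w x) (_ : ∀ x, v.Ge x 0 → v.Gt (σ x - x) 0)
    (Φ : W.toAffine.Point →+ W.toAffine.Point)
    (_ : ∀ (x y : Qb) (h : W.toAffine.Nonsingular x y),
      ∃ h' : W.toAffine.Nonsingular (σ x) (σ y), Φ (Point.some x y h) = Point.some (σ x) (σ y) h')
    (p : ℕ) (_ : v.IsVal (p : Qb) 0) (P : W.toAffine.Point) (_ : p • P = 0),
    Φ (Φ P - P) = Φ P - P

/-- the part of the arithmetic of the Frey curve at `2` needed here -/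
abbrev StmtF2 : Prop :=
  ∀ P : FreyPackage, ∃ a2 a4 : ℤ, (a2 : ℚ) = P.freyCurve.a₂ ∧ (a4 : ℚ) = P.freyCurve.a₄ ∧
    a4 ≠ 0 ∧ 0 < padicValInt 2 a4

/-- valuation of an integer cast -/
lemma isVal_intCast' {v : QVal Qb} {q : ℕ}
    (hv : ∀ k : ℤ, k ≠ 0 → v.w (k : Qb) = padicValInt q k) {k : ℤ} (hk : k ≠ 0) :
    v.IsVal (k : Qb) (padicValInt q k) :=
  ⟨by exact_mod_cast hk, hv k hk⟩

lemma isVal_intCast_of_not_dvd' {v : QVal Qb} {q : ℕ}
    (hv : ∀ k : ℤ, k ≠ 0 → v.w (k : Qb) = padicValInt q k) {k : ℤ} (hk : ¬ (q : ℤ) ∣ k) :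
    v.IsVal (k : Qb) 0 := by
  have hk0 : k ≠ 0 := fun h => hk (h ▸ dvd_zero _)
  have h := isVal_intCast' hv hk0
  rw [padicValInt.eq_zero_of_not_dvd hk] at h
  simpa using h

/-- a root of `T^2 + T - a` with `a` integral is integral -/
lemma ge_of_sq_add_self {K : Type*} [Field K] {v : QVal K} {s a : K} (hs : s ^ 2 + s = a)
    (ha : v.Ge a 0) : v.Ge s 0 := by
  rcases QVal.ge_or_isVal_lt (v := v) s 0 with h | ⟨hs0, hlt⟩
  · exact h
  · exfalso
    have h1 : v.IsVal (s ^ 2) ((2 : ℕ) * v.w s) := (QVal.isVal_self hs0).pow 2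
    have h2 : v.Gt s ((2 : ℕ) * v.w s) := Or.inr (by push_cast; linarith)
    have h3 : v.IsVal (s ^ 2 + s) ((2 : ℕ) * v.w s) := h1.add_gt h2
    rw [hs] at h3
    exact h3.not_ge_of_lt (by push_cast; linarith) ha

/-- existence of a slope at the node: a root of `T^2 + T - a` in an algebraically closed field
of characteristic `≠ 2` -/
lemma exists_sq_add_self_eq (a : Qb) : ∃ s : Qb, s ^ 2 + s = a := by
  obtain ⟨t, ht⟩ := IsAlgClosed.exists_pow_nat_eq (1 + 4 * a) (n := 2) two_pos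
  refine ⟨(t - 1) / 2, ?_⟩
  have h2 : (2 : Qb) ≠ 0 := two_ne_zero
  field_simp
  linear_combination ht

/-- **L2a wrapper**: the generic statement `GU` and the arithmetic of the Frey curve at `2`
imply that inertia at `2` acts unipotently on the `p`-torsion of the Frey curve. -/
theorem frey_inertia_two_unipotent_of (hGU : StmtGU) (hF2 : StmtF2)
    (P : FreyPackage) (A : ValuationSubring Qb) (hA : A.LiesOverPrime 2)
    (σ : Qb ≃ₐ[ℚ] Qb) (hσ : σ ∈ A.inertiaSubgroupIn ℚ)
    (x : Submodule.torsionBy ℤ (P.freyCurve⁄(AlgebraicClosure ℚ)).Point P.p) :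
    σ • (σ • x - x) = σ • x - x := by
  obtain ⟨v, hvint, hvσw, hvσ⟩ := exists_qval A 2 Nat.prime_two hA
  obtain ⟨a2, a4, ha2, ha4, ha40, hpos⟩ := hF2 P
  -- coefficients of the base-changed Frey curve
  have hW1 : (P.freyCurve.baseChange Qb).a₁ = 1 := by
    simp [FreyPackage.freyCurve, WeierstrassCurve.baseChange]
  have hW3 : (P.freyCurve.baseChange Qb).a₃ = 0 := by
    simp [FreyPackage.freyCurve, WeierstrassCurve.baseChange]
  have hW6 : (P.freyCurve.baseChange Qb).a₆ = 0 := by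
    simp [FreyPackage.freyCurve, WeierstrassCurve.baseChange]
  have hW2 : (P.freyCurve.baseChange Qb).a₂ = (a2 : Qb) := by
    have h := congrArg (algebraMap ℚ Qb) ha2
    simpa [WeierstrassCurve.baseChange] using h.symm
  have hW4 : (P.freyCurve.baseChange Qb).a₄ = (a4 : Qb) := by
    have h := congrArg (algebraMap ℚ Qb) ha4
    simpa [WeierstrassCurve.baseChange] using h.symm
  -- the slope
  obtain ⟨s, hs⟩ := exists_sq_add_self_eq (a2 : Qb)
  have hsint : v.Ge s 0 := ge_of_sq_add_self hs (QVal.ge_intCast a2)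
  have hd : v.IsVal (2 * s + 1) 0 := by
    have h1 : (2 * s + 1) ^ 2 = ((4 * a2 + 1 : ℤ) : Qb) := by
      push_cast
      linear_combination 4 * hs
    have h2 : ¬ ((2 : ℕ) : ℤ) ∣ (4 * a2 + 1) := by
      intro h
      have : (2 : ℤ) ∣ 4 * a2 + 1 := by exact_mod_cast h
      omega
    have h3 : v.IsVal ((2 * s + 1) ^ 2) 0 := by
      rw [h1]; exact isVal_intCast_of_not_dvd' hvint h2
    simpa using h3.of_sq
  have hNC : NodeCurve (P.freyCurve.baseChange Qb) s :=
    ⟨hW3, hW6, by rw [hW1, hW2, one_mul]; exact hs⟩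
  have hN : Nodal2 v (2 * s + (P.freyCurve.baseChange Qb).a₁) (P.freyCurve.baseChange Qb).a₄ := by
    refine ⟨by rw [hW1]; exact hd, by rw [hW4]; exact_mod_cast ha40, ?_⟩
    rw [hW4, hvint a4 ha40]
    exact_mod_cast hpos
  -- the Galois element fixes everything in sight
  have hσ1 : (σ : Qb →+* Qb) (P.freyCurve.baseChange Qb).a₁ = (P.freyCurve.baseChange Qb).a₁ := by
    rw [hW1]; simp
  have hσ2 : (σ : Qb →+* Qb) (P.freyCurve.baseChange Qb).a₂ = (P.freyCurve.baseChange Qb).a₂ := by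
    rw [hW2]; simp
  have hσ4 : (σ : Qb →+* Qb) (P.freyCurve.baseChange Qb).a₄ = (P.freyCurve.baseChange Qb).a₄ := by
    rw [hW4]; simp
  have hσs : (σ : Qb →+* Qb) s = s := by
    change σ s = s
    have h1 : σ s ^ 2 + σ s = s ^ 2 + s := by
      have h := congrArg σ hs
      rw [map_add, map_pow] at h
      rw [h, hs]; simp
    have h2 : (σ s - s) * (σ s + s + 1) = 0 := by linear_combination h1
    rcases mul_eq_zero.mp h2 with h | h
    · exact sub_eq_zero.mp h
    · exfalso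
      have h3 : σ s - s = -(2 * s + 1) := by linear_combination h
      have h4 : v.Gt (σ s - s) 0 := hvσ σ hσ s hsint
      rw [h3] at h4
      exact hd.neg.not_gt h4
  have hΦ : ∀ (x y : Qb) (h : (P.freyCurve.baseChange Qb).toAffine.Nonsingular x y),
      ∃ h' : (P.freyCurve.baseChange Qb).toAffine.Nonsingular
        ((σ : Qb →+* Qb) x) ((σ : Qb →+* Qb) y),
        Point.map (W' := P.freyCurve) σ.toAlgHom (Point.some x y h) = Point.some _ _ h' :=
    fun x y h => ⟨_, rfl⟩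
  have hp : v.IsVal ((P.p : ℕ) : Qb) 0 := by
    have h : ¬ ((2 : ℕ) : ℤ) ∣ (P.p : ℤ) := by
      intro hd
      have h1 : 2 ∣ P.p := by exact_mod_cast hd
      have h2 := (Nat.prime_dvd_prime_iff_eq Nat.prime_two P.pp).mp h1
      have := P.hp5
      omega
    simpa using isVal_intCast_of_not_dvd' hvint h
  have hx := x.2
  rw [Submodule.mem_torsionBy_iff] at hx
  have hP : P.p • x.1 = 0 := by
    have h1 : (P.p : ℤ) • x.1 = P.p • x.1 := natCast_zsmul x.1 P.p
    exact h1.symm.trans hx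
  apply Subtype.ext
  change Point.map σ.toAlgHom (Point.map σ.toAlgHom x.1 - x.1) = Point.map σ.toAlgHom x.1 - x.1
  exact hGU (v := v) (s := s) hNC hN (σ : Qb →+* Qb) hσ1 hσ2 hσ4 hσs (fun x => hvσw σ hσ x)
    (fun x hx => hvσ σ hσ x hx) (Point.map (W' := P.freyCurve) σ.toAlgHom) hΦ P.p hp x.1 hP

end Fermat.Agent.S13.H08
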